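import Fermat.Agent.TW.Flat.Residual

/-!
# The irreducible residual shape from an integral model

If the residual representation at `p` has a model and no stable line, inertia acts through a tame
character of level two; otherwise it is ordinary. These are the two cases of the local bound for
flat deformations.
-/

noncomputable section

namespace Fermat.Agent.TW.Flat

open Fermat.Agent Matrix
open scoped Pointwise

local notation "Qbar" => AlgebraicClosure ℚ
local notation "GQ" => (AlgebraicClosure ℚ ≃ₐ[ℚ] AlgebraicClosure ℚ)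

variable {A : ValuationSubring Qbar} {p : ℕ} [hpf : Fact p.Prime]
variable {k : Type} [Field k] [CharP k p] {rb : GQ →* M2 k}

local notation "v" => A.valuation
local notation "κ" => IsLocalRing.ResidueField A

theorem sq_eq_trace (M : M2 k) : M * M + det M • (1 : M2 k) = trace M • M := by
  ext i j
  fin_cases i <;> fin_cases j <;>
    simp [mul_apply, Fin.sum_univ_two, trace_fin_two, det_fin_two] <;> ring

include hpf in
theorem trace_pow_p (M : M2 k) : trace (M ^ p) = trace M ^ p := by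
  have h1 : M + adjugate M = trace M • (1 : M2 k) := by
    ext i j
    fin_cases i <;> fin_cases j <;> simp [adjugate_fin_two, trace_fin_two, add_comm]
  have hc : Commute M (adjugate M) := by
    rw [Commute, SemiconjBy, mul_adjugate, adjugate_mul]
  have h2 := add_pow_char_of_commute p hc
  rw [h1, smul_pow, one_pow, ← adjugate_pow] at h2
  have h3 : M ^ p + adjugate (M ^ p) = trace (M ^ p) • (1 : M2 k) := by
    generalize M ^ p = N
    ext i j
    fin_cases i <;> fin_cases j <;> simp [adjugate_fin_two, trace_fin_two, add_comm]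
  rw [h3] at h2
  simpa using (congrFun (congrFun h2 0) 0).symm

theorem natCast_mulVec (n : ℕ) (x : Fin 2 → k) : (n : M2 k) *ᵥ x = n • x := by
  rw [← nsmul_one n, Matrix.smul_mulVec, one_mulVec]

/-- Without a stable line all points of a model are connected. -/
theorem core_eq_top (hA : A.LiesOverPrime p) (hp2 : p ≠ 2) (hdet : DetCyc p rb)
    (hirr : ∀ U : Submodule k (Fin 2 → k),
      (∀ σ ∈ A.decompositionSubgroup ℚ, ∀ x ∈ U, wAct rb σ x ∈ U) → U = ⊥ ∨ U = ⊤)
    {P' : FnModel A (A.decompositionSubgroup ℚ) (wAct rb)} : core P' = ⊤ := by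
  refine (hirr (core P') fun σ hσ x hx => core_stable hσ hx).resolve_left fun hb => ?_
  obtain ⟨σ, hσ, hσω⟩ := exists_inertia_omega (A := A) hA hp2 (-1)
  have h1 : rb σ = 1 := ext_of_mulVec_single fun i => by
    have h := sub_mem_core (P := P') hσ (Pi.single i 1)
    rw [hb, Submodule.mem_bot, sub_eq_zero] at h
    rw [one_mulVec]
    exact h
  have h2 := det_eq_omegaK hdet σ
  rw [h1, det_one, omegaK, hσω, Units.val_neg, Units.val_one, map_neg, map_one] at h2
  exact two_ne_zero_of_charP (k := k) (p := p) hp2 (by linear_combination h2)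

/-- The tame generator does not act by a scalar of the prime field, as some determinant on
inertia is not a square. -/
theorem ne_natCast_of_gen (hA : A.LiesOverPrime p) (hp2 : p ≠ 2) (hdet : DetCyc p rb) {g0 : GQ}
    (hgen : ∀ σ ∈ A.inertiaSubgroupIn ℚ, ∃ i : ℕ, rb σ = rb g0 ^ i) (m : ℕ)
    (hMm : rb g0 = (m : M2 k)) : False := by
  have hsq : ∀ u : (ZMod p)ˣ, ∃ r : ZMod p, r * r = (u : ZMod p) := by
    intro u
    obtain ⟨σ, hσ, hσu⟩ := exists_inertia_omega (A := A) hA hp2 u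
    obtain ⟨i, hi⟩ := hgen σ hσ
    refine ⟨(m : ZMod p) ^ i, (ZMod.castHom (dvd_refl p) k).injective ?_⟩
    have h2 := det_eq_omegaK hdet σ
    rw [hi, det_pow, hMm, ← nsmul_one m, ← Nat.cast_smul_eq_nsmul k, det_smul, det_one,
      Fintype.card_fin, mul_one, omegaK, hσu] at h2
    rw [← h2, map_mul, map_pow, map_natCast]
    ring
  obtain ⟨u, hu⟩ := FiniteField.exists_nonsquare (F := ZMod p) (by
    rw [ZMod.ringChar_zmod_n]; exact hp2)
  have hu0 : u ≠ 0 := fun h0 => hu (h0 ▸ ⟨0, by simp⟩)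
  obtain ⟨r, hr⟩ := hsq (Units.mk0 u hu0)
  exact hu ⟨r, hr.symm⟩

/-- A quadratic polynomial over the prime field with a root outside it has no root in it. -/
theorem quad_ne_zero_of_root {K : Type*} [Field K] [CharP K p] {θ : K} {τ n : ℕ} {ω : ZMod p}
    (hn : (n : ZMod p) = ω) (hroot : θ ^ 2 - (τ : K) * θ + (n : K) = 0)
    (hθnat : ∀ m : ℕ, θ ≠ (m : K)) (m : ZMod p) : m ^ 2 - (τ : ZMod p) * m + ω ≠ 0 := by
  intro hm
  have h1 := congrArg (ZMod.castHom (dvd_refl p) K) hm
  rw [map_zero, map_add, map_sub, map_mul, map_pow, map_natCast,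
    ← hn,
    show m = ((m.val : ℕ) : ZMod p) from (ZMod.natCast_zmod_val _).symm, map_natCast,
    map_natCast] at h1
  have hne1 := hθnat m.val
  have hne2 : θ ≠ (τ : K) - (m.val : K) := fun h2 => by
    refine hθnat ((τ : ZMod p) - m).val (h2.trans ?_)
    have h3 := congrArg (ZMod.castHom (dvd_refl p) K)
      (ZMod.natCast_zmod_val ((τ : ZMod p) - m)).symm
    rw [map_natCast, map_sub, map_natCast] at h3
    refine Eq.trans ?_ h3
    conv_rhs => rw [← ZMod.natCast_zmod_val m, map_natCast]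
  exact mul_ne_zero (sub_ne_zero.mpr hne1) (sub_ne_zero.mpr hne2)
    (by linear_combination hroot - h1)

/-- A non-zero point is at distance at least `Q ^ p` from the origin in every model. -/
theorem QuadAct.exists_le_val_sub [Finite k] {g0 : GQ} {τ : ℕ}
    (h : QuadAct A p (wAct rb) g0 τ) (hA : A.LiesOverPrime p) (hp2 : p ≠ 2) {Γ : Subgroup GQ}
    {P' : FnModel A Γ (wAct rb)} (hP' : P'.Sep) (hΓ : A.inertiaSubgroupIn ℚ ≤ Γ) (L : TameLvl A p)
    (hLM : L.M = p ^ 2 - 1) {y : Fin 2 → k} (hy : y ≠ 0) :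
    ∃ f ∈ P'.Λ, L.Q ^ p ≤ v (f y - f 0) := by
  have hg0 := h.mem
  have hquadv := h.quad
  have hnr := h.no_root
  set n := ((cycQ p).ω g0 : ZMod p).val with hn
  have hconn' : ∀ x : Fin 2 → k, x ∈ P'.conn := fun x => by
    have hinj : Function.Injective fun w => wAct rb g0 w - w := fun u w huw => by
      refine sub_eq_zero.mp ?_
      have h1 : wAct rb g0 (u - w) = u - w := by
        have e := eq_sub_of_add_eq (wAct_add rb g0 (u - w) w).symm
        rw [sub_add_cancel] at e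
        rw [e, sub_eq_sub_iff_sub_eq_sub]
        exact huw
      have h2 : rb g0 *ᵥ (rb g0 *ᵥ (u - w)) + n • (u - w) = τ • (rb g0 *ᵥ (u - w)) :=
        hquadv (u - w)
      rw [show rb g0 *ᵥ (u - w) = u - w from h1, show rb g0 *ᵥ (u - w) = u - w from h1,
        ← Nat.cast_smul_eq_nsmul k, ← Nat.cast_smul_eq_nsmul k] at h2
      have h3 : ((1 : k) - (τ : k) + (n : k)) • (u - w) = 0 := by
        rw [add_smul, sub_smul, one_smul, sub_add_eq_add_sub, h2, sub_self]
      refine (smul_eq_zero.mp h3).resolve_left fun h0 => hnr 1 ?_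
      refine (ZMod.castHom (dvd_refl p) k).injective ?_
      rw [map_zero, map_add, map_sub, map_mul, map_pow, map_one, map_natCast, one_pow, mul_one,
        show ((cycQ p).ω g0 : ZMod p) = ((n : ℕ) : ZMod p) from (ZMod.natCast_zmod_val _).symm,
        map_natCast]
      exact h0
    obtain ⟨w, rfl⟩ := Finite.injective_iff_surjective.mp hinj x
    exact P'.act_sub_mem_conn (hΓ hg0) hg0 w
  let U : AddSubgroup (Fin 2 → k) := AddSubgroup.closure {y, wAct rb g0 y}
  have hyU : y ∈ U := AddSubgroup.subset_closure (Set.mem_insert _ _)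
  have hyU' : wAct rb g0 y ∈ U := AddSubgroup.subset_closure (Set.mem_insert_of_mem _ rfl)
  have hUT : ∀ u ∈ U, wAct rb g0 u ∈ U := fun u hu => by
    have hle : U ≤ U.comap (AddMonoidHom.mk' (wAct rb g0) (wAct_add rb g0)) := by
      rw [AddSubgroup.closure_le]
      rintro w (rfl | rfl)
      · exact hyU'
      · show wAct rb g0 (wAct rb g0 y) ∈ U
        have e : wAct rb g0 (wAct rb g0 y) = τ • wAct rb g0 y - n • y :=
          eq_sub_of_add_eq (hquadv y)
        rw [e]
        exact U.sub_mem (nsmul_mem hyU' τ) (nsmul_mem hyU n)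
    exact hle hu
  obtain ⟨u₀, hu₀, f, hf, hvf, -, -, -⟩ := h.scale_pow_eq hA hp2 hP' hΓ (U := U)
    (fun h => hy (by simpa [h] using hyU)) (fun x _ => hconn' x) hUT
  by_contra hno
  push Not at hno
  have hQ0 : L.Q ^ p ≠ 0 := pow_ne_zero _ L.Q_pos.ne'
  have hUK : U ≤ P'.near (ballLT A (L.Q ^ p) hQ0) fun _ ha _ hx => mul_mem_ballLT ha hx := by
    rw [AddSubgroup.closure_le]
    rintro w (rfl | rfl)
    · exact fun g hg => hno g hg
    · intro g hg
      show v (g (wAct rb g0 y) - g 0) < _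
      conv_lhs => arg 2; arg 2; rw [← wAct_zero rb g0]
      rw [P'.equiv g hg g0 (hΓ hg0), P'.equiv g hg g0 (hΓ hg0), ← map_sub,
        val_apply (inertia_le_decomposition hg0)]
      exact hno g hg
  have hlt : v (f u₀ - f 0) < L.Q ^ p := hUK hu₀ f hf
  have heq : v (f u₀ - f 0) = L.Q ^ p := by
    refine (pow_left_inj₀ zero_le zero_le L.M_pos.ne').mp ?_
    rw [← pow_mul, L.Q_pow_eq]
    rw [hLM]; exact hvf
  exact hlt.ne heq

omit hpf in
/-- A prime does not divide one less than its square. -/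
theorem not_dvd_sq_sub_one (hp : p.Prime) : ¬ p ∣ p ^ 2 - 1 := fun h => by
  have h1 : p ∣ p ^ 2 := dvd_pow_self p two_ne_zero
  have h2 := Nat.dvd_sub h1 h
  rw [Nat.sub_sub_self (Nat.one_le_pow _ _ hp.pos), Nat.dvd_one] at h2
  exact hp.ne_one h2

/-- If `M` satisfies a quadratic equation with constant term in `(ℤ/p)ˣ` and Frobenius sends it to
the other root, then its order divides `p ^ 2 - 1`. -/
theorem pow_sq_sub_one_eq_one {M : M2 k} {τ n : ℕ} {ω : (ZMod p)ˣ}
    (hquad : M * M + (n : M2 k) = (τ : M2 k) * M) (hfrob : M ^ p = (τ : M2 k) - M)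
    (hn : n = (ω : ZMod p).val) : M ^ (p ^ 2 - 1) = 1 := by
  have h1 : M ^ (p + 1) = (n : M2 k) := by
    rw [pow_succ, hfrob, sub_mul, ← hquad, add_sub_cancel_left]
  have h2 : p ^ 2 - 1 = (p + 1) * (p - 1) := by
    rw [← Nat.sq_sub_sq, one_pow]
  have h3 : ((n : ℕ) : k) ^ (p - 1) = 1 := by
    rw [← map_natCast (ZMod.castHom (dvd_refl p) k), ← map_pow, hn, ZMod.natCast_zmod_val,
      ZMod.pow_card_sub_one_eq_one (Units.ne_zero _), map_one]
  rw [h2, pow_mul, h1, ← map_natCast (algebraMap k (M2 k)), ← map_pow, h3, map_one]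

omit hpf [CharP k p] in
/-- A function on a subgroup which factors through a finite image has finite range. -/
theorem finite_range_of_factors [Finite k] {X : Type*} {H : Subgroup GQ} (rb : GQ →* M2 k)
    (θ : H → X) (h : ∀ σ σ' : H, rb σ = rb σ' → θ σ = θ σ') : (Set.range θ).Finite := by
  classical
  have : Finite (Set.range fun σ : H => rb σ) := inferInstance
  refine ((Set.finite_range fun M : Set.range fun σ : H => rb σ => θ M.2.choose)).subset ?_
  rintro _ ⟨σ, rfl⟩
  exact ⟨⟨rb σ, σ, rfl⟩, h _ _ (Set.mem_range_self (f := fun σ : H => rb σ) σ).choose_spec⟩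

/-- Without a stable line every point of every model is connected. -/
theorem mem_conn_of_no_line (hA : A.LiesOverPrime p) (hp2 : p ≠ 2) (hdet : DetCyc p rb)
    (hirr : ∀ U : Submodule k (Fin 2 → k),
      (∀ σ ∈ A.decompositionSubgroup ℚ, ∀ x ∈ U, wAct rb σ x ∈ U) → U = ⊥ ∨ U = ⊤)
    (P' : FnModel A (A.decompositionSubgroup ℚ) (wAct rb)) (x : Fin 2 → k) : x ∈ P'.conn := by
  have h : x ∈ core P' := core_eq_top (P' := P') hA hp2 hdet hirr ▸ Submodule.mem_top
  simpa using h 1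

omit [CharP k p] hpf in
theorem top_plane_ne_bot : (⊤ : AddSubgroup (Fin 2 → k)) ≠ ⊥ := fun h => by
  have : (![1, 0] : Fin 2 → k) ∈ (⊥ : AddSubgroup (Fin 2 → k)) := h ▸ AddSubgroup.mem_top _
  simpa using congrFun (AddSubgroup.mem_bot.mp this) 0

/-- Without a stable line inertia is generated by a tame element satisfying a quadratic equation
without root in the prime field, which Frobenius sends to the conjugate root. -/
theorem exists_quadAct_of_no_line [Finite k] (hA : A.LiesOverPrime p) (hp2 : p ≠ 2)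
    (hdet : DetCyc p rb)
    (hirr : ∀ U : Submodule k (Fin 2 → k),
      (∀ σ ∈ A.decompositionSubgroup ℚ, ∀ x ∈ U, wAct rb σ x ∈ U) → U = ⊥ ∨ U = ⊤)
    {P : FnModel A (A.decompositionSubgroup ℚ) (wAct rb)} (hP : P.Sep) :
    ∃ (g0 : GQ) (τ : ℕ), g0 ∈ A.inertiaSubgroupIn ℚ ∧
      (∀ σ ∈ A.inertiaSubgroupIn ℚ, ∃ i : ℕ, rb σ = rb g0 ^ i) ∧
      rb g0 * rb g0 + (((cycQ p).ω g0 : ZMod p).val : M2 k) = (τ : M2 k) * rb g0 ∧
      rb g0 ^ (p ^ 2 - 1) = 1 ∧
      (∀ Φ : GQ, A.IsFrobeniusAt Φ p → rb (Φ * g0 * Φ⁻¹) = (τ : M2 k) - rb g0) ∧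
      QuadAct A p (wAct rb) g0 τ := by
  have hp := hpf.out
  have : CharP κ p := Gal.residueField_charP hp hA
  have hID : A.inertiaSubgroupIn ℚ ≤ A.decompositionSubgroup ℚ := fun σ =>
    inertia_le_decomposition
  have htop := top_plane_ne_bot (k := k)
  obtain ⟨x₀, -, f₀, hf₀, hz, hz1, hmax⟩ :=
    FnModel.exists_scale hP htop fun x _ => mem_conn_of_no_line hA hp2 hdet hirr P x
  set z := f₀ x₀ - f₀ 0 with hzdef
  have hd0 : FnModel.dVal A z f₀ x₀ ≠ (0 : κ) := fun h0 =>
    lt_irrefl _ ((FnModel.dVal_eq_zero_iff hz le_rfl).mp h0)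
  have hUst : ∀ σ ∈ A.decompositionSubgroup ℚ, ∀ x ∈ (⊤ : Submodule k (Fin 2 → k)),
      wAct rb σ x ∈ (⊤ : Submodule k (Fin 2 → k)) := fun _ _ _ _ => Submodule.mem_top
  have hmax' : ∀ x ∈ (⊤ : Submodule k (Fin 2 → k)), ∀ f ∈ P.Λ, v (f x - f 0) ≤ v z :=
    fun x _ => hmax x (AddSubgroup.mem_top x)
  have heq : ∀ x y : Fin 2 → k,
      (∀ a : k, ∀ f ∈ P.Λ, FnModel.dVal A z f (a • x) = FnModel.dVal A z f (a • y)) → x = y :=
    fun x y => eq_of_dVal_eq (P := P) hz hz1 hUst (fun C _ hC => hirr C hC) hmax'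
      ⟨x₀, Submodule.mem_top, f₀, hf₀, hd0⟩ Submodule.mem_top Submodule.mem_top
  have hdact : ∀ σ ∈ A.inertiaSubgroupIn ℚ, ∀ (n : ℕ) (a : k) (x : Fin 2 → k), ∀ f ∈ P.Λ,
      FnModel.dVal A z f (a • (rb σ ^ n *ᵥ x)) = tame A σ z ^ n * FnModel.dVal A z f (a • x) := by
    intro σ hσ n a x f hf
    rw [← map_pow, ← mulVec_smul, ← dVal_pow_act hz hUst hmax' hσ Submodule.mem_top hf n]
    rfl
  have hext : ∀ X Y : M2 k,
      (∀ (a : k) x, ∀ f ∈ P.Λ, FnModel.dVal A z f (a • (X *ᵥ x)) =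
        FnModel.dVal A z f (a • (Y *ᵥ x))) → X = Y :=
    fun X Y h => ext_of_mulVec_single fun i => heq _ _ fun a f hf => h a _ f hf
  have hdadd : ∀ (x y : Fin 2 → k), ∀ f ∈ P.Λ,
      FnModel.dVal A z f (x + y) = FnModel.dVal A z f x + FnModel.dVal A z f y := fun x y f hf =>
    FnModel.dVal_add hz hz1 (hmax _ (AddSubgroup.mem_top x)) (hmax _ (AddSubgroup.mem_top y)) hf
  have hdn : ∀ (x : Fin 2 → k), ∀ f ∈ P.Λ, ∀ n : ℕ,
      FnModel.dVal A z f (n • x) = (n : κ) * FnModel.dVal A z f x := fun x f hf n =>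
    FnModel.dVal_nsmul hz hz1 hmax (AddSubgroup.mem_top x) hf n
  have hsame : ∀ σ ∈ A.inertiaSubgroupIn ℚ, ∀ σ' ∈ A.inertiaSubgroupIn ℚ, rb σ = rb σ' →
      tame A σ z = tame A σ' z := by
    intro σ hσ σ' hσ' h
    have h1 := hdact σ hσ 1 1 x₀ f₀ hf₀
    have h2 := hdact σ' hσ' 1 1 x₀ f₀ hf₀
    rw [one_smul, one_smul, pow_one, pow_one] at h1 h2
    rw [h, h2] at h1
    exact (mul_right_cancel₀ hd0 h1).symm
  -- tame inertia is cyclic
  let θu : A.inertiaSubgroupIn ℚ →* κˣ :=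
    { toFun := fun σ => Units.mk0 (tame A σ z) (tame_ne_zero (hID σ.2) hz)
      map_one' := Units.ext (tame_one hz)
      map_mul' := fun σ τ => Units.ext (tame_mul_left σ.2 (hID τ.2) hz) }
  obtain ⟨⟨g0, hg0⟩, hgen0⟩ := exists_gen θu (finite_range_of_factors rb θu fun σ σ' h =>
    Units.ext (hsame _ σ.2 _ σ'.2 h))
  have hgen : ∀ σ ∈ A.inertiaSubgroupIn ℚ, ∃ i : ℕ, rb σ = rb g0 ^ i := by
    intro σ hσ
    obtain ⟨i, hi⟩ := hgen0 ⟨σ, hσ⟩
    refine ⟨i, hext _ _ fun a x f hf => ?_⟩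
    rw [hdact g0 hg0 i a x f hf, ← pow_one (rb σ), hdact σ hσ 1 a x f hf, pow_one]
    congr 1
    simpa [θu] using congrArg Units.val hi
  -- the quadratic equation
  set θ : κ := tame A g0 z with hθ
  set M := rb g0 with hM
  obtain ⟨Φ, hΦ⟩ := Gal.exists_isFrobeniusAt (A := A) hp hA
  have hΦD := (Gal.isFrobeniusAt_iff.1 hΦ).1
  have hconj : ∀ Φ' : GQ, A.IsFrobeniusAt Φ' p → rb (Φ' * g0 * Φ'⁻¹) = M ^ p := by
    intro Φ' hΦ'
    refine hext _ _ fun a x f hf => ?_
    rw [hdact g0 hg0 p a x f hf, ← tame_conj_frobenius hΦ' hg0 hz, ← pow_one (rb (Φ' * _ * _)),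
      hdact _ (conj_mem_inertia (Gal.isFrobeniusAt_iff.1 hΦ').1 hg0) 1 a x f hf, pow_one]
  have htr : trace M ^ p = trace M := by
    rw [← trace_pow_p, ← hconj Φ hΦ, map_mul, map_mul, trace_mul_cycle, ← map_mul, inv_mul_cancel,
      map_one, one_mul]
  obtain ⟨τ, hτ⟩ := exists_natCast_eq_of_pow_eq (p := p) htr
  set n := ((cycQ p).ω g0 : ZMod p).val with hn
  have hdetM : det M = (n : k) := by
    rw [hM, det_eq_omegaK hdet, omegaK, ← map_natCast (ZMod.castHom (dvd_refl p) k) n, hn,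
      ZMod.natCast_zmod_val]
  have hquad : M * M + (n : M2 k) = (τ : M2 k) * M := by
    have h := sq_eq_trace M
    rw [hdetM, ← hτ, Nat.cast_smul_eq_nsmul, Nat.cast_smul_eq_nsmul, nsmul_one,
      nsmul_eq_mul] at h
    exact h
  have hquadv : ∀ x, rb g0 *ᵥ (rb g0 *ᵥ x) + n • x = τ • (rb g0 *ᵥ x) := fun x => by
    rw [← natCast_mulVec n x, mulVec_mulVec, ← add_mulVec, ← hM, hquad, ← mulVec_mulVec,
      natCast_mulVec]
  have hroot : θ ^ 2 - (τ : κ) * θ + (n : κ) = 0 := by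
    have e := congrArg (FnModel.dVal A z f₀) (hquadv x₀)
    have h1 : ∀ x, FnModel.dVal A z f₀ (rb g0 *ᵥ x) = θ * FnModel.dVal A z f₀ x := fun x => by
      simpa using hdact g0 hg0 1 1 x f₀ hf₀
    rw [hdadd _ _ _ hf₀, hdn _ _ hf₀, hdn _ _ hf₀, h1, h1] at e
    refine (mul_eq_zero.mp ?_).resolve_right hd0
    linear_combination e
  have hθnat : ∀ m : ℕ, θ ≠ (m : κ) := by
    intro m hm
    refine ne_natCast_of_gen hA hp2 hdet hgen m (hext _ _ fun a x f hf => ?_)
    rw [← pow_one (rb g0), hdact g0 hg0 1 a x f hf, pow_one, ← hθ, hm, natCast_mulVec, smul_comm,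
      hdn _ _ hf]
  have hnr : ∀ m : ZMod p, m ^ 2 - (τ : ZMod p) * m + ((cycQ p).ω g0 : ZMod p) ≠ 0 := fun m =>
    quad_ne_zero_of_root (ZMod.natCast_zmod_val _) hroot hθnat m
  have hθp : θ ^ p = (τ : κ) - θ := pow_eq_sub_of_root hroot hθnat
  have hfrobM : M ^ p = (τ : M2 k) - M := by
    refine hext _ _ fun a x f hf => ?_
    have h1 := hdadd (a • (((τ : M2 k) - M) *ᵥ x)) (a • (M *ᵥ x)) f hf
    rw [← smul_add, ← add_mulVec, sub_add_cancel, natCast_mulVec, smul_comm, hdn _ _ hf] at h1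
    have h2 := hdact g0 hg0 1 a x f hf
    rw [pow_one, pow_one] at h2
    rw [hdact g0 hg0 p a x f hf, hθp]
    linear_combination h1 + h2
  have hMM : M ^ (p ^ 2 - 1) = 1 := pow_sq_sub_one_eq_one hquad hfrobM hn
  refine ⟨g0, τ, hg0, hgen, hquad, hMM, fun Φ' hΦ' => (hconj Φ' hΦ').trans hfrobM,
    { mem := hg0
      add := fun σ _ => wAct_add rb σ
      torsion := p_smul_eq_zero (k := k)
      quad := hquadv
      no_root := hnr
      pow_eq := fun x => by rw [wAct, map_pow, ← hM, hMM, one_mulVec]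
      gen := fun σ hσ => by
        obtain ⟨i, hi⟩ := hgen σ hσ
        refine ⟨i, fun x => by rw [wAct, wAct, map_pow, hi], ?_⟩
        ext
        refine (ZMod.castHom (dvd_refl p) k).injective ?_
        have h1 : omegaK p k σ = det M ^ i := by rw [← det_eq_omegaK hdet, hi, det_pow]
        rw [hM, det_eq_omegaK hdet] at h1
        rw [Units.val_pow_eq_pow_val, map_pow]
        exact h1 }⟩

/-- Without a stable line a model forces the irreducible shape. -/
theorem irrShape_of_no_line [Finite k] (hA : A.LiesOverPrime p) (hp2 : p ≠ 2) (hdet : DetCyc p rb)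
    (hirr : ∀ U : Submodule k (Fin 2 → k),
      (∀ σ ∈ A.decompositionSubgroup ℚ, ∀ x ∈ U, wAct rb σ x ∈ U) → U = ⊥ ∨ U = ⊤)
    {P : FnModel A (A.decompositionSubgroup ℚ) (wAct rb)} (hP : P.Sep) :
    Nonempty (IrrShape p A rb) := by
  have hp := hpf.out
  have hID : A.inertiaSubgroupIn ℚ ≤ A.decompositionSubgroup ℚ := fun σ =>
    inertia_le_decomposition
  obtain ⟨g0, τ, hg0, hgen, hquad, hMM, hfrob, hquadAct⟩ :=
    exists_quadAct_of_no_line hA hp2 hdet hirr hP
  have htop := top_plane_ne_bot (k := k)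
  obtain ⟨x₁, -, f₁, hf₁, hv1, -, hr1, hnat1⟩ := hquadAct.scale_pow_eq hA hp2 hP hID htop
    (fun x _ => mem_conn_of_no_line hA hp2 hdet hirr P x) fun u _ => AddSubgroup.mem_top _
  set π := f₁ x₁ - f₁ 0 with hπ
  let Γ0 : Subgroup GQ := (A.inertiaSubgroupIn ℚ ⊓ rb.ker).copy
    {σ | σ ∈ A.inertiaSubgroupIn ℚ ∧ rb σ = 1} rfl
  refine ⟨{
    lvl :=
      { hA := hA
        p_ne_two := hp2
        M := p ^ 2 - 1
        T := p + 1
        T_pos := Nat.succ_pos p
        M_eq := by rw [mul_comm, ← Nat.sq_sub_sq, one_pow]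
        p_not_dvd_M := not_dvd_sq_sub_one hp
        Γ0 := Γ0
        le_inertia := fun σ hσ => hσ.1
        conj_mem := fun σ hσ h hh => ⟨conj_mem_inertia hσ hh.1, by
          rw [map_mul, map_mul, hh.2, mul_one, ← map_mul, mul_inv_cancel, map_one]⟩
        π := π
        π_fixed := fun h hh => by
          have hx : ∀ x, wAct rb h x = x := fun x => by rw [wAct, hh.2, one_mulVec]
          rw [hπ, map_sub, ← P.equiv f₁ hf₁ h (hID hh.1), ← P.equiv f₁ hf₁ h (hID hh.1), hx, hx]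
        π_val := hv1
        g0 := g0
        g0_mem := hg0
        g0_pow_mem := ⟨pow_mem hg0 _, by rw [map_pow, hMM]⟩
        gen := fun h hh => by
          obtain ⟨i, hi⟩ := hgen h hh
          refine ⟨i, mul_mem (inv_mem (pow_mem hg0 i)) hh, ?_⟩
          rw [map_mul, hi, ← map_pow, ← map_mul, inv_mul_cancel, map_one]
        omega_eq_one := fun h hh => by
          ext
          refine (ZMod.castHom (dvd_refl p) k).injective ?_
          have h1 := det_eq_omegaK hdet h
          rw [hh.2, det_one] at h1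
          rw [Units.val_one, map_one]
          exact h1.symm }
    T_eq := rfl
    mem_Γ0 := fun σ => Iff.rfl
    τ := τ
    quad := hquad
    no_root := hquadAct.no_root
    gen_rb := hgen
    frob := hfrob
    irred := hirr
    root := hr1
    not_nat := hnat1
    scale := ?_ }⟩
  intro Γ hΓ P' hP' y hy
  exact hquadAct.exists_le_val_sub hA hp2 hP' hΓ _ rfl hy

/-- The two residual shapes. -/
theorem residual_cases [Finite k] (hA : A.LiesOverPrime p) (hp2 : p ≠ 2) (hdet : DetCyc p rb)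
    (h : HasModel A (A.decompositionSubgroup ℚ) (wAct rb)) :
    (∃ (Q Q' : M2 k) (h1 : Q * Q' = 1) (h2 : Q' * Q = 1),
      OrdShape p A (conjHom rb Q Q' h1 h2)) ∨ Nonempty (IrrShape p A rb) := by
  obtain ⟨P, hP⟩ := h
  by_cases hirr : ∀ U : Submodule k (Fin 2 → k),
      (∀ σ ∈ A.decompositionSubgroup ℚ, ∀ x ∈ U, wAct rb σ x ∈ U) → U = ⊥ ∨ U = ⊤
  · exact Or.inr (irrShape_of_no_line hA hp2 hdet hirr hP)
  · push Not at hirr
    obtain ⟨U, hU, hb, ht⟩ := hirr
    exact Or.inl (ord_of_line hA hp2 hdet hP hb ht hU)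

end Fermat.Agent.TW.Flat
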