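import Fermat.Agent.TW.Flat.Residual

/-!
# Models of deformations to the dual numbers

`vAct rb c` is the action on pairs given by the deformation with cocycle `c`.  Having a model is
stable under transport, coboundaries, sums and multiples.
Used to reduce the local bound to normalised cocycles.
-/

noncomputable section

namespace Fermat.Agent.TW.Flat

open Fermat.Agent Matrix
open scoped Pointwise

local notation "Qbar" => AlgebraicClosure ℚ
local notation "GQ" => (AlgebraicClosure ℚ ≃ₐ[ℚ] AlgebraicClosure ℚ)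

variable {A : ValuationSubring Qbar} {Γ : Subgroup GQ}

section General

variable {V W : Type*} [AddCommGroup V] [AddCommGroup W] {act : GQ → V → V} {actW : GQ → W → W}

theorem HasModel.transport (h : HasModel A Γ act) (e : V ≃+ W)
    (he : ∀ σ ∈ Γ, ∀ x, e (act σ x) = actW σ (e x)) : HasModel A Γ actW := by
  obtain ⟨P, hP⟩ := h
  have hι : ∀ σ ∈ Γ, ∀ u, e.symm.toAddMonoidHom (actW σ u) = act σ (e.symm.toAddMonoidHom u) :=
    fun σ hσ u => by
      apply e.injective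
      simp [he σ hσ]
  exact ⟨P.restrict e.symm.toAddMonoidHom hι, P.sep_restrict hP _ hι e.symm.injective⟩

theorem HasModel.sub (h : HasModel A Γ act) (ι : W →+ V) (hinj : Function.Injective ι)
    (hι : ∀ σ ∈ Γ, ∀ u, ι (actW σ u) = act σ (ι u)) : HasModel A Γ actW := by
  obtain ⟨P, hP⟩ := h
  exact ⟨P.restrict ι hι, P.sep_restrict hP _ hι hinj⟩

theorem HasModel.mono (h : HasModel A Γ act) {Γ' : Subgroup GQ} (hle : Γ' ≤ Γ) :
    HasModel A Γ' act := by
  obtain ⟨P, hP⟩ := h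
  exact ⟨P.extend hle, P.sep_extend hP hle⟩

end General

variable {k : Type} [Field k] {rb : GQ →* M2 k}

local notation "W" => Fin 2 → k

/-- The action of the deformation with cocycle `c` on pairs. -/
def vAct (rb : GQ →* M2 k) (c : GQ → M2 k) (σ : GQ) (q : (Fin 2 → k) × (Fin 2 → k)) :
    (Fin 2 → k) × (Fin 2 → k) :=
  (rb σ *ᵥ q.1, rb σ *ᵥ q.2 + c σ *ᵥ (rb σ *ᵥ q.1))

theorem vAct_add (rb : GQ →* M2 k) (c : GQ → M2 k) (σ : GQ) (q q' : W × W) :
    vAct rb c σ (q + q') = vAct rb c σ q + vAct rb c σ q' := by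
  simp only [vAct, Prod.fst_add, Prod.snd_add, mulVec_add, Prod.mk_add_mk, Prod.mk.injEq, true_and]
  abel

/-- The residual module inside the deformation. -/
def inSnd (k : Type) [Field k] : (Fin 2 → k) →+ (Fin 2 → k) × (Fin 2 → k) :=
  AddMonoidHom.inr _ _

theorem inSnd_apply (w : W) : inSnd k w = (0, w) := rfl

theorem inSnd_wAct (c : GQ → M2 k) (σ : GQ) (w : W) :
    inSnd k (wAct rb σ w) = vAct rb c σ (inSnd k w) := by
  simp [inSnd_apply, vAct, wAct]

theorem HasModel.residual {c : GQ → M2 k} (h : HasModel A Γ (vAct rb c)) :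
    HasModel A Γ (wAct rb) :=
  h.sub (inSnd k) (fun _w _w' e => congrArg Prod.snd e) fun σ _ w => inSnd_wAct c σ w

theorem HasModel.vAct_congr {c c' : GQ → M2 k} (h : HasModel A Γ (vAct rb c))
    (e : ∀ σ ∈ Γ, c' σ = c σ) : HasModel A Γ (vAct rb c') :=
  h.transport (AddEquiv.refl _) fun σ hσ x => by simp [vAct, e σ hσ]

/-- Coboundaries change the model by an isomorphism. -/
theorem HasModel.coboundary {c c' : GQ → M2 k} (h : HasModel A Γ (vAct rb c)) (H : M2 k)
    (e : ∀ σ ∈ Γ, c' σ * rb σ = c σ * rb σ + (H * rb σ - rb σ * H)) :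
    HasModel A Γ (vAct rb c') := by
  refine h.transport
    { toFun := fun q => (q.1, q.2 + H *ᵥ q.1)
      invFun := fun q => (q.1, q.2 - H *ᵥ q.1)
      left_inv := fun q => Prod.ext rfl (add_sub_cancel_right q.2 _)
      right_inv := fun q => Prod.ext rfl (sub_add_cancel q.2 _)
      map_add' := fun q q' => by
        simp only [Prod.fst_add, Prod.snd_add, mulVec_add, Prod.mk_add_mk, Prod.mk.injEq, true_and]
        abel } fun σ hσ x => ?_
  show (rb σ *ᵥ x.1, rb σ *ᵥ x.2 + c σ *ᵥ (rb σ *ᵥ x.1) + H *ᵥ (rb σ *ᵥ x.1)) =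
    vAct rb c' σ (x.1, x.2 + H *ᵥ x.1)
  simp only [vAct, mulVec_add, mulVec_mulVec, e σ hσ, add_mulVec, sub_mulVec, Prod.mk.injEq,
    true_and]
  abel

/-- Conjugation by an invertible matrix. -/
theorem HasModel.conj {rb' : GQ →* M2 k} {c c' : GQ → M2 k} (h : HasModel A Γ (vAct rb c))
    {J J' : M2 k} (h1 : J * J' = 1) (h2 : J' * J = 1) (erb : ∀ σ ∈ Γ, J * rb σ = rb' σ * J)
    (ec : ∀ σ ∈ Γ, J * c σ = c' σ * J) : HasModel A Γ (vAct rb' c') := by
  refine h.transport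
    { toFun := fun q => (J *ᵥ q.1, J *ᵥ q.2)
      invFun := fun q => (J' *ᵥ q.1, J' *ᵥ q.2)
      left_inv := fun q => by simp only [mulVec_mulVec, h2, one_mulVec]
      right_inv := fun q => by simp only [mulVec_mulVec, h1, one_mulVec]
      map_add' := fun q q' => by simp [mulVec_add] } fun σ hσ x => ?_
  show (J *ᵥ (rb σ *ᵥ x.1), J *ᵥ (rb σ *ᵥ x.2 + c σ *ᵥ (rb σ *ᵥ x.1))) =
    vAct rb' c' σ (J *ᵥ x.1, J *ᵥ x.2)
  simp only [vAct, mulVec_add, mulVec_mulVec, erb σ hσ, Prod.mk.injEq, true_and]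
  congr 1
  congr 1
  rw [← mul_assoc, ec σ hσ, mul_assoc, erb σ hσ]

theorem HasModel.smul {c : GQ → M2 k} (h : HasModel A Γ (vAct rb c)) {a : k} (ha : a ≠ 0) :
    HasModel A Γ (vAct rb fun σ => a • c σ) := by
  refine h.transport
    { toFun := fun q => (q.1, a • q.2)
      invFun := fun q => (q.1, a⁻¹ • q.2)
      left_inv := fun q => by simp [ha]
      right_inv := fun q => by simp [ha]
      map_add' := fun q q' => by simp [smul_add] } fun σ _ x => ?_
  show (rb σ *ᵥ x.1, a • (rb σ *ᵥ x.2 + c σ *ᵥ (rb σ *ᵥ x.1))) =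
    vAct rb (fun σ => a • c σ) σ (x.1, a • x.2)
  simp only [vAct, mulVec_smul, Matrix.smul_mulVec, smul_add]

/-- The sum of two deformations with models has a model. -/
theorem HasModel.add [Finite k] {c c' : GQ → M2 k} (h : HasModel A Γ (vAct rb c))
    (h' : HasModel A Γ (vAct rb c')) : HasModel A Γ (vAct rb fun σ => c σ + c' σ) := by
  obtain ⟨P, hP⟩ := h
  obtain ⟨Q, hQ⟩ := h'
  let ι : (Fin 2 → k) × ((Fin 2 → k) × (Fin 2 → k)) →+
      ((Fin 2 → k) × (Fin 2 → k)) × ((Fin 2 → k) × (Fin 2 → k)) :=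
    { toFun := fun t => ((t.1, t.2.1), (t.1, t.2.2))
      map_zero' := rfl
      map_add' := fun _ _ => rfl }
  let act3 : GQ → (Fin 2 → k) × ((Fin 2 → k) × (Fin 2 → k)) →
      (Fin 2 → k) × ((Fin 2 → k) × (Fin 2 → k)) := fun σ t =>
    (rb σ *ᵥ t.1, (rb σ *ᵥ t.2.1 + c σ *ᵥ (rb σ *ᵥ t.1), rb σ *ᵥ t.2.2 + c' σ *ᵥ (rb σ *ᵥ t.1)))
  have hι : ∀ σ ∈ Γ, ∀ t, ι (act3 σ t) =
      (fun σ q => (vAct rb c σ q.1, vAct rb c' σ q.2)) σ (ι t) := fun _ _ _ => rfl
  set R := (P.prod Q).restrict (actU := act3) ι hι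
  have hR : R.Sep := (P.prod Q).sep_restrict (P.sep_prod hP Q hQ) ι hι fun t t' e =>
    Prod.ext (congrArg (fun q => q.1.1) e) (Prod.ext (congrArg (fun q => q.1.2) e)
      (congrArg (fun q => q.2.2) e))
  let π : (Fin 2 → k) × ((Fin 2 → k) × (Fin 2 → k)) →+ (Fin 2 → k) × (Fin 2 → k) :=
    { toFun := fun t => (t.1, t.2.1 + t.2.2)
      map_zero' := by simp
      map_add' := fun t t' => by
        simp only [Prod.fst_add, Prod.snd_add, Prod.mk_add_mk, Prod.mk.injEq, true_and]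
        abel }
  have hsurj : Function.Surjective π := fun q => ⟨(q.1, (q.2, 0)), by simp [π]⟩
  have hact : ∀ σ ∈ Γ, ∀ x y, act3 σ (x + y) = act3 σ x + act3 σ y := fun σ _ x y => by
    simp only [act3, Prod.fst_add, Prod.snd_add, mulVec_add, Prod.mk_add_mk, Prod.mk.injEq,
      true_and]
    constructor <;> abel
  have hπ : ∀ σ ∈ Γ, ∀ x, π (act3 σ x) = vAct rb (fun σ => c σ + c' σ) σ (π x) := fun σ _ x => by
    simp only [π, act3, vAct, AddMonoidHom.coe_mk, ZeroHom.coe_mk, mulVec_add, add_mulVec,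
      Prod.mk.injEq, true_and]
    abel
  have hN : ∀ σ ∈ Γ, ∀ x ∈ π.ker, act3 σ x ∈ π.ker := fun σ hσ x hx => by
    rw [AddMonoidHom.mem_ker] at hx ⊢
    rw [hπ σ hσ, hx]
    simp [vAct]
  exact ⟨(R.inv π.ker hN hact).push π hsurj hπ fun f hf => ((R.mem_inv π.ker hN hact).mp hf).2,
    (R.inv π.ker hN hact).sep_push π hsurj hπ _ (R.sepMod_inv π.ker hN hact hR)⟩

end Fermat.Agent.TW.Flat
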