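import Fermat.Prelude.Def_GaloisRep_Flat
import Fermat.Agent.Flat.Transport
import Fermat.Agent.Gal.RepTwo
import Fermat.Agent.TW.Flat.Ext
import Fermat.Agent.TW.TangentInj

/-!
# Models from flat deformations to the dual numbers

A finite Hopf algebra with the deformation as points gives a ring of integral functions on it, so
flat deformations fall under the local bound for models.
-/

noncomputable section

namespace Fermat.Agent.TW.Flat

open Fermat.Agent Matrix Module DualNumber
open Fermat.Agent.Flat (Zl galZl algebraMap_mem_of_liesOverPrime mem_of_isIntegral)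
open scoped Pointwise

local notation "Qbar" => AlgebraicClosure ℚ
local notation "GQ" => (AlgebraicClosure ℚ ≃ₐ[ℚ] AlgebraicClosure ℚ)

/-- A finite Hopf algebra with the group as points gives a model. -/
theorem hasModel_of_points {p : ℕ} [Fact p.Prime] {A : ValuationSubring Qbar}
    (hA : A.LiesOverPrime p) {V : Type*} [AddCommGroup V] {act : GQ → V → V}
    {H : Type} [CommRing H] [HopfAlgebra (Zl p) H] [Module.Finite (Zl p) H]
    (e : WithConv (H →ₐ[Zl p] Qbar) ≃ V) (hadd : ∀ f g, e (f * g) = e f + e g)
    (heq : ∀ (σ : GQ) (f g : WithConv (H →ₐ[Zl p] Qbar)),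
      (∀ h : H, g h = σ (f h)) → e g = act σ (e f))
    (Γ : Subgroup GQ) : HasModel A Γ act := by
  classical
  have hsc : ∀ z : Zl p, algebraMap (Zl p) Qbar z ∈ oRing A Γ := fun z =>
    mem_oRing.mpr ⟨algebraMap_mem_of_liesOverPrime hA z, fun σ _ => by
      rw [IsScalarTower.algebraMap_apply (Zl p) ℚ Qbar]
      exact σ.commutes _⟩
  let ev : H → V → Qbar := fun h x => (e.symm x).ofConv h
  have hev : ∀ (σ : GQ) (x : V) (h : H), ev h (act σ x) = σ (ev h x) := fun σ x h => by
    let g : WithConv (H →ₐ[Zl p] Qbar) :=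
      WithConv.toConv ((galZl (ℓ := p) σ).toAlgHom.comp (e.symm x).ofConv)
    have hg := heq σ (e.symm x) g fun h => rfl
    rw [Equiv.apply_symm_apply] at hg
    show (e.symm (act σ x)).ofConv h = _
    rw [← hg, Equiv.symm_apply_apply]
    rfl
  have hmem : ∀ h, ev h ∈ Submodule.span (oRing A Γ) (Set.range ev) := fun h =>
    Submodule.subset_span ⟨h, rfl⟩
  let P : FnModel A Γ act :=
    { Λ := Submodule.span (oRing A Γ) (Set.range ev)
      fg := by
        obtain ⟨s, hs⟩ := (Module.Finite.fg_top : (⊤ : Submodule (Zl p) H).FG)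
        refine ⟨s.image ev, le_antisymm (Submodule.span_le.mpr ?_) (Submodule.span_le.mpr ?_)⟩
        · intro f hf
          obtain ⟨h, -, rfl⟩ := Finset.mem_image.mp hf
          exact hmem h
        · rintro _ ⟨h, rfl⟩
          have hh : h ∈ Submodule.span (Zl p) (s : Set H) := by rw [hs]; exact Submodule.mem_top
          induction hh using Submodule.span_induction with
          | mem h hh => exact Submodule.subset_span (Finset.mem_image_of_mem ev hh)
          | zero =>
            rw [show ev 0 = 0 from funext fun x => map_zero _]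
            exact Submodule.zero_mem _
          | add a b _ _ ha hb =>
            rw [show ev (a + b) = ev a + ev b from funext fun x => map_add _ _ _]
            exact Submodule.add_mem _ ha hb
          | smul z a _ ha =>
            rw [show ev (z • a) = (⟨_, hsc z⟩ : oRing A Γ) • ev a from funext fun x => by
              show (e.symm x).ofConv (z • a) = _
              rw [map_smul, Algebra.smul_def, oRing_smul_apply]]
            exact Submodule.smul_mem _ _ ha
      one_mem := by
        rw [show (1 : V → Qbar) = ev 1 from funext fun x => (map_one _).symm]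
        exact hmem 1
      mul_le := by
        rw [Submodule.span_mul_span]
        refine Submodule.span_mono ?_
        rintro _ ⟨_, ⟨a, rfl⟩, _, ⟨b, rfl⟩, rfl⟩
        exact ⟨a * b, funext fun x => map_mul _ _ _⟩
      integral := fun f hf x => by
        induction hf using Submodule.span_induction with
        | mem f hf =>
          obtain ⟨h, rfl⟩ := hf
          exact mem_of_isIntegral hA ((Algebra.IsIntegral.isIntegral h).map (e.symm x).ofConv)
        | zero => exact A.zero_mem
        | add a b _ _ ha hb => exact A.add_mem _ _ ha hb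
        | smul r a _ ha => exact A.mul_mem _ _ (mem_oRing.mp r.2).1 ha
      equiv := fun f hf σ hσ x => by
        induction hf using Submodule.span_induction with
        | mem f hf => obtain ⟨h, rfl⟩ := hf; exact hev σ x h
        | zero => exact (map_zero σ).symm
        | add a b _ _ ha hb => simp only [Pi.add_apply, ha, hb, map_add]
        | smul r a _ ha =>
          simp only [oRing_smul_apply, map_mul, ha, (mem_oRing.mp r.2).2 σ hσ]
      comul := by
        rw [Submodule.map_span, Submodule.span_le]
        rintro _ ⟨_, ⟨h, rfl⟩, rfl⟩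
        let 𝓡 := Coalgebra.Repr.arbitrary (Zl p) h
        have he : (pull A Γ fun q : V × V => q.1 + q.2).toLinearMap (ev h) = ∑ i ∈ 𝓡.index,
            (pull A Γ (Prod.fst : V × V → V)).toLinearMap (ev (𝓡.left i)) *
              (pull A Γ (Prod.snd : V × V → V)).toLinearMap (ev (𝓡.right i)) := by
          funext q
          have hxx : e.symm (q.1 + q.2) = e.symm q.1 * e.symm q.2 := by
            rw [Equiv.symm_apply_eq, hadd, e.apply_symm_apply, e.apply_symm_apply]
          simp only [AlgHom.toLinearMap_apply, pull_apply, Finset.sum_apply, Pi.mul_apply]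
          show (e.symm (q.1 + q.2)).ofConv h = _
          rw [hxx, AlgHom.convMul_apply]
          conv_lhs => rw [← 𝓡.eq]
          simp [map_sum, ev]
        rw [SetLike.mem_coe, he]
        exact Submodule.sum_mem _ fun i _ => Submodule.mul_mem_mul
          (Submodule.mem_map_of_mem (hmem _)) (Submodule.mem_map_of_mem (hmem _)) }
  refine ⟨P, fun x x' h => e.symm.injective (WithConv.ext (AlgHom.ext fun a => h (ev a) (hmem a)))⟩

/-- A vector of dual numbers as a pair of vectors. -/
def dualPairEquiv (k : Type) [Field k] :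
    (Fin 2 → k) × (Fin 2 → k) ≃+ (Fin 2 → k[ε]) where
  toFun q i := TrivSqZeroExt.inl (q.1 i) + TrivSqZeroExt.inr (q.2 i)
  invFun f := (fun i => (f i).fst, fun i => (f i).snd)
  left_inv q := Prod.ext (funext fun i => by simp) (funext fun i => by simp)
  right_inv f := funext fun i => TrivSqZeroExt.ext (by simp) (by simp)
  map_add' q q' := funext fun i => TrivSqZeroExt.ext (by simp) (by simp)

theorem dualMatrix_mulVec {k : Type} [Field k] (M N : M2 k) (q : (Fin 2 → k) × (Fin 2 → k)) :
    (M.map TrivSqZeroExt.inl + N.map TrivSqZeroExt.inr) *ᵥ dualPairEquiv k q =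
      dualPairEquiv k (M *ᵥ q.1, M *ᵥ q.2 + N *ᵥ q.1) := by
  funext i
  fin_cases i <;> refine TrivSqZeroExt.ext ?_ ?_ <;>
    simp [dualPairEquiv, Matrix.mulVec, dotProduct, Fin.sum_univ_two] <;> ring

/-- A flat deformation to the dual numbers has a model. -/
theorem hasModel_of_isFlatAt {p : ℕ} [Fact p.Prime] {A : ValuationSubring Qbar}
    (hA : A.LiesOverPrime p) {k : Type} [Field k] [Finite k] {rb : GQ →* M2 k} {c : GQ → M2 k}
    (ρ : GaloisRepAdic k[ε]) (b : Basis (Fin 2) k[ε] ρ.V) (hflat : ρ.IsFlatAt p)
    (hb : ∀ g, Gal.matrixRep b ρ.ρ g = (rb g).map TrivSqZeroExt.inl +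
      (c g * rb g).map TrivSqZeroExt.inr)
    (Γ : Subgroup GQ) : HasModel A Γ (vAct rb c) := by
  have : Finite k[ε] := inferInstanceAs (Finite (k × k))
  obtain ⟨H, _, _, hfin, -, -, e, hadd, heq⟩ :=
      hflat.2 ⊥ (Finite.of_surjective _ Ideal.Quotient.mk_surjective)
  let E0 : (ρ.V ⧸ (⊥ : Ideal k[ε]) • (⊤ : Submodule k[ε] ρ.V)) ≃ₗ[k[ε]] ρ.V :=
    Submodule.quotEquivOfEqBot _ (Submodule.bot_smul _)
  let E : (ρ.V ⧸ (⊥ : Ideal k[ε]) • (⊤ : Submodule k[ε] ρ.V)) ≃+ (Fin 2 → k) × (Fin 2 → k) :=
    (E0.toAddEquiv.trans b.equivFun.toAddEquiv).trans (dualPairEquiv k).symm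
  refine hasModel_of_points (H := H) hA (e.trans E.toEquiv) (fun f g => ?_) (fun σ f g h => ?_) Γ
  · show E (e (f * g)) = E (e f) + E (e g)
    rw [hadd, map_add]
  · show E (e g) = vAct rb c σ (E (e f))
    rw [heq σ f g h]
    generalize e f = x
    obtain ⟨y, rfl⟩ := Submodule.Quotient.mk_surjective _ x
    have h1 : E (ρ.levelAction ⊥ σ (Submodule.Quotient.mk y)) =
        (dualPairEquiv k).symm (b.equivFun (ρ.ρ σ y)) := rfl
    have h2 : E (Submodule.Quotient.mk y) = (dualPairEquiv k).symm (b.equivFun y) := rfl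
    rw [h1, h2]
    obtain ⟨q, hq⟩ := (dualPairEquiv k).surjective (b.equivFun y)
    rw [← hq, AddEquiv.symm_apply_apply, AddEquiv.symm_apply_eq]
    have h3 : b.equivFun (ρ.ρ σ y) = Gal.matrixRep b ρ.ρ σ *ᵥ b.equivFun y := by
      simp [Gal.matrixRep, Basis.equivFun_apply, LinearMap.toMatrixAlgEquiv,
          ← LinearMap.toMatrix_mulVec_repr b b]
    rw [h3, hb, ← hq, dualMatrix_mulVec, vAct, Matrix.mulVec_mulVec]

end Fermat.Agent.TW.Flat

end
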