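import Fermat.Agent.TW.Assembly
import Fermat.Agent.TW.Flat.OfFlat

/-!
# The local bound at `p` for flat deformations, from the bound for models

Flat deformations to the dual numbers have models, so the bound for classes with a model gives
the local bound needed for the generators of flat deformation rings.
-/

noncomputable section

namespace Fermat.Agent.TW.Flat

open Fermat.Agent Fermat.Agent.PT Fermat.Agent.Gal Matrix Module IsLocalRing DualNumber

/-- The bound for classes whose deformation has a model. -/
def ModelLocalBound (A : ValuationSubring (AlgebraicClosure ℚ)) {k : Type} [Field k]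
    (rb : AG →* M2 k) : Prop :=
  ∃ L : Submodule k ((A.decompositionSubgroup ℚ → sl2 k) ⧸
      B1 (resRep (adRep rb) (A.decompositionSubgroup ℚ))),
    FiniteDimensional k L ∧
    finrank k L ≤ finrank k (Representation.invariants
      (resRep (adRep rb) (A.decompositionSubgroup ℚ))) + 1 ∧
    ∀ c ∈ Z1 lvQ (adRep rb),
      HasModel A (A.decompositionSubgroup ℚ) (vAct rb fun g => (c g : M2 k)) →
        c ∈ condAt (adRep rb) L

variable {O : Type} [CommRing O] [IsDomain O] [IsDiscreteValuationRing O]
  [Finite (ResidueField O)] {p : ℕ} [Fact p.Prime]
  {ρbar : ResidualGaloisRep (ResidueField O)} {bbar : Basis (Fin 2) (ResidueField O) ρbar.V}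

/-- The bound for models gives the local bound for flat deformations. -/
theorem flatLocalBound_of_local (h : ModelLocalBound (padicPlace p) (rbar bbar)) :
    FlatLocalBound p bbar := by
  obtain ⟨L, hfin, hle, hL⟩ := h
  refine ⟨L, hfin, hle, fun c hc => ?_⟩
  rintro ⟨ρ', b', hflat, hb⟩
  exact hL c hc (hasModel_of_isFlatAt padicPlace_liesOverPrime ρ' b' hflat hb _)

end Fermat.Agent.TW.Flat

end
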