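import Fermat.Agent.TW.Flat.Cocycle

/-!
# The ordinary case of the local bound for models

In a frame with `rb` upper triangular, the deformations with a model have classes in the space of
cocycles with vanishing lower entry, unramified diagonal and upper entry a unit Kummer class.
This gives the local bound at `p` for flat deformations in this case.
-/

noncomputable section

namespace Fermat.Agent.TW.Flat

open Fermat.Agent Fermat.Agent.PT Matrix
open scoped Pointwise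

local notation "Qbar" => AlgebraicClosure ℚ
local notation "GQ" => (AlgebraicClosure ℚ ≃ₐ[ℚ] AlgebraicClosure ℚ)

variable {A : ValuationSubring Qbar} {p : ℕ} [hpf : Fact p.Prime]
variable {k : Type} [Field k] [CharP k p] {rb : GQ →* M2 k}

local notation "v" => A.valuation
local notation "κ" => IsLocalRing.ResidueField A

/-- There is a tame level cut out on inertia by the cyclotomic character, with a generator on
which the character is non-trivial. -/
theorem exists_ordLvl (hA : A.LiesOverPrime p) (hp2 : p ≠ 2) :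
    ∃ D : TameLvl A p, D.T = 1 ∧ (cycQ p).ω D.g0 ≠ 1 := by
  have hp := hpf.out
  obtain ⟨u, hu⟩ := IsCyclic.exists_monoid_generator (α := (ZMod p)ˣ)
  obtain ⟨g0, hg0, hgu⟩ := exists_inertia_omega (A := A) hA hp2 u
  have hpow : (cycQ p).ω (g0 ^ (p - 1)) = 1 := by
    rw [map_pow, ZMod.units_pow_card_sub_one_eq_one p]
  let Γ0 : Subgroup GQ := A.inertiaSubgroupIn ℚ ⊓ ((cycQ p).ω).ker
  let D : TameLvl A p :=
    { hA := hA
      p_ne_two := hp2
      M := p - 1
      T := 1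
      T_pos := Nat.one_pos
      M_eq := (mul_one _).symm
      p_not_dvd_M := fun h => by
        have h1 := hp.two_le
        have := Nat.le_of_dvd (by omega) h
        omega
      Γ0 := Γ0
      le_inertia := inf_le_left
      conj_mem := fun σ hσ h hh => ⟨conj_mem_inertia hσ hh.1, by
        have h1 : (cycQ p).ω h = 1 := hh.2
        simp [h1]⟩
      π := zetaP p - 1
      π_fixed := fun h hh => by
        have h1 : (cycQ p).ω h = 1 := hh.2
        rw [map_sub, map_one, ← muP_one, apply_muP, h1, Units.val_one, one_mul]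
      π_val := by rw [← muP_one]; exact val_muP_sub_one_pow one_ne_zero
      g0 := g0
      g0_mem := hg0
      g0_pow_mem := ⟨pow_mem hg0 _, hpow⟩
      gen := fun h hh => by
        obtain ⟨i, hi⟩ := Submonoid.mem_powers_iff _ _ |>.mp (hu ((cycQ p).ω h))
        refine ⟨i, (A.inertiaSubgroupIn ℚ).mul_mem ((A.inertiaSubgroupIn ℚ).inv_mem
          ((A.inertiaSubgroupIn ℚ).pow_mem hg0 i)) hh, ?_⟩
        show (cycQ p).ω _ = 1
        rw [map_mul, map_inv, map_pow, hgu, hi, inv_mul_cancel]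
      omega_eq_one := fun h hh => hh.2 }
  refine ⟨D, rfl, fun h1 => ?_⟩
  change (cycQ p).ω g0 = 1 at h1
  rw [hgu] at h1
  obtain ⟨i, hi⟩ := Submonoid.mem_powers_iff _ _ |>.mp (hu (-1))
  rw [h1, one_pow] at hi
  have h2 : (-1 : ZMod p) = 1 := by
    have := congrArg Units.val hi
    simpa using this.symm
  exact two_ne_zero_of_charP (k := ZMod p) (p := p) hp2 (by linear_combination -h2)

theorem omega_mul_apply (L : k →+ ZMod p) (a : ZMod p) (x : k) :
    a * L x = L (ZMod.castHom (dvd_refl p) k a * x) := by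
  conv_rhs => rw [← ZMod.natCast_zmod_val a, map_natCast, ← nsmul_eq_mul, map_nsmul, nsmul_eq_mul,
    ZMod.natCast_zmod_val]

theorem omegaK_ne_zero (σ : GQ) : omegaK p k σ ≠ 0 := by
  rw [omegaK, map_ne_zero]
  exact Units.ne_zero _

/-- Homomorphisms of the level with the cyclotomic twist which no model moves with large
break. -/
structure OrdFun (D : TameLvl A p) (F : GQ → k) : Prop where
  hom : ∀ g ∈ D.Γ0, ∀ h ∈ D.Γ0, F (g * h) = F g + F h
  const : ∃ U ∈ lvQ, ∀ g ∈ D.Γ0, ∀ s ∈ D.Γ0, s ∈ U → F (g * s) = F g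
  conj : ∀ h ∈ D.Γ0, omegaK p k D.g0 * F (D.g0⁻¹ * h * D.g0) = F h
  model : ∀ (L : k →+ ZMod p) (b : ℕ), (∃ h ∈ D.Γ0, L (F h) = 1) →
    D.HasBreak (compFam p F L) b → p * D.T ≤ b → False

variable {D : TameLvl A p}

theorem OrdFun.exists_root {F : GQ → k} (hF : OrdFun D F) (L : k →+ ZMod p) :
    ∃ r, D.IsRoot (compFam p F L) r := D.exists_isRoot_comp F L hF.hom hF.const

/-- The homomorphisms of an ordinary function have level at least `M`. -/
theorem OrdFun.allLev {F : GQ → k} (hF : OrdFun D F) : D.AllLev (compFam p F) D.M := by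
  have hp := hpf.out
  have h1 : D.AllLev (compFam p F) 1 := by
    intro L
    obtain ⟨r, hr⟩ := hF.exists_root L
    obtain ⟨n, hn⟩ := TameLvl.exists_hasVal hr
    rcases eq_or_ne n 0 with rfl | hn0
    · exact hn.hasLev_one
    by_cases hz : ∀ h ∈ D.Γ0, compFam p F L h = 0
    · exact TameLvl.hasLev_of_forall_eq_zero hz 1
    exfalso
    push Not at hz
    obtain ⟨h, hh, hne⟩ := hz
    refine hF.model L _ ⟨h ^ ((compFam p F L h)⁻¹).val, pow_mem hh _, ?_⟩ (hn.hasBreak hn0) le_rfl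
    show compFam p F L _ = 1
    rw [hr.map_pow hh, ZMod.natCast_val, ZMod.cast_id, inv_mul_cancel₀ hne]
  have hM : D.M ≤ p * D.T := by
    rw [D.M_eq]
    exact Nat.mul_le_mul_right _ (Nat.sub_le p 1)
  refine h1.climb one_ne_zero D.M_pos hM fun i hi1 hiM hdvd hlev L => ?_
  have hiT : i < p * D.T := hiM.trans_le hM
  have e := D.leadAt_twist_inertia D.g0_mem hdvd hiT (hlev L) (ψ := compFam p F L) fun g hg => by
    rw [TameLvl.twist, compFam_apply, compFam_apply, omega_mul_apply]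
    exact congrArg L (hF.conj g hg)
  by_contra hne
  have ht : tame A D.g0 D.π ^ i = 1 := by
    refine mul_left_cancel₀ hne ?_
    rw [mul_one]
    exact e.symm
  exact absurd (Nat.le_of_dvd (by omega) (D.dvd_of_tame_pow_eq_one ht)) (not_le.mpr hiM)

theorem eq_zero_of_leadFam_top (hT : D.T = 1) {F : GQ → k}
    (h : D.AllLev (compFam p F) D.M) (h0 : leadFam D F D.M = 0) : ∀ g ∈ D.Γ0, F g = 0 := by
  have hp := hpf.out
  have hM : D.M = p - 1 := by rw [D.M_eq, hT, mul_one]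
  refine eq_zero_of_leadFam (fun x => p_smul_eq_zero (k := k) x) D.M_pos.ne'
    (by rw [hM, hT, mul_one]; omega) h fun i h1 h2 _ _ => ?_
  rw [hT, mul_one] at h2
  obtain rfl : i = D.M := by omega
  exact h0

/-- The upper right entry of a cochain. -/
def fOf (c : GQ → sl2 k) (g : GQ) : k := (c g : M2 k) 0 1

theorem sl2_apply_one_one (X : sl2 k) : (X : M2 k) 1 1 = -(X : M2 k) 0 0 := by
  have h := mem_sl2.mp X.2
  linear_combination h

section Rules

variable (hord : OrdShape p A rb) {c : GQ → sl2 k} (hc : c ∈ Z1 lvQ (adRep rb))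
  {g : GQ} (hg : g ∈ A.decompositionSubgroup ℚ) (h : GQ)
include hord hc hg

theorem lower_mul : ((c (g * h) : M2 k) 1 0 - (c g : M2 k) 1 0) * rb g 0 0 =
    rb g 1 1 * (c h : M2 k) 1 0 := by
  have e := congrFun (congrFun (coe_cocycle_mul hc g h) 1) 0
  simp [mul_apply, Fin.sum_univ_two, hord.upper g hg] at e
  linear_combination e

theorem diag_mul : ((c (g * h) : M2 k) 0 0 - (c g : M2 k) 0 0) * rb g 0 0 =
    rb g 0 0 * (c h : M2 k) 0 0 + rb g 0 1 * (c h : M2 k) 1 0 := by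
  have e := congrFun (congrFun (coe_cocycle_mul hc g h) 0) 0
  simp [mul_apply, Fin.sum_univ_two, hord.upper g hg] at e
  linear_combination e

omit hpf [CharP k p] hord hg in
theorem upper_mul : ((c (g * h) : M2 k) 0 0 - (c g : M2 k) 0 0) * rb g 0 1 +
    (fOf c (g * h) - fOf c g) * rb g 1 1 =
      rb g 0 0 * fOf c h - rb g 0 1 * (c h : M2 k) 0 0 := by
  have e := congrFun (congrFun (coe_cocycle_mul hc g h) 0) 1
  simp [mul_apply, Fin.sum_univ_two, sl2_apply_one_one] at e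
  simp only [fOf]
  linear_combination e

end Rules

theorem diag_ne_zero (hdet : DetCyc p rb) (hord : OrdShape p A rb) {σ : GQ}
    (hσ : σ ∈ A.decompositionSubgroup ℚ) : rb σ 0 0 ≠ 0 ∧ rb σ 1 1 ≠ 0 := by
  have h := det_eq_omegaK hdet σ
  rw [det_fin_two, hord.upper σ hσ, mul_zero, sub_zero] at h
  exact mul_ne_zero_iff.mp (h ▸ omegaK_ne_zero (p := p) σ)

theorem det_upper (hdet : DetCyc p rb) (hord : OrdShape p A rb) {σ : GQ}
    (hσ : σ ∈ A.decompositionSubgroup ℚ) : rb σ 0 0 * rb σ 1 1 = omegaK p k σ := by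
  have h := det_eq_omegaK hdet σ
  rwa [det_fin_two, hord.upper σ hσ, mul_zero, sub_zero] at h

/-- The hypotheses of the ordinary case. -/
structure OrdCase (p : ℕ) [Fact p.Prime] [CharP k p] (rb : GQ →* M2 k)
    (D : TameLvl A p) : Prop where
  det : DetCyc p rb
  shape : OrdShape p A rb
  finLvl : ∃ U ∈ lvQ, ∀ s ∈ U, rb s = 1
  T_eq : D.T = 1
  g0_ne : (cycQ p).ω D.g0 ≠ 1

theorem omegaK_eq_one_of_mem_Γ0 {h : GQ} (hh : h ∈ D.Γ0) : omegaK p k h = 1 := by
  rw [omegaK, D.omega_eq_one h hh, Units.val_one, map_one]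

omit [CharP k p] in
/-- Cocycles which are upper, unramified on the diagonal and zero on the level and its generator
vanish on inertia. -/
theorem eq_zero_inertia_of_zero_lvl {c : GQ → sl2 k} (hc : c ∈ Z1 lvQ (adRep rb))
    (h0 : ∀ h ∈ D.Γ0, c h = 0) (hg0 : c D.g0 = 0) :
    ∀ τ ∈ A.inertiaSubgroupIn ℚ, c τ = 0 := by
  intro τ hτ
  obtain ⟨i, h, hh, rfl⟩ := D.exists_inertia_eq hτ
  have hpow : ∀ i : ℕ, c (D.g0 ^ i) = 0 := fun i => by
    induction i with
    | zero => rw [pow_zero]; exact Z1_apply_one hc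
    | succ i ih => rw [pow_succ, (mem_Z1.1 hc).2, hg0, map_zero, zero_add, ih]
  rw [(mem_Z1.1 hc).2, h0 h hh, map_zero, zero_add, hpow]

omit hpf [CharP k p] in
theorem sl2_eq_zero_of_entries {X : sl2 k} (h00 : (X : M2 k) 0 0 = 0) (h01 : (X : M2 k) 0 1 = 0)
    (h10 : (X : M2 k) 1 0 = 0) : X = 0 := by
  ext i j
  fin_cases i <;> fin_cases j <;> simp [h00, h01, h10, sl2_apply_one_one]

variable (hO : OrdCase p rb D)
include hO

theorem OrdCase.rb_Γ0 {h : GQ} (hh : h ∈ D.Γ0) : rb h 0 0 = 1 ∧ rb h 1 1 = 1 ∧ rb h 1 0 = 0 :=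
  ⟨(hO.shape.i00 h (D.le_inertia hh)).trans (omegaK_eq_one_of_mem_Γ0 hh),
      hO.shape.i11 h (D.le_inertia hh),
    hO.shape.upper h (inertia_le_decomposition (D.le_inertia hh))⟩

theorem OrdCase.rb_g0 : rb D.g0 0 0 = omegaK p k D.g0 ∧ rb D.g0 1 1 = 1 ∧
    rb D.g0 1 0 = 0 ∧ omegaK p k D.g0 - 1 ≠ 0 :=
  ⟨hO.shape.i00 _ D.g0_mem, hO.shape.i11 _ D.g0_mem,
    hO.shape.upper _ (inertia_le_decomposition D.g0_mem), fun h => hO.g0_ne (Units.ext (by
      refine (ZMod.castHom (dvd_refl p) k).injective ?_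
      rw [Units.val_one, map_one]
      exact sub_eq_zero.mp h))⟩

theorem OrdCase.diag_add {c : GQ → sl2 k} (hc : c ∈ Z1 lvQ (adRep rb))
    {g h : GQ} (hg : g ∈ A.decompositionSubgroup ℚ) (hh : (c h : M2 k) 1 0 = 0) :
    (c (g * h) : M2 k) 0 0 = (c g : M2 k) 0 0 + (c h : M2 k) 0 0 := by
  have e := diag_mul hO.shape hc hg h
  rw [hh, mul_zero, add_zero] at e
  have h0 := (diag_ne_zero hO.det hO.shape hg).1
  have : (c (g * h) : M2 k) 0 0 - (c g : M2 k) 0 0 = (c h : M2 k) 0 0 :=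
    mul_right_cancel₀ h0 (by linear_combination e)
  linear_combination this

/-- Upper cocycles with trivial diagonal: the rule for the upper entry. -/
theorem OrdCase.fOf_mul {c : GQ → sl2 k} (hc : c ∈ Z1 lvQ (adRep rb)) {g h : GQ}
    (hg : g ∈ A.decompositionSubgroup ℚ) (hh : (c h : M2 k) 1 0 = 0) (hd : (c h : M2 k) 0 0 = 0) :
    (fOf c (g * h) - fOf c g) * rb g 1 1 = rb g 0 0 * fOf c h := by
  have e := upper_mul (g := g) hc h
  rw [hO.diag_add hc hg hh, hd, add_zero, sub_self, zero_mul, zero_add, mul_zero, sub_zero] at e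
  exact e

/-- An upper cocycle with zero diagonal which vanishes on inertia vanishes. -/
theorem OrdCase.eq_zero_of_inertia_dec {c : GQ → sl2 k} (hc : c ∈ Z1 lvQ (adRep rb))
    (hq : ∀ σ ∈ A.decompositionSubgroup ℚ, (c σ : M2 k) 1 0 = 0)
    (hd : ∀ σ ∈ A.decompositionSubgroup ℚ, (c σ : M2 k) 0 0 = 0)
    (hI : ∀ τ ∈ A.inertiaSubgroupIn ℚ, c τ = 0) {σ : GQ}
    (hσ : σ ∈ A.decompositionSubgroup ℚ) : c σ = 0 := by
  refine sl2_eq_zero_of_entries (hd σ hσ) ?_ (hq σ hσ)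
  have hg := inertia_le_decomposition D.g0_mem
  obtain ⟨hα, hβ, -, hn⟩ := hO.rb_g0
  -- the element `g0 * σ` is `σ` times inertia
  have hconj : σ⁻¹ * D.g0 * σ ∈ A.inertiaSubgroupIn ℚ := by
    simpa using conj_mem_inertia (inv_mem hσ) D.g0_mem
  have e1 := hO.fOf_mul hc hg (hq σ hσ) (hd σ hσ)
  have e2 : c (D.g0 * σ) = c σ := by
    rw [show D.g0 * σ = σ * (σ⁻¹ * D.g0 * σ) by group, (mem_Z1.1 hc).2, hI _ hconj, map_zero,
      zero_add]
  simp only [fOf, e2, hI _ D.g0_mem, hα, hβ, Submodule.coe_zero, Matrix.zero_apply, sub_zero,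
    mul_one] at e1
  show (c σ : M2 k) 0 1 = 0
  exact (mul_eq_zero.mp (by linear_combination -e1 :
    (omegaK p k D.g0 - 1) * (c σ : M2 k) 0 1 = 0)).resolve_left hn

section Model

variable [Finite k] (hA : A.LiesOverPrime p) (hp2 : p ≠ 2)
include hA hp2

/-- The connected points inside the residual module lie in the line. -/
theorem OrdCase.snd_mem_line {c : GQ → M2 k}
    {P : FnModel A (A.decompositionSubgroup ℚ) (vAct rb c)} (hP : P.Sep) {w : Fin 2 → k}
    (hw : ((0, w) : (Fin 2 → k) × (Fin 2 → k)) ∈ P.conn) : w 1 = 0 := by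
  set Q := P.restrict (inSnd k) fun σ _ u => inSnd_wAct c σ u with hQ
  have hQsep : Q.Sep := P.sep_restrict hP _ _ fun a b e => congrArg Prod.snd e
  let N : AddSubgroup (Fin 2 → k) := (Pi.evalAddMonoidHom (fun _ => k) 1).ker
  refine Q.mem_of_fixed_mod hpf.out hp2 hA hQsep (fun σ hσ => inertia_le_decomposition hσ) (N := N)
    (fun σ hσ u hu => ?_) (fun σ _ => wAct_add rb σ) ?_ ?_ fun σ hσ => ?_
  · show (rb σ *ᵥ u) 1 = 0
    simp [mulVec, dotProduct, Fin.sum_univ_two, hO.shape.upper σ hσ, show u 1 = 0 from hu]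
  · rw [FnModel.mem_conn]
    rintro f ⟨f', hf', rfl⟩
    exact P.mem_conn.mp hw f' hf'
  · show (p • w) 1 = 0
    rw [p_smul_eq_zero (k := k)]
    rfl
  · show (rb σ *ᵥ w - w) 1 = 0
    simp [hO.shape.upper σ (inertia_le_decomposition hσ),
      hO.shape.i11 σ hσ]

/-- A deformation with a model: lower entry zero and diagonal unramified, after normalising. -/
theorem OrdCase.lower_diag_eq_zero {c : GQ → sl2 k} (hc : c ∈ Z1 lvQ (adRep rb))
    (hq0 : (c D.g0 : M2 k) 1 0 = 0)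
    (hM : HasModel A (A.decompositionSubgroup ℚ) (vAct rb fun g => (c g : M2 k))) :
    (∀ σ ∈ A.decompositionSubgroup ℚ, (c σ : M2 k) 1 0 = 0) ∧
      ∀ τ ∈ A.inertiaSubgroupIn ℚ, (c τ : M2 k) 0 0 = 0 := by
  have hp := hpf.out
  obtain ⟨P, hP⟩ := hM
  obtain ⟨hn00, hn11, hn10, hn⟩ := hO.rb_g0
  set n := omegaK p k D.g0
  have hgD := inertia_le_decomposition D.g0_mem
  have hmove : ∀ σ ∈ A.inertiaSubgroupIn ℚ, ∀ u : Fin 2 → k,
      ((rb σ *ᵥ u - u, (c σ : M2 k) *ᵥ (rb σ *ᵥ u)) : (Fin 2 → k) × (Fin 2 → k)) ∈ P.conn :=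
    fun σ hσ u => by
      have h := P.act_sub_mem_conn (inertia_le_decomposition hσ) hσ (u, 0)
      simpa [vAct] using h
  have hq : ∀ h ∈ D.Γ0, (c h : M2 k) 1 0 = 0 := by
    intro h hh
    obtain ⟨h00, h11, h10⟩ := hO.rb_Γ0 hh
    have h1 := hmove h (D.le_inertia hh) ![1, 0]
    have e1 : rb h *ᵥ ![1, 0] = ![1, 0] := by
      ext i; fin_cases i <;> simp [mulVec, dotProduct, Fin.sum_univ_two, h00, h10]
    rw [e1, sub_self] at h1
    simpa [mulVec, dotProduct, Fin.sum_univ_two] using hO.snd_mem_line hA hp2 hP h1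
  have hd : ∀ h ∈ D.Γ0, (c h : M2 k) 0 0 = 0 := by
    intro h hh
    obtain ⟨h00, h11, h10⟩ := hO.rb_Γ0 hh
    set r := rb h 0 1 with hr
    have h1 := hmove h (D.le_inertia hh) ![0, 1]
    have h2 := hmove D.g0 D.g0_mem ![r / (n - 1), 0]
    have e1 : rb h *ᵥ ![0, 1] - ![0, 1] = rb D.g0 *ᵥ ![r / (n - 1), 0] - ![r / (n - 1), 0] := by
      ext i
      fin_cases i
      · simp [hn00, ← hr]
        field_simp [hn]
      · simp [hn10, h11]
    have h3 := P.conn.sub_mem h1 h2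
    rw [Prod.mk_sub_mk, e1, sub_self] at h3
    have h4 := hO.snd_mem_line hA hp2 hP h3
    simp [hn10, h11, hq0, hq h hh, sl2_apply_one_one] at h4
    exact h4
  have hqpow : ∀ i : ℕ, (c (D.g0 ^ i) : M2 k) 1 0 = 0 := fun i => by
    induction i with
    | zero => simp [Z1_apply_one hc]
    | succ i ih =>
      have e := lower_mul hO.shape hc (pow_mem hgD i) D.g0
      rw [hq0, mul_zero, ih, sub_zero, ← pow_succ] at e
      exact (mul_eq_zero.mp e).resolve_right (diag_ne_zero hO.det hO.shape (pow_mem hgD i)).1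
  have hdg : (c D.g0 : M2 k) 0 0 = 0 := by
    have hi : ∀ i : ℕ, (c (D.g0 ^ i) : M2 k) 0 0 = i * (c D.g0 : M2 k) 0 0 := fun i => by
      induction i with
      | zero => simp [Z1_apply_one hc]
      | succ i ih =>
        rw [pow_succ, hO.diag_add hc (pow_mem hgD i) hq0, ih]
        push_cast
        ring
    have h1 := hi D.M
    rw [hd _ D.g0_pow_mem] at h1
    refine (mul_eq_zero.mp h1.symm).resolve_left ?_
    rw [CharP.cast_eq_zero_iff k p]
    exact D.p_not_dvd_M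
  have hqI : ∀ τ ∈ A.inertiaSubgroupIn ℚ, (c τ : M2 k) 1 0 = 0 := by
    intro τ hτ
    obtain ⟨i, h, hh, rfl⟩ := D.exists_inertia_eq hτ
    have e := lower_mul hO.shape hc (pow_mem hgD i) h
    rw [hq h hh, mul_zero, hqpow, sub_zero] at e
    exact (mul_eq_zero.mp e).resolve_right (diag_ne_zero hO.det hO.shape (pow_mem hgD i)).1
  refine ⟨fun σ hσ => ?_, fun τ hτ => ?_⟩
  · have hconj : σ⁻¹ * D.g0 * σ ∈ A.inertiaSubgroupIn ℚ := by
      simpa using conj_mem_inertia (inv_mem hσ) D.g0_mem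
    have e1 := lower_mul hO.shape hc hgD σ
    have e2 := lower_mul hO.shape hc hσ (σ⁻¹ * D.g0 * σ)
    rw [hqI _ hconj, mul_zero, show σ * (σ⁻¹ * D.g0 * σ) = D.g0 * σ by group] at e2
    have e3 := sub_eq_zero.mp
      ((mul_eq_zero.mp e2).resolve_right (diag_ne_zero hO.det hO.shape hσ).1)
    rw [e3, hq0, sub_zero, hn00, hn11, one_mul] at e1
    exact (mul_eq_zero.mp (by linear_combination e1 :
      (n - 1) * (c σ : M2 k) 1 0 = 0)).resolve_left hn
  · obtain ⟨i, h, hh, rfl⟩ := D.exists_inertia_eq hτ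
    rw [hO.diag_add hc (pow_mem hgD i) (hq h hh), hd h hh, add_zero]
    induction i with
    | zero => simp [Z1_apply_one hc]
    | succ i ih =>
      rw [pow_succ, hO.diag_add hc (pow_mem hgD i) hq0, hdg, add_zero]
      exact ih (mul_mem (pow_mem D.g0_mem i) (D.le_inertia hh))

omit hA hp2

/-- The upper entry of an upper cocycle with unramified diagonal and a model is an ordinary
function. -/
theorem OrdCase.ordFun_fOf {c : GQ → sl2 k} (hc : c ∈ Z1 lvQ (adRep rb))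
    (hq : ∀ σ ∈ A.decompositionSubgroup ℚ, (c σ : M2 k) 1 0 = 0)
    (hd : ∀ τ ∈ A.inertiaSubgroupIn ℚ, (c τ : M2 k) 0 0 = 0)
    (hM : HasModel A (A.decompositionSubgroup ℚ) (vAct rb fun g => (c g : M2 k))) :
    OrdFun D (fOf c) where
  hom g hg h hh := by
    obtain ⟨g00, g11, -⟩ := hO.rb_Γ0 hg
    have e := hO.fOf_mul hc (inertia_le_decomposition (D.le_inertia hg))
      (hq h (inertia_le_decomposition (D.le_inertia hh))) (hd h (D.le_inertia hh))
    rw [g00, g11] at e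
    linear_combination e
  const := by
    obtain ⟨⟨U, hU, hconst⟩, -⟩ := mem_Z1.1 hc
    exact ⟨U, hU, fun g _ s _ hs => by rw [fOf, fOf, hconst g s hs]⟩
  conj h hh := by
    obtain ⟨hn00, hn11, -, -⟩ := hO.rb_g0
    obtain ⟨h00, h11, -⟩ := hO.rb_Γ0 hh
    have hh' : D.g0⁻¹ * h * D.g0 ∈ D.Γ0 := by
      simpa using D.conj_mem _ (inv_mem (inertia_le_decomposition D.g0_mem)) h hh
    have hgD := inertia_le_decomposition D.g0_mem
    have e1 := hO.fOf_mul hc hgD (hq _ (inertia_le_decomposition (D.le_inertia hh')))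
      (hd _ (D.le_inertia hh'))
    have e2 := hO.fOf_mul hc (inertia_le_decomposition (D.le_inertia hh)) (hq _ hgD)
      (hd _ D.g0_mem)
    rw [show D.g0 * (D.g0⁻¹ * h * D.g0) = h * D.g0 by group, hn00, hn11] at e1
    rw [h00, h11] at e2
    linear_combination e2 - e1
  model L b := by
    rintro ⟨h1, h1mem, h11⟩ hb hbT
    obtain ⟨P, hP⟩ := hM
    let U : AddSubgroup ((Fin 2 → k) × (Fin 2 → k)) :=
      { carrier := {u | u.1 1 = 0 ∧ u.2 1 = 0}
        zero_mem' := ⟨rfl, rfl⟩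
        add_mem' := fun {u u'} hu hu' => ⟨by simp [hu.1, hu'.1], by simp [hu.2, hu'.2]⟩
        neg_mem' := fun {u} hu => ⟨by simp [hu.1], by simp [hu.2]⟩ }
    let ℓ : (Fin 2 → k) × (Fin 2 → k) →+ ZMod p :=
      L.comp ((Pi.evalAddMonoidHom (fun _ => k) 0).comp (AddMonoidHom.snd _ _))
    refine D.false_of_large_break (P := P) hP
      (fun h hh => inertia_le_decomposition (D.le_inertia hh)) (p_smul_eq_zero (k := k))
      (fun h _ => vAct_add rb _ h) (U := U) (fun h hh u hu => ?_) ℓ (x := (![0, 1], 0))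
      (y := (0, ![fOf c h1, 0])) (by constructor <;> rfl) (by simpa [ℓ] using h11) (fun h hh => ?_)
      h1mem h11 hb hbT
    · obtain ⟨h00, h11', h10⟩ := hO.rb_Γ0 hh
      have hz : (c h : M2 k) 0 0 = 0 := hd h (D.le_inertia hh)
      have hz' : (c h : M2 k) 1 0 = 0 := hq h (inertia_le_decomposition (D.le_inertia hh))
      obtain ⟨hu1, hu2⟩ := hu
      refine Prod.ext (funext fun i => ?_) (funext fun i => ?_) <;>
        fin_cases i <;>
        simp [vAct, h00, h11', h10, hz, hz', hu1, hu2]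
    · obtain ⟨h00, h11', h10⟩ := hO.rb_Γ0 hh
      have hz : (c h : M2 k) 0 0 = 0 := hd h (D.le_inertia hh)
      have hz' : (c h : M2 k) 1 0 = 0 := hq h (inertia_le_decomposition (D.le_inertia hh))
      refine ⟨⟨?_, ?_⟩, ?_⟩
      · simp [vAct, h11']
      · simp [vAct, h11', hz', hz, sl2_apply_one_one]
      · simp [ℓ, vAct, compFam_apply, fOf, h11', hz]

/-- The upper entry of the residual representation with a model is an ordinary function. -/
theorem OrdCase.ordFun_residual (hM : HasModel A (A.decompositionSubgroup ℚ) (wAct rb)) :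
    OrdFun D (fun g => rb g 0 1) where
  hom g hg h hh := by
    obtain ⟨g00, g11, -⟩ := hO.rb_Γ0 hg
    obtain ⟨h00, h11, -⟩ := hO.rb_Γ0 hh
    simp [map_mul, mul_apply, Fin.sum_univ_two, g00, h11, add_comm]
  const := by
    obtain ⟨U, hU, hrb⟩ := hO.finLvl
    exact ⟨U, hU, fun g _ s _ hs => by simp [map_mul, hrb s hs]⟩
  conj h hh := by
    obtain ⟨hn00, hn11, -, -⟩ := hO.rb_g0
    obtain ⟨h00, h11, -⟩ := hO.rb_Γ0 hh
    have hh' : D.g0⁻¹ * h * D.g0 ∈ D.Γ0 := by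
      simpa using D.conj_mem _ (inv_mem (inertia_le_decomposition D.g0_mem)) h hh
    obtain ⟨h00', h11', -⟩ := hO.rb_Γ0 hh'
    have e := congrFun (congrFun (congrArg rb
      (show D.g0 * (D.g0⁻¹ * h * D.g0) = h * D.g0 by group)) 0) 1
    rw [map_mul rb D.g0, map_mul rb h] at e
    generalize rb (D.g0⁻¹ * h * D.g0) = R' at e h00' h11' ⊢
    simp [mul_apply, Fin.sum_univ_two, hn00, hn11, h00, h11'] at e
    linear_combination e
  model L b := by
    rintro ⟨h1, h1mem, h11⟩ hb hbT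
    obtain ⟨P, hP⟩ := hM
    let U : AddSubgroup (Fin 2 → k) := (Pi.evalAddMonoidHom (fun _ => k) 1).ker
    let ℓ : (Fin 2 → k) →+ ZMod p := L.comp (Pi.evalAddMonoidHom (fun _ => k) 0)
    refine D.false_of_large_break (P := P) hP
      (fun h hh => inertia_le_decomposition (D.le_inertia hh)) (p_smul_eq_zero (k := k))
      (fun h _ => wAct_add rb h) (U := U) (fun h hh u hu => ?_) ℓ (x := ![0, 1])
      (y := ![rb h1 0 1, 0]) rfl (by simpa [ℓ] using h11) (fun h hh => ?_)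
      h1mem h11 hb hbT
    · obtain ⟨h00, h11', h10⟩ := hO.rb_Γ0 hh
      have hu1 : u 1 = 0 := hu
      funext i
      fin_cases i <;>
        simp [wAct, mulVec, dotProduct, Fin.sum_univ_two, h00, h10, hu1]
    · obtain ⟨h00, h11', h10⟩ := hO.rb_Γ0 hh
      refine ⟨?_, ?_⟩
      · show ((rb h *ᵥ ![0, 1] - ![0, 1] : Fin 2 → k)) 1 = 0
        simp [h11']
      · simp [ℓ, wAct, compFam_apply]

omit [Finite k] in
/-- A coboundary normalises the lower entry at the generator to zero. -/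
theorem OrdCase.exists_normalised {c : GQ → sl2 k} :
    ∃ H : sl2 k, ((c - d0 (adRep rb) H) D.g0 : M2 k) 1 0 = 0 := by
  obtain ⟨hn00, hn11, hn10, hn⟩ := hO.rb_g0
  set n := omegaK p k D.g0
  refine ⟨⟨!![0, 0; (c D.g0 : M2 k) 1 0 * n / (1 - n), 0], by rw [mem_sl2]; simp⟩, ?_⟩
  have e := congrFun (congrFun (coe_d0_mul (rb := rb) D.g0
    ⟨!![0, 0; (c D.g0 : M2 k) 1 0 * n / (1 - n), 0], by rw [mem_sl2]; simp⟩) 1) 0
  simp [mul_apply, vecMul, dotProduct, Fin.sum_univ_two, hn00, hn11, hn10] at e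
  rw [Pi.sub_apply, Submodule.coe_sub, Matrix.sub_apply, sub_eq_zero]
  have hn0 : n ≠ 0 := omegaK_ne_zero D.g0
  have hn' : (1 - n) ≠ 0 := fun h => hn (by linear_combination -h)
  refine mul_right_cancel₀ hn0 ?_
  rw [e]
  field_simp

/-- The cocycles containing all deformations with a model. -/
def OrdCase.Z (_hO : OrdCase p rb D) : Submodule k (GQ → sl2 k) where
  carrier := {c | c ∈ Z1 lvQ (adRep rb) ∧
    (∀ σ ∈ A.decompositionSubgroup ℚ, (c σ : M2 k) 1 0 = 0) ∧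
    (∀ τ ∈ A.inertiaSubgroupIn ℚ, (c τ : M2 k) 0 0 = 0) ∧ D.AllLev (compFam p (fOf c)) D.M}
  zero_mem' := ⟨zero_mem _, fun _ _ => rfl, fun _ _ => rfl, allLev_compFam_zero D.M⟩
  add_mem' := fun {a b} ha hb => ⟨add_mem ha.1 hb.1,
    fun σ hσ => by simp [ha.2.1 σ hσ, hb.2.1 σ hσ],
    fun τ hτ => by simp [ha.2.2.1 τ hτ, hb.2.2.1 τ hτ],
    allLev_compFam_congr (allLev_compFam_add D.M_pos.ne' ha.2.2.2 hb.2.2.2) fun g _ => rfl⟩
  smul_mem' := fun t a ha => ⟨Submodule.smul_mem _ t ha.1,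
    fun σ hσ => by simp [ha.2.1 σ hσ], fun τ hτ => by simp [ha.2.2.1 τ hτ],
    allLev_compFam_congr (allLev_compFam_map ha.2.2.2 (AddMonoidHom.mulLeft t)) fun g _ => rfl⟩

/-- The part of `OrdCase.Z` with trivial diagonal. -/
def OrdCase.Z0 (hO : OrdCase p rb D) : Submodule k (GQ → sl2 k) where
  carrier := {c | c ∈ hO.Z ∧ ∀ σ ∈ A.decompositionSubgroup ℚ, (c σ : M2 k) 0 0 = 0}
  zero_mem' := ⟨zero_mem _, fun _ _ => rfl⟩
  add_mem' := fun {a b} ha hb => ⟨add_mem ha.1 hb.1, fun σ hσ => by simp [ha.2 σ hσ, hb.2 σ hσ]⟩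
  smul_mem' := fun t a ha => ⟨Submodule.smul_mem _ t ha.1, fun σ hσ => by simp [ha.2 σ hσ]⟩

omit [Finite k] in
/-- The coboundary of an upper traceless matrix. -/
theorem OrdCase.d0_upper (a t : k) {σ : GQ} (hσ : σ ∈ A.decompositionSubgroup ℚ) :
    (d0 (adRep rb) ⟨!![a, t; 0, -a], by rw [mem_sl2]; simp⟩ σ : M2 k) 1 0 = 0 ∧
    (d0 (adRep rb) ⟨!![a, t; 0, -a], by rw [mem_sl2]; simp⟩ σ : M2 k) 0 0 = 0 ∧
    fOf (d0 (adRep rb) ⟨!![a, t; 0, -a], by rw [mem_sl2]; simp⟩) σ * rb σ 1 1 =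
      t * (rb σ 0 0 - rb σ 1 1) - 2 * rb σ 0 1 * a := by
  obtain ⟨hα, hβ⟩ := diag_ne_zero hO.det hO.shape hσ
  set X : sl2 k := d0 (adRep rb) ⟨!![a, t; 0, -a], by rw [mem_sl2]; simp⟩ σ
  have e := coe_d0_mul (rb := rb) σ ⟨!![a, t; 0, -a], by rw [mem_sl2]; simp⟩
  have e10 := congrFun (congrFun e 1) 0
  have e00 := congrFun (congrFun e 0) 0
  have e01 := congrFun (congrFun e 0) 1
  simp [mul_apply, vecMul, dotProduct, Fin.sum_univ_two, hO.shape.upper σ hσ] at e10 e00 e01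
  have h10 : (X : M2 k) 1 0 = 0 := e10.resolve_right hα
  have h00 : (X : M2 k) 0 0 = 0 := (mul_eq_zero.mp (by linear_combination e00 :
    (X : M2 k) 0 0 * rb σ 0 0 = 0)).resolve_right hα
  refine ⟨h10, h00, ?_⟩
  show (X : M2 k) 0 1 * rb σ 1 1 = _
  linear_combination e01 - rb σ 0 1 * h00

include hA in
/-- The classes with trivial diagonal are counted by leading coefficients. -/
theorem OrdCase.finrank_Z0 {Φ : GQ} (hΦ : A.IsFrobeniusAt Φ p) (W : Submodule k hO.Z0)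
    (hW : ∀ w ∈ W, classMap A rb w = 0)
    (hWinj : ∀ w ∈ W, (∀ h ∈ D.Γ0, fOf w.1 h = 0) → w = 0) :
    FiniteDimensional k (hO.Z0.map (classMap A rb)) ∧
      Module.finrank k (hO.Z0.map (classMap A rb)) + Module.finrank k W ≤ 1 := by
  have hp := hpf.out
  have hΦD := (Gal.isFrobeniusAt_iff.1 hΦ).1
  have : CharP κ p := Gal.residueField_charP hp hA
  have : IsAlgClosed κ := Gal.residueField_isAlgClosed
  have hM : D.M = p - 1 := by rw [D.M_eq, hO.T_eq, mul_one]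
  have hjT : D.M < p * D.T := by rw [hM, hO.T_eq, mul_one]; have := hp.two_le; omega
  set β := rb Φ 1 1
  let F : (k →+ ZMod p) → (k →+ ZMod p) := fun L => L.comp (AddMonoidHom.mulLeft (β * β))
  set C : κ := tame A Φ D.π ^ D.M
  have hC : C ≠ 0 := pow_ne_zero _ (tame_ne_zero hΦD D.π_ne_zero)
  let S : AddSubgroup ((k →+ ZMod p) → κ) :=
    { carrier := {Λ | Λ ∈ addFun κ (k →+ ZMod p) ∧ ∀ L, Λ (F L) = C * Λ L ^ p}
      zero_mem' := ⟨zero_mem _, fun L => by simp [zero_pow hp.ne_zero]⟩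
      add_mem' := fun {a b} ha hb => ⟨add_mem ha.1 hb.1, fun L => by
        simp [ha.2 L, hb.2 L, add_pow_char, mul_add]⟩
      neg_mem' := fun {a} ha => ⟨neg_mem ha.1, fun L => by
        simp [ha.2 L, (hp.odd_of_ne_two D.p_ne_two).neg_pow]⟩ }
  let Ψ : hO.Z0 →+ ((k →+ ZMod p) → κ) := AddMonoidHom.mk'
    (fun c => leadFam D (fOf c.1) D.M) fun a b =>
      leadFam_add D.p_not_dvd_M hjT a.2.1.2.2.2 b.2.1.2.2.2
  have hΨS : ∀ c, Ψ c ∈ S := fun c => by
    obtain ⟨⟨hc1, hq, hd, hlev⟩, hd0⟩ := c.2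
    refine ⟨leadFam_mem_addFun D.p_not_dvd_M hjT hlev, fun L => ?_⟩
    show D.leadAt (compFam p (fOf c.1) (F L)) D.M = _
    rw [D.leadAt_twist_frobenius hΦ D.p_not_dvd_M hjT (hlev L) fun g hg => ?_, mul_comm]
    · rfl
    have hg' : Φ⁻¹ * g * Φ ∈ D.Γ0 := by simpa using D.conj_mem _ (inv_mem hΦD) g hg
    obtain ⟨g00, g11, -⟩ := hO.rb_Γ0 hg
    have e1 := hO.fOf_mul hc1 hΦD (hq _ (inertia_le_decomposition (D.le_inertia hg')))
      (hd _ (D.le_inertia hg'))
    have e2 := hO.fOf_mul hc1 (inertia_le_decomposition (D.le_inertia hg)) (hq _ hΦD) (hd0 _ hΦD)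
    rw [show Φ * (Φ⁻¹ * g * Φ) = g * Φ by group] at e1
    rw [g00, g11] at e2
    show ((cycQ p).ω Φ : ZMod p) * L (fOf c.1 (Φ⁻¹ * g * Φ)) = L (β * β * fOf c.1 g)
    rw [omega_mul_apply]
    congr 1
    have hαβ := det_upper hO.det hO.shape hΦD
    show omegaK p k Φ * _ = _
    rw [← hαβ]
    linear_combination β * (-e1 + β * e2)
  have : Fintype k := Fintype.ofFinite k
  obtain ⟨m, -, hm⟩ := FiniteField.card k p
  have hcard : Nat.card k = p ^ (m : ℕ) := by rw [Nat.card_eq_fintype_card]; exact hm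
  have hY : Nat.card (k →+ ZMod p) ≤ p ^ (m : ℕ) := by
    rw [card_addMonoidHom_eq (p_smul_eq_zero (k := k)), hcard]
  have : Finite (k →+ ZMod p) := Finite.of_injective _ DFunLike.coe_injective
  obtain ⟨hWfin, hWdim⟩ := finrank_addFun_le (K := κ) (Y := k →+ ZMod p)
    (fun L => AddMonoidHom.ext fun x => by simp) hY
  let _ : Module (ZMod p) κ := (ZMod.algebra κ p).toModule
  obtain ⟨hSfin, hScard⟩ := finite_card_le_of_semilinear F hC S (fun Λ h => h.2)
    (addFun κ (k →+ ZMod p)) fun Λ h => h.1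
  refine finrank_map_le_of_invariant (classMap A rb) hO.Z0 Ψ (S := (S : Set _))
    (Set.toFinite _) (n := 1) ?_ hΨS (fun c hc0 => ?_) W hW fun w hw hw0 =>
      hWinj w hw (eq_zero_of_leadFam_top hO.T_eq w.2.1.2.2.2 hw0)
  · rw [pow_one, ← Nat.card_coe_set_eq]
    exact hScard.trans ((Nat.pow_le_pow_right hp.pos hWdim).trans hcard.ge)
  obtain ⟨⟨hc1, hq, hd, hlev⟩, hd0⟩ := c.2
  have hf : ∀ h ∈ D.Γ0, fOf c.1 h = 0 := eq_zero_of_leadFam_top hO.T_eq hlev hc0
  obtain ⟨hn00, hn11, -, hn⟩ := hO.rb_g0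
  set t := fOf c.1 D.g0 / (omegaK p k D.g0 - 1)
  set H : sl2 k := ⟨!![0, t; 0, -0], by rw [mem_sl2]; simp⟩
  set c' := c.1 - d0 (adRep rb) H
  have hc' : c' ∈ Z1 lvQ (adRep rb) := sub_mem hc1 (d0_mem_Z1 hO.finLvl H)
  have hq' : ∀ σ ∈ A.decompositionSubgroup ℚ, (c' σ : M2 k) 1 0 = 0 := fun σ hσ => by
    show (c.1 σ : M2 k) 1 0 - (d0 (adRep rb) H σ : M2 k) 1 0 = 0
    rw [hq σ hσ, (hO.d0_upper 0 t hσ).1, sub_zero]
  have hd' : ∀ σ ∈ A.decompositionSubgroup ℚ, (c' σ : M2 k) 0 0 = 0 := fun σ hσ => by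
    show (c.1 σ : M2 k) 0 0 - (d0 (adRep rb) H σ : M2 k) 0 0 = 0
    rw [hd0 σ hσ, (hO.d0_upper 0 t hσ).2.1, sub_zero]
  have hI : ∀ τ ∈ A.inertiaSubgroupIn ℚ, c' τ = 0 := by
    refine eq_zero_inertia_of_zero_lvl (D := D) hc' (fun h hh => ?_) ?_
    · have hhD := inertia_le_decomposition (D.le_inertia hh)
      refine sl2_eq_zero_of_entries (hd' h hhD) ?_ (hq' h hhD)
      have e := (hO.d0_upper 0 t hhD).2.2
      obtain ⟨h00, h11, -⟩ := hO.rb_Γ0 hh
      rw [h00, h11] at e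
      show fOf c.1 h - fOf (d0 (adRep rb) H) h = 0
      linear_combination hf h hh - e
    · have hgD := inertia_le_decomposition D.g0_mem
      refine sl2_eq_zero_of_entries (hd' _ hgD) ?_ (hq' _ hgD)
      have e := (hO.d0_upper 0 t hgD).2.2
      rw [hn00, hn11] at e
      show fOf c.1 D.g0 - fOf (d0 (adRep rb) H) D.g0 = 0
      have ht : t * (omegaK p k D.g0 - 1) = fOf c.1 D.g0 := div_mul_cancel₀ _ hn
      linear_combination -e - ht
  refine classMap_eq_zero H fun σ hσ => ?_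
  have h := hO.eq_zero_of_inertia_dec hc' hq' hd' hI hσ
  simp only [c', Pi.sub_apply, sub_eq_zero] at h
  exact h

omit [Finite k] in
include hA in
/-- Allowing an unramified diagonal adds at most one dimension. -/
theorem OrdCase.finrank_Z_le {n : ℕ} (hfin : FiniteDimensional k (hO.Z0.map (classMap A rb)))
    (hn : Module.finrank k (hO.Z0.map (classMap A rb)) ≤ n) :
    FiniteDimensional k (hO.Z.map (classMap A rb)) ∧
      Module.finrank k (hO.Z.map (classMap A rb)) ≤ n + 1 := by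
  have hp := hpf.out
  obtain ⟨Φ, hΦ⟩ := Gal.exists_isFrobeniusAt (A := A) hp hA
  have hΦD := (Gal.isFrobeniusAt_iff.1 hΦ).1
  have hmem0 : ∀ c ∈ hO.Z, (c Φ : M2 k) 0 0 = 0 → c ∈ hO.Z0 := by
    intro c hc hΦ0
    refine ⟨hc, fun σ hσ => ?_⟩
    obtain ⟨hc1, hq, hd, -⟩ := hc
    obtain ⟨⟨U, hU, hconst⟩, -⟩ := mem_Z1.1 hc1
    obtain ⟨i, τ, hτ, hs⟩ := exists_frob_pow_mul hpf.out hA hΦ hU hσ
    have e := hconst (Φ ^ i * τ) _ hs
    rw [mul_inv_cancel_left] at e
    have hi : ∀ i : ℕ, (c (Φ ^ i) : M2 k) 0 0 = 0 := fun i => by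
      induction i with
      | zero => simp [Z1_apply_one hc1]
      | succ i ih => rw [pow_succ, hO.diag_add hc1 (pow_mem hΦD i) (hq _ hΦD), ih, hΦ0, add_zero]
    rw [e, hO.diag_add hc1 (pow_mem hΦD i) (hq _ (inertia_le_decomposition hτ)), hi, hd τ hτ,
      add_zero]
  by_cases hz : ∀ c ∈ hO.Z, (c Φ : M2 k) 0 0 = 0
  · have e : hO.Z = hO.Z0 := le_antisymm (fun c hc => hmem0 c hc (hz c hc)) fun c hc => hc.1
    rw [e]
    exact ⟨hfin, hn.trans (Nat.le_succ n)⟩
  push Not at hz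
  obtain ⟨c₁, hc₁, hne⟩ := hz
  have hle : hO.Z.map (classMap A rb) ≤
      hO.Z0.map (classMap A rb) ⊔ (k ∙ classMap A rb c₁) := by
    rintro _ ⟨c, hc, rfl⟩
    set t := (c Φ : M2 k) 0 0 / (c₁ Φ : M2 k) 0 0
    refine Submodule.mem_sup.mpr ⟨classMap A rb (c - t • c₁), ⟨_, hmem0 _
      (sub_mem hc (Submodule.smul_mem _ t hc₁)) ?_, rfl⟩, t • classMap A rb c₁,
      Submodule.smul_mem _ t (Submodule.mem_span_singleton_self _), by simp⟩
    simp [t, hne]
  refine ⟨Submodule.finiteDimensional_of_le hle, (Submodule.finrank_mono hle).trans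
    ((Submodule.finrank_add_le_finrank_add_finrank _ _).trans (add_le_add hn ?_))⟩
  simpa using finrank_span_le_card ({classMap A rb c₁} : Set _)

omit [Finite k] in
/-- A split inertia action leaves a nonzero invariant. -/
theorem OrdCase.invariants_pos (hr : ∀ h ∈ D.Γ0, rb h 0 1 = 0) :
    ∃ H : sl2 k, H ≠ 0 ∧ H ∈ Representation.invariants
      (resRep (adRep rb) (A.decompositionSubgroup ℚ)) := by
  obtain ⟨hn00, hn11, hn10, hn⟩ := hO.rb_g0
  set t := 2 * rb D.g0 0 1 / (omegaK p k D.g0 - 1) with ht'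
  have hmem : (!![1, t; 0, -1] : M2 k) ∈ sl2 k := by rw [mem_sl2]; simp
  set H : sl2 k := ⟨!![1, t; 0, -1], hmem⟩ with hH
  have hc : d0 (adRep rb) H ∈ Z1 lvQ (adRep rb) := d0_mem_Z1 hO.finLvl H
  have hd0 : ∀ σ ∈ A.decompositionSubgroup ℚ, (d0 (adRep rb) H σ : M2 k) 1 0 = 0 ∧
      (d0 (adRep rb) H σ : M2 k) 0 0 = 0 ∧ fOf (d0 (adRep rb) H) σ * rb σ 1 1 =
        t * (rb σ 0 0 - rb σ 1 1) - 2 * rb σ 0 1 * 1 := fun σ hσ => hO.d0_upper 1 t hσ
  have hI : ∀ τ ∈ A.inertiaSubgroupIn ℚ, d0 (adRep rb) H τ = 0 := by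
    refine eq_zero_inertia_of_zero_lvl (D := D) hc (fun h hh => ?_) ?_
    · obtain ⟨e1, e2, e3⟩ := hd0 h (inertia_le_decomposition (D.le_inertia hh))
      obtain ⟨h00, h11, -⟩ := hO.rb_Γ0 hh
      rw [h00, h11, hr h hh] at e3
      exact sl2_eq_zero_of_entries e2 (show fOf (d0 (adRep rb) H) h = 0 by linear_combination e3) e1
    · obtain ⟨e1, e2, e3⟩ := hd0 _ (inertia_le_decomposition D.g0_mem)
      rw [hn00, hn11, mul_one, mul_one] at e3
      have ht : t * (omegaK p k D.g0 - 1) = 2 * rb D.g0 0 1 := div_mul_cancel₀ _ hn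
      exact sl2_eq_zero_of_entries e2 (show fOf (d0 (adRep rb) H) D.g0 = 0 by
        linear_combination e3 + ht) e1
  refine ⟨H, fun h0 => ?_, fun σ => ?_⟩
  · have h3 := congrFun (congrFun (congrArg Subtype.val h0) 0) 0
    simp [hH] at h3
  · have h := hO.eq_zero_of_inertia_dec hc (fun s hs => (hd0 s hs).1) (fun s hs => (hd0 s hs).2.1)
      hI σ.2
    rwa [d0_apply, sub_eq_zero] at h

include hp2 in
/-- A ramified extension class of the residual module spans a line of coboundaries. -/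
theorem OrdCase.exists_boundary (hW : HasModel A (A.decompositionSubgroup ℚ) (wAct rb))
    {h₀ : GQ} (hh₀ : h₀ ∈ D.Γ0) (hr₀ : rb h₀ 0 1 ≠ 0) :
    ∃ w₀ : hO.Z0, classMap A rb w₀ = 0 ∧ fOf w₀.1 h₀ ≠ 0 := by
  have hmem' : (!![(1 : k), 0; 0, -1] : M2 k) ∈ sl2 k := by rw [mem_sl2]; simp
  set H : sl2 k := ⟨!![1, 0; 0, -1], hmem'⟩ with hH
  have hd0 : ∀ σ ∈ A.decompositionSubgroup ℚ, (d0 (adRep rb) H σ : M2 k) 1 0 = 0 ∧
      (d0 (adRep rb) H σ : M2 k) 0 0 = 0 ∧ fOf (d0 (adRep rb) H) σ * rb σ 1 1 =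
        0 * (rb σ 0 0 - rb σ 1 1) - 2 * rb σ 0 1 * 1 := fun σ hσ => hO.d0_upper 1 0 hσ
  have hf : ∀ g ∈ D.Γ0, fOf (d0 (adRep rb) H) g = -2 * rb g 0 1 := fun g hg => by
    have e := (hd0 g (inertia_le_decomposition (D.le_inertia hg))).2.2
    obtain ⟨-, g11, -⟩ := hO.rb_Γ0 hg
    rw [g11] at e
    linear_combination e
  have hmem : d0 (adRep rb) H ∈ hO.Z0 := by
    refine ⟨⟨d0_mem_Z1 hO.finLvl H, fun σ hσ => (hd0 σ hσ).1,
      fun τ hτ => (hd0 τ (inertia_le_decomposition hτ)).2.1, ?_⟩, fun σ hσ => (hd0 σ hσ).2.1⟩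
    exact allLev_compFam_congr
      (allLev_compFam_map (hO.ordFun_residual hW).allLev (AddMonoidHom.mulLeft (-2)))
      fun g hg => (hf g hg).symm
  refine ⟨⟨_, hmem⟩, classMap_d0 H, ?_⟩
  show fOf (d0 (adRep rb) H) h₀ ≠ 0
  rw [hf h₀ hh₀]
  exact mul_ne_zero (neg_ne_zero.mpr (two_ne_zero_of_charP (p := p) hp2)) hr₀

include hA hp2 in
/-- The local bound in the ordinary case. -/
theorem OrdCase.exists_modelClasses (hW : HasModel A (A.decompositionSubgroup ℚ) (wAct rb)) :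
    ∃ L : Submodule k ((A.decompositionSubgroup ℚ → sl2 k) ⧸
        B1 (resRep (adRep rb) (A.decompositionSubgroup ℚ))),
      FiniteDimensional k L ∧
      Module.finrank k L ≤ Module.finrank k (Representation.invariants
        (resRep (adRep rb) (A.decompositionSubgroup ℚ))) + 1 ∧
      ∀ c ∈ Z1 lvQ (adRep rb),
        HasModel A (A.decompositionSubgroup ℚ) (vAct rb fun g => (c g : M2 k)) →
          c ∈ condAt (adRep rb) L := by
  obtain ⟨Φ, hΦ⟩ := Gal.exists_isFrobeniusAt (A := A) hpf.out hA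
  refine ⟨hO.Z.map (classMap A rb), ?_⟩
  suffices hmain : FiniteDimensional k (hO.Z.map (classMap A rb)) ∧
      Module.finrank k (hO.Z.map (classMap A rb)) ≤ Module.finrank k (Representation.invariants
        (resRep (adRep rb) (A.decompositionSubgroup ℚ))) + 1 by
    refine ⟨hmain.1, hmain.2, fun c hc hM => ?_⟩
    obtain ⟨H, hH⟩ := hO.exists_normalised (c := c)
    have hc' : c - d0 (adRep rb) H ∈ Z1 lvQ (adRep rb) := sub_mem hc (d0_mem_Z1 hO.finLvl H)
    have hM' := hM.sub_d0 H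
    obtain ⟨hq, hd⟩ := hO.lower_diag_eq_zero hA hp2 hc' hH hM'
    show classMap A rb c ∈ hO.Z.map (classMap A rb)
    refine ⟨c - d0 (adRep rb) H, ⟨hc', hq, hd, (hO.ordFun_fOf hc' hq hd hM').allLev⟩, ?_⟩
    rw [map_sub, classMap_d0, sub_zero]
  by_cases hr : ∀ h ∈ D.Γ0, rb h 0 1 = 0
  · obtain ⟨hfin, hdim⟩ := hO.finrank_Z0 hA hΦ ⊥ (fun w hw => by
      rw [Submodule.mem_bot] at hw; rw [hw]; exact map_zero _) fun w hw _ => by simpa using hw
    rw [finrank_bot, add_zero] at hdim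
    obtain ⟨h1, h2⟩ := hO.finrank_Z_le hA hfin hdim
    refine ⟨h1, h2.trans (Nat.succ_le_succ ?_)⟩
    obtain ⟨H, hH0, hH⟩ := hO.invariants_pos hr
    exact (Module.finrank_pos_iff_exists_ne_zero (R := k)).2
      ⟨⟨H, hH⟩, fun h0 => hH0 (congrArg Subtype.val h0)⟩
  · push Not at hr
    obtain ⟨h₀, hh₀, hr₀⟩ := hr
    obtain ⟨w₀, hwc, hf₀⟩ := hO.exists_boundary hp2 hW hh₀ hr₀
    have hw₀ : w₀ ≠ 0 := fun h => hf₀ (by rw [h]; rfl)
    obtain ⟨hfin, hdim⟩ := hO.finrank_Z0 hA hΦ (k ∙ w₀) (fun w hw => by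
      obtain ⟨a, rfl⟩ := Submodule.mem_span_singleton.mp hw
      rw [Submodule.coe_smul, map_smul, hwc, smul_zero]) fun w hw hw0 => by
      obtain ⟨a, rfl⟩ := Submodule.mem_span_singleton.mp hw
      have h := hw0 h₀ hh₀
      rw [show fOf (a • w₀ : hO.Z0).1 h₀ = a * fOf w₀.1 h₀ from rfl, mul_eq_zero] at h
      rw [h.resolve_right hf₀, zero_smul]
    rw [finrank_span_singleton (K := k) (V := hO.Z0) hw₀] at hdim
    obtain ⟨h1, h2⟩ := hO.finrank_Z_le hA hfin (n := 0) (by omega)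
    exact ⟨h1, h2.trans (Nat.succ_le_succ (Nat.zero_le _))⟩

end Model

end Fermat.Agent.TW.Flat
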