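import Fermat.Agent.TW.Flat.Irr
import Fermat.Agent.TW.Flat.Irreducible
import Fermat.Agent.TW.Flat.Main
import Fermat.Agent.TW.Flat.Ord

/-!
# The local bound for deformations with a model

A model of some deformation gives one of the residual module, so the residual representation has
one of the two shapes.  The bound does not depend on the frame.
This gives the local bound needed for flat deformation rings.
-/

noncomputable section

namespace Fermat.Agent.TW.Flat

open Fermat.Agent Fermat.Agent.PT Matrix
open scoped Pointwise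

local notation "Qbar" => AlgebraicClosure ℚ
local notation "GQ" => (AlgebraicClosure ℚ ≃ₐ[ℚ] AlgebraicClosure ℚ)

variable {A : ValuationSubring Qbar} {k : Type} [Field k] {rb : GQ →* M2 k}
  {P P' : M2 k} (h : P * P' = 1) (h' : P' * P = 1)

/-- Conjugation of traceless matrices. -/
def conjSl2 : sl2 k ≃ₗ[k] sl2 k where
  toFun X := ⟨P' * (X : M2 k) * P, by
    have hX : trace (X : M2 k) = 0 := X.2
    show trace (P' * (X : M2 k) * P) = 0
    rw [trace_mul_cycle, h, one_mul, hX]⟩
  map_add' X Y := Subtype.ext (by simp [mul_add, add_mul])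
  map_smul' a X := Subtype.ext (by simp)
  invFun X := ⟨P * (X : M2 k) * P', by
    have hX : trace (X : M2 k) = 0 := X.2
    show trace (P * (X : M2 k) * P') = 0
    rw [trace_mul_cycle, h', one_mul, hX]⟩
  left_inv X := Subtype.ext (by
    show P * (P' * (X : M2 k) * P) * P' = X
    simp only [mul_assoc, h, mul_one]
    rw [← mul_assoc, h, one_mul])
  right_inv X := Subtype.ext (by
    show P' * (P * (X : M2 k) * P') * P = X
    simp only [mul_assoc, h', mul_one]
    rw [← mul_assoc, h', one_mul])

theorem coe_conjSl2 (X : sl2 k) : (conjSl2 h h' X : M2 k) = P' * (X : M2 k) * P := rfl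

theorem conjSl2_adRep (g : GQ) (X : sl2 k) :
    conjSl2 h h' (adRep rb g X) = adRep (conjHom rb P P' h h') g (conjSl2 h h' X) := by
  refine Subtype.ext ?_
  rw [coe_conjSl2, coe_adRep, coe_adRep, coe_conjSl2]
  show _ = P' * rb g * P * (P' * (X : M2 k) * P) * (P' * rb g⁻¹ * P)
  calc P' * (rb g * (X : M2 k) * rb g⁻¹) * P
      = P' * rb g * 1 * (X : M2 k) * 1 * rb g⁻¹ * P := by simp [mul_assoc]
    _ = _ := by rw [← h]; simp only [mul_assoc]

/-- Classes in another frame: a space of classes for the conjugate representation gives one for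
the representation itself, of no larger dimension. -/
theorem exists_conjClasses (L : Submodule k ((A.decompositionSubgroup ℚ → sl2 k) ⧸
      B1 (resRep (adRep (conjHom rb P P' h h')) (A.decompositionSubgroup ℚ))))
    [FiniteDimensional k L] :
    ∃ L' : Submodule k ((A.decompositionSubgroup ℚ → sl2 k) ⧸
        B1 (resRep (adRep rb) (A.decompositionSubgroup ℚ))),
      FiniteDimensional k L' ∧ Module.finrank k L' ≤ Module.finrank k L ∧
      Module.finrank k (resRep (adRep (conjHom rb P P' h h'))
          (A.decompositionSubgroup ℚ)).invariants ≤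
        Module.finrank k (resRep (adRep rb) (A.decompositionSubgroup ℚ)).invariants ∧
      ∀ c : GQ → sl2 k, classMap A (conjHom rb P P' h h') (fun g => conjSl2 h h' (c g)) ∈ L →
        c ∈ condAt (adRep rb) L' := by
  let D := A.decompositionSubgroup ℚ
  let E := conjSl2 h h'
  let F : (D → sl2 k) →ₗ[k] (D → sl2 k) := E.toLinearMap.compLeft D
  have hmap : B1 (resRep (adRep rb) D) ≤
      (B1 (resRep (adRep (conjHom rb P P' h h')) D)).comap F := by
    rintro _ ⟨H, rfl⟩
    refine ⟨E H, funext fun g => ?_⟩
    show adRep (conjHom rb P P' h h') g (E H) - E H = E (adRep rb g H - H)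
    rw [map_sub, conjSl2_adRep h h']
  let Fb := Submodule.mapQ _ _ F hmap
  have hinj : Function.Injective Fb := by
    refine (injective_iff_map_eq_zero _).2 fun q hq => ?_
    obtain ⟨f, rfl⟩ := Submodule.Quotient.mk_surjective _ q
    rw [Submodule.mapQ_apply, Submodule.Quotient.mk_eq_zero] at hq
    obtain ⟨H, hH⟩ := hq
    refine (Submodule.Quotient.mk_eq_zero _).2 ⟨E.symm H, funext fun g => E.injective ?_⟩
    show E (adRep rb g (E.symm H) - E.symm H) = E (f g)
    rw [map_sub, conjSl2_adRep h h', E.apply_symm_apply]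
    exact congrFun hH g
  let r : L.comap Fb →ₗ[k] L := Fb.restrict fun _ hx => hx
  have hr : Function.Injective r := fun x y e => Subtype.ext (hinj (congrArg Subtype.val e))
  refine ⟨L.comap Fb, Module.Finite.of_injective r hr,
    LinearMap.finrank_le_finrank_of_injective hr, ?_, fun c hc => ?_⟩
  · have hI : ∀ X ∈ (resRep (adRep (conjHom rb P P' h h')) D).invariants,
        E.symm.toLinearMap X ∈ (resRep (adRep rb) D).invariants := fun X hX g =>
      E.injective (by
        show E (adRep rb g (E.symm X)) = E (E.symm X)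
        rw [conjSl2_adRep h h', E.apply_symm_apply]
        exact hX g)
    exact LinearMap.finrank_le_finrank_of_injective (f := E.symm.toLinearMap.restrict hI)
      fun x y e => Subtype.ext (E.symm.injective (congrArg Subtype.val e))
  · show Fb (Submodule.Quotient.mk (resFn (k := k) D c)) ∈ L
    erw [Submodule.mapQ_apply]
    exact hc

/-- Cocycles in another frame. -/
theorem conj_mem_Z1 {c : GQ → sl2 k} (hc : c ∈ Z1 lvQ (adRep rb)) :
    (fun g => conjSl2 h h' (c g)) ∈ Z1 lvQ (adRep (conjHom rb P P' h h')) := by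
  obtain ⟨⟨U, hU, hUc⟩, hmul⟩ := mem_Z1.1 hc
  exact mem_Z1.2 ⟨⟨U, hU, fun g s hs => congrArg (conjSl2 h h') (hUc g s hs)⟩, fun g g' => by
    show conjSl2 h h' (c (g * g')) =
      adRep (conjHom rb P P' h h') g (conjSl2 h h' (c g')) + conjSl2 h h' (c g)
    rw [hmul, map_add, conjSl2_adRep h h']⟩

/-- A deformation with a model has one in another frame. -/
theorem hasModel_vAct_conj {c : GQ → sl2 k}
    (hM : HasModel A (A.decompositionSubgroup ℚ) (vAct rb fun g => (c g : M2 k))) :
    HasModel A (A.decompositionSubgroup ℚ)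
      (vAct (conjHom rb P P' h h') fun g => (conjSl2 h h' (c g) : M2 k)) := by
  refine hM.conj h' h (fun σ _ => ?_) fun σ _ => ?_
  · show P' * rb σ = P' * rb σ * P * P'
    rw [mul_assoc, h, mul_one]
  · show P' * (c σ : M2 k) = P' * (c σ : M2 k) * P * P'
    rw [mul_assoc, h, mul_one]

/-- The residual module of a deformation with a model, in another frame. -/
theorem hasModel_wAct_conj {Γ : Subgroup GQ} (hW : HasModel A Γ (wAct rb)) :
    HasModel A Γ (wAct (conjHom rb P P' h h')) := by
  refine hW.transport
    { toFun := fun x => P' *ᵥ x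
      invFun := fun x => P *ᵥ x
      left_inv := fun x => by simp only [mulVec_mulVec, h, one_mulVec]
      right_inv := fun x => by simp only [mulVec_mulVec, h', one_mulVec]
      map_add' := fun x y => mulVec_add _ _ _ } fun σ _ x => ?_
  show P' *ᵥ (rb σ *ᵥ x) = (P' * rb σ * P) *ᵥ (P' *ᵥ x)
  rw [mulVec_mulVec, mulVec_mulVec, mul_assoc _ P, h, mul_one]

/-- The bound does not depend on the frame. -/
theorem ModelLocalBound.of_conj (hb : ModelLocalBound A (conjHom rb P P' h h')) :
    ModelLocalBound A rb := by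
  obtain ⟨L, hfin, hle, hL⟩ := hb
  obtain ⟨L', hfin', hle', hinv, hmem⟩ := exists_conjClasses h h' L
  exact ⟨L', hfin', hle'.trans (hle.trans (Nat.succ_le_succ hinv)), fun c hc hM =>
    hmem c (hL _ (conj_mem_Z1 h h' hc) (hasModel_vAct_conj h h' hM))⟩

variable {p : ℕ} [hpf : Fact p.Prime] [CharP k p] [Finite k]

omit [Finite k] in
/-- The data of the ordinary case in a frame of ordinary shape. -/
theorem exists_ordCase_conj (hA : A.LiesOverPrime p) (hp2 : p ≠ 2) (hdet : DetCyc p rb)
    (hrb : ∃ U ∈ lvQ, ∀ s ∈ U, rb s = 1) (hshape : OrdShape p A (conjHom rb P P' h h')) :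
    ∃ D : TameLvl A p, OrdCase p (conjHom rb P P' h h') D := by
  obtain ⟨D, hT, hg0⟩ := exists_ordLvl (A := A) hA hp2
  exact ⟨D,
    { det := fun g a ha => by
        show det (P' * rb g * P) = _
        rw [det_mul, det_mul, mul_right_comm, ← det_mul, h', det_one, one_mul, hdet g a ha]
      shape := hshape
      finLvl := hrb.imp fun U hU => ⟨hU.1, fun s hs => by
        show P' * rb s * P = 1
        rw [hU.2 s hs, mul_one, h']⟩
      T_eq := hT
      g0_ne := hg0 }⟩

/-- The local bound for deformations with a model. -/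
theorem exists_flatLocal (hA : A.LiesOverPrime p) (hp2 : p ≠ 2) (hdet : DetCyc p rb)
    (hrb : ∃ U ∈ lvQ, ∀ s ∈ U, rb s = 1) : ModelLocalBound A rb := by
  by_cases hex : ∃ c ∈ Z1 lvQ (adRep rb),
      HasModel A (A.decompositionSubgroup ℚ) (vAct rb fun g => (c g : M2 k))
  swap
  · refine ⟨⊥, inferInstance, by rw [finrank_bot]; exact Nat.zero_le _, fun c hc hM => ?_⟩
    exact absurd ⟨c, hc, hM⟩ hex
  obtain ⟨c, -, hM⟩ := hex
  have hW := hM.residual
  rcases residual_cases hA hp2 hdet hW with ⟨Q, Q', h1, h2, hshape⟩ | ⟨⟨S⟩⟩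
  · obtain ⟨D, hO⟩ := exists_ordCase_conj h1 h2 hA hp2 hdet hrb hshape
    exact ModelLocalBound.of_conj h1 h2 (hO.exists_modelClasses hA hp2
      (hasModel_wAct_conj h1 h2 hW))
  · exact S.exists_modelClasses hdet hrb

end Fermat.Agent.TW.Flat

end
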