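import Mathlib.FieldTheory.Finite.Basic
import Fermat.Agent.LoweringAtP.PeuRamifie.Basic
import Fermat.Agent.TW.LocalUnits

/-!
# Valuations, residues and the first-order character of inertia at a place over `p`

Valuations, residues and the tame character `σ ↦ σ z / z`. These are the tools for the
computations with integral models at `p`.
-/

noncomputable section

namespace Fermat.Agent.TW.Flat

open Fermat.Agent
open scoped Pointwise

local notation "Qbar" => AlgebraicClosure ℚ
local notation "GQ" => (AlgebraicClosure ℚ ≃ₐ[ℚ] AlgebraicClosure ℚ)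

variable {A : ValuationSubring Qbar}

local notation "v" => A.valuation
local notation "κ" => IsLocalRing.ResidueField A

theorem inertia_le_decomposition {σ : GQ} (hσ : σ ∈ A.inertiaSubgroupIn ℚ) :
    σ ∈ A.decompositionSubgroup ℚ := (Gal.mem_inertia_iff.mp hσ).1

theorem conj_mem_inertia {σ h : GQ} (hσ : σ ∈ A.decompositionSubgroup ℚ)
    (hh : h ∈ A.inertiaSubgroupIn ℚ) : σ * h * σ⁻¹ ∈ A.inertiaSubgroupIn ℚ := by
  have := Gal.conj_mem_inertia hh σ
  rwa [MulAction.mem_stabilizer_iff.mp hσ] at this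

theorem mem_iff_val_le_one {x : Qbar} : x ∈ A ↔ v x ≤ 1 := (A.valuation_le_one_iff x).symm

theorem exists_period (σ : GQ) (x : Qbar) : ∃ n : ℕ, 0 < n ∧ (σ ^ n) x = x := by
  have hne : minpoly ℚ x ≠ 0 :=
    minpoly.ne_zero (Algebra.IsAlgebraic.isAlgebraic (R := ℚ) x).isIntegral
  let g : ℕ → (minpoly ℚ x).rootSet Qbar := fun n => ⟨(σ ^ n) x, Polynomial.mem_rootSet.mpr ⟨hne, by
    show Polynomial.aeval ((σ ^ n).toAlgHom x) (minpoly ℚ x) = 0
    rw [Polynomial.aeval_algHom_apply, minpoly.aeval, map_zero]⟩⟩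
  obtain ⟨i, j, hij, he⟩ := Finite.exists_ne_map_eq_of_infinite g
  have he' : (σ ^ i) x = (σ ^ j) x := congrArg Subtype.val he
  rcases lt_or_gt_of_ne hij with h | h
  · refine ⟨j - i, by omega, (σ ^ i).injective ?_⟩
    rw [← AlgEquiv.mul_apply, ← pow_add, show i + (j - i) = j by omega, he']
  · refine ⟨i - j, by omega, (σ ^ j).injective ?_⟩
    rw [← AlgEquiv.mul_apply, ← pow_add, show j + (i - j) = i by omega, he']

/-- Elements of the decomposition group preserve the valuation. -/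
theorem val_apply {σ : GQ} (hσ : σ ∈ A.decompositionSubgroup ℚ) (x : Qbar) : v (σ x) = v x := by
  obtain ⟨n, hn, hfix⟩ := exists_period σ x
  have hstep : ∀ {τ : GQ}, τ ∈ A.decompositionSubgroup ℚ → ∀ {y : Qbar}, v (τ y) < v y →
      ∀ i : ℕ, 0 < i → v ((τ ^ i) y) < v y := by
    intro τ hτ y hlt i hi
    induction i with
    | zero => exact absurd hi (lt_irrefl 0)
    | succ i ih =>
      rcases Nat.eq_zero_or_pos i with rfl | hi'
      · rwa [zero_add, pow_one]
      · rw [pow_succ', AlgEquiv.mul_apply]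
        exact (valuation_lt_of_decomposition hτ (ih hi')).trans hlt
  rcases lt_trichotomy (v (σ x)) (v x) with h | h | h
  · exact absurd (hstep hσ h n hn) (by rw [hfix]; exact lt_irrefl _)
  · exact h
  · have hs : σ⁻¹ (σ x) = x := σ.symm_apply_apply x
    have h' : v (σ⁻¹ (σ x)) < v (σ x) := by rwa [hs]
    have := hstep (inv_mem hσ) h' n hn
    have e : (σ⁻¹ ^ n) (σ x) = σ x := by
      conv_lhs => rw [← hfix]
      rw [← AlgEquiv.mul_apply, ← AlgEquiv.mul_apply]
      congr 1
      group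
    exact absurd this (by rw [e]; exact lt_irrefl _)

theorem apply_mem {σ : GQ} (hσ : σ ∈ A.decompositionSubgroup ℚ) {x : Qbar} (hx : x ∈ A) :
    σ x ∈ A := (Gal.mem_decomposition_iff.mp hσ x).mpr hx

/-! ### Residues -/

open Classical in
/-- The residue of an element of the place, zero outside. -/
def red (A : ValuationSubring Qbar) (x : Qbar) : IsLocalRing.ResidueField A :=
  if h : x ∈ A then IsLocalRing.residue A ⟨x, h⟩ else 0

theorem red_of_mem {x : Qbar} (hx : x ∈ A) : red A x = IsLocalRing.residue A ⟨x, hx⟩ := dif_pos hx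

theorem red_add {x y : Qbar} (hx : x ∈ A) (hy : y ∈ A) : red A (x + y) = red A x + red A y := by
  rw [red_of_mem hx, red_of_mem hy, red_of_mem (add_mem hx hy), ← map_add]; rfl

theorem red_sub {x y : Qbar} (hx : x ∈ A) (hy : y ∈ A) : red A (x - y) = red A x - red A y := by
  rw [red_of_mem hx, red_of_mem hy, red_of_mem (sub_mem hx hy), ← map_sub]; rfl

theorem red_mul {x y : Qbar} (hx : x ∈ A) (hy : y ∈ A) : red A (x * y) = red A x * red A y := by
  rw [red_of_mem hx, red_of_mem hy, red_of_mem (mul_mem hx hy), ← map_mul]; rfl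

@[simp] theorem red_zero : red A 0 = 0 := by
  rw [red_of_mem A.zero_mem]; exact map_zero (IsLocalRing.residue A)

@[simp] theorem red_one : red A 1 = 1 := by
  rw [red_of_mem A.one_mem]; exact map_one (IsLocalRing.residue A)

theorem red_pow {x : Qbar} (hx : x ∈ A) (n : ℕ) : red A (x ^ n) = red A x ^ n := by
  induction n with
  | zero => simp
  | succ n ih => rw [pow_succ, red_mul (pow_mem hx n) hx, ih, pow_succ]

theorem red_natCast (n : ℕ) : red A (n : Qbar) = (n : κ) := by
  rw [red_of_mem (natCast_mem A n), ← map_natCast (IsLocalRing.residue A) n]; rfl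

theorem red_intCast (n : ℤ) : red A (n : Qbar) = (n : κ) := by
  rw [red_of_mem (intCast_mem A n), ← map_intCast (IsLocalRing.residue A) n]; rfl

theorem red_sum {ι : Type*} (s : Finset ι) {f : ι → Qbar} (hf : ∀ i ∈ s, f i ∈ A) :
    red A (∑ i ∈ s, f i) = ∑ i ∈ s, red A (f i) := by
  classical
  induction s using Finset.induction with
  | empty => simp
  | insert a s ha ih =>
    have hs : ∀ i ∈ s, f i ∈ A := fun i hi => hf i (Finset.mem_insert_of_mem hi)
    rw [Finset.sum_insert ha, Finset.sum_insert ha, red_add (hf a (Finset.mem_insert_self a s))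
      (sum_mem hs), ih hs]

theorem red_eq_zero_iff {x : Qbar} (hx : x ∈ A) : red A x = 0 ↔ v x < 1 := by
  rw [red_of_mem hx, IsLocalRing.residue_eq_zero_iff, ← ValuationSubring.coe_mem_nonunits_iff,
    A.mem_nonunits_iff]

theorem red_eq_zero_of_lt {x : Qbar} (hx : v x < 1) : red A x = 0 :=
  (red_eq_zero_iff (mem_iff_val_le_one.mpr hx.le)).mpr hx

theorem red_eq_iff {x y : Qbar} (hx : x ∈ A) (hy : y ∈ A) : red A x = red A y ↔ v (x - y) < 1 := by
  rw [← red_eq_zero_iff (sub_mem hx hy), red_sub hx hy, sub_eq_zero]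

theorem red_inertia {σ : GQ} (hσ : σ ∈ A.inertiaSubgroupIn ℚ) {x : Qbar} (hx : x ∈ A) :
    red A (σ x) = red A x :=
  (red_eq_iff (apply_mem (inertia_le_decomposition hσ) hx) hx).mpr
    ((Gal.mem_inertia_iff.mp hσ).2 x hx)

theorem red_frobenius {Φ : GQ} {p : ℕ} (hΦ : A.IsFrobeniusAt Φ p) {x : Qbar} (hx : x ∈ A) :
    red A (Φ x) = red A x ^ p := by
  obtain ⟨hD, hF⟩ := Gal.isFrobeniusAt_iff.mp hΦ
  rw [← red_pow hx]
  exact (red_eq_iff (apply_mem hD hx) (pow_mem hx p)).mpr (hF x hx)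

/-! ### The first-order character -/

/-- The residue of `σ z / z`. -/
def tame (A : ValuationSubring Qbar) (σ : GQ) (z : Qbar) : IsLocalRing.ResidueField A :=
  red A (σ z / z)

theorem div_mem_of_decomposition {σ : GQ} (hσ : σ ∈ A.decompositionSubgroup ℚ) (z : Qbar) :
    σ z / z ∈ A := by
  rcases eq_or_ne z 0 with rfl | hz
  · simp
  · rw [mem_iff_val_le_one, map_div₀, val_apply hσ, div_self (A.valuation.ne_zero_iff.mpr hz)]

theorem tame_mul_left {σ τ : GQ} (hσ : σ ∈ A.inertiaSubgroupIn ℚ)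
    (hτ : τ ∈ A.decompositionSubgroup ℚ) {z : Qbar} (hz : z ≠ 0) :
    tame A (σ * τ) z = tame A σ z * tame A τ z := by
  have hσD := inertia_le_decomposition hσ
  have h1 : (σ * τ) z / z = σ (τ z / z) * (σ z / z) := by
    rw [AlgEquiv.mul_apply, map_div₀, div_mul_div_cancel₀]
    exact (map_ne_zero_iff _ σ.injective).mpr hz
  rw [tame, h1, red_mul (apply_mem hσD (div_mem_of_decomposition hτ z))
    (div_mem_of_decomposition hσD z), red_inertia hσ (div_mem_of_decomposition hτ z), mul_comm]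
  rfl

theorem tame_one {z : Qbar} (hz : z ≠ 0) : tame A 1 z = 1 := by
  simp [tame, div_self hz]

theorem tame_mul_right {σ : GQ} (hσ : σ ∈ A.decompositionSubgroup ℚ) (z w : Qbar) :
    tame A σ (z * w) = tame A σ z * tame A σ w := by
  rw [tame, map_mul, mul_div_mul_comm,
    red_mul (div_mem_of_decomposition hσ z) (div_mem_of_decomposition hσ w)]
  rfl

theorem tame_pow_right {σ : GQ} (hσ : σ ∈ A.decompositionSubgroup ℚ) (z : Qbar) (n : ℕ) :
    tame A σ (z ^ n) = tame A σ z ^ n := by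
  rw [tame, map_pow, ← div_pow, red_pow (div_mem_of_decomposition hσ z)]
  rfl

theorem tame_natCast {σ : GQ} {n : ℕ} (hn : n ≠ 0) : tame A σ (n : Qbar) = 1 := by
  rw [tame, map_natCast, div_self (Nat.cast_ne_zero.mpr hn), red_one]

/-- The character depends only on the valuation. -/
theorem tame_congr {σ : GQ} (hσ : σ ∈ A.inertiaSubgroupIn ℚ) {z z' : Qbar} (hz : z ≠ 0)
    (h : v z = v z') : tame A σ z = tame A σ z' := by
  have hz' : z' ≠ 0 := fun h0 => hz ((map_eq_zero v).mp (by rw [h, h0, map_zero]))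
  have hu : z / z' ∈ A := by
    rw [mem_iff_val_le_one, map_div₀, h, div_self (A.valuation.ne_zero_iff.mpr hz')]
  have h1 : tame A σ (z / z') = 1 := by
    have hu0 : red A (z / z') ≠ 0 := fun h0 => by
      rw [red_eq_zero_iff hu, map_div₀, h, div_self (A.valuation.ne_zero_iff.mpr hz')] at h0
      exact lt_irrefl _ h0
    have hD := inertia_le_decomposition hσ
    have e : red A (σ (z / z') / (z / z')) * red A (z / z') = red A (σ (z / z')) := by
      rw [← red_mul (div_mem_of_decomposition hD _) hu,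
        div_mul_cancel₀ _ (div_ne_zero hz hz')]
    rw [red_inertia hσ hu] at e
    exact mul_right_cancel₀ hu0 (e.trans (one_mul _).symm)
  calc tame A σ z = tame A σ (z / z' * z') := by rw [div_mul_cancel₀ _ hz']
    _ = tame A σ z' := by rw [tame_mul_right (inertia_le_decomposition hσ), h1, one_mul]

theorem tame_pow_left {σ : GQ} (hσ : σ ∈ A.inertiaSubgroupIn ℚ) {z : Qbar} (hz : z ≠ 0) (n : ℕ) :
    tame A (σ ^ n) z = tame A σ z ^ n := by
  induction n with
  | zero => simp [tame_one hz]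
  | succ n ih =>
    rw [pow_succ', tame_mul_left hσ (pow_mem (inertia_le_decomposition hσ) n) hz, ih, pow_succ']

theorem tame_ne_zero {σ : GQ} (hσ : σ ∈ A.decompositionSubgroup ℚ) {z : Qbar} (hz : z ≠ 0) :
    tame A σ z ≠ 0 := fun h => by
  rw [tame, red_eq_zero_iff (div_mem_of_decomposition hσ z), map_div₀, val_apply hσ,
    div_self (A.valuation.ne_zero_iff.mpr hz)] at h
  exact lt_irrefl _ h

/-- Conjugation by a Frobenius raises the character to the `p`-th power. -/
theorem tame_conj_frobenius {p : ℕ} {Φ σ : GQ} (hΦ : A.IsFrobeniusAt Φ p)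
    (hσ : σ ∈ A.inertiaSubgroupIn ℚ) {z : Qbar} (hz : z ≠ 0) :
    tame A (Φ * σ * Φ⁻¹) z = tame A σ z ^ p := by
  have hD := (Gal.isFrobeniusAt_iff.mp hΦ).1
  have hσD := inertia_le_decomposition hσ
  have hs : Φ (Φ⁻¹ z) = z := Φ.apply_symm_apply z
  have h1 : (Φ * σ * Φ⁻¹) z / z = Φ (σ (Φ⁻¹ z) / Φ⁻¹ z) := by
    rw [map_div₀, hs, AlgEquiv.mul_apply, AlgEquiv.mul_apply]
  rw [tame, h1, red_frobenius hΦ (div_mem_of_decomposition hσD _)]
  congr 1
  exact tame_congr hσ ((map_ne_zero_iff _ (Φ⁻¹).injective).mpr hz) (val_apply (inv_mem hD) z)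

/-! ### Roots of the valuation of `p` -/

variable (p : ℕ)

/-- A chosen root of `p` of the given order. -/
def rootOfP (n : ℕ) : Qbar :=
  if hn : 0 < n then (IsAlgClosed.exists_pow_nat_eq (p : Qbar) hn).choose else 1

variable {p}

theorem rootOfP_pow {n : ℕ} (hn : 0 < n) : rootOfP p n ^ n = (p : Qbar) := by
  rw [rootOfP, dif_pos hn]
  exact (IsAlgClosed.exists_pow_nat_eq (p : Qbar) hn).choose_spec

/-- The valuation of a chosen root of `p`. -/
def unitVal (A : ValuationSubring Qbar) (p n : ℕ) : A.ValueGroup := A.valuation (rootOfP p n)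

theorem unitVal_pow {n : ℕ} (hn : 0 < n) : unitVal A p n ^ n = v (p : Qbar) := by
  rw [unitVal, ← map_pow, rootOfP_pow hn]

variable (hp : p.Prime) (hA : A.LiesOverPrime p)
include hp hA

theorem val_p_pos : 0 < v (p : Qbar) := LoweringAtP.PeuRamifie.val_p_pos hp hA

theorem val_p_lt_one : v (p : Qbar) < 1 := LoweringAtP.PeuRamifie.val_p_lt_one hp hA

theorem unitVal_pos {n : ℕ} (hn : 0 < n) : 0 < unitVal A p n := by
  refine zero_lt_iff.mpr fun h => (val_p_pos hp hA).ne ?_
  rw [← unitVal_pow (A := A) hn, h, zero_pow hn.ne']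

theorem unitVal_lt_one {n : ℕ} (hn : 0 < n) : unitVal A p n < 1 := by
  refine not_le.mp fun h => (val_p_lt_one hp hA).not_ge ?_
  rw [← unitVal_pow (A := A) hn]
  exact one_le_pow₀ h

/-- An element fixed by inertia has the valuation of a power of `p`. -/
theorem exists_val_eq_of_inertia {x : Qbar} (hx : ∀ σ ∈ A.inertiaSubgroupIn ℚ, σ x = x)
    (h0 : x ≠ 0) : ∃ j : ℤ, v x = v (p : Qbar) ^ j :=
  LoweringAtP.PeuRamifie.exists_val_eq_zpow hp hA hx h0

/-- Residues lift to elements fixed by inertia. -/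
theorem exists_lift_fixed (r : κ) :
    ∃ x ∈ A, (∀ σ ∈ A.inertiaSubgroupIn ℚ, σ x = x) ∧ red A x = r := by
  obtain ⟨⟨a, ha⟩, hfix, har⟩ :=
    LoweringAtP.PeuRamifie.exists_lift hp hA (IsLocalRing.residue A)
      IsLocalRing.residue_surjective r
  exact ⟨a, ha, hfix, by rw [red_of_mem ha]; exact har⟩

/-- Prime-to-`p` denominators are detected by the first-order character. -/
theorem exists_val_eq_of_tame_eq_one {z : Qbar} {N : ℕ} (hN : ¬ p ∣ N) {n : ℤ}
    (hz : v z ^ N = v (p : Qbar) ^ n) (h1 : ∀ σ ∈ A.inertiaSubgroupIn ℚ, tame A σ z = 1) :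
    ∃ j : ℤ, v z = v (p : Qbar) ^ j := by
  have hN0 : 0 < N := Nat.pos_of_ne_zero fun h => hN (h ▸ dvd_zero p)
  have hp0 : (p : Qbar) ≠ 0 := Nat.cast_ne_zero.mpr hp.ne_zero
  obtain ⟨w, hw⟩ := IsAlgClosed.exists_pow_nat_eq ((p : Qbar) ^ n) hN0
  have hvw : v w = v z := by
    refine (pow_left_inj₀ zero_le zero_le hN0.ne').mp ?_
    rw [hz, ← map_pow, hw, map_zpow₀]
  have hw0 : w ≠ 0 := fun h => by
    rw [h, zero_pow hN0.ne'] at hw
    exact zpow_ne_zero n hp0 hw.symm
  rw [← hvw]
  refine exists_val_eq_of_inertia hp hA (fun σ hσ => ?_) hw0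
  have hD := inertia_le_decomposition hσ
  have hη : (σ w / w) ^ N = 1 := by
    rw [div_pow, ← map_pow, hw, map_zpow₀ σ, map_natCast, div_self (zpow_ne_zero n hp0)]
  have hred : v (σ w / w - 1) < 1 := by
    rw [← red_eq_iff (div_mem_of_decomposition hD w) A.one_mem, red_one]
    exact (tame_congr hσ hw0 hvw).trans (h1 σ hσ)
  refine (div_eq_one_iff_eq hw0).mp ?_
  refine Gal.eq_of_congruent_roots (R := ℤ) (fun r => by simp [intCast_mem])
    (f := (Polynomial.X ^ N - 1 : Polynomial ℤ)) A.one_mem (div_mem_of_decomposition hD w)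
    (by simp) (by simp [hη]) (Gal.natCast_mul_pow_ne_zero hp hA hN (one_pow N)) ?_
  exact (A.mem_nonunits_iff).mpr hred

end Fermat.Agent.TW.Flat

end
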