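import Mathlib.RingTheory.Finiteness.Ideal
import Mathlib.RingTheory.Flat.TorsionFree
import Mathlib.RingTheory.LocalRing.Module
import Mathlib.RingTheory.Valuation.ValuationRing
import Fermat.Agent.TW.Flat.Value

/-!
# Rings of integral functions on finite modules

A model on `V` is a finitely generated ring of integral equivariant functions on `V`, over the
integers fixed by `Γ`, such that `f (x + y)` lies in its tensor square.
These replace finite flat group schemes in the local bound at `p`.
-/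

noncomputable section

namespace Fermat.Agent.TW.Flat

open Fermat.Agent
open scoped Pointwise

local notation "Qbar" => AlgebraicClosure ℚ
local notation "GQ" => (AlgebraicClosure ℚ ≃ₐ[ℚ] AlgebraicClosure ℚ)

/-- The elements of the place fixed by `Γ`. -/
def oRing (A : ValuationSubring Qbar) (Γ : Subgroup GQ) : Subring Qbar :=
  A.toSubring ⊓ (IntermediateField.fixedField Γ).toSubfield.toSubring

variable {A : ValuationSubring Qbar} {Γ : Subgroup GQ}

theorem mem_oRing {x : Qbar} : x ∈ oRing A Γ ↔ x ∈ A ∧ ∀ σ ∈ Γ, σ x = x := by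
  simp [oRing, IntermediateField.mem_fixedField_iff]

/-- The integers fixed by `Γ` form a valuation ring. -/
instance valuationRing_oRing : ValuationRing (oRing A Γ) := by
  have : PreValuationRing (oRing A Γ) := ⟨fun a b => by
    rcases eq_or_ne (a : Qbar) 0 with ha | ha
    · exact ⟨0, Or.inr (Subtype.ext (by simp [ha]))⟩
    rcases eq_or_ne (b : Qbar) 0 with hb | hb
    · exact ⟨0, Or.inl (Subtype.ext (by simp [hb]))⟩
    obtain ⟨haA, haI⟩ := mem_oRing.mp a.2
    obtain ⟨hbA, hbI⟩ := mem_oRing.mp b.2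
    rcases A.mem_or_inv_mem ((b : Qbar) / a) with h | h
    · refine ⟨⟨_, mem_oRing.mpr ⟨h, fun σ hσ => by rw [map_div₀, haI σ hσ, hbI σ hσ]⟩⟩,
        Or.inl (Subtype.ext ?_)⟩
      show (a : Qbar) * ((b : Qbar) / a) = b
      field_simp
    · rw [inv_div] at h
      refine ⟨⟨_, mem_oRing.mpr ⟨h, fun σ hσ => by rw [map_div₀, haI σ hσ, hbI σ hσ]⟩⟩,
        Or.inr (Subtype.ext ?_)⟩
      show (b : Qbar) * ((a : Qbar) / b) = a
      field_simp⟩
  exact {}

theorem oRing_smul_apply {S : Type*} (r : oRing A Γ) (f : S → Qbar) (s : S) :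
    (r • f) s = (r : Qbar) * f s := rfl

variable (A Γ) in
/-- Composition with a map, as a homomorphism of algebras. -/
def pull {S T : Type*} (g : T → S) : (S → Qbar) →ₐ[oRing A Γ] (T → Qbar) :=
  AlgHom.pi fun t => Pi.evalAlgHom (oRing A Γ) (fun _ : S => Qbar) (g t)

@[simp] theorem pull_apply {S T : Type*} (g : T → S) (f : S → Qbar) (t : T) :
    pull A Γ g f t = f (g t) := rfl

theorem pull_pull {S T U : Type*} (g : T → S) (h : U → T) (L : Submodule (oRing A Γ) (S → Qbar)) :
    (L.map (pull A Γ g).toLinearMap).map (pull A Γ h).toLinearMap =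
      L.map (pull A Γ (g ∘ h)).toLinearMap := by
  rw [← Submodule.map_comp]; rfl

theorem pull_injective {S T : Type*} {g : T → S} (hg : Function.Surjective g) :
    Function.Injective (pull A Γ g).toLinearMap := fun f f' h => funext fun s => by
  obtain ⟨t, rfl⟩ := hg s
  exact congrFun h t

/-- Equivariant functions independent over the fixed integers are independent over `ℚ̄`. -/
theorem eq_zero_of_equivariant {S ι : Type*} (act : GQ → S → S) (s : Finset ι) (d : ι → S → Qbar)
    (hd : ∀ i ∈ s, ∀ σ ∈ Γ, ∀ x, d i (act σ x) = σ (d i x))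
    (hind : ∀ r : ι → oRing A Γ, (∀ x, ∑ i ∈ s, (r i : Qbar) * d i x = 0) → ∀ i ∈ s, r i = 0)
    (α : ι → Qbar) (hα : ∀ x, ∑ i ∈ s, α i * d i x = 0) : ∀ i ∈ s, α i = 0 := by
  classical
  have hfix : ∀ β : ι → Qbar, (∀ i ∈ s, ∀ σ ∈ Γ, σ (β i) = β i) →
      (∀ x, ∑ i ∈ s, β i * d i x = 0) → ∀ i ∈ s, β i = 0 := by
    intro β hβ hsum i hi
    by_contra h0
    obtain ⟨i₁, hi₁, hmax⟩ := s.exists_max_image (fun j => A.valuation (β j)) ⟨i, hi⟩
    have hne : β i₁ ≠ 0 := fun h => h0 <| (map_eq_zero A.valuation).mp <|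
      le_zero_iff.mp (by simpa [h] using hmax i hi)
    have hd' : ∀ j ∈ s, β j / β i₁ ∈ oRing A Γ := fun j hj => mem_oRing.mpr
      ⟨by rw [← A.valuation_le_one_iff, map_div₀]; exact div_le_one_of_le₀ (hmax j hj) zero_le,
        fun σ hσ => by rw [map_div₀, hβ j hj σ hσ, hβ i₁ hi₁ σ hσ]⟩
    have h := hind (fun j => if hj : j ∈ s then ⟨_, hd' j hj⟩ else 0) (fun x => by
      have : ∑ j ∈ s, β j / β i₁ * d j x = 0 := by
        simp only [div_mul_eq_mul_div, ← Finset.sum_div, hsum x, zero_div]
      refine Eq.trans (Finset.sum_congr rfl fun j hj => ?_) this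
      rw [dif_pos hj]) i₁ hi₁
    rw [dif_pos hi₁] at h
    have := congrArg Subtype.val h
    simp only [ZeroMemClass.coe_zero, div_self hne, one_ne_zero] at this
  suffices H : ∀ t : Finset ι, t ⊆ s → ∀ γ : ι → Qbar, (∀ i, i ∉ t → γ i = 0) →
      (∀ x, ∑ i ∈ s, γ i * d i x = 0) → ∀ i ∈ s, γ i = 0 by
    intro i hi
    have h := H s subset_rfl (fun j => if j ∈ s then α j else 0) (fun j hj => if_neg hj)
      (fun x => Eq.trans (Finset.sum_congr rfl fun j hj => by rw [if_pos hj]) (hα x)) i hi
    rwa [if_pos hi] at h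
  intro t
  induction t using Finset.induction_on with
  | empty => intro _ γ hγ _ i _; exact hγ i (Finset.notMem_empty i)
  | insert i₀ t hi₀ ih =>
    intro hts γ hγ hsum i hi
    have hts' : t ⊆ s := (Finset.subset_insert i₀ t).trans hts
    by_cases h0 : γ i₀ = 0
    · refine ih hts' γ (fun j hj => ?_) hsum i hi
      rcases eq_or_ne j i₀ with rfl | hne
      · exact h0
      · exact hγ j (by simp [hne, hj])
    set β : ι → Qbar := fun j => γ j / γ i₀ with hβ
    have hβsum : ∀ x, ∑ j ∈ s, β j * d j x = 0 := fun x => by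
      simp only [hβ, div_mul_eq_mul_div, ← Finset.sum_div, hsum x, zero_div]
    have hβfix : ∀ j ∈ s, ∀ σ ∈ Γ, σ (β j) = β j := by
      intro j hj σ hσ
      have h := ih hts' (fun l => σ (β l) - β l) (fun l hl => ?_) (fun y => ?_) j hj
      · exact sub_eq_zero.mp h
      · rcases eq_or_ne l i₀ with rfl | hne
        · simp [hβ, div_self h0]
        · simp [hβ, hγ l (by simp [hne, hl])]
      · have hinv : σ⁻¹ ∈ Γ := Subgroup.inv_mem _ hσ
        have h1 : ∀ l ∈ s, σ (β l * d l (act σ⁻¹ y)) = σ (β l) * d l y := fun l hl => by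
          rw [map_mul, hd l hl _ hinv]
          exact congrArg (σ (β l) * ·) (σ.apply_symm_apply _)
        have h2 : ∑ l ∈ s, σ (β l) * d l y = 0 := by
          rw [← Finset.sum_congr rfl h1, ← map_sum, hβsum, map_zero]
        simp only [sub_mul, Finset.sum_sub_distrib, h2, hβsum y, sub_zero]
    have h := hfix β hβfix hβsum i hi
    rw [hβ, div_eq_zero_iff] at h
    exact h.resolve_right h0

variable {V : Type*} [AddCommGroup V]

/-- A finitely generated ring of integral equivariant functions `f` such that `f (x + y)` is a sum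
of products of functions of `x` and of `y`. -/
structure FnModel (A : ValuationSubring Qbar) (Γ : Subgroup GQ) (act : GQ → V → V) where
  /-- the functions -/
  Λ : Submodule (oRing A Γ) (V → Qbar)
  fg : Λ.FG
  one_mem : (1 : V → Qbar) ∈ Λ
  mul_le : Λ * Λ ≤ Λ
  integral : ∀ f ∈ Λ, ∀ x, f x ∈ A
  equiv : ∀ f ∈ Λ, ∀ σ ∈ Γ, ∀ x, f (act σ x) = σ (f x)
  comul : Λ.map (pull A Γ fun q : V × V => q.1 + q.2).toLinearMap ≤
    Λ.map (pull A Γ (Prod.fst : V × V → V)).toLinearMap *
      Λ.map (pull A Γ (Prod.snd : V × V → V)).toLinearMap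

/-- The functions invariant under translation by a subgroup. -/
def invSub (A : ValuationSubring Qbar) (Γ : Subgroup GQ) (N : AddSubgroup V) :
    Submodule (oRing A Γ) (V → Qbar) where
  carrier := {f | ∀ x, ∀ n ∈ N, f (x + n) = f x}
  add_mem' := fun ha hb x n hn => by simp [ha x n hn, hb x n hn]
  zero_mem' := fun _ _ _ => rfl
  smul_mem' := fun r f hf x n hn => by simp [hf x n hn]

namespace FnModel

variable {act : GQ → V → V} (P : FnModel A Γ act)

/-- The functions separate the cosets of a subgroup. -/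
def SepMod (N : AddSubgroup V) : Prop := ∀ x x', (∀ f ∈ P.Λ, f x = f x') → x - x' ∈ N

/-- The functions separate points. -/
def Sep : Prop := ∀ x x', (∀ f ∈ P.Λ, f x = f x') → x = x'

theorem mul_mem {f g : V → Qbar} (hf : f ∈ P.Λ) (hg : g ∈ P.Λ) : f * g ∈ P.Λ :=
  P.mul_le (Submodule.mul_mem_mul hf hg)

theorem comul_mem {f : V → Qbar} (hf : f ∈ P.Λ) :
    (fun q : V × V => f (q.1 + q.2)) ∈ P.Λ.map (pull A Γ (Prod.fst : V × V → V)).toLinearMap *
      P.Λ.map (pull A Γ (Prod.snd : V × V → V)).toLinearMap :=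
  P.comul ⟨f, hf, rfl⟩

/-- Restriction along an equivariant homomorphism. -/
def restrict {U : Type*} [AddCommGroup U] {actU : GQ → U → U} (ι : U →+ V)
    (hι : ∀ σ ∈ Γ, ∀ u, ι (actU σ u) = act σ (ι u)) : FnModel A Γ actU where
  Λ := P.Λ.map (pull A Γ ι).toLinearMap
  fg := P.fg.map _
  one_mem := ⟨1, P.one_mem, rfl⟩
  mul_le := by rw [← Submodule.map_mul]; exact Submodule.map_mono P.mul_le
  integral := by rintro _ ⟨f, hf, rfl⟩ x; exact P.integral f hf _
  equiv := by
    rintro _ ⟨f, hf, rfl⟩ σ hσ x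
    show f (ι (actU σ x)) = σ (f (ι x))
    rw [hι σ hσ, P.equiv f hf σ hσ]
  comul := by
    have h := Submodule.map_mono (f := (pull A Γ (Prod.map ι ι)).toLinearMap) P.comul
    rw [Submodule.map_mul, pull_pull, pull_pull, pull_pull] at h
    rw [pull_pull, pull_pull, pull_pull]
    refine le_of_eq_of_le ?_ h
    congr 3
    funext q
    exact map_add ι q.1 q.2

theorem sep_restrict (hP : P.Sep) {U : Type*} [AddCommGroup U] {actU : GQ → U → U} (ι : U →+ V)
    (hι : ∀ σ ∈ Γ, ∀ u, ι (actU σ u) = act σ (ι u)) (hinj : Function.Injective ι) :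
    (P.restrict ι hι).Sep := fun _x _x' h => hinj (hP _ _ fun f hf => h _ ⟨f, hf, rfl⟩)

/-- The product of two models. -/
def prod {W : Type*} [AddCommGroup W] {actW : GQ → W → W} (Q : FnModel A Γ actW) :
    FnModel A Γ (fun σ (q : V × W) => (act σ q.1, actW σ q.2)) where
  Λ := P.Λ.map (pull A Γ (Prod.fst : V × W → V)).toLinearMap *
    Q.Λ.map (pull A Γ (Prod.snd : V × W → W)).toLinearMap
  fg := (P.fg.map _).mul (Q.fg.map _)
  one_mem := by
    have := Submodule.mul_mem_mul (Submodule.mem_map_of_mem (f := (pull A Γ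
      (Prod.fst : V × W → V)).toLinearMap) P.one_mem) (Submodule.mem_map_of_mem (f := (pull A Γ
      (Prod.snd : V × W → W)).toLinearMap) Q.one_mem)
    simpa using this
  mul_le := by
    refine le_trans (le_of_eq
        (mul_mul_mul_comm (G := Submodule (oRing A Γ) (V × W → Qbar)) _ _ _ _)) ?_
    exact mul_le_mul' (by rw [← Submodule.map_mul]; exact Submodule.map_mono P.mul_le)
      (by rw [← Submodule.map_mul]; exact Submodule.map_mono Q.mul_le)
  integral := fun F hF x => by
    refine Submodule.mul_induction_on hF ?_ fun a b ha hb => add_mem ha hb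
    rintro _ ⟨f, hf, rfl⟩ _ ⟨g, hg, rfl⟩
    exact MulMemClass.mul_mem (P.integral f hf _) (Q.integral g hg _)
  equiv := fun F hF σ hσ x => by
    refine Submodule.mul_induction_on hF ?_ fun a b ha hb => by
      simp only [Pi.add_apply, ha, hb, map_add]
    rintro _ ⟨f, hf, rfl⟩ _ ⟨g, hg, rfl⟩
    show f (act σ x.1) * g (actW σ x.2) = σ (f x.1 * g x.2)
    rw [map_mul, P.equiv f hf σ hσ, Q.equiv g hg σ hσ]
  comul := by
    have h1 := Submodule.map_mono (f := (pull A Γ fun q : (V × W) × (V × W) =>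
      (q.1.1, q.2.1)).toLinearMap) P.comul
    have h2 := Submodule.map_mono (f := (pull A Γ fun q : (V × W) × (V × W) =>
      (q.1.2, q.2.2)).toLinearMap) Q.comul
    rw [Submodule.map_mul, pull_pull, pull_pull, pull_pull] at h1 h2
    rw [Submodule.map_mul, Submodule.map_mul, Submodule.map_mul, pull_pull, pull_pull, pull_pull,
      pull_pull, pull_pull, pull_pull]
    refine (mul_le_mul' h1 h2).trans_eq ?_
    rw [mul_mul_mul_comm]
    rfl

theorem sep_prod (hP : P.Sep) {W : Type*} [AddCommGroup W] {actW : GQ → W → W}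
    (Q : FnModel A Γ actW) (hQ : Q.Sep) : (P.prod Q).Sep := fun x x' h => Prod.ext
  (hP _ _ fun f hf => by
    simpa using h _ (Submodule.mul_mem_mul (Submodule.mem_map_of_mem (f := (pull A Γ
      (Prod.fst : V × W → V)).toLinearMap) hf) (Submodule.mem_map_of_mem (f := (pull A Γ
      (Prod.snd : V × W → W)).toLinearMap) Q.one_mem)))
  (hQ _ _ fun f hf => by
    simpa using h _ (Submodule.mul_mem_mul (Submodule.mem_map_of_mem (f := (pull A Γ
      (Prod.fst : V × W → V)).toLinearMap) P.one_mem) (Submodule.mem_map_of_mem (f := (pull A Γ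
      (Prod.snd : V × W → W)).toLinearMap) hf)))

/-- The same functions over the integers fixed by a smaller group. -/
def extend {Γ' : Subgroup GQ} (h : Γ' ≤ Γ) : FnModel A Γ' act where
  Λ := Submodule.span (oRing A Γ') (P.Λ : Set (V → Qbar))
  fg := by
    obtain ⟨s, hs⟩ := P.fg
    refine ⟨s, le_antisymm (Submodule.span_mono (by rw [← hs]; exact Submodule.subset_span))
      (Submodule.span_le.mpr fun f hf => ?_)⟩
    rw [SetLike.mem_coe, ← hs] at hf
    induction hf using Submodule.span_induction with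
    | mem f hf => exact Submodule.subset_span hf
    | zero => exact zero_mem _
    | add a b _ _ ha hb => exact add_mem ha hb
    | smul r a _ ha =>
      exact Submodule.smul_mem _ (⟨(r : Qbar), mem_oRing.mpr ⟨(mem_oRing.mp r.2).1,
        fun σ hσ => (mem_oRing.mp r.2).2 σ (h hσ)⟩⟩ : oRing A Γ') ha
  one_mem := Submodule.subset_span P.one_mem
  mul_le := by
    rw [Submodule.span_mul_span]
    refine Submodule.span_mono ?_
    rintro _ ⟨f, hf, g, hg, rfl⟩
    exact P.mul_mem hf hg
  integral := fun f hf x => by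
    induction hf using Submodule.span_induction with
    | mem f hf => exact P.integral f hf x
    | zero => exact A.zero_mem
    | add a b _ _ ha hb => exact add_mem ha hb
    | smul r a _ ha => exact MulMemClass.mul_mem (mem_oRing.mp r.2).1 ha
  equiv := fun f hf σ hσ x => by
    induction hf using Submodule.span_induction with
    | mem f hf => exact P.equiv f hf σ (h hσ) x
    | zero => simp
    | add a b _ _ ha hb => simp only [Pi.add_apply, ha, hb, map_add]
    | smul r a _ ha =>
      simp only [oRing_smul_apply, map_mul, ha, (mem_oRing.mp r.2).2 σ hσ]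
  comul := by
    rw [Submodule.map_span, Submodule.span_le]
    rintro _ ⟨f, hf, rfl⟩
    show (fun q : V × V => f (q.1 + q.2)) ∈ _
    refine Submodule.mul_induction_on (C := fun F => F ∈ _) (P.comul_mem hf) ?_ fun a b ha hb =>
      add_mem ha hb
    rintro _ ⟨u, hu, rfl⟩ _ ⟨w, hw, rfl⟩
    exact Submodule.mul_mem_mul ⟨u, Submodule.subset_span hu, rfl⟩
      ⟨w, Submodule.subset_span hw, rfl⟩

theorem le_extend {Γ' : Subgroup GQ} (h : Γ' ≤ Γ) {f : V → Qbar} (hf : f ∈ P.Λ) :
    f ∈ (P.extend h).Λ := Submodule.subset_span hf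

theorem sep_extend (hP : P.Sep) {Γ' : Subgroup GQ} (h : Γ' ≤ Γ) : (P.extend h).Sep :=
  fun x x' e => hP x x' fun f hf => e f (P.le_extend h hf)

/-! ### Bases -/

/-- A model is free with a basis independent over `ℚ̄`. -/
theorem exists_basis : ∃ (r : ℕ) (b : Fin r → V → Qbar), (∀ i, b i ∈ P.Λ) ∧
    P.Λ = Submodule.span (oRing A Γ) (Set.range b) ∧ LinearIndependent Qbar b := by
  have : Module.Finite (oRing A Γ) P.Λ := Module.Finite.iff_fg.mpr P.fg
  have htor : Submodule.torsion (oRing A Γ) P.Λ = ⊥ := by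
    refine (Submodule.eq_bot_iff _).mpr fun w hw => ?_
    obtain ⟨⟨r, hr⟩, hrw⟩ := hw
    have hr0 : (r : Qbar) ≠ 0 := fun h => nonZeroDivisors.ne_zero hr (Subtype.ext h)
    refine Subtype.ext (funext fun q => ?_)
    have := congrArg (fun z : P.Λ => (z : V → Qbar) q) hrw
    exact (mul_eq_zero.mp
        (by simpa [Submonoid.smul_def, oRing_smul_apply] using this)).resolve_left hr0
  have : Module.Flat (oRing A Γ) P.Λ := Module.Flat.flat_iff_torsion_eq_bot_of_isBezout.mpr htor
  have : Module.Free (oRing A Γ) P.Λ := Module.free_of_flat_of_isLocalRing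
  let b := Module.finBasis (oRing A Γ) P.Λ
  refine ⟨_, fun i => (b i : V → Qbar), fun i => (b i).2, ?_, ?_⟩
  · have := congrArg (Submodule.map P.Λ.subtype) b.span_eq
    rw [Submodule.map_span, Submodule.map_top, Submodule.range_subtype, ← Set.range_comp] at this
    exact this.symm
  · rw [Fintype.linearIndependent_iff]
    intro α hα i
    refine eq_zero_of_equivariant (A := A) (Γ := Γ) act Finset.univ (fun j => (b j : V → Qbar))
      (fun j _ σ hσ x => P.equiv _ (b j).2 σ hσ x) (fun r hr j _ => ?_) α (fun x => ?_) i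
      (Finset.mem_univ i)
    · exact Fintype.linearIndependent_iff.mp b.linearIndependent r (Subtype.ext (funext fun x => by
        simpa [Subring.smul_def, Finset.sum_apply] using hr x)) j
    · simpa [Finset.sum_apply] using congrFun hα x

/-- Separating functions span all functions over `ℚ̄`. -/
theorem span_eq_top [Finite V] (hP : P.Sep) :
    Submodule.span Qbar (P.Λ : Set (V → Qbar)) = ⊤ := by
  classical
  let := Fintype.ofFinite V
  set U : Submodule Qbar (V → Qbar) := Submodule.span Qbar (P.Λ : Set (V → Qbar)) with hU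
  have hUmul : ∀ a ∈ U, ∀ b ∈ U, a * b ∈ U := fun a ha b hb => by
    have := Submodule.mul_mem_mul ha hb
    rw [hU, Submodule.span_mul_span] at this
    refine Submodule.span_mono ?_ this
    rintro _ ⟨f, hf, g, hg, rfl⟩
    exact P.mul_mem hf hg
  have h1U : (1 : V → Qbar) ∈ U := Submodule.subset_span P.one_mem
  have hind : ∀ z : V, (Pi.single z (1 : Qbar) : V → Qbar) ∈ U := by
    intro z
    have hsep : ∀ x : V, x ≠ z → ∃ g ∈ U, g z = 1 ∧ g x = 0 := fun x hx => by
      obtain ⟨f, hf, hne⟩ : ∃ f ∈ P.Λ, f x ≠ f z := by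
        by_contra hcon
        push Not at hcon
        exact hx (hP x z hcon)
      refine ⟨(f z - f x)⁻¹ • (f - f x • (1 : V → Qbar)),
        U.smul_mem _ (U.sub_mem (Submodule.subset_span hf) (U.smul_mem _ h1U)), ?_, ?_⟩
      · simp [inv_mul_cancel₀ (sub_ne_zero.mpr hne.symm)]
      · simp
    choose g hg hgz hgx using hsep
    have he : (Pi.single z (1 : Qbar) : V → Qbar) = ∏ x : {x : V // x ≠ z}, g x x.2 := by
      funext x
      rw [Finset.prod_apply]
      rcases eq_or_ne x z with rfl | hx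
      · rw [Pi.single_eq_same, Finset.prod_eq_one fun (w : {w : V // w ≠ x}) _ => hgz w w.2]
      · rw [Pi.single_eq_of_ne hx]
        exact (Finset.prod_eq_zero (Finset.mem_univ ⟨x, hx⟩) (hgx x hx)).symm
    rw [he]
    exact Finset.prod_induction _ (· ∈ U) (fun a b ha hb => hUmul a ha b hb) h1U
      fun w _ => hg w w.2
  refine eq_top_iff.mpr fun f _ => ?_
  rw [pi_eq_sum_univ f]
  refine U.sum_mem fun z _ => U.smul_mem _ ?_
  convert hind z using 1
  funext x
  simp [Pi.single_apply, eq_comm]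

/-! ### Invariant functions -/

variable (N : AddSubgroup V) (hN : ∀ σ ∈ Γ, ∀ x ∈ N, act σ x ∈ N)
  (hact : ∀ σ ∈ Γ, ∀ x y, act σ (x + y) = act σ x + act σ y)

/-- Translation differences along a subgroup. -/
def transDiff (A : ValuationSubring Qbar) (Γ : Subgroup GQ) (N : AddSubgroup V) :
    (V → Qbar) →ₗ[oRing A Γ] (V × N → Qbar) where
  toFun f q := f (q.1 + (q.2 : V)) - f q.1
  map_add' f g := funext fun q => by simp only [Pi.add_apply]; ring
  map_smul' r f := funext fun q => by
    simp only [oRing_smul_apply, RingHom.id_apply, mul_sub]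

include hN hact in
/-- Invariant functions together with a complement having no invariant combination over `ℚ̄`. -/
theorem exists_proj : ∃ (r : ℕ) (c : Fin r → V → Qbar)
    (s : P.Λ →ₗ[oRing A Γ] (Fin r → oRing A Γ)),
    (∀ l, c l ∈ P.Λ) ∧
      (∀ f : P.Λ, (f : V → Qbar) - ∑ l, s f l • c l ∈ invSub A Γ N) ∧
      ∀ α : Fin r → Qbar,
        (∀ x, ∀ n ∈ N, ∑ l, α l * c l (x + n) = ∑ l, α l * c l x) → ∀ l, α l = 0 := by
  classical
  set T := transDiff A Γ N
  have : Module.Finite (oRing A Γ) (P.Λ.map T) := Module.Finite.iff_fg.mpr (P.fg.map _)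
  have htor : Submodule.torsion (oRing A Γ) (P.Λ.map T) = ⊥ := by
    refine (Submodule.eq_bot_iff _).mpr fun w hw => ?_
    obtain ⟨⟨r, hr⟩, hrw⟩ := hw
    have hr0 : (r : Qbar) ≠ 0 := fun h => nonZeroDivisors.ne_zero hr (Subtype.ext h)
    refine Subtype.ext (funext fun q => ?_)
    have := congrArg (fun z : P.Λ.map T => (z : V × N → Qbar) q) hrw
    exact (mul_eq_zero.mp
        (by simpa [Submonoid.smul_def, oRing_smul_apply] using this)).resolve_left hr0
  have : Module.Flat (oRing A Γ) (P.Λ.map T) :=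
    Module.Flat.flat_iff_torsion_eq_bot_of_isBezout.mpr htor
  have : Module.Free (oRing A Γ) (P.Λ.map T) := Module.free_of_flat_of_isLocalRing
  let b := Module.finBasis (oRing A Γ) (P.Λ.map T)
  choose c hc hcb using fun l => Submodule.mem_map.mp (b l).2
  have hcb' : ∀ l (q : V × N), c l (q.1 + (q.2 : V)) - c l q.1 = (b l : V × N → Qbar) q :=
    fun l q => congrFun (hcb l) q
  let T' : P.Λ →ₗ[oRing A Γ] P.Λ.map T :=
    (T.domRestrict P.Λ).codRestrict _ fun f => Submodule.mem_map_of_mem f.2
  refine ⟨_, c, b.equivFun.toLinearMap.comp T', hc, fun f x n hn => ?_, fun α hα => ?_⟩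
  · have he := congrArg (fun z : P.Λ.map T => (z : V × N → Qbar) (x, ⟨n, hn⟩))
      (b.sum_repr (T' f))
    simp only [Submodule.coe_sum, SetLike.val_smul, Finset.sum_apply, oRing_smul_apply, ← hcb',
      mul_sub, Finset.sum_sub_distrib] at he
    change _ = (f : V → Qbar) (x + n) - (f : V → Qbar) x at he
    simp only [Pi.sub_apply, Finset.sum_apply, oRing_smul_apply, LinearMap.comp_apply,
      LinearEquiv.coe_coe, Module.Basis.equivFun_apply]
    linear_combination -he
  · refine fun l => eq_zero_of_equivariant (A := A) (Γ := Γ)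
      (fun σ q => if hσ : σ ∈ Γ then (act σ q.1, ⟨act σ (q.2 : V), hN σ hσ _ q.2.2⟩) else q)
      Finset.univ (fun l => (b l : V × N → Qbar))
      (fun j _ σ hσ q => ?_) (fun r hr j _ => ?_) α (fun q => ?_) l (Finset.mem_univ _)
    · simp only [dif_pos hσ, ← hcb', map_sub]
      rw [← hact σ hσ, P.equiv _ (hc j) σ hσ, P.equiv _ (hc j) σ hσ]
    · refine Fintype.linearIndependent_iff.mp b.linearIndependent r
        (Subtype.ext (funext fun q => ?_)) j
      simpa [Subring.smul_def, Finset.sum_apply] using hr q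
    · have := hα q.1 (q.2 : V) q.2.2
      simp only [← hcb', mul_sub, Finset.sum_sub_distrib, this, sub_self]

/-- The functions invariant under a stable subgroup form a model. -/
def inv : FnModel A Γ act where
  Λ := P.Λ ⊓ invSub A Γ N
  fg := by
    obtain ⟨r, c, s, hc, hs, hind⟩ := P.exists_proj N hN hact
    let π : P.Λ →ₗ[oRing A Γ] (V → Qbar) :=
      P.Λ.subtype - (Fintype.linearCombination (oRing A Γ) c).comp s
    have hπ : ∀ f : P.Λ, π f = (f : V → Qbar) - ∑ l, s f l • c l := fun f => by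
      simp [π, Fintype.linearCombination_apply]
    have : P.Λ ⊓ invSub A Γ N = LinearMap.range π := by
      refine le_antisymm (fun f hf => ?_) ?_
      · refine ⟨⟨f, hf.1⟩, ?_⟩
        have h0 : ∀ l, (s ⟨f, hf.1⟩ l : Qbar) = 0 := hind _ fun x n hn => by
          have h1 := hs ⟨f, hf.1⟩ x n hn
          have h2 := hf.2 x n hn
          simp only [Pi.sub_apply, Finset.sum_apply, oRing_smul_apply] at h1
          linear_combination h2 - h1
        rw [hπ, sub_eq_self]
        refine Finset.sum_eq_zero fun l _ => ?_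
        funext x
        rw [oRing_smul_apply, h0 l, zero_mul, Pi.zero_apply]
      · rintro _ ⟨f, rfl⟩
        rw [hπ]
        exact ⟨sub_mem f.2 (Submodule.sum_mem _ fun l _ => P.Λ.smul_mem _ (hc l)), hs f⟩
    rw [this, LinearMap.range_eq_map]
    have : Module.Finite (oRing A Γ) P.Λ := Module.Finite.iff_fg.mpr P.fg
    exact Module.Finite.fg_top.map π
  one_mem := ⟨P.one_mem, fun _ _ _ => rfl⟩
  mul_le := Submodule.mul_le.mpr fun f hf g hg =>
    ⟨P.mul_mem hf.1 hg.1, fun x n hn => by simp [hf.2 x n hn, hg.2 x n hn]⟩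
  integral := fun f hf => P.integral f hf.1
  equiv := fun f hf => P.equiv f hf.1
  comul := by
    obtain ⟨r, c, s, hc, hs, hind⟩ := P.exists_proj N hN hact
    set S := P.Λ ⊓ invSub A Γ N
    have hdec : ∀ u ∈ P.Λ, ∃ a ∈ S, ∃ t : Fin r → oRing A Γ, u = a + ∑ l, t l • c l := fun u hu =>
      ⟨_, ⟨sub_mem hu (Submodule.sum_mem _ fun l _ => P.Λ.smul_mem _ (hc l)), hs ⟨u, hu⟩⟩,
        s ⟨u, hu⟩, (sub_add_cancel _ _).symm⟩
    rintro _ ⟨f, hf, rfl⟩
    show (fun q : V × V => f (q.1 + q.2)) ∈ _
    -- the first variable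
    have h1 : (fun q : V × V => f (q.1 + q.2)) ∈ S.map (pull A Γ Prod.fst).toLinearMap *
        P.Λ.map (pull A Γ (Prod.snd : V × V → V)).toLinearMap := by
      obtain ⟨a, ha, e, he, hFe⟩ : ∃ a ∈ S.map (pull A Γ Prod.fst).toLinearMap *
          P.Λ.map (pull A Γ (Prod.snd : V × V → V)).toLinearMap, ∃ e : Fin r → V → Qbar,
          (∀ l, e l ∈ P.Λ) ∧ ∀ q : V × V, f (q.1 + q.2) = a q + ∑ l, c l q.1 * e l q.2 := by
        refine Submodule.mul_induction_on
          (C := fun F => ∃ a ∈ S.map (pull A Γ Prod.fst).toLinearMap *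
            P.Λ.map (pull A Γ (Prod.snd : V × V → V)).toLinearMap, ∃ e : Fin r → V → Qbar,
            (∀ l, e l ∈ P.Λ) ∧ ∀ q : V × V, F q = a q + ∑ l, c l q.1 * e l q.2)
          (P.comul_mem hf.1) ?_ ?_
        · rintro _ ⟨u, hu, rfl⟩ _ ⟨w, hw, rfl⟩
          obtain ⟨a, ha, t, rfl⟩ := hdec u hu
          refine ⟨_, Submodule.mul_mem_mul (Submodule.mem_map_of_mem ha)
            (Submodule.mem_map_of_mem hw), fun l => t l • w, fun l => P.Λ.smul_mem _ hw,
            fun q => ?_⟩
          simp only [AlgHom.coe_toLinearMap, pull_apply, Pi.mul_apply, Pi.add_apply,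
            Finset.sum_apply, oRing_smul_apply, add_mul, Finset.sum_mul]
          congr 1
          exact Finset.sum_congr rfl fun l _ => by ring
        · rintro F G ⟨a, ha, e, he, hF⟩ ⟨a', ha', e', he', hG⟩
          refine ⟨a + a', add_mem ha ha', e + e', fun l => add_mem (he l) (he' l), fun q => ?_⟩
          simp only [Pi.add_apply, hF, hG, mul_add, Finset.sum_add_distrib]
          ring
      have hainv : ∀ x n y, n ∈ N → a (x + n, y) = a (x, y) := fun x n y hn => by
        refine Submodule.mul_induction_on (C := fun F => F (x + n, y) = F (x, y)) ha ?_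
          fun F G hF hG => by simp only [Pi.add_apply, hF, hG]
        rintro _ ⟨u, hu, rfl⟩ _ ⟨w, hw, rfl⟩
        simp [hu.2 x n hn]
      have he0 : ∀ l y, e l y = 0 := fun l y => hind (fun l => e l y) (fun x n hn => by
        have e1 := hFe (x + n, y)
        have e2 := hFe (x, y)
        simp only [add_right_comm x n y, hf.2 _ n hn, hainv x n y hn] at e1
        simp only [mul_comm (e _ y)]
        linear_combination e2 - e1) l
      convert ha using 1
      funext q
      simp [hFe, he0]
    -- the second variable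
    obtain ⟨a, ha, e, he, hFe⟩ : ∃ a ∈ S.map (pull A Γ Prod.fst).toLinearMap *
        S.map (pull A Γ (Prod.snd : V × V → V)).toLinearMap, ∃ e : Fin r → V → Qbar,
        (∀ l, e l ∈ S) ∧ ∀ q : V × V, f (q.1 + q.2) = a q + ∑ l, e l q.1 * c l q.2 := by
      refine Submodule.mul_induction_on (C := fun F => ∃ a ∈ S.map (pull A Γ Prod.fst).toLinearMap *
        S.map (pull A Γ (Prod.snd : V × V → V)).toLinearMap, ∃ e : Fin r → V → Qbar,
        (∀ l, e l ∈ S) ∧ ∀ q : V × V, F q = a q + ∑ l, e l q.1 * c l q.2) h1 ?_ ?_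
      · rintro _ ⟨u, hu, rfl⟩ _ ⟨w, hw, rfl⟩
        obtain ⟨a, ha, t, rfl⟩ := hdec w hw
        refine ⟨_, Submodule.mul_mem_mul (Submodule.mem_map_of_mem hu)
          (Submodule.mem_map_of_mem ha), fun l => t l • u, fun l => S.smul_mem _ hu, fun q => ?_⟩
        simp only [AlgHom.coe_toLinearMap, pull_apply, Pi.mul_apply, Pi.add_apply,
          Finset.sum_apply, oRing_smul_apply, mul_add, Finset.mul_sum]
        congr 1
        exact Finset.sum_congr rfl fun l _ => by ring
      · rintro F G ⟨a, ha, e, he, hF⟩ ⟨a', ha', e', he', hG⟩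
        refine ⟨a + a', add_mem ha ha', e + e', fun l => add_mem (he l) (he' l), fun q => ?_⟩
        simp only [Pi.add_apply, hF, hG, add_mul, Finset.sum_add_distrib]
        ring
    have hainv : ∀ x n y, n ∈ N → a (x, y + n) = a (x, y) := fun x n y hn => by
      refine Submodule.mul_induction_on (C := fun F => F (x, y + n) = F (x, y)) ha ?_
        fun F G hF hG => by simp only [Pi.add_apply, hF, hG]
      rintro _ ⟨u, hu, rfl⟩ _ ⟨w, hw, rfl⟩
      simp [hw.2 y n hn]
    have he0 : ∀ l x, e l x = 0 := fun l x => hind (fun l => e l x) (fun y n hn => by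
      have e1 := hFe (x, y + n)
      have e2 := hFe (x, y)
      simp only [← add_assoc x y n, hf.2 _ n hn, hainv x n y hn] at e1
      linear_combination e2 - e1) l
    convert ha using 1
    funext q
    simp [hFe, he0]

theorem mem_inv {f : V → Qbar} :
    f ∈ (P.inv N hN hact).Λ ↔ f ∈ P.Λ ∧ ∀ x, ∀ n ∈ N, f (x + n) = f x := Iff.rfl

/-- The invariant functions of a separating model separate the quotient. -/
theorem sepMod_inv [Finite V] (hP : P.Sep) : (P.inv N hN hact).SepMod N := by
  classical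
  obtain ⟨r, c, s, hc, hs, hind⟩ := P.exists_proj N hN hact
  intro x x' hxx
  by_contra hcon
  have hdec : ∀ g ∈ Submodule.span Qbar (P.Λ : Set (V → Qbar)),
      ∃ (β : V → Qbar) (α : Fin r → Qbar), (∀ z, ∀ n ∈ N, β (z + n) = β z) ∧ β x = β x' ∧
        ∀ z, g z = β z + ∑ l, α l * c l z := by
    intro g hg
    induction hg using Submodule.span_induction with
    | mem g hg =>
      refine ⟨g - ∑ l, s ⟨g, hg⟩ l • c l, fun l => s ⟨g, hg⟩ l, hs ⟨g, hg⟩, hxx _
        ⟨sub_mem hg (Submodule.sum_mem _ fun l _ => P.Λ.smul_mem _ (hc l)), hs ⟨g, hg⟩⟩,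
        fun z => ?_⟩
      simp [Finset.sum_apply, Subring.smul_def]
    | zero => exact ⟨0, 0, fun z n _ => rfl, rfl, fun z => by simp⟩
    | add g g' _ _ h h' =>
      obtain ⟨β, α, h1, h2, h3⟩ := h
      obtain ⟨β', α', h1', h2', h3'⟩ := h'
      refine ⟨β + β', α + α', fun z n hn => by simp [h1 z n hn, h1' z n hn], by simp [h2, h2'],
        fun z => ?_⟩
      simp only [Pi.add_apply, h3, h3', add_mul, Finset.sum_add_distrib]
      ring
    | smul a g _ h =>
      obtain ⟨β, α, h1, h2, h3⟩ := h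
      refine ⟨a • β, a • α, fun z n hn => by simp [h1 z n hn], by simp [h2], fun z => ?_⟩
      simp only [Pi.smul_apply, h3, smul_eq_mul, mul_add, Finset.mul_sum, mul_assoc]
  set δ : V → Qbar := fun z => if z - x' ∈ N then 1 else 0 with hδ
  obtain ⟨β, α, hβi, hβx, hβ⟩ := hdec δ (by rw [P.span_eq_top hP]; trivial)
  have hδi : ∀ z, ∀ n ∈ N, δ (z + n) = δ z := fun z n hn => by
    simp only [hδ, add_sub_right_comm z n x', add_mem_cancel_right hn]
  have hα := hind α fun z n hn => by
    have e1 := hβ (z + n)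
    have e2 := hβ z
    rw [hδi z n hn, hβi z n hn, e2] at e1
    exact (add_left_cancel e1).symm
  have : δ x = δ x' := by simp [hβ, hα, hβx]
  simp [hδ, hcon] at this

theorem exists_eq_pull {W : Type*} [AddCommGroup W] (π : V →+ W)
    (hsurj : Function.Surjective π) (hinv : ∀ f ∈ P.Λ, ∀ x, ∀ n ∈ π.ker, f (x + n) = f x)
    {f : V → Qbar} (hf : f ∈ P.Λ) : ∃ f' : W → Qbar, pull A Γ π f' = f :=
  ⟨fun w => f (Function.surjInv hsurj w), funext fun x => by
    have := hinv f hf x (Function.surjInv hsurj (π x) - x) (by simp [Function.surjInv_eq hsurj])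
    simpa using this⟩

theorem map_comap_eq {W : Type*} [AddCommGroup W] (π : V →+ W)
    (hsurj : Function.Surjective π) (hinv : ∀ f ∈ P.Λ, ∀ x, ∀ n ∈ π.ker, f (x + n) = f x) :
    (P.Λ.comap (pull A Γ π).toLinearMap).map (pull A Γ π).toLinearMap = P.Λ := by
  refine le_antisymm (Submodule.map_comap_le _ _) fun f hf => ?_
  obtain ⟨f', rfl⟩ := P.exists_eq_pull π hsurj hinv hf
  exact ⟨f', hf, rfl⟩

/-- Invariant functions as a model on a quotient. -/
def push {W : Type*} [AddCommGroup W] {actW : GQ → W → W} (π : V →+ W)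
    (hsurj : Function.Surjective π) (hπ : ∀ σ ∈ Γ, ∀ x, π (act σ x) = actW σ (π x))
    (hinv : ∀ f ∈ P.Λ, ∀ x, ∀ n ∈ π.ker, f (x + n) = f x) : FnModel A Γ actW where
  Λ := P.Λ.comap (pull A Γ π).toLinearMap
  fg := by
    refine Submodule.fg_of_fg_map_injective _ (pull_injective hsurj) ?_
    rw [P.map_comap_eq π hsurj hinv]
    exact P.fg
  one_mem := P.one_mem
  mul_le := Submodule.mul_le.mpr fun f hf g hg => by
    rw [Submodule.mem_comap, AlgHom.toLinearMap_apply, map_mul]
    exact P.mul_mem hf hg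
  integral := fun f hf w => by
    obtain ⟨x, rfl⟩ := hsurj w
    exact P.integral _ hf x
  equiv := fun f hf σ hσ w => by
    obtain ⟨x, rfl⟩ := hsurj w
    rw [← hπ σ hσ]
    exact P.equiv _ hf σ hσ x
  comul := by
    have hinj := pull_injective (A := A) (Γ := Γ) (g := Prod.map π π) (hsurj.prodMap hsurj)
    rw [← Submodule.map_le_map_iff_of_injective hinj, Submodule.map_mul, pull_pull, pull_pull,
      pull_pull]
    have h := P.comul
    rw [← P.map_comap_eq π hsurj hinv, pull_pull, pull_pull, pull_pull] at h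
    refine le_of_eq_of_le ?_ h
    congr 3
    funext q
    exact (map_add π q.1 q.2).symm

theorem sep_push {W : Type*} [AddCommGroup W] {actW : GQ → W → W} (π : V →+ W)
    (hsurj : Function.Surjective π) (hπ : ∀ σ ∈ Γ, ∀ x, π (act σ x) = actW σ (π x))
    (hinv : ∀ f ∈ P.Λ, ∀ x, ∀ n ∈ π.ker, f (x + n) = f x) (hP : P.SepMod π.ker) :
    (P.push π hsurj hπ hinv).Sep := fun w w' h => by
  obtain ⟨x, rfl⟩ := hsurj w
  obtain ⟨x', rfl⟩ := hsurj w'
  have := hP x x' fun f hf => by
    obtain ⟨f', rfl⟩ := P.exists_eq_pull π hsurj hinv hf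
    exact h f' hf
  rwa [AddMonoidHom.mem_ker, map_sub, sub_eq_zero] at this

end FnModel

/-- A finite module with the given action has a separating model. -/
def HasModel (A : ValuationSubring Qbar) (Γ : Subgroup GQ) (act : GQ → V → V) : Prop :=
  ∃ P : FnModel A Γ act, P.Sep

end Fermat.Agent.TW.Flat

end
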