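import Mathlib.Algebra.Group.ForwardDiff
import Mathlib.Data.Nat.Choose.Dvd
import Fermat.Agent.TW.Flat.Model
import Fermat.Agent.TW.LocalKummer

/-!
# Distances of points in a model

Congruences between values are stable under translation; a point of order `p` closer to the origin
than a `p`-th root of unity is trivial; characters are congruent to `1` when they come from
connected points of the dual.  These are the estimates behind the classification of models.
-/

noncomputable section

namespace Fermat.Agent.TW.Flat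

open Fermat.Agent
open scoped Pointwise fwdDiff

local notation "Qbar" => AlgebraicClosure ℚ
local notation "GQ" => (AlgebraicClosure ℚ ≃ₐ[ℚ] AlgebraicClosure ℚ)

variable {A : ValuationSubring Qbar} {Γ : Subgroup GQ}

local notation "v" => A.valuation

/-- The elements of valuation at most `γ`. -/
def ballLE (A : ValuationSubring Qbar) (γ : A.ValueGroup) : AddSubgroup Qbar where
  carrier := {x | A.valuation x ≤ γ}
  add_mem' := fun ha hb => (A.valuation.map_add _ _).trans (max_le ha hb)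
  zero_mem' := by simp
  neg_mem' := fun h => by simpa using h

/-- The elements of valuation less than `γ`, for nonzero `γ`. -/
def ballLT (A : ValuationSubring Qbar) (γ : A.ValueGroup) (hγ : γ ≠ 0) : AddSubgroup Qbar where
  carrier := {x | A.valuation x < γ}
  add_mem' := fun ha hb => (A.valuation.map_add _ _).trans_lt (max_lt ha hb)
  zero_mem' := by simpa [zero_lt_iff] using hγ
  neg_mem' := fun h => by simpa using h

theorem mem_ballLE {γ : A.ValueGroup} {x : Qbar} : x ∈ ballLE A γ ↔ v x ≤ γ := Iff.rfl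

theorem mem_ballLT {γ : A.ValueGroup} {hγ : γ ≠ 0} {x : Qbar} : x ∈ ballLT A γ hγ ↔ v x < γ :=
  Iff.rfl

theorem mul_mem_ballLE {γ : A.ValueGroup} {a x : Qbar} (ha : a ∈ A) (hx : x ∈ ballLE A γ) :
    a * x ∈ ballLE A γ := by
  rw [mem_ballLE, map_mul]
  exact (mul_le_of_le_one_left' (mem_iff_val_le_one.mp ha)).trans hx

theorem mul_mem_ballLT {γ : A.ValueGroup} {hγ : γ ≠ 0} {a x : Qbar} (ha : a ∈ A)
    (hx : x ∈ ballLT A γ hγ) : a * x ∈ ballLT A γ hγ := by
  rw [mem_ballLT, map_mul]
  exact (mul_le_of_le_one_left' (mem_iff_val_le_one.mp ha)).trans_lt hx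

namespace FnModel

variable {V : Type*} [AddCommGroup V] {act : GQ → V → V} (P : FnModel A Γ act)

/-- Congruences between values are stable under translation. -/
theorem sub_mem_translate (I : AddSubgroup Qbar) (hI : ∀ a ∈ A, ∀ x ∈ I, a * x ∈ I) {x x' : V}
    (h : ∀ f ∈ P.Λ, f x - f x' ∈ I) (z : V) : ∀ f ∈ P.Λ, f (x + z) - f (x' + z) ∈ I := by
  intro f hf
  refine Submodule.mul_induction_on (C := fun F => F (x, z) - F (x', z) ∈ I) (P.comul_mem hf) ?_
    fun F G hF hG => by
      have := I.add_mem hF hG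
      simpa [add_sub_add_comm] using this
  rintro _ ⟨u, hu, rfl⟩ _ ⟨w, hw, rfl⟩
  simpa [← sub_mul, mul_comm] using hI _ (P.integral w hw z) _ (h u hu)

/-- The points congruent to the origin. -/
def near (I : AddSubgroup Qbar) (hI : ∀ a ∈ A, ∀ x ∈ I, a * x ∈ I) : AddSubgroup V where
  carrier := {x | ∀ f ∈ P.Λ, f x - f 0 ∈ I}
  zero_mem' := fun f _ => by simp
  add_mem' := fun {x y} hx hy f hf => by
    have h1 := P.sub_mem_translate I hI hx y f hf
    rw [zero_add] at h1
    simpa using I.add_mem h1 (hy f hf)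
  neg_mem' := fun {x} hx f hf => by
    have h1 := P.sub_mem_translate I hI hx (-x) f hf
    rw [add_neg_cancel, zero_add] at h1
    simpa using I.neg_mem h1

/-- The points reducing to the origin. -/
def conn : AddSubgroup V := P.near (ballLT A 1 one_ne_zero) fun _ ha _ hx => mul_mem_ballLT ha hx

theorem mem_conn {x : V} : x ∈ P.conn ↔ ∀ f ∈ P.Λ, v (f x - f 0) < 1 := Iff.rfl

theorem act_sub_mem_conn {σ : GQ} (hσ : σ ∈ Γ) (hσI : σ ∈ A.inertiaSubgroupIn ℚ) (x : V) :
    act σ x - x ∈ P.conn := fun f hf => by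
  have h : ∀ g ∈ P.Λ, g (act σ x) - g x ∈ ballLT A 1 one_ne_zero := fun g hg => by
    rw [P.equiv g hg σ hσ]
    exact (Gal.mem_inertia_iff.mp hσI).2 _ (P.integral g hg x)
  have := P.sub_mem_translate (ballLT A 1 one_ne_zero) (fun _ ha _ hy => mul_mem_ballLT ha hy) h
    (-x) f hf
  simpa [sub_eq_add_neg] using this

/-- The largest distance of a point from the origin. -/
theorem exists_max (T : Finset V) : ∀ x ∈ T, ∃ x₀ ∈ T, ∃ f₀ ∈ P.Λ,
    ∀ y ∈ T, ∀ f ∈ P.Λ, v (f y - f 0) ≤ v (f₀ x₀ - f₀ 0) := by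
  classical
  intro x hx
  obtain ⟨s, hs⟩ := P.fg
  obtain ⟨q, hq, hmax⟩ := Finset.exists_max_image (T ×ˢ insert 1 s)
    (fun q => v (q.2 q.1 - q.2 0)) ⟨(x, 1), by simp [hx]⟩
  simp only [Finset.mem_product, Finset.mem_insert] at hq
  have hmem : q.2 ∈ P.Λ := by
    rcases hq.2 with h | h
    · rw [h]; exact P.one_mem
    · rw [← hs]; exact Submodule.subset_span h
  refine ⟨q.1, hq.1, q.2, hmem, fun y hy f hf => ?_⟩
  rw [← hs] at hf
  induction hf using Submodule.span_induction with
  | mem f hf =>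
    exact hmax (y, f) (Finset.mem_product.mpr ⟨hy, Finset.mem_insert_of_mem hf⟩)
  | zero => simp
  | add a b _ _ ha hb =>
    rw [Pi.add_apply, Pi.add_apply, add_sub_add_comm]
    exact (A.valuation.map_add _ _).trans (max_le ha hb)
  | smul r a _ ha =>
    rw [oRing_smul_apply, oRing_smul_apply, ← mul_sub, map_mul]
    exact (mul_le_of_le_one_left' (mem_iff_val_le_one.mp (mem_oRing.mp r.2).1)).trans ha

/-- Iterated differences at a close point decrease geometrically. -/
theorem val_fwdDiff_le {x : V} {γ : A.ValueGroup} (h : ∀ f ∈ P.Λ, v (f x - f 0) ≤ γ) :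
    ∀ n : ℕ, ∀ f ∈ P.Λ, ∀ z, v ((Δ_[x])^[n] f z) ≤ γ ^ n := by
  intro n
  induction n with
  | zero => exact fun f hf z => by simpa using mem_iff_val_le_one.mp (P.integral f hf z)
  | succ n ih =>
    intro f hf z
    have key : ∀ z, v ((Δ_[x])^[n]
        (fun z => (fun q : V × V => f (q.1 + q.2)) (z, x) -
          (fun q : V × V => f (q.1 + q.2)) (z, 0)) z) ≤ γ ^ (n + 1) := by
      refine Submodule.mul_induction_on
        (C := fun F => ∀ z, v ((Δ_[x])^[n] (fun z => F (z, x) - F (z, 0)) z) ≤ γ ^ (n + 1))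
        (P.comul_mem hf) ?_ ?_
      · rintro _ ⟨u, hu, rfl⟩ _ ⟨w, hw, rfl⟩ z
        have e : (fun z => ((pull A Γ Prod.fst).toLinearMap u * (pull A Γ Prod.snd).toLinearMap w :
            V × V → Qbar) (z, x) - ((pull A Γ Prod.fst).toLinearMap u *
            (pull A Γ Prod.snd).toLinearMap w : V × V → Qbar) (z, 0)) = (w x - w 0) • u := by
          funext z
          simp only [Pi.mul_apply, AlgHom.toLinearMap_apply, pull_apply, Pi.smul_apply, smul_eq_mul]
          ring
        rw [e, fwdDiff_iter_const_smul, Pi.smul_apply, smul_eq_mul, map_mul, pow_succ']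
        exact mul_le_mul' (h w hw) (ih u hu z)
      · intro F G hF hG z
        have e : (fun z => (F + G) (z, x) - (F + G) (z, 0)) =
            (fun z => F (z, x) - F (z, 0)) + fun z => G (z, x) - G (z, 0) := by
          funext z; simp only [Pi.add_apply]; ring
        rw [e, fwdDiff_iter_add, Pi.add_apply]
        exact (A.valuation.map_add _ _).trans (max_le (hF z) (hG z))
    rw [Function.iterate_succ_apply]
    convert key z using 4
    simp [fwdDiff]

/-- A point of order `p` closer to the origin than a root of unity is trivial. -/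
theorem apply_eq_of_small {p : ℕ} (hp : p.Prime) {x : V} (hpx : ∀ f ∈ P.Λ, f (p • x) = f 0)
    (h : ∀ f ∈ P.Λ, v (f x - f 0) ^ (p - 1) < v (p : Qbar)) : ∀ f ∈ P.Λ, f x = f 0 := by
  classical
  obtain ⟨x₀, hx₀, f₀, hf₀, hmax⟩ := P.exists_max {x} x (Finset.mem_singleton_self x)
  rw [Finset.mem_singleton] at hx₀
  subst hx₀
  set μ := v (f₀ x₀ - f₀ 0) with hμ
  have hle : ∀ f ∈ P.Λ, v (f x₀ - f 0) ≤ μ := hmax x₀ (Finset.mem_singleton_self _)
  suffices μ = 0 by
    intro f hf
    have h' := hle f hf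
    rwa [this, le_zero_iff, map_eq_zero, sub_eq_zero] at h'
  by_contra hμ0
  have hμpos : 0 < μ := zero_lt_iff.mpr hμ0
  have hN := shift_eq_sum_fwdDiff_iter x₀ f₀ p 0
  rw [zero_add, hpx f₀ hf₀, Finset.sum_range_succ'] at hN
  simp only [Function.iterate_zero, id_eq, Nat.choose_zero_right, one_smul] at hN
  have hsum : ∑ k ∈ Finset.range p, p.choose (k + 1) • (Δ_[x₀])^[k + 1] f₀ 0 = 0 := by
    linear_combination -hN
  have hμp : μ ^ (p - 1) < v (p : Qbar) := h f₀ hf₀
  have hμ1 : μ < 1 := by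
    refine not_le.mp fun h1 => hμp.not_ge ?_
    exact (mem_iff_val_le_one.mp (natCast_mem A p)).trans (one_le_pow₀ h1)
  have h1 : v (p.choose (0 + 1) • (Δ_[x₀])^[0 + 1] f₀ 0) = v (p : Qbar) * μ := by
    simp [fwdDiff, hμ]
  have hlt : ∀ k ∈ Finset.range p, k ≠ 0 →
      v (p.choose (k + 1) • (Δ_[x₀])^[k + 1] f₀ 0) < v (p : Qbar) * μ := by
    intro k hk hk0
    rw [nsmul_eq_mul, map_mul]
    have hbd := P.val_fwdDiff_le hle (k + 1) f₀ hf₀ 0
    rcases lt_or_eq_of_le (Nat.succ_le_of_lt (Finset.mem_range.mp hk)) with hlt | heq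
    · obtain ⟨c, hc⟩ := hp.dvd_choose_self (k := k + 1) (by omega) hlt
      rw [hc, Nat.cast_mul, map_mul]
      calc v (p : Qbar) * v (c : Qbar) * v ((Δ_[x₀])^[k + 1] f₀ 0)
          ≤ v (p : Qbar) * 1 * μ ^ (k + 1) :=
            mul_le_mul' (mul_le_mul' le_rfl (mem_iff_val_le_one.mp (natCast_mem A c))) hbd
        _ < v (p : Qbar) * μ := by
            rw [mul_one]
            refine mul_lt_mul_of_pos_left ?_ (lt_of_le_of_lt zero_le hμp)
            exact pow_lt_self_of_lt_one₀ hμpos hμ1 (by omega)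
    · rw [show k + 1 = p from heq, Nat.choose_self, Nat.cast_one, map_one, one_mul]
      rw [show k + 1 = p from heq] at hbd
      refine hbd.trans_lt ?_
      have e : μ ^ p = μ ^ (p - 1) * μ := by rw [← pow_succ, Nat.sub_add_cancel hp.one_le]
      rw [e]
      exact mul_lt_mul_of_pos_right hμp hμpos
  have h2 := A.valuation.map_sum_eq_of_lt (f := fun k => p.choose (k + 1) • (Δ_[x₀])^[k + 1] f₀ 0)
    (Finset.mem_range.mpr hp.pos) (fun k hk => by
    obtain ⟨hk, hk0⟩ := Finset.mem_sdiff.mp hk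
    rw [h1]
    exact hlt k hk (by simpa using hk0))
  rw [hsum, h1, map_zero] at h2
  exact (mul_pos (lt_of_le_of_lt zero_le hμp) hμpos).ne h2

/-- A point reducing to the origin and fixed by inertia modulo a subgroup lies in it. -/
theorem mem_of_fixed_mod [Finite V] {p : ℕ} (hp : p.Prime) (hp2 : p ≠ 2) (hA : A.LiesOverPrime p)
    (hP : P.Sep) (hI : A.inertiaSubgroupIn ℚ ≤ Γ) {N : AddSubgroup V}
    (hN : ∀ σ ∈ Γ, ∀ x ∈ N, act σ x ∈ N)
    (hact : ∀ σ ∈ Γ, ∀ x y, act σ (x + y) = act σ x + act σ y) {x : V} (hx : x ∈ P.conn)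
    (hpx : p • x ∈ N) (hfix : ∀ σ ∈ A.inertiaSubgroupIn ℚ, act σ x - x ∈ N) : x ∈ N := by
  have h0 : ∀ σ ∈ Γ, act σ 0 = 0 := fun σ hσ => by simpa using hact σ hσ 0 0
  have key := (P.inv N hN hact).apply_eq_of_small hp (x := x)
    (fun f hf => by simpa using ((P.mem_inv N hN hact).mp hf).2 0 _ hpx) fun f hf => by
      obtain ⟨hf, hinv⟩ := (P.mem_inv N hN hact).mp hf
      have hvp := val_p_lt_one hp hA
      rcases eq_or_ne (f x - f 0) 0 with h | h
      · rw [h, map_zero, zero_pow (by have := hp.two_le; omega)]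
        exact val_p_pos hp hA
      obtain ⟨j, hj⟩ := exists_val_eq_of_inertia hp hA (x := f x - f 0) (fun σ hσ => by
        rw [map_sub, ← P.equiv f hf σ (hI hσ), ← P.equiv f hf σ (hI hσ), h0 σ (hI hσ)]
        congr 1
        have := hinv x _ (hfix σ hσ)
        simpa using this) h
      have hlt : v (f x - f 0) < 1 := P.mem_conn.mp hx f hf
      have hle : v (f x - f 0) ≤ v (p : Qbar) := by
        have h' := hlt
        rw [hj, ← zpow_zero (v (p : Qbar)), LoweringAtP.PeuRamifie.zpow_val_lt_iff hp hA] at h'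
        conv_rhs => rw [← zpow_one (v (p : Qbar))]
        rw [hj, LoweringAtP.PeuRamifie.zpow_val_le_iff hp hA]
        omega
      refine (pow_le_pow_left' hle (p - 1)).trans_lt ?_
      exact pow_lt_self_of_lt_one₀ (val_p_pos hp hA) hvp (by have := hp.two_le; omega)
  have := P.sepMod_inv N hN hact hP x 0 key
  simpa using this

/-- Products of two small differences bound the failure of additivity. -/
theorem val_add_sub_le {x y : V} {γ δ : A.ValueGroup} (hx : ∀ f ∈ P.Λ, v (f x - f 0) ≤ γ)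
    (hy : ∀ f ∈ P.Λ, v (f y - f 0) ≤ δ) {f : V → Qbar} (hf : f ∈ P.Λ) :
    v (f (x + y) - f x - f y + f 0) ≤ γ * δ := by
  have h := Submodule.mul_induction_on
    (C := fun F => v (F (x, y) - F (x, 0) - F (0, y) + F (0, 0)) ≤ γ * δ) (P.comul_mem hf) ?_ ?_
  · simpa using h
  · rintro _ ⟨u, hu, rfl⟩ _ ⟨w, hw, rfl⟩
    simp only [Pi.mul_apply, AlgHom.toLinearMap_apply, pull_apply]
    rw [show u x * w y - u x * w 0 - u 0 * w y + u 0 * w 0 = (u x - u 0) * (w y - w 0) by ring,
      map_mul]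
    exact mul_le_mul' (hx u hu) (hy w hw)
  · intro F G hF hG
    simp only [Pi.add_apply]
    rw [show F (x, y) + G (x, y) - (F (x, 0) + G (x, 0)) - (F (0, y) + G (0, y)) +
      (F (0, 0) + G (0, 0)) = (F (x, y) - F (x, 0) - F (0, y) + F (0, 0)) +
      (G (x, y) - G (x, 0) - G (0, y) + G (0, 0)) by ring]
    exact (A.valuation.map_add _ _).trans (max_le hF hG)

/-! ### Combinations with small coefficients -/

/-- Combinations of functions with coefficients in the maximal ideal. -/
def mSpan : AddSubgroup (V → Qbar) :=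
  AddSubgroup.closure {g | ∃ a : Qbar, v a < 1 ∧ ∃ f ∈ P.Λ, g = a • f}

theorem smul_mem_mSpan {a : Qbar} (ha : v a < 1) {f : V → Qbar} (hf : f ∈ P.Λ) :
    a • f ∈ P.mSpan := AddSubgroup.subset_closure ⟨a, ha, f, hf, rfl⟩

theorem mul_mem_mSpan {g : V → Qbar} (hg : g ∈ P.mSpan) {a : Qbar} (ha : a ∈ A) {f : V → Qbar}
    (hf : f ∈ P.Λ) : a • f * g ∈ P.mSpan := by
  induction hg using AddSubgroup.closure_induction with
  | mem g hg =>
    obtain ⟨b, hb, e, he, rfl⟩ := hg
    rw [smul_mul_smul_comm]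
    refine P.smul_mem_mSpan ?_ (P.mul_mem hf he)
    rw [map_mul]
    exact (mul_le_of_le_one_left' (mem_iff_val_le_one.mp ha)).trans_lt hb
  | zero => simp
  | add a b _ _ ha hb => rw [mul_add]; exact add_mem ha hb
  | neg a _ ha => rw [mul_neg]; exact neg_mem ha

/-- Values of such combinations vary less than the distance. -/
theorem val_sub_lt_of_mSpan {g : V → Qbar} (hg : g ∈ P.mSpan) {y : V} {γ : A.ValueGroup}
    (hγ : γ ≠ 0) (h : ∀ f ∈ P.Λ, v (f y - f 0) ≤ γ) : v (g y - g 0) < γ := by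
  induction hg using AddSubgroup.closure_induction with
  | mem g hg =>
    obtain ⟨b, hb, e, he, rfl⟩ := hg
    rw [Pi.smul_apply, Pi.smul_apply, smul_eq_mul, smul_eq_mul, ← mul_sub, map_mul]
    calc v b * v (e y - e 0) ≤ v b * γ := mul_le_mul' le_rfl (h e he)
      _ < 1 * γ := mul_lt_mul_of_pos_right hb (zero_lt_iff.mpr hγ)
      _ = γ := one_mul γ
  | zero => simpa [zero_lt_iff] using hγ
  | add a b _ _ ha hb =>
    rw [Pi.add_apply, Pi.add_apply, add_sub_add_comm]
    exact (A.valuation.map_add _ _).trans_lt (max_lt ha hb)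
  | neg a _ ha =>
    simp only [Pi.neg_apply]
    rwa [← neg_sub', Valuation.map_neg]

theorem mSpan_le_extend {Γ' : Subgroup GQ} (h : Γ' ≤ Γ) {g : V → Qbar} (hg : g ∈ P.mSpan) :
    g ∈ (P.extend h).mSpan :=
  AddSubgroup.closure_mono (by
    rintro _ ⟨b, hb, e, he, rfl⟩
    exact ⟨b, hb, e, P.le_extend h he, rfl⟩) hg

theorem mem_mSpan_inv {N : AddSubgroup V} (hN : ∀ σ ∈ Γ, ∀ x ∈ N, act σ x ∈ N)
    (hact : ∀ σ ∈ Γ, ∀ x y, act σ (x + y) = act σ x + act σ y) {g : V → Qbar}
    (hg : g ∈ P.mSpan) (hinv : ∀ x, ∀ n ∈ N, g (x + n) = g x) :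
    g ∈ (P.inv N hN hact).mSpan := by
  obtain ⟨r, c, s, hc, hs, hind⟩ := P.exists_proj N hN hact
  obtain ⟨a, ha, α, he⟩ : ∃ a ∈ (P.inv N hN hact).mSpan, ∃ α : Fin r → Qbar,
      ∀ x, g x = a x + ∑ l, α l * c l x := by
    clear hinv
    induction hg using AddSubgroup.closure_induction with
    | mem g hg =>
      obtain ⟨b, hb, e, he, rfl⟩ := hg
      refine ⟨_, (P.inv N hN hact).smul_mem_mSpan hb
        ⟨sub_mem he (Submodule.sum_mem _ fun l _ => P.Λ.smul_mem _ (hc l)), hs ⟨e, he⟩⟩,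
        fun l => b * s ⟨e, he⟩ l, fun x => ?_⟩
      simp [Finset.sum_apply, Subring.smul_def, mul_sub, Finset.mul_sum, mul_assoc]
    | zero => exact ⟨0, zero_mem _, 0, fun x => by simp⟩
    | add g g' _ _ h h' =>
      obtain ⟨a, ha, α, e⟩ := h
      obtain ⟨a', ha', α', e'⟩ := h'
      refine ⟨a + a', add_mem ha ha', α + α', fun x => ?_⟩
      simp only [Pi.add_apply, e, e', add_mul, Finset.sum_add_distrib]
      ring
    | neg g _ h =>
      obtain ⟨a, ha, α, e⟩ := h
      refine ⟨-a, neg_mem ha, -α, fun x => ?_⟩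
      simp only [Pi.neg_apply, e, neg_mul, Finset.sum_neg_distrib]
      ring
  have hai : ∀ x, ∀ n ∈ N, a (x + n) = a x := by
    clear he
    intro x n hn
    induction ha using AddSubgroup.closure_induction with
    | mem g hg =>
      obtain ⟨b, -, e, he, rfl⟩ := hg
      simp [((P.mem_inv N hN hact).mp he).2 x n hn]
    | zero => rfl
    | add a b _ _ ha hb => simp [ha, hb]
    | neg a _ ha => simp [ha]
  have h0 : ∀ l, α l = 0 := hind α fun x n hn => by
    have e1 := he (x + n)
    rw [hinv x n hn, hai x n hn, he x] at e1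
    exact (add_left_cancel e1).symm
  convert ha using 1
  funext x
  simp [he, h0]

/-- The character of a functional. -/
def chiFun {p : ℕ} [Fact p.Prime] (ℓ : V →+ ZMod p) : V → Qbar :=
  fun x => ((cycQ p).mu (ℓ x) : Qbar)

theorem chiFun_apply {p : ℕ} [Fact p.Prime] (ℓ : V →+ ZMod p) (x : V) :
    chiFun ℓ x = ((cycQ p).mu (ℓ x) : Qbar) := rfl

theorem chiFun_add {p : ℕ} [Fact p.Prime] (ℓ ℓ' : V →+ ZMod p) :
    chiFun (ℓ + ℓ') = chiFun ℓ * chiFun ℓ' := funext fun x => by
  simp [chiFun, (cycQ p).mu_add]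

/-- The coordinates of a character in a basis of a separated model are integral. -/
theorem exists_coord_integral [Finite V] {p : ℕ} [Fact p.Prime] (hP : P.Sep) {r : ℕ}
    {b : Fin r → V → Qbar} (hb : ∀ i, b i ∈ P.Λ)
    (hspan : P.Λ = Submodule.span (oRing A Γ) (Set.range b)) (hli : LinearIndependent Qbar b)
    (ℓ : V →+ ZMod p) : ∃ α : Fin r → Qbar, (∀ i, α i ∈ A) ∧ chiFun ℓ = ∑ i, α i • b i := by
  classical
  have hmem : chiFun ℓ ∈ Submodule.span Qbar (Set.range b) := by
    have h : Submodule.span Qbar (Set.range b) = ⊤ := eq_top_iff.mpr (by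
      rw [← P.span_eq_top hP, Submodule.span_le, hspan]
      exact Submodule.span_le_restrictScalars (oRing A Γ) Qbar (Set.range b))
    rw [h]; trivial
  obtain ⟨α, hα⟩ := (Submodule.mem_span_range_iff_exists_fun Qbar).mp hmem
  refine ⟨α, ?_, hα.symm⟩
  have hprod : ∀ i, ∃ c : Fin r → Fin r → oRing A Γ, ∀ x y,
      b i (x + y) = ∑ j, ∑ l, (c j l : Qbar) * (b j x * b l y) := by
    intro i
    refine Submodule.mul_induction_on (C := fun F => ∃ c : Fin r → Fin r → oRing A Γ, ∀ x y,
      F (x, y) = ∑ j, ∑ l, (c j l : Qbar) * (b j x * b l y)) (P.comul_mem (hb i)) ?_ ?_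
    · rintro _ ⟨u, hu, rfl⟩ _ ⟨w, hw, rfl⟩
      rw [SetLike.mem_coe, hspan, Submodule.mem_span_range_iff_exists_fun] at hu hw
      obtain ⟨cu, rfl⟩ := hu
      obtain ⟨cw, rfl⟩ := hw
      refine ⟨fun j l => cu j * cw l, fun x y => ?_⟩
      simp only [Pi.mul_apply, AlgHom.toLinearMap_apply, pull_apply, Finset.sum_apply,
        oRing_smul_apply, Finset.sum_mul, Finset.mul_sum, MulMemClass.coe_mul]
      rw [Finset.sum_comm]
      exact Finset.sum_congr rfl fun j _ => Finset.sum_congr rfl fun l _ => by ring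
    · rintro F G ⟨c, hc⟩ ⟨c', hc'⟩
      refine ⟨c + c', fun x y => ?_⟩
      simp only [Pi.add_apply, hc, hc', Subring.coe_add, add_mul, Finset.sum_add_distrib]
  choose c hc using hprod
  have hmul : ∀ j l, α j * α l = ∑ i, α i * c i j l := by
    have key : ∀ y, ∀ j, α j * chiFun ℓ y = ∑ l, (∑ i, α i * c i j l) * b l y := by
      intro y j
      refine sub_eq_zero.mp (Fintype.linearIndependent_iff.mp hli
        (fun j => α j * chiFun ℓ y - ∑ l, (∑ i, α i * c i j l) * b l y) (funext fun x => ?_) j)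
      have e1 : chiFun ℓ x * chiFun ℓ y = chiFun ℓ (x + y) := by
        simp [chiFun, (cycQ p).mu_add]
      have e2 : chiFun ℓ (x + y) = ∑ i, α i * b i (x + y) := by
        rw [← hα]; simp [Finset.sum_apply]
      have e3 : chiFun ℓ x = ∑ i, α i * b i x := by
        rw [← hα]; simp [Finset.sum_apply]
      simp only [Finset.sum_apply, Pi.smul_apply, smul_eq_mul, sub_mul, Finset.sum_sub_distrib,
        Pi.zero_apply]
      rw [sub_eq_zero]
      calc ∑ j, α j * chiFun ℓ y * b j x = chiFun ℓ x * chiFun ℓ y := by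
            rw [e3, Finset.sum_mul]; exact Finset.sum_congr rfl fun _ _ => by ring
        _ = _ := by
            rw [e1, e2]
            simp only [hc, Finset.mul_sum, Finset.sum_mul]
            rw [Finset.sum_comm]
            refine Finset.sum_congr rfl fun j _ => ?_
            rw [Finset.sum_comm]
            exact Finset.sum_congr rfl fun l _ => Finset.sum_congr rfl fun i _ => by ring
    intro j l
    refine sub_eq_zero.mp (Fintype.linearIndependent_iff.mp hli
      (fun l => α j * α l - ∑ i, α i * c i j l) (funext fun y => ?_) l)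
    have e3 : chiFun ℓ y = ∑ i, α i * b i y := by rw [← hα]; simp [Finset.sum_apply]
    have := key y j
    rw [e3, Finset.mul_sum] at this
    simp only [Finset.sum_apply, Pi.smul_apply, smul_eq_mul, sub_mul, Finset.sum_sub_distrib,
      Pi.zero_apply, mul_assoc, this, sub_self]
  intro i
  obtain ⟨m, -, hm⟩ := Finset.exists_max_image Finset.univ (fun i => v (α i))
    ⟨i, Finset.mem_univ i⟩
  have hsq : v (α m) * v (α m) ≤ v (α m) := by
    rw [← map_mul, hmul m m]
    refine A.valuation.map_sum_le fun l _ => ?_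
    rw [map_mul]
    exact (mul_le_of_le_one_right' (mem_iff_val_le_one.mp (mem_oRing.mp (c l m m).2).1)).trans
      (hm l (Finset.mem_univ l))
  rw [mem_iff_val_le_one]
  refine (hm i (Finset.mem_univ i)).trans (not_lt.mp fun h1 => hsq.not_gt ?_)
  exact lt_mul_of_one_lt_left (lt_trans zero_lt_one h1) h1

/-- A character is congruent to `1` when an inertia element has no eigenvector of its own
cyclotomic value. -/
theorem chiFun_sub_one_mem [Finite V] {p : ℕ} [Fact p.Prime] (hP : P.Sep) {g : GQ} (hg : g ∈ Γ)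
    (hgI : g ∈ A.inertiaSubgroupIn ℚ) (hadd : ∀ x y, act g (x + y) = act g x + act g y)
    (hbij : Function.Bijective (act g))
    (hsurj : Function.Surjective fun x => act g x - ((cycQ p).ω g : ZMod p).val • x)
    (ℓ : V →+ ZMod p) : chiFun ℓ - 1 ∈ P.mSpan := by
  classical
  obtain ⟨r, b, hb, hspan, hli⟩ := P.exists_basis
  have hcoord := P.exists_coord_integral (p := p) hP hb hspan hli
  let G' : AddSubgroup (V →+ ZMod p) :=
    { carrier := {ℓ | chiFun ℓ - 1 ∈ P.mSpan}
      zero_mem' := by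
        have : chiFun (0 : V →+ ZMod p) = 1 := funext fun x => by simp [chiFun, (cycQ p).mu_zero]
        rw [Set.mem_ofPred_eq, this, sub_self]; exact zero_mem _
      add_mem' := fun {ℓ ℓ'} h h' => by
        obtain ⟨α, hαA, hα⟩ := hcoord ℓ
        have e : chiFun (ℓ + ℓ') - 1 = (chiFun ℓ - 1) + chiFun ℓ * (chiFun ℓ' - 1) := by
          rw [chiFun_add]; ring
        rw [Set.mem_ofPred_eq, e]
        refine add_mem h ?_
        rw [hα, Finset.sum_mul]
        exact AddSubgroup.sum_mem _ fun i _ => P.mul_mem_mSpan h' (hαA i) (hb i)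
      neg_mem' := fun {ℓ} h => by
        obtain ⟨α, hαA, hα⟩ := hcoord (-ℓ)
        have h1 : chiFun (-ℓ) * chiFun ℓ = 1 := by
          rw [← chiFun_add, neg_add_cancel]
          exact funext fun x => by simp [chiFun, (cycQ p).mu_zero]
        have e : chiFun (-ℓ) - 1 = -(chiFun (-ℓ) * (chiFun ℓ - 1)) := by
          rw [mul_sub, h1]; ring
        rw [Set.mem_ofPred_eq, e]
        refine neg_mem ?_
        rw [hα, Finset.sum_mul]
        exact AddSubgroup.sum_mem _ fun i _ => P.mul_mem_mSpan h (hαA i) (hb i) }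
  set c := ((cycQ p).ω g : ZMod p) with hcdef
  let e : V ≃+ V := AddEquiv.ofBijective (AddMonoidHom.mk' (act g) hadd) hbij
  let T : (V →+ ZMod p) → (V →+ ZMod p) := fun ℓ =>
    (AddMonoidHom.mulLeft c).comp (ℓ.comp e.symm.toAddMonoidHom) - ℓ
  have hTG : ∀ ℓ, T ℓ ∈ G' := by
    intro ℓ
    obtain ⟨α, hαA, hα⟩ := hcoord ℓ
    obtain ⟨β, hβA, hβ⟩ := hcoord (-ℓ)
    set ℓ'' : V →+ ZMod p := (AddMonoidHom.mulLeft c).comp (ℓ.comp e.symm.toAddMonoidHom)
    have h1 : chiFun ℓ'' = ∑ i, g (α i) • b i := by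
      funext x
      obtain ⟨x, rfl⟩ := hbij.2 x
      have e0 : ℓ'' (act g x) = c * ℓ x := by
        show c * ℓ (e.symm (e x)) = _
        rw [AddEquiv.symm_apply_apply]
      rw [chiFun_apply, e0, ← (cycQ p).smul_mu, AlgEquiv.smul_units_def, Units.coe_map,
        MonoidHom.coe_coe, ← chiFun_apply, hα]
      simp only [Finset.sum_apply, Pi.smul_apply, smul_eq_mul, map_sum, map_mul]
      exact Finset.sum_congr rfl fun i _ => by rw [P.equiv _ (hb i) g hg]
    have h2 : chiFun ℓ'' - chiFun ℓ ∈ P.mSpan := by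
      rw [h1, hα, ← Finset.sum_sub_distrib]
      refine AddSubgroup.sum_mem _ fun i _ => ?_
      rw [← sub_smul]
      exact P.smul_mem_mSpan ((Gal.mem_inertia_iff.mp hgI).2 _ (hαA i)) (hb i)
    have e2 : chiFun (T ℓ) - 1 = chiFun (-ℓ) * (chiFun ℓ'' - chiFun ℓ) := by
      have h3 : chiFun (-ℓ) * chiFun ℓ = 1 := by
        rw [← chiFun_add, neg_add_cancel]
        exact funext fun x => by simp [chiFun, (cycQ p).mu_zero]
      rw [mul_sub, h3, ← chiFun_add, add_comm, ← sub_eq_add_neg]
    show chiFun (T ℓ) - 1 ∈ P.mSpan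
    rw [e2, hβ, Finset.sum_mul]
    exact AddSubgroup.sum_mem _ fun i _ => P.mul_mem_mSpan h2 (hβA i) (hb i)
  have hTinj : Function.Injective T := fun ℓ ℓ' h => by
    refine AddMonoidHom.ext fun y => ?_
    obtain ⟨x, rfl⟩ := hsurj y
    have h' := DFunLike.congr_fun h (e x)
    simp only [T, AddMonoidHom.sub_apply, AddMonoidHom.comp_apply, AddMonoidHom.coe_mulLeft,
      AddEquiv.coe_toAddMonoidHom, AddEquiv.symm_apply_apply] at h'
    have he : e x = act g x := rfl
    rw [he] at h'
    simp only [map_sub, map_nsmul, nsmul_eq_mul, ZMod.natCast_zmod_val]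
    linear_combination -h'
  have : Finite (V →+ ZMod p) := Finite.of_injective _ DFunLike.coe_injective
  obtain ⟨ℓ₀, rfl⟩ := Finite.injective_iff_surjective.mp hTinj ℓ
  exact hTG ℓ₀

end FnModel

end Fermat.Agent.TW.Flat

end
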