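import Fermat.Agent.TW.Flat.Kummer
import Fermat.Agent.TW.Flat.Small

/-!
# Displacement bound for a cyclic layer over a tame level

If a homomorphism of the level has a root with a known leading term, every integral element fixed
by its kernel moves little, and so does every point of a model on which the level acts through
this homomorphism.  Used to show that classes with a model have small levels.
-/

noncomputable section

namespace Fermat.Agent.TW.Flat

open Fermat.Agent
open scoped Pointwise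

local notation "Qbar" => AlgebraicClosure ℚ
local notation "GQ" => (AlgebraicClosure ℚ ≃ₐ[ℚ] AlgebraicClosure ℚ)

variable {A : ValuationSubring Qbar} {p : ℕ} [hpf : Fact p.Prime]

local notation "v" => A.valuation

namespace TameLvl

variable {D : TameLvl A p}

theorem IsRoot.map_mul {φ : GQ → ZMod p} {r : Qbar} (hr : D.IsRoot φ r) {g h : GQ}
    (hg : g ∈ D.Γ0) (hh : h ∈ D.Γ0) : φ (g * h) = φ g + φ h := by
  refine muP_injective (mul_right_cancel₀ hr.1 ?_)
  rw [← hr.2 _ (mul_mem hg hh), AlgEquiv.mul_apply, hr.2 h hh, _root_.map_mul,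
    D.apply_muP_of_mem hg, hr.2 g hg, muP_add]
  ring

theorem IsRoot.map_one {φ : GQ → ZMod p} {r : Qbar} (hr : D.IsRoot φ r) : φ 1 = 0 := by
  have h := hr.map_mul (one_mem D.Γ0) (one_mem D.Γ0)
  rw [one_mul] at h
  linear_combination -h

theorem IsRoot.map_pow {φ : GQ → ZMod p} {r : Qbar} (hr : D.IsRoot φ r) {h : GQ}
    (hh : h ∈ D.Γ0) (n : ℕ) : φ (h ^ n) = n * φ h := by
  induction n with
  | zero => simp [hr.map_one]
  | succ n ih => rw [pow_succ, hr.map_mul (pow_mem hh n) hh, ih, Nat.cast_add, Nat.cast_one]; ring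

variable (D) in
/-- Integral elements fixed by the kernel of `φ` move by at most `Q ^ (b + 1)`. -/
def HasBreak (φ : GQ → ZMod p) (b : ℕ) : Prop :=
  ∀ t ∈ A, (∀ h ∈ D.Γ0, φ h = 0 → h t = t) → ∀ h ∈ D.Γ0, v (h t - t) ≤ D.Q ^ (b + 1)

/-- An element fixed by the kernel is a combination of the powers of the root. -/
theorem IsRoot.exists_expand {φ : GQ → ZMod p} {r : Qbar} (hr : D.IsRoot φ r) {t : Qbar}
    (ht : ∀ h ∈ D.Γ0, φ h = 0 → h t = t) {h1 : GQ} (h1mem : h1 ∈ D.Γ0) (h11 : φ h1 = 1) :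
    ∃ a : ℕ → Qbar, (∀ l, ∀ h ∈ D.Γ0, h (a l) = a l) ∧
      t = ∑ l ∈ Finset.range p, a l * r ^ l := by
  have hp := hpf.out
  set G : ZMod p → Qbar := fun m => (h1 ^ m.val) t with hG
  have hG0 : G 0 = t := by simp [hG]
  have hshift : ∀ h ∈ D.Γ0, ∀ m, h (G m) = G (m + φ h) := fun h hh m => by
    have hmem := mul_mem (mul_mem (inv_mem (pow_mem h1mem (m + φ h).val)) hh)
      (pow_mem h1mem m.val)
    have h0 : φ ((h1 ^ (m + φ h).val)⁻¹ * h * h1 ^ m.val) = 0 := by
      have e := hr.map_mul (pow_mem h1mem (m + φ h).val) hmem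
      rw [← mul_assoc, mul_inv_cancel_left, hr.map_mul hh (pow_mem h1mem _),
        hr.map_pow h1mem, hr.map_pow h1mem, h11, ZMod.natCast_val, ZMod.natCast_val,
        ZMod.cast_id, ZMod.cast_id] at e
      linear_combination -e
    have e2 := congrArg (fun y => (h1 ^ (m + φ h).val) y) (ht _ hmem h0)
    simpa [hG, AlgEquiv.mul_apply, ← AlgEquiv.aut_inv] using e2
  set R : ℕ → Qbar := fun l => ∑ m : ZMod p, muP p (-((l : ZMod p) * m)) * G m with hR
  refine ⟨fun l => R l / ((p : Qbar) * r ^ l), fun l h hh => ?_, ?_⟩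
  · have hRl : h (R l) = muP p ((l : ZMod p) * φ h) * R l := by
      rw [hR, map_sum, Finset.mul_sum]
      refine Fintype.sum_equiv (Equiv.addRight (φ h)) _ _ fun m => ?_
      rw [_root_.map_mul, D.apply_muP_of_mem hh, hshift h hh, Equiv.coe_addRight, ← mul_assoc,
        ← muP_add]
      congr 2
      ring
    have hpow : muP p ((l : ZMod p) * φ h) = muP p (φ h) ^ l := by
      clear hRl
      induction l with
      | zero => simp [muP_zero]
      | succ l ih => rw [pow_succ, ← ih, Nat.cast_add, Nat.cast_one, add_one_mul, muP_add]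
    rw [map_div₀, _root_.map_mul, _root_.map_pow, map_natCast, hRl, hr.2 h hh, mul_pow, hpow,
      mul_left_comm, mul_div_mul_left _ _ (pow_ne_zero _ (muP_ne_zero _))]
  · have hkey : ∀ m : ZMod p, ∑ l ∈ Finset.range p, muP p (-((l : ZMod p) * m)) =
        if m = 0 then (p : Qbar) else 0 := fun m => by
      have hpow : ∀ l : ℕ, muP p (-((l : ZMod p) * m)) = muP p (-m) ^ l := fun l => by
        induction l with
        | zero => simp [muP_zero]
        | succ l ih =>
          rw [pow_succ, ← ih, Nat.cast_add, Nat.cast_one, add_one_mul, neg_add, muP_add]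
      simp only [hpow]
      split_ifs with hm
      · simp [hm, muP_zero]
      · have h1 : muP p (-m) ≠ 1 := fun e =>
          hm (neg_eq_zero.mp (muP_injective (e.trans (muP_zero (p := p)).symm)))
        rw [geom_sum_eq h1, muP_pow, sub_self, zero_div]
    calc t = (∑ m : ZMod p, (if m = 0 then (p : Qbar) else 0) * G m) / p := by
          simp only [ite_mul, zero_mul, Finset.sum_ite_eq', Finset.mem_univ, if_true, hG0]
          rw [mul_div_assoc, mul_div_cancel₀ _ (Nat.cast_ne_zero.mpr hp.ne_zero)]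
      _ = (∑ l ∈ Finset.range p, R l) / p := by
          simp only [hR, ← hkey, Finset.sum_mul]
          rw [Finset.sum_comm]
      _ = _ := by
          rw [Finset.sum_div]
          refine Finset.sum_congr rfl fun l _ => ?_
          field_simp [hr.1, Nat.cast_ne_zero.mpr hp.ne_zero]

/-- An integral combination of powers of an element moved little moves little. -/
theorem val_apply_sub_le {s : Qbar} {e : ℤ} (hs : v s = D.Q ^ e) (he : (e : ZMod p) ≠ 0)
    {b : ℕ} {h : GQ} (hh : h ∈ D.Γ0) (hgain : v (h s / s - 1) ≤ D.Q ^ b) {a : ℕ → Qbar}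
    (ha : ∀ l, ∀ g ∈ D.Γ0, g (a l) = a l) {t : Qbar} (htA : t ∈ A)
    (ht : t = ∑ i ∈ Finset.range p, a i * s ^ i) : v (h t - t) ≤ D.Q ^ (b + 1) := by
  have hp := hpf.out
  have hQ0 : D.Q ≠ 0 := D.Q_pos.ne'
  have hval : ∀ i, a i = 0 ∨ ∃ n : ℤ, v (a i * s ^ i) = D.Q ^ n ∧
      (n : ZMod p) = (i : ZMod p) * e := fun i => by
    rcases eq_or_ne (a i) 0 with h0 | h0
    · exact Or.inl h0
    · obtain ⟨n, hn⟩ := D.exists_val_eq (ha i) h0
      refine Or.inr ⟨(p : ℤ) * n + e * i, ?_, ?_⟩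
      · rw [_root_.map_mul, _root_.map_pow, hn, hs, ← zpow_natCast, ← zpow_mul,
          ← zpow_add₀ hQ0]
      · push_cast
        rw [ZMod.natCast_self]
        ring
  have hterm : ∀ i ∈ Finset.range p, v (a i * s ^ i) ≤ 1 := by
    obtain ⟨i0, hi0, hmax⟩ := Finset.exists_max_image (Finset.range p) (fun i => v (a i * s ^ i))
      ⟨0, Finset.mem_range.mpr hp.pos⟩
    refine fun i hi => (hmax i hi).trans ?_
    rcases hval i0 with h0 | ⟨n, hn, hni⟩
    · simp [h0]
    · have hlt : ∀ k ∈ Finset.range p \ {i0}, v (a k * s ^ k) < v (a i0 * s ^ i0) := by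
        intro k hk
        rw [Finset.mem_sdiff, Finset.mem_singleton] at hk
        refine lt_of_le_of_ne (hmax k hk.1) fun heq => ?_
        rcases hval k with h0 | ⟨n', hn', hnk⟩
        · rw [h0, zero_mul, map_zero, hn] at heq
          exact zpow_ne_zero _ hQ0 heq.symm
        · rw [hn, hn'] at heq
          rw [D.zpow_inj.mp heq] at hnk
          have hcast : (k : ZMod p) = (i0 : ZMod p) :=
            mul_right_cancel₀ he (hnk.symm.trans hni)
          rw [ZMod.natCast_eq_natCast_iff', Nat.mod_eq_of_lt (Finset.mem_range.mp hk.1),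
            Nat.mod_eq_of_lt (Finset.mem_range.mp hi0)] at hcast
          exact hk.2 hcast
      rw [← A.valuation.map_sum_eq_of_lt hi0 hlt, ← ht]
      exact mem_iff_val_le_one.mp htA
  have hterm' : ∀ i ∈ Finset.range p, i ≠ 0 → v (a i * s ^ i) ≤ D.Q := fun i hi hi0 => by
    rcases hval i with h0 | ⟨n, hn, hni⟩
    · simp [h0]
    · rw [hn]
      have h1 : (0 : ℤ) ≤ n := D.zpow_le.mp (by rw [zpow_zero, ← hn]; exact hterm i hi)
      have h2 : n ≠ 0 := fun h0 => by
        rw [h0, Int.cast_zero, eq_comm, mul_eq_zero] at hni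
        rcases hni with h3 | h3
        · rw [ZMod.natCast_eq_zero_iff] at h3
          exact hi0 (Nat.eq_zero_of_dvd_of_lt h3 (Finset.mem_range.mp hi))
        · exact he h3
      conv_rhs => rw [← zpow_one D.Q]
      exact D.zpow_le.mpr (by omega)
  have hsA : h s / s ∈ A :=
    div_mem_of_decomposition (inertia_le_decomposition (D.le_inertia hh)) s
  rw [ht, map_sum, ← Finset.sum_sub_distrib]
  refine A.valuation.map_sum_le fun i hi => ?_
  rcases eq_or_ne i 0 with rfl | hi0
  · simp [ha 0 h hh]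
  have hs0 : s ≠ 0 := fun h0 => by
    rw [h0, map_zero] at hs
    exact zpow_ne_zero _ hQ0 hs.symm
  have e1 : h (a i * s ^ i) - a i * s ^ i = a i * s ^ i * ((h s / s) ^ i - 1) := by
    rw [_root_.map_mul, _root_.map_pow, ha i h hh, div_pow]
    field_simp
  rw [e1, _root_.map_mul, pow_succ' D.Q]
  refine mul_le_mul' (hterm' i hi hi0) ?_
  rw [← geom_sum_mul, _root_.map_mul]
  refine le_trans (mul_le_of_le_one_left' ?_) hgain
  exact mem_iff_val_le_one.mp (A.sum_mem fun k _ => pow_mem hsA k)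

/-- A root with a known leading term bounds the break of the homomorphism. -/
theorem IsRoot.hasBreak {φ : GQ → ZMod p} {r : Qbar} (hr : D.IsRoot φ r) {s : Qbar} {e : ℤ}
    (hs : v s = D.Q ^ e) (he : (e : ZMod p) ≠ 0) {b : ℕ}
    (hgain : ∀ h ∈ D.Γ0, v (h s / s - 1) ≤ D.Q ^ b)
    (hexp : ∀ a : ℕ → Qbar, (∀ l, ∀ g ∈ D.Γ0, g (a l) = a l) →
      ∃ a' : ℕ → Qbar, (∀ l, ∀ g ∈ D.Γ0, g (a' l) = a' l) ∧
        ∑ l ∈ Finset.range p, a l * r ^ l = ∑ i ∈ Finset.range p, a' i * s ^ i) :
    D.HasBreak φ b := by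
  intro t htA ht h hh
  by_cases hz : φ h = 0
  · rw [ht h hh hz, sub_self, map_zero]
    exact zero_le
  set k := ((φ h)⁻¹).val
  have h11 : φ (h ^ k) = 1 := by
    rw [hr.map_pow hh, ZMod.natCast_val, ZMod.cast_id, inv_mul_cancel₀ hz]
  obtain ⟨a, ha, e1⟩ := hr.exists_expand ht (pow_mem hh k) h11
  obtain ⟨a', ha', e2⟩ := hexp a ha
  exact val_apply_sub_le hs he hh (hgain h hh) ha' htA (e1.trans e2)

/-- A root of valuation exponent prime to `p`. -/
theorem HasVal.hasBreak {φ : GQ → ZMod p} {n : ZMod p} (h : D.HasVal φ n) (hn : n ≠ 0) :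
    D.HasBreak φ (p * D.T) := by
  obtain ⟨r, m, hr, hv, hm⟩ := h
  refine hr.hasBreak hv (hm ▸ hn) (fun g hg => ?_) fun a ha => ⟨a, ha, rfl⟩
  rw [hr.2 g hg, mul_div_assoc, div_self hr.1, mul_one]
  exact D.val_muP_sub_one_le _

/-- A root with nonzero leading coefficient at a level prime to `p`. -/
theorem HasLead.hasBreak {φ : GQ → ZMod p} {j : ℕ} {a : IsLocalRing.ResidueField A}
    (h : D.HasLead φ j a) (ha : a ≠ 0) (hj : ¬ p ∣ j) (hjT : j < p * D.T) :
    D.HasBreak φ (p * D.T - j) := by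
  obtain ⟨r, hr, hle, hco⟩ := h
  have hp := hpf.out
  have hveq : v (r ^ p - 1) = D.Q ^ (p * j) :=
    le_antisymm hle (not_lt.mp fun hlt => ha (hco ▸ (D.coeff_eq_zero_iff hle).mpr hlt))
  have hj0 : j ≠ 0 := fun h0 => hj (h0 ▸ dvd_zero p)
  have hbig : D.Q ^ (p * D.T) < v (r - 1) := by
    by_contra hle'
    have h1 := (val_pow_sub_one_le (not_lt.mp hle')).1
    rw [hveq, D.pow_le_iff, mul_comm (p * D.T) p] at h1
    exact absurd (Nat.le_of_mul_le_mul_left h1 hp.pos) (not_le.mpr hjT)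
  have hvs : v (r - 1) = D.Q ^ j := by
    refine (pow_left_inj₀ zero_le zero_le hp.ne_zero).mp ?_
    rw [← val_pow_sub_one_eq hbig, hveq, ← pow_mul, mul_comm]
  have hvr : v r = 1 := by
    rw [show r = 1 + (r - 1) by ring]
    exact A.valuation.map_one_add_of_lt (hvs ▸ pow_lt_one₀ zero_le D.Q_lt_one hj0)
  have hr1 : r - 1 ≠ 0 := fun h0 => by
    rw [h0, map_zero] at hvs
    exact pow_ne_zero _ D.Q_pos.ne' hvs.symm
  refine hr.hasBreak (s := r - 1) (e := (j : ℤ)) (by rw [hvs, zpow_natCast])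
    (by rw [Int.cast_natCast, Ne, ZMod.natCast_eq_zero_iff]; exact hj) (fun g hg => ?_) ?_
  · have egs : g (r - 1) = muP p (φ g) * r - 1 := by
      rw [map_sub, _root_.map_one, hr.2 g hg]
    rw [egs, div_sub_one hr1,
      show muP p (φ g) * r - 1 - (r - 1) = (muP p (φ g) - 1) * r by ring, map_div₀,
      _root_.map_mul, hvr, mul_one, hvs]
    calc v (muP p (φ g) - 1) / D.Q ^ j ≤ D.Q ^ (p * D.T) / D.Q ^ j := by
          rw [div_eq_mul_inv, div_eq_mul_inv]
          exact mul_le_mul' (D.val_muP_sub_one_le _) le_rfl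
      _ = _ := by
          rw [eq_comm, eq_div_iff (pow_ne_zero _ D.Q_pos.ne'), ← pow_add,
            Nat.sub_add_cancel hjT.le]
  · intro c hc
    refine ⟨fun i => ∑ l ∈ Finset.range p, c l * (l.choose i : Qbar), fun i g hg => ?_, ?_⟩
    · rw [map_sum]
      exact Finset.sum_congr rfl fun l _ => by rw [_root_.map_mul, map_natCast, hc l g hg]
    · simp only [Finset.sum_mul]
      rw [Finset.sum_comm]
      refine Finset.sum_congr rfl fun l hl => ?_
      have e : r ^ l = ∑ i ∈ Finset.range (l + 1), (r - 1) ^ i * (l.choose i : Qbar) := by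
        conv_lhs => rw [show r = (r - 1) + 1 by ring, add_pow]
        simp
      rw [e, Finset.mul_sum, Finset.sum_subset (s₂ := Finset.range p)
        (Finset.range_subset_range.mpr (Finset.mem_range.mp hl)) fun i _ hi => by
          rw [Nat.choose_eq_zero_of_lt (by simpa [Finset.mem_range, not_lt] using hi)]; simp]
      exact Finset.sum_congr rfl fun i _ => by ring

/-- A point moved by the level through `φ` has small displacement. -/
theorem HasBreak.val_sub_le {V : Type*} [AddCommGroup V] {act : GQ → V → V} {Γ : Subgroup GQ}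
    (P : FnModel A Γ act) (hΓ : D.Γ0 ≤ Γ) {φ : GQ → ZMod p} {b : ℕ} (hb : D.HasBreak φ b)
    {x y : V} (hx : ∀ f ∈ P.Λ, ∀ h ∈ D.Γ0, f (act h x) = f (x + (φ h).val • y))
    {h1 : GQ} (h1mem : h1 ∈ D.Γ0) (h11 : φ h1 = 1) {f : V → Qbar} (hf : f ∈ P.Λ) :
    v (f y - f 0) ≤ D.Q ^ (b + 1) := by
  have key : ∀ f ∈ P.Λ, f (x + y) - f x ∈ ballLE A (D.Q ^ (b + 1)) := fun f hf => by
    have e : h1 (f x) = f (x + y) := by
      rw [← P.equiv f hf h1 (hΓ h1mem), hx f hf h1 h1mem, h11, ZMod.val_one, one_smul]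
    rw [mem_ballLE, ← e]
    refine hb (f x) (P.integral f hf x) (fun h hh h0 => ?_) h1 h1mem
    rw [← P.equiv f hf h (hΓ hh), hx f hf h hh, h0, ZMod.val_zero, zero_smul, add_zero]
  have := P.sub_mem_translate (ballLE A (D.Q ^ (b + 1))) (fun a ha z hz => mul_mem_ballLE ha hz) key
    (-x) f hf
  rwa [add_comm x y, add_neg_cancel_right, add_neg_cancel, mem_ballLE] at this

end TameLvl

end Fermat.Agent.TW.Flat
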