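import Mathlib.LinearAlgebra.Dimension.Constructions
import Fermat.Agent.TW.Flat.Break

/-!
# Additive families of homomorphisms of a level, and models which exclude breaks

The leading coefficient at a level is additive in the family, a model with a moving point bounds
the break, and classes detected by leading coefficients are counted by cardinality.
Used in both cases of the local bound for models.
-/

noncomputable section

namespace Fermat.Agent.TW.Flat

open Fermat.Agent
open scoped Pointwise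

local notation "Qbar" => AlgebraicClosure ℚ
local notation "GQ" => (AlgebraicClosure ℚ ≃ₐ[ℚ] AlgebraicClosure ℚ)

variable {A : ValuationSubring Qbar} {p : ℕ} [hpf : Fact p.Prime]

local notation "v" => A.valuation
local notation "κ" => IsLocalRing.ResidueField A

namespace TameLvl

variable (D : TameLvl A p)

theorem exists_inertia_eq {σ : GQ} (hσ : σ ∈ A.inertiaSubgroupIn ℚ) :
    ∃ (i : ℕ) (h : GQ), h ∈ D.Γ0 ∧ σ = D.g0 ^ i * h := by
  obtain ⟨i, hi⟩ := D.gen σ hσ
  exact ⟨i, _, hi, (mul_inv_cancel_left _ _).symm⟩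

/-- The tame character of the level has order `M`. -/
theorem dvd_of_tame_pow_eq_one {N : ℕ} (h : tame A D.g0 D.π ^ N = 1) : D.M ∣ N := by
  have hp := hpf.out
  have h1 : ∀ σ ∈ A.inertiaSubgroupIn ℚ, tame A σ (D.π ^ N) = 1 := by
    intro σ hσ
    obtain ⟨i, g, hg, rfl⟩ := D.exists_inertia_eq hσ
    have hgπ : tame A g D.π = 1 := by
      rw [tame, D.π_fixed g hg, div_self D.π_ne_zero, red_one]
    rw [tame_pow_right (inertia_le_decomposition hσ), tame_mul_left (pow_mem D.g0_mem i)
      (inertia_le_decomposition (D.le_inertia hg)) D.π_ne_zero, hgπ, mul_one,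
      tame_pow_left D.g0_mem D.π_ne_zero, ← pow_mul, mul_comm, pow_mul, h, one_pow]
  have h2 : v (D.π ^ N) ^ D.M = v (p : Qbar) ^ (N : ℤ) := by
    rw [map_pow, ← pow_mul, mul_comm, pow_mul, D.π_val, zpow_natCast]
  obtain ⟨i, hi⟩ := exists_val_eq_of_tame_eq_one hp D.hA D.p_not_dvd_M h2 h1
  rw [hi, ← zpow_natCast, ← zpow_mul] at h2
  have h0 := val_p_pos (A := A) hp D.hA
  have h1' := val_p_lt_one (A := A) hp D.hA
  have e : i * (D.M : ℤ) = (N : ℤ) :=
    zpow_right_injective₀ h0 h1'.ne h2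
  exact_mod_cast Dvd.intro_left i e

/-- A function constant on cosets of a level and additive on the group has a root. -/
theorem exists_isRoot_comp {M : Type*} [AddCommGroup M] (c : GQ → M) (L : M →+ ZMod p)
    (hmul : ∀ g ∈ D.Γ0, ∀ h ∈ D.Γ0, c (g * h) = c g + c h)
    (hconst : ∃ U ∈ lvQ, ∀ g ∈ D.Γ0, ∀ s ∈ D.Γ0, s ∈ U → c (g * s) = c g) :
    ∃ r, D.IsRoot (fun g => L (c g)) r := by
  obtain ⟨U, hU, hc⟩ := hconst
  exact D.exists_isRoot hU (fun g hg s hs hsU => congrArg L (hc g hg s hs hsU))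
    fun g hg h hh => by rw [hmul g hg h hh, map_add]

open Classical in
/-- The leading coefficient, when there is one. -/
def leadAt (φ : GQ → ZMod p) (j : ℕ) : κ := if h : ∃ a, D.HasLead φ j a then h.choose else 0

theorem leadAt_eq {φ : GQ → ZMod p} {j : ℕ} (hj : ¬ p ∣ j) (hjT : j < p * D.T) {a : κ}
    (h : D.HasLead φ j a) : D.leadAt φ j = a := by
  have he : ∃ a, D.HasLead φ j a := ⟨a, h⟩
  rw [leadAt, dif_pos he]
  exact he.choose_spec.unique hj hjT h

theorem hasLead_leadAt {φ : GQ → ZMod p} {j : ℕ} (h : D.HasLev φ j) :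
    D.HasLead φ j (D.leadAt φ j) := by
  rw [leadAt, dif_pos h.exists_lead]
  exact h.exists_lead.choose_spec

section Fam

variable {Y : Type*} [AddCommGroup Y] (Φ : Y →+ (GQ → ZMod p))

/-- All members of the family are congruent to one at level `j`. -/
def AllLev (j : ℕ) : Prop := ∀ y, D.HasLev (Φ y) j

variable {D Φ}

/-- The leading coefficient of the family as an additive map. -/
def leadHom {j : ℕ} (hj : ¬ p ∣ j) (hjT : j < p * D.T) (h : D.AllLev Φ j) : Y →+ κ :=
  AddMonoidHom.mk' (fun y => D.leadAt (Φ y) j) fun a b => D.leadAt_eq hj hjT (by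
    rw [map_add]
    exact (D.hasLead_leadAt (h a)).add (fun h0 : j = 0 => hj (h0 ▸ dvd_zero p))
      (D.hasLead_leadAt (h b)))

theorem leadHom_apply {j : ℕ} (hj : ¬ p ∣ j) (hjT : j < p * D.T) (h : D.AllLev Φ j) (y : Y) :
    leadHom hj hjT h y = D.leadAt (Φ y) j := rfl

theorem leadAt_twist_inertia {σ : GQ} (hσ : σ ∈ A.inertiaSubgroupIn ℚ) {j : ℕ} (hj : ¬ p ∣ j)
    (hjT : j < p * D.T) {φ ψ : GQ → ZMod p} (h : D.HasLev φ j)
    (e : ∀ g ∈ D.Γ0, TameLvl.twist σ φ g = ψ g) :
    D.leadAt ψ j = D.leadAt φ j * tame A σ D.π ^ j :=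
  D.leadAt_eq hj hjT (((D.hasLead_leadAt h).twist_inertia hσ).congr e)

theorem leadAt_twist_frobenius {σ : GQ} (hσ : A.IsFrobeniusAt σ p) {j : ℕ} (hj : ¬ p ∣ j)
    (hjT : j < p * D.T) {φ ψ : GQ → ZMod p} (h : D.HasLev φ j)
    (e : ∀ g ∈ D.Γ0, TameLvl.twist σ φ g = ψ g) :
    D.leadAt ψ j = D.leadAt φ j ^ p * tame A σ D.π ^ j :=
  D.leadAt_eq hj hjT (((D.hasLead_leadAt h).twist_frobenius hσ).congr e)

/-- When conjugation moves the parameters bijectively all valuation exponents vanish. -/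
theorem allLev_one_of_twist (hroot : ∀ y, ∃ r, D.IsRoot (Φ y) r) {σ : GQ}
    (hσ : σ ∈ A.decompositionSubgroup ℚ) (R : Y →+ Y)
    (hR : ∀ y, ∀ g ∈ D.Γ0, TameLvl.twist σ (Φ y) g = Φ (R y) g)
    (hsurj : Function.Surjective fun y => R y - y) : D.AllLev Φ 1 := by
  choose n hn using fun y => TameLvl.exists_hasVal (D := D) (hroot y).choose_spec
  intro y
  obtain ⟨z, rfl⟩ := hsurj y
  have h1 : D.HasVal (Φ (R z)) (n z) := ((hn z).twist hσ).congr (hR z)
  have h2 : D.HasVal (Φ (R z - z) + Φ z) (n (R z - z) + n z) := (hn _).add (hn _)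
  rw [← map_add, sub_add_cancel] at h2
  have e := h2.unique h1
  have e0 : n (R z - z) = 0 := by simpa using e
  exact (e0 ▸ hn (R z - z)).hasLev_one

/-- Raising the level while all leading coefficients vanish. -/
theorem AllLev.climb {j j' : ℕ} (hj0 : j ≠ 0) (h : D.AllLev Φ j) (hle : j ≤ j')
    (hT : j' ≤ p * D.T)
    (hlead : ∀ i, j ≤ i → i < j' → ¬ p ∣ i → D.AllLev Φ i → ∀ y, D.leadAt (Φ y) i = 0) :
    D.AllLev Φ j' := by
  induction j', hle using Nat.le_induction with
  | base => exact h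
  | succ i hi ih =>
    have hprev := ih (by omega) fun l h1 h2 => hlead l h1 (by omega)
    intro y
    by_cases hdvd : p ∣ i
    · exact (hprev y).succ_of_dvd (by omega) hdvd (by omega)
    · have h1 := D.hasLead_leadAt (hprev y)
      rw [hlead i hi (by omega) hdvd hprev y] at h1
      exact TameLvl.HasLev.succ_of_coeff h1

end Fam

section Quot

variable {V : Type*} [AddCommGroup V] [Finite V] {act : GQ → V → V} {Γ : Subgroup GQ}
  {P : FnModel A Γ act}

/-- A point moving through `φ` towards `y` in a subgroup fixed by the level: the invariant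
functions move `y` by at most `Q ^ (b + 1)` when `φ` has break `b`. -/
theorem exists_model_val_le (hP : P.Sep) (hΓ : D.Γ0 ≤ Γ)
    (hadd : ∀ h ∈ D.Γ0, ∀ x y, act h (x + y) = act h x + act h y)
    {U : AddSubgroup V} (hU : ∀ h ∈ D.Γ0, ∀ u ∈ U, act h u = u) (ℓ : V →+ ZMod p)
    {x y : V} (hy : y ∈ U) (hℓy : ℓ y = 1) {φ : GQ → ZMod p}
    (hx : ∀ h ∈ D.Γ0, act h x - x ∈ U ∧ ℓ (act h x - x) = φ h)
    {h1 : GQ} (h1mem : h1 ∈ D.Γ0) (h11 : φ h1 = 1) :
    ∃ (S : FnModel A D.Γ0 act) (N : AddSubgroup V), y ∉ N ∧ S.SepMod N ∧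
      (∀ f ∈ S.Λ, ∀ z, ∀ n ∈ N, f (z + n) = f z) ∧
      (∀ g ∈ P.mSpan, (∀ z, ∀ n ∈ N, g (z + n) = g z) → g ∈ S.mSpan) ∧
      (∀ n ∈ N, ℓ n = 0) ∧
      ∀ b, D.HasBreak φ b → ∀ f ∈ S.Λ, v (f y - f 0) ≤ D.Q ^ (b + 1) := by
  classical
  let N : AddSubgroup V := U ⊓ ℓ.ker
  have hN : ∀ σ ∈ D.Γ0, ∀ n ∈ N, act σ n ∈ N := fun σ hσ n hn => by
    rw [hU σ hσ n hn.1]
    exact hn
  refine ⟨(P.extend hΓ).inv N hN hadd, N, fun hyN => ?_,
    (P.extend hΓ).sepMod_inv N hN hadd (P.sep_extend hP hΓ), fun f hf => (((P.extend hΓ).mem_inv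
      N hN hadd).mp hf).2, fun g hg hinv => (P.extend hΓ).mem_mSpan_inv hN hadd
      (P.mSpan_le_extend hΓ hg) hinv, fun n hn => hn.2, fun b hb f hf => ?_⟩
  · have : ℓ y = 0 := hyN.2
    rw [hℓy] at this
    exact one_ne_zero this
  refine hb.val_sub_le ((P.extend hΓ).inv N hN hadd) le_rfl (x := x) (fun f hf h hh => ?_) h1mem
    h11 hf
  have hinv := (((P.extend hΓ).mem_inv N hN hadd).mp hf).2
  have hmem : act h x - x - (φ h).val • y ∈ N := by
    refine ⟨U.sub_mem (hx h hh).1 (nsmul_mem hy _), ?_⟩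
    show ℓ _ = 0
    rw [map_sub, (hx h hh).2, map_nsmul, hℓy, nsmul_one, ZMod.natCast_zmod_val, sub_self]
  rw [← hinv (x + (φ h).val • y) _ hmem]
  congr 1
  abel

/-- No point moves through a character of break at least `p T`. -/
theorem false_of_large_break (hP : P.Sep) (hΓ : D.Γ0 ≤ Γ) (hpV : ∀ z : V, p • z = 0)
    (hadd : ∀ h ∈ D.Γ0, ∀ x y, act h (x + y) = act h x + act h y)
    {U : AddSubgroup V} (hU : ∀ h ∈ D.Γ0, ∀ u ∈ U, act h u = u) (ℓ : V →+ ZMod p)
    {x y : V} (hy : y ∈ U) (hℓy : ℓ y = 1) {φ : GQ → ZMod p}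
    (hx : ∀ h ∈ D.Γ0, act h x - x ∈ U ∧ ℓ (act h x - x) = φ h)
    {h1 : GQ} (h1mem : h1 ∈ D.Γ0) (h11 : φ h1 = 1) {b : ℕ} (hb : D.HasBreak φ b)
    (hbT : p * D.T ≤ b) : False := by
  obtain ⟨S, N, hyN, hsep, -, -, -, hle⟩ :=
    D.exists_model_val_le hP hΓ hadd hU ℓ hy hℓy hx h1mem h11
  refine hyN ?_
  have h0 : ∀ f ∈ S.Λ, f y = f 0 := by
    refine S.apply_eq_of_small hpf.out (fun f _ => by rw [hpV]) fun f hf => ?_
    refine (pow_le_pow_left' (hle b hb f hf) _).trans_lt ?_
    rw [← pow_mul, ← D.Q_pow_eq, D.pow_lt_iff, D.M_eq]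
    have h2 : 0 < p - 1 := by have := hpf.out.two_le; omega
    calc p * ((p - 1) * D.T) = p * D.T * (p - 1) := by ring
      _ < (b + 1) * (p - 1) := by gcongr; omega
  simpa using hsep y 0 h0

/-- No point moves through a character of break at least `p (T - 1)` towards a point detected by
a root of unity. -/
theorem false_of_chi (hP : P.Sep) (hΓ : D.Γ0 ≤ Γ)
    (hadd : ∀ h ∈ D.Γ0, ∀ x y, act h (x + y) = act h x + act h y)
    {U : AddSubgroup V} (hU : ∀ h ∈ D.Γ0, ∀ u ∈ U, act h u = u) (ℓ : V →+ ZMod p)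
    (hχ : FnModel.chiFun ℓ - 1 ∈ P.mSpan)
    {x y : V} (hy : y ∈ U) (hℓy : ℓ y = 1) {φ : GQ → ZMod p}
    (hx : ∀ h ∈ D.Γ0, act h x - x ∈ U ∧ ℓ (act h x - x) = φ h)
    {h1 : GQ} (h1mem : h1 ∈ D.Γ0) (h11 : φ h1 = 1) {b : ℕ} (hb : D.HasBreak φ b)
    (hbT : p * (D.T - 1) ≤ b) : False := by
  obtain ⟨S, N, -, -, hinv, hmS, hℓN, hle⟩ :=
    D.exists_model_val_le hP hΓ hadd hU ℓ hy hℓy hx h1mem h11
  have h0mem : (0 : V) ∈ U := U.zero_mem
  have hγ : ∀ f ∈ S.Λ, v (f y - f 0) ≤ D.Q ^ (p * D.T) := by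
    intro f hf
    have hfix : ∀ h ∈ D.Γ0, h (f y - f 0) = f y - f 0 := fun h hh => by
      rw [map_sub, ← S.equiv f hf h hh, ← S.equiv f hf h hh, hU h hh y hy, hU h hh 0 h0mem]
    have h1 := (hle b hb f hf).trans_lt (D.pow_lt_iff.mpr (Nat.lt_succ_of_le hbT))
    have h2 := D.val_le_succ hfix h1
    rwa [Nat.sub_add_cancel D.T_pos] at h2
  have hg := hmS _ hχ fun z n hn => by
    simp only [Pi.sub_apply, Pi.one_apply, FnModel.chiFun_apply, map_add, hℓN n hn, add_zero]
  have hlt := S.val_sub_lt_of_mSpan hg (pow_ne_zero _ D.Q_pos.ne') hγ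
  simp only [Pi.sub_apply, Pi.one_apply, sub_sub_sub_cancel_right, FnModel.chiFun_apply, map_zero,
    (cycQ p).mu_zero, Units.val_one, hℓy] at hlt
  have heq : v (muP p 1 - 1) = D.Q ^ (p * D.T) := D.val_muP_sub_one one_ne_zero
  rw [muP] at heq
  exact hlt.ne heq

end Quot

end TameLvl

section Counting

variable {k : Type*} [Field k] [Finite k]

/-- Classes are counted by an injective invariant. -/
theorem finrank_map_le_of_invariant {V Q T : Type*} [AddCommGroup V] [Module k V]
    [AddCommGroup Q] [Module k Q] [AddCommGroup T] (B : V →ₗ[k] Q) (Z : Submodule k V)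
    (Ψ : Z →+ T) {S : Set T} (hS : S.Finite) {n : ℕ} (hcard : S.ncard ≤ Nat.card k ^ n)
    (hΨ : ∀ z, Ψ z ∈ S) (hker : ∀ z : Z, Ψ z = 0 → B z = 0) (W : Submodule k Z)
    (hW : ∀ w ∈ W, B w = 0) (hWinj : ∀ w ∈ W, Ψ w = 0 → w = 0) :
    FiniteDimensional k (Z.map B) ∧
      Module.finrank k (Z.map B) + Module.finrank k W ≤ n := by
  classical
  have hmem : ∀ q : Z.map B, ∃ z : Z, B z = q := fun q => by
    obtain ⟨z, hz, e⟩ := q.2
    exact ⟨⟨z, hz⟩, e⟩
  choose s hs using hmem
  let g : Z.map B × W → S := fun x => ⟨Ψ (s x.1 + x.2), hΨ _⟩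
  have hg : Function.Injective g := by
    rintro ⟨q, w⟩ ⟨q', w'⟩ e
    have e' : Ψ (s q + w) = Ψ (s q' + w') := congrArg Subtype.val e
    have h0 : Ψ ((s q + w) - (s q' + w')) = 0 := by rw [map_sub, e', sub_self]
    have hq := hker _ h0
    simp only [Submodule.coe_sub, Submodule.coe_add, map_sub, map_add, hW _ w.2, hW _ w'.2,
      add_zero, hs, sub_eq_zero] at hq
    obtain rfl : q = q' := Subtype.ext hq
    have h1 : Ψ ((w - w' : W) : Z) = 0 := by
      rw [add_sub_add_left_eq_sub] at h0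
      exact h0
    have h2 := hWinj _ (w - w').2 h1
    exact Prod.ext rfl (sub_eq_zero.mp (Subtype.ext h2))
  have : Finite S := hS.to_subtype
  have hfin := Finite.of_injective g hg
  have : Finite (Z.map B) := Finite.of_injective (fun q => (q, (0 : W)))
    fun a b e => congrArg Prod.fst e
  have : Finite W := Finite.of_injective (fun w => ((0 : Z.map B), w))
    fun a b e => congrArg Prod.snd e
  have : Module.Finite k (Z.map B) := Module.Finite.of_finite
  have : Module.Finite k W := Module.Finite.of_finite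
  refine ⟨inferInstance, ?_⟩
  have h := (Nat.card_le_card_of_injective g hg).trans ((Nat.card_coe_set_eq S).le.trans hcard)
  rw [Nat.card_prod, Module.natCard_eq_pow_finrank (K := k) (V := Z.map B),
    Module.natCard_eq_pow_finrank (K := k) (V := W), ← pow_add] at h
  exact (Nat.pow_le_pow_iff_right Finite.one_lt_card).mp h

variable {K : Type*} [Field K]

variable (K) in
/-- Additive functions. -/
def addFun (Y : Type*) [AddCommGroup Y] : Submodule K (Y → K) where
  carrier := {f | ∀ a b, f (a + b) = f a + f b}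
  zero_mem' a b := by simp
  add_mem' hf hg a b := by simp only [Pi.add_apply, hf a b, hg a b]; abel
  smul_mem' c f hf a b := by simp only [Pi.smul_apply, hf a b, smul_add]

variable [CharP K p]

omit [CharP K p] in
/-- Additive functions to a field of characteristic `p` span at most the dimension of the source. -/
theorem finrank_addFun_le_finrank (Y : Type*) [AddCommGroup Y] [Module (ZMod p) Y]
    [Module.Finite (ZMod p) Y] : FiniteDimensional K (addFun K Y) ∧
      Module.finrank K (addFun K Y) ≤ Module.finrank (ZMod p) Y := by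
  let b := Module.finBasis (ZMod p) Y
  let T : addFun K Y →ₗ[K] (Fin (Module.finrank (ZMod p) Y) → K) :=
    { toFun := fun f i => (f : Y → K) (b i)
      map_add' := fun _ _ => rfl
      map_smul' := fun _ _ => rfl }
  have hT : Function.Injective T := by
    intro f g e
    let F : addFun K Y → (Y →+ K) := fun f => AddMonoidHom.mk' f.1 f.2
    refine Subtype.ext (funext fun y => ?_)
    show F f y = F g y
    rw [← b.sum_repr y, map_sum, map_sum]
    refine Finset.sum_congr rfl fun i _ => ?_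
    rw [← ZMod.natCast_zmod_val (b.repr y i), Nat.cast_smul_eq_nsmul, map_nsmul, map_nsmul]
    exact congrArg (_ • ·) (congrFun e i)
  have : FiniteDimensional K (addFun K Y) := Module.Finite.of_injective T hT
  refine ⟨this, (LinearMap.finrank_le_finrank_of_injective hT).trans ?_⟩
  rw [Module.finrank_fintype_fun_eq_card, Fintype.card_fin]

omit [CharP K p] in
/-- Additive functions on an elementary group of rank `n`. -/
theorem finrank_addFun_le {Y : Type*} [AddCommGroup Y] [Finite Y] (hpY : ∀ y : Y, p • y = 0)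
    {n : ℕ} (hn : Nat.card Y ≤ p ^ n) :
    FiniteDimensional K (addFun K Y) ∧ Module.finrank K (addFun K Y) ≤ n := by
  have : Module (ZMod p) Y := AddCommGroup.zmodModule hpY
  have hfin : Module.Finite (ZMod p) Y := Module.Finite.of_finite
  obtain ⟨h1, h2⟩ := finrank_addFun_le_finrank (p := p) (K := K) Y
  refine ⟨h1, h2.trans ?_⟩
  rw [Module.natCard_eq_pow_finrank (K := ZMod p) (V := Y), Nat.card_zmod] at hn
  exact (Nat.pow_le_pow_iff_right hpf.out.one_lt).mp hn

variable [PerfectRing K p]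

/-- The eigenfunctions of an operator and those of the conjugate eigenvalue are independent. -/
theorem two_mul_finrank_eigen_le {Y : Type*} [AddCommGroup Y] (R : Y → Y) {a : K}
    (ha : a ^ p ≠ a) [FiniteDimensional K (addFun K Y)] (E : Submodule K (Y → K))
    (hE : E ≤ addFun K Y) (hR : ∀ f ∈ E, ∀ y, f (R y) = a * f y) :
    2 * Module.finrank K E ≤ Module.finrank K (addFun K Y) := by
  have : FiniteDimensional K E := Submodule.finiteDimensional_of_le hE
  let E' : Submodule K (Y → K) :=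
    { carrier := {g | ∃ f ∈ E, g = fun y => f y ^ p}
      zero_mem' := ⟨0, E.zero_mem, funext fun y => (zero_pow hpf.out.ne_zero).symm⟩
      add_mem' := by
        rintro _ _ ⟨f, hf, rfl⟩ ⟨f', hf', rfl⟩
        exact ⟨f + f', E.add_mem hf hf', funext fun y => (add_pow_char _ _ p).symm⟩
      smul_mem' := by
        rintro c _ ⟨f, hf, rfl⟩
        exact ⟨(frobeniusEquiv K p).symm c • f, E.smul_mem _ hf, funext fun y => by
          simp [mul_pow, frobeniusEquiv_symm_pow_p]⟩ }
  have hE' : E' ≤ addFun K Y := by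
    rintro _ ⟨f, hf, rfl⟩ x y
    simp only [hE hf x y, add_pow_char]
  have hdis : E ⊓ E' = ⊥ := by
    rw [eq_bot_iff]
    rintro g ⟨hg, f, hf, rfl⟩
    rw [Submodule.mem_bot]
    funext y
    have h1 : f (R y) ^ p = a * f y ^ p := hR _ hg y
    rw [hR f hf y, mul_pow] at h1
    by_contra h0
    exact ha (mul_right_cancel₀ h0 h1)
  have : FiniteDimensional K E' := Submodule.finiteDimensional_of_le hE'
  have hdim : Module.finrank K E ≤ Module.finrank K E' := by
    let b := Module.finBasis K E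
    have hli : LinearIndependent K fun i =>
        (⟨fun y => (b i : Y → K) y ^ p, _, (b i).2, rfl⟩ : E') := by
      rw [Fintype.linearIndependent_iff]
      intro c hc i
      have hsum : ∑ i, (frobeniusEquiv K p).symm (c i) • b i = 0 := by
        refine Subtype.ext (funext fun y => frobenius_inj K p ?_)
        have h := congrFun (congrArg Subtype.val hc) y
        simp only [Submodule.coe_sum, Submodule.coe_smul, Submodule.coe_zero, Finset.sum_apply,
          Pi.smul_apply, Pi.zero_apply, smul_eq_mul, frobenius_def] at h ⊢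
        rw [sum_pow_char, zero_pow hpf.out.ne_zero, ← h]
        exact Finset.sum_congr rfl fun i _ => by rw [mul_pow, frobeniusEquiv_symm_pow_p]
      simpa using Fintype.linearIndependent_iff.mp b.linearIndependent _ hsum i
    simpa using hli.fintype_card_le_finrank
  have h := Submodule.finrank_sup_add_finrank_inf_eq E E'
  rw [hdis, finrank_bot, add_zero] at h
  have h2 := Submodule.finrank_mono (sup_le hE hE')
  omega

end Counting

end Fermat.Agent.TW.Flat
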