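import Fermat.Agent.TW.Flat.Ext
import Fermat.Agent.TW.Flat.Family
import Fermat.Agent.TW.SelTangent

/-!
# Cocycles of the adjoint representation on the decomposition group

Matrix identities, vanishing from inertia and Frobenius, classes, and the families of
homomorphisms of a level attached to functions with values in a vector space.
These are the tools of both cases of the local bound for models.
-/

noncomputable section

namespace Fermat.Agent.TW.Flat

open Fermat.Agent Fermat.Agent.PT Matrix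
open scoped Pointwise

local notation "Qbar" => AlgebraicClosure ℚ
local notation "GQ" => (AlgebraicClosure ℚ ≃ₐ[ℚ] AlgebraicClosure ℚ)

variable {A : ValuationSubring Qbar} {p : ℕ} [hpf : Fact p.Prime]
variable {k : Type} [Field k] {rb : GQ →* M2 k}

local notation "κ" => IsLocalRing.ResidueField A

variable (A rb) in
/-- The class on the decomposition group. -/
def classMap : (GQ → sl2 k) →ₗ[k] (A.decompositionSubgroup ℚ → sl2 k) ⧸
    B1 (resRep (adRep rb) (A.decompositionSubgroup ℚ)) :=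
  (B1 (resRep (adRep rb) (A.decompositionSubgroup ℚ))).mkQ ∘ₗ resFn (A.decompositionSubgroup ℚ)

theorem classMap_eq_zero {c : GQ → sl2 k} (H : sl2 k)
    (h : ∀ σ ∈ A.decompositionSubgroup ℚ, c σ = adRep rb σ H - H) : classMap A rb c = 0 :=
  (Submodule.Quotient.mk_eq_zero _).2 ⟨H, funext fun σ => (h σ σ.2).symm⟩

theorem classMap_d0 (H : sl2 k) : classMap A rb (d0 (adRep rb) H) = 0 :=
  classMap_eq_zero H fun _ _ => rfl

theorem coe_adRep_mul (g : GQ) (X : sl2 k) :
    (adRep rb g X : M2 k) * rb g = rb g * (X : M2 k) := by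
  rw [coe_adRep, mul_assoc, ← map_mul, inv_mul_cancel, map_one, mul_one]

theorem coe_d0_mul (g : GQ) (H : sl2 k) :
    (d0 (adRep rb) H g : M2 k) * rb g = rb g * (H : M2 k) - (H : M2 k) * rb g := by
  rw [d0_apply, Submodule.coe_sub, sub_mul, coe_adRep_mul]

variable {c : GQ → sl2 k} (hc : c ∈ Z1 lvQ (adRep rb))
include hc

theorem coe_cocycle_mul (g h : GQ) :
    (c (g * h) : M2 k) * rb g = (c g : M2 k) * rb g + rb g * (c h : M2 k) := by
  rw [(mem_Z1.1 hc).2, Submodule.coe_add, add_mul, coe_adRep_mul, add_comm]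

/-- Vanishing on inertia and at a Frobenius element gives vanishing on the decomposition group. -/
theorem eq_zero_of_inertia_frobenius (hA : A.LiesOverPrime p) {Φ : GQ}
    (hΦ : A.IsFrobeniusAt Φ p) (hI : ∀ τ ∈ A.inertiaSubgroupIn ℚ, c τ = 0) (hΦ0 : c Φ = 0)
    {σ : GQ} (hσ : σ ∈ A.decompositionSubgroup ℚ) : c σ = 0 := by
  obtain ⟨⟨U, hU, hconst⟩, hmul⟩ := mem_Z1.1 hc
  have hpow : ∀ i : ℕ, c (Φ ^ i) = 0 := fun i => by
    induction i with
    | zero => rw [pow_zero]; exact Z1_apply_one hc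
    | succ i ih => rw [pow_succ, hmul, ih, hΦ0, map_zero, add_zero]
  obtain ⟨i, τ, hτ, hs⟩ := exists_frob_pow_mul hpf.out hA hΦ hU hσ
  have e := hconst (Φ ^ i * τ) _ hs
  rw [mul_inv_cancel_left] at e
  rw [e, hmul, hpow, hI τ hτ, map_zero, add_zero]

omit hc

theorem HasModel.sub_d0 {Γ : Subgroup GQ} {c : GQ → sl2 k}
    (h : HasModel A Γ (vAct rb fun g => (c g : M2 k))) (H : sl2 k) :
    HasModel A Γ (vAct rb fun g => ((c - d0 (adRep rb) H) g : M2 k)) := by
  refine h.coboundary (H : M2 k) fun σ _ => ?_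
  rw [Pi.sub_apply, Submodule.coe_sub, sub_mul, coe_d0_mul]
  abel

theorem smooth_adRep (hrb : ∃ U ∈ lvQ, ∀ s ∈ U, rb s = 1) : Smooth lvQ (adRep rb) :=
  let ⟨_, hU, h⟩ := hrb
  smooth_of_le hU fun s hs => adRep_eq_one rb (h s hs)

theorem d0_mem_Z1 (hrb : ∃ U ∈ lvQ, ∀ s ∈ U, rb s = 1) (H : sl2 k) :
    d0 (adRep rb) H ∈ Z1 lvQ (adRep rb) := B1_le_Z1 _ (smooth_adRep hrb) ⟨H, rfl⟩

section Comp

variable {M : Type*} [AddCommGroup M]

/-- The homomorphisms obtained from a function by composing with the functionals. -/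
def compFam (p : ℕ) (F : GQ → M) : (M →+ ZMod p) →+ (GQ → ZMod p) where
  toFun L g := L (F g)
  map_zero' := rfl
  map_add' _ _ := rfl

theorem compFam_apply (F : GQ → M) (L : M →+ ZMod p) (g : GQ) : compFam p F L g = L (F g) := rfl

variable {D : TameLvl A p}

theorem TameLvl.hasLev_of_forall_eq_zero {φ : GQ → ZMod p} (h : ∀ g ∈ D.Γ0, φ g = 0) (j : ℕ) :
    D.HasLev φ j :=
  ⟨1, ⟨one_ne_zero, fun g hg => by rw [map_one, h g hg, muP_zero, one_mul]⟩,
    by rw [one_pow, sub_self, map_zero]; exact zero_le⟩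

theorem TameLvl.HasLev.congr {φ ψ : GQ → ZMod p} {j : ℕ} (h : D.HasLev φ j)
    (e : ∀ g ∈ D.Γ0, φ g = ψ g) : D.HasLev ψ j :=
  let ⟨_, ha⟩ := h.exists_lead
  (ha.congr e).hasLev

theorem TameLvl.HasLev.add {φ ψ : GQ → ZMod p} {j : ℕ} (hj : j ≠ 0) (h : D.HasLev φ j)
    (h' : D.HasLev ψ j) : D.HasLev (φ + ψ) j :=
  let ⟨_, ha⟩ := h.exists_lead
  let ⟨_, hb⟩ := h'.exists_lead
  (ha.add hj hb).hasLev

/-- Functions whose composites all have level `j`. -/
theorem allLev_compFam_add {F F' : GQ → M} {j : ℕ} (hj : j ≠ 0) (h : D.AllLev (compFam p F) j)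
    (h' : D.AllLev (compFam p F') j) : D.AllLev (compFam p (F + F')) j := fun L =>
  ((h L).add hj (h' L)).congr fun g _ => (map_add L (F g) (F' g)).symm

theorem allLev_compFam_zero (j : ℕ) : D.AllLev (compFam p (0 : GQ → M)) j := fun L =>
  TameLvl.hasLev_of_forall_eq_zero (fun _ _ => map_zero L) j

theorem allLev_compFam_map {N : Type*} [AddCommGroup N] {F : GQ → M} {j : ℕ}
    (h : D.AllLev (compFam p F) j) (T : M →+ N) : D.AllLev (compFam p fun g => T (F g)) j :=
  fun L => h (L.comp T)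

theorem allLev_compFam_congr {F F' : GQ → M} {j : ℕ} (h : D.AllLev (compFam p F) j)
    (e : ∀ g ∈ D.Γ0, F g = F' g) : D.AllLev (compFam p F') j := fun L =>
  (h L).congr fun g hg => congrArg L (e g hg)

variable (D) in
/-- The leading coefficients of a function. -/
def leadFam (F : GQ → M) (j : ℕ) : (M →+ ZMod p) → IsLocalRing.ResidueField A :=
  fun L => D.leadAt (compFam p F L) j

theorem leadFam_add {F F' : GQ → M} {j : ℕ} (hj : ¬ p ∣ j) (hjT : j < p * D.T)
    (h : D.AllLev (compFam p F) j) (h' : D.AllLev (compFam p F') j) :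
    leadFam D (F + F') j = leadFam D F j + leadFam D F' j := funext fun L =>
  D.leadAt_eq hj hjT (((D.hasLead_leadAt (h L)).add (fun h0 : j = 0 => hj (h0 ▸ dvd_zero p))
    (D.hasLead_leadAt (h' L))).congr fun g _ => (map_add L (F g) (F' g)).symm)

theorem leadFam_mem_addFun {F : GQ → M} {j : ℕ} (hj : ¬ p ∣ j) (hjT : j < p * D.T)
    (h : D.AllLev (compFam p F) j) :
    leadFam D F j ∈ addFun (IsLocalRing.ResidueField A) (M →+ ZMod p) :=
  fun L L' => map_add (TameLvl.leadHom hj hjT h) L L'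

/-- A function with vanishing leading coefficients from level `j` to the top vanishes. -/
theorem eq_zero_of_leadFam (hM : ∀ x : M, p • x = 0) {F : GQ → M} {j : ℕ} (hj0 : j ≠ 0)
    (hjT : j ≤ p * D.T) (h : D.AllLev (compFam p F) j)
    (hlead : ∀ i, j ≤ i → i < p * D.T → ¬ p ∣ i → D.AllLev (compFam p F) i →
      leadFam D F i = 0) : ∀ g ∈ D.Γ0, F g = 0 := by
  have htop := h.climb hj0 hjT le_rfl fun i h1 h2 h3 h4 L => congrFun (hlead i h1 h2 h3 h4) L
  intro g hg
  by_contra hne
  have : Module (ZMod p) M := AddCommGroup.zmodModule hM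
  obtain ⟨L, hL⟩ := Module.Projective.exists_dual_ne_zero (ZMod p) hne
  exact hL ((htop L.toAddMonoidHom).eq_zero_of_top g hg)

end Comp

theorem card_addMonoidHom_eq {Y : Type*} [AddCommGroup Y] [Finite Y] (hY : ∀ y : Y, p • y = 0) :
    Nat.card (Y →+ ZMod p) = Nat.card Y := by
  have : Module (ZMod p) Y := AddCommGroup.zmodModule hY
  have e : (Y →+ ZMod p) ≃ (Y →ₗ[ZMod p] ZMod p) :=
    { toFun := AddMonoidHom.toZModLinearMap p
      invFun := LinearMap.toAddMonoidHom
      left_inv := fun _ => rfl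
      right_inv := fun _ => rfl }
  rw [Nat.card_congr e]
  have hfin : Module.Finite (ZMod p) Y := Module.Finite.of_finite
  rw [Module.natCard_eq_pow_finrank (K := ZMod p) (V := Y →ₗ[ZMod p] ZMod p),
    Module.natCard_eq_pow_finrank (K := ZMod p) (V := Y), Module.finrank_linearMap_self]

end Fermat.Agent.TW.Flat
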