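import Fermat.Agent.TW.Flat.Value
import Fermat.Agent.TW.LocalKummer

/-!
# A tame level over `ℚ_p` inside `ℚ̄`

`TameLvl` records a normal subgroup of inertia with cyclic quotient of order `M` prime to `p`
fixing an element of valuation `v(p) ^ (1/M)` and the `p`-th roots of unity.
Used for the level structure in the local bound for models.
-/

noncomputable section

namespace Fermat.Agent.TW.Flat

open Fermat.Agent
open scoped Pointwise

local notation "Qbar" => AlgebraicClosure ℚ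
local notation "GQ" => (AlgebraicClosure ℚ ≃ₐ[ℚ] AlgebraicClosure ℚ)

variable {A : ValuationSubring Qbar} {p : ℕ} [hpf : Fact p.Prime]

local notation "v" => A.valuation

variable (p) in
/-- The roots of unity as elements of `ℚ̄`. -/
def muP (z : ZMod p) : Qbar := ((cycQ p).mu z : Qbar)

theorem muP_zero : muP p 0 = 1 := by simp [muP, (cycQ p).mu_zero]

theorem muP_add (a b : ZMod p) : muP p (a + b) = muP p a * muP p b := by
  simp [muP, (cycQ p).mu_add]

theorem muP_ne_zero (a : ZMod p) : muP p a ≠ 0 := Units.ne_zero _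

theorem muP_pow (a : ZMod p) : muP p a ^ p = 1 := by
  rw [muP, ← Units.val_pow_eq_pow_val, (cycQ p).mu_pow, Units.val_one]

theorem muP_injective : Function.Injective (muP p) := fun _ _ h =>
  (cycQ p).mu_injective (Units.ext h)

theorem muP_natCast (n : ℕ) : muP p (n : ZMod p) = zetaP p ^ n := by
  rw [muP, ← (cycQ p).zeta_pow_eq, Units.val_pow_eq_pow_val]
  rfl

theorem muP_one : muP p 1 = zetaP p := by simpa using muP_natCast (p := p) 1

theorem muP_eq_pow (a : ZMod p) : muP p a = zetaP p ^ a.val := by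
  rw [← muP_natCast, ZMod.natCast_zmod_val]

theorem apply_muP (g : GQ) (a : ZMod p) :
    g (muP p a) = muP p (((cycQ p).ω g : ZMod p) * a) := by
  have := congrArg Units.val ((cycQ p).smul_mu g a)
  simpa [muP, AlgEquiv.smul_units_def] using this

theorem val_muP (a : ZMod p) : v (muP p a) = 1 := by
  have h := congrArg v (muP_pow (p := p) a)
  rw [map_pow, map_one] at h
  exact (pow_eq_one_iff_of_nonneg zero_le hpf.out.ne_zero).mp h

theorem muP_mem (a : ZMod p) : muP p a ∈ A := mem_iff_val_le_one.mpr (val_muP a).le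

theorem val_muP_sub_one_pow {a : ZMod p} (ha : a ≠ 0) :
    v (muP p a - 1) ^ (p - 1) = v (p : Qbar) := by
  rw [← valuation_one_sub_root (A := A) hpf.out (muP_pow a) (fun h => ha (muP_injective
    (h.trans muP_zero.symm))), ← Valuation.map_neg, neg_sub]

/-- A tame level. -/
structure TameLvl (A : ValuationSubring Qbar) (p : ℕ) [Fact p.Prime] where
  hA : A.LiesOverPrime p
  p_ne_two : p ≠ 2
  /-- The order of the quotient of inertia. -/
  M : ℕ
  /-- The quotient `M / (p - 1)`. -/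
  T : ℕ
  T_pos : 0 < T
  M_eq : M = (p - 1) * T
  p_not_dvd_M : ¬ p ∣ M
  /-- The subgroup of inertia, normal in the decomposition group. -/
  Γ0 : Subgroup GQ
  le_inertia : Γ0 ≤ A.inertiaSubgroupIn ℚ
  conj_mem : ∀ σ ∈ A.decompositionSubgroup ℚ, ∀ h ∈ Γ0, σ * h * σ⁻¹ ∈ Γ0
  /-- An element fixed by `Γ0`, of valuation `v(p) ^ (1/M)`. -/
  π : Qbar
  π_fixed : ∀ h ∈ Γ0, h π = π
  π_val : A.valuation π ^ M = A.valuation (p : Qbar)
  /-- An element of inertia generating the quotient. -/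
  g0 : GQ
  g0_mem : g0 ∈ A.inertiaSubgroupIn ℚ
  g0_pow_mem : g0 ^ M ∈ Γ0
  gen : ∀ h ∈ A.inertiaSubgroupIn ℚ, ∃ i : ℕ, (g0 ^ i)⁻¹ * h ∈ Γ0
  omega_eq_one : ∀ h ∈ Γ0, (cycQ p).ω h = 1

namespace TameLvl

variable (D : TameLvl A p)

theorem M_pos : 0 < D.M := by
  rw [D.M_eq]
  exact Nat.mul_pos (by have := hpf.out.two_le; omega) D.T_pos

/-- The valuation of a `pM`-th root of `p`. -/
def Q : A.ValueGroup := unitVal A p (p * D.M)

theorem Q_pos : 0 < D.Q := unitVal_pos hpf.out D.hA (Nat.mul_pos hpf.out.pos D.M_pos)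

theorem Q_lt_one : D.Q < 1 := unitVal_lt_one hpf.out D.hA (Nat.mul_pos hpf.out.pos D.M_pos)

theorem Q_pow_eq : D.Q ^ (p * D.M) = v (p : Qbar) :=
  unitVal_pow (Nat.mul_pos hpf.out.pos D.M_pos)

theorem zpow_le {a b : ℤ} : D.Q ^ a ≤ D.Q ^ b ↔ b ≤ a :=
  zpow_le_zpow_iff_right_of_lt_one₀ D.Q_pos D.Q_lt_one

theorem zpow_lt {a b : ℤ} : D.Q ^ a < D.Q ^ b ↔ b < a :=
  zpow_lt_zpow_iff_right_of_lt_one₀ D.Q_pos D.Q_lt_one

theorem zpow_inj {a b : ℤ} : D.Q ^ a = D.Q ^ b ↔ a = b :=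
  ⟨fun h => le_antisymm (D.zpow_le.mp h.ge) (D.zpow_le.mp h.le), fun h => h ▸ rfl⟩

theorem pow_le_iff {a b : ℕ} : D.Q ^ a ≤ D.Q ^ b ↔ b ≤ a := by
  rw [← zpow_natCast, ← zpow_natCast, D.zpow_le, Int.ofNat_le]

theorem pow_lt_iff {a b : ℕ} : D.Q ^ a < D.Q ^ b ↔ b < a := by
  rw [← zpow_natCast, ← zpow_natCast, D.zpow_lt, Int.ofNat_lt]

theorem val_pi : v D.π = D.Q ^ p := by
  refine (pow_left_inj₀ zero_le zero_le D.M_pos.ne').mp ?_
  rw [D.π_val, ← pow_mul, D.Q_pow_eq]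

theorem π_ne_zero : D.π ≠ 0 := by
  refine A.valuation.ne_zero_iff.mp ?_
  rw [D.val_pi]
  exact pow_ne_zero _ D.Q_pos.ne'

theorem apply_muP_of_mem {h : GQ} (hh : h ∈ D.Γ0) (a : ZMod p) : h (muP p a) = muP p a := by
  rw [apply_muP, D.omega_eq_one h hh, Units.val_one, one_mul]

theorem val_muP_sub_one {a : ZMod p} (ha : a ≠ 0) : v (muP p a - 1) = D.Q ^ (p * D.T) := by
  have h2 := hpf.out.two_le
  refine (pow_left_inj₀ zero_le zero_le (n := p - 1) (by omega)).mp ?_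
  rw [val_muP_sub_one_pow ha, ← pow_mul, mul_assoc, mul_comm D.T, ← D.M_eq, D.Q_pow_eq]

theorem val_muP_sub_one_le (a : ZMod p) : v (muP p a - 1) ≤ D.Q ^ (p * D.T) := by
  rcases eq_or_ne a 0 with rfl | ha
  · simp [muP_zero]
  · exact (D.val_muP_sub_one ha).le

theorem apply_pow_of_fixed {x : Qbar} (hx : ∀ h ∈ D.Γ0, h x = x) (h : GQ) (hh : h ∈ D.Γ0) (i : ℕ) :
    h ((D.g0 ^ i) x) = (D.g0 ^ i) x := by
  have hm : (D.g0 ^ i)⁻¹ * h * D.g0 ^ i ∈ D.Γ0 := by
    simpa using D.conj_mem _ (inv_mem (pow_mem (inertia_le_decomposition D.g0_mem) i)) h hh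
  conv_rhs => rw [← hx _ hm]
  rw [← AlgEquiv.mul_apply, ← AlgEquiv.mul_apply]
  congr 1
  group

theorem apply_eq_of_fixed {x : Qbar} (hx : ∀ h ∈ D.Γ0, h x = x) (hg : D.g0 x = x) :
    ∀ σ ∈ A.inertiaSubgroupIn ℚ, σ x = x := by
  intro σ hσ
  obtain ⟨i, hi⟩ := D.gen σ hσ
  have hgi : ∀ i : ℕ, (D.g0 ^ i) x = x := fun i => by
    induction i with
    | zero => simp
    | succ i ih => rw [pow_succ, AlgEquiv.mul_apply, hg, ih]
  conv_rhs => rw [← hgi i, ← hx _ hi]
  rw [← AlgEquiv.mul_apply, mul_inv_cancel_left]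

/-- Elements fixed at the level have valuation a power of that of `π`. -/
theorem exists_val_eq {x : Qbar} (hx : ∀ h ∈ D.Γ0, h x = x) (h0 : x ≠ 0) :
    ∃ n : ℤ, v x = D.Q ^ ((p : ℤ) * n) := by
  set y := ∏ i ∈ Finset.range D.M, (D.g0 ^ i) x
  have hy0 : y ≠ 0 := Finset.prod_ne_zero_iff.mpr fun i _ =>
    (map_ne_zero_iff _ (D.g0 ^ i).injective).mpr h0
  have hfix : ∀ σ ∈ A.inertiaSubgroupIn ℚ, σ y = y := by
    refine D.apply_eq_of_fixed (fun h hh => ?_) ?_
    · rw [map_prod]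
      exact Finset.prod_congr rfl fun i _ => D.apply_pow_of_fixed hx h hh i
    · rw [map_prod]
      have h1 := Finset.prod_range_succ' (fun i => (D.g0 ^ i) x) D.M
      have h2 := Finset.prod_range_succ (fun i => (D.g0 ^ i) x) D.M
      have h3 : (D.g0 ^ D.M) x = x := hx _ D.g0_pow_mem
      simp only [h3, pow_zero, AlgEquiv.one_apply] at h1 h2
      refine (Eq.trans (Finset.prod_congr rfl fun i _ => ?_)
          (mul_right_cancel₀ h0 (h1.symm.trans h2)))
      rw [pow_succ', AlgEquiv.mul_apply]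
  obtain ⟨j, hj⟩ := exists_val_eq_of_inertia hpf.out D.hA hfix hy0
  have hv : v y = v x ^ D.M := by
    rw [map_prod, Finset.prod_congr rfl fun i _ => val_apply
      (pow_mem (inertia_le_decomposition D.g0_mem) i) x, Finset.prod_const, Finset.card_range]
  refine ⟨j, (pow_left_inj₀ zero_le zero_le D.M_pos.ne').mp ?_⟩
  rw [← hv, hj, ← D.Q_pow_eq, ← zpow_natCast, ← zpow_natCast, ← zpow_mul, ← zpow_mul]
  congr 1
  push_cast
  ring

/-- Discreteness at the level. -/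
theorem val_le_succ {x : Qbar} (hx : ∀ h ∈ D.Γ0, h x = x) {j : ℕ} (hlt : v x < D.Q ^ (p * j)) :
    v x ≤ D.Q ^ (p * (j + 1)) := by
  rcases eq_or_ne x 0 with rfl | h0
  · simp
  obtain ⟨n, hn⟩ := D.exists_val_eq hx h0
  rw [hn, ← zpow_natCast, D.zpow_lt] at hlt
  rw [hn, ← zpow_natCast, D.zpow_le]
  push_cast at hlt ⊢
  have : (j : ℤ) < n := by
    by_contra hcon
    push Not at hcon
    exact hlt.not_ge (mul_le_mul_of_nonneg_left hcon (Int.natCast_nonneg p))
  exact mul_le_mul_of_nonneg_left (by omega) (Int.natCast_nonneg p)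

/-- The residue of `x / π ^ j`. -/
def coeff (j : ℕ) (x : Qbar) : IsLocalRing.ResidueField A := red A (x / D.π ^ j)

theorem div_pi_pow_mem {x : Qbar} {j : ℕ} (hx : v x ≤ D.Q ^ (p * j)) : x / D.π ^ j ∈ A := by
  rw [mem_iff_val_le_one, map_div₀, map_pow, D.val_pi, ← pow_mul]
  exact div_le_one_of_le₀ hx zero_le

theorem coeff_eq_zero_iff {x : Qbar} {j : ℕ} (hx : v x ≤ D.Q ^ (p * j)) :
    D.coeff j x = 0 ↔ v x < D.Q ^ (p * j) := by
  rw [coeff, red_eq_zero_iff (D.div_pi_pow_mem hx), map_div₀, map_pow, D.val_pi, ← pow_mul,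
    div_lt_one₀ (pow_pos D.Q_pos _)]

theorem coeff_add {x y : Qbar} {j : ℕ} (hx : v x ≤ D.Q ^ (p * j)) (hy : v y ≤ D.Q ^ (p * j)) :
    D.coeff j (x + y) = D.coeff j x + D.coeff j y := by
  rw [coeff, add_div, red_add (D.div_pi_pow_mem hx) (D.div_pi_pow_mem hy)]
  rfl

theorem coeff_mul_pi {x : Qbar} {j : ℕ} : D.coeff j (x * D.π ^ j) = red A x := by
  rw [coeff, mul_div_cancel_right₀ _ (pow_ne_zero _ D.π_ne_zero)]

end TameLvl

end Fermat.Agent.TW.Flat

end
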