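import Mathlib.FieldTheory.Finite.Basic
import Mathlib.LinearAlgebra.FiniteDimensional.Lemmas
import Fermat.Agent.TW.Flat.Tame
import Fermat.Agent.TW.Local.Generate

/-!
# Counting semilinear families

A set of functions satisfying a Frobenius semilinear equation and lying in a space of dimension
`n` has at most `p ^ n` elements.  Used to bound classes by their leading coefficients.
-/

noncomputable section

namespace Fermat.Agent.TW.Flat

open Fermat.Agent

variable {p : ℕ} [hpf : Fact p.Prime]

section Semilinear

variable {K : Type*} [Field K] [CharP K p] {Y : Type*}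

/-- The fixed field of Frobenius is the prime field. -/
theorem exists_natCast_eq_of_pow_eq {x : K} (hx : x ^ p = x) : ∃ n : ℕ, (n : K) = x := by
  classical
  by_contra hne
  push Not at hne
  set q : Polynomial K := Polynomial.X ^ p - Polynomial.X
  have hq : q ≠ 0 := FiniteField.X_pow_card_sub_X_ne_zero K hpf.out.one_lt
  have hdeg : q.natDegree = p := FiniteField.X_pow_card_sub_X_natDegree_eq K hpf.out.one_lt
  have hinj : Set.InjOn (fun n : ℕ => (n : K)) (Finset.range p : Set ℕ) := fun a ha b hb h => by
    rw [Finset.coe_range, Set.mem_Iio] at ha hb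
    exact CharP.natCast_injOn_Iio K p ha hb h
  have hsub : insert x ((Finset.range p).image fun n : ℕ => (n : K)) ⊆ q.roots.toFinset := by
    intro y hy
    rw [Multiset.mem_toFinset, Polynomial.mem_roots hq, Polynomial.IsRoot, Polynomial.eval_sub,
      Polynomial.eval_pow, Polynomial.eval_X]
    rcases Finset.mem_insert.1 hy with rfl | hy
    · rw [hx, sub_self]
    · obtain ⟨n, -, rfl⟩ := Finset.mem_image.1 hy
      have h := map_natCast (frobenius K p) n
      rw [frobenius_def] at h
      rw [h, sub_self]
  have hcard := (Finset.card_le_card hsub).trans ((Multiset.toFinset_card_le _).trans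
    (q.card_roots'.trans hdeg.le))
  rw [Finset.card_insert_of_notMem (by
      rw [Finset.mem_image]
      rintro ⟨n, -, hn⟩
      exact hne n hn),
    Finset.card_image_of_injOn hinj, Finset.card_range] at hcard
  omega

/-- A root outside the prime field of a quadratic polynomial over the prime field is sent by
Frobenius to the other root. -/
theorem pow_eq_sub_of_root {θ : K} {τ n : ℕ} (hroot : θ ^ 2 - (τ : K) * θ + (n : K) = 0)
    (hnot : ∀ m : ℕ, θ ≠ (m : K)) : θ ^ p = (τ : K) - θ := by
  have hfr : (θ ^ p) ^ 2 - (τ : K) * θ ^ p + (n : K) = 0 := by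
    have e := congrArg (frobenius K p) hroot
    rw [map_zero, map_add, map_sub, map_mul, map_pow, map_natCast, map_natCast, frobenius_def] at e
    exact e
  have hne : θ ^ p - θ ≠ 0 := fun h0 => by
    obtain ⟨m, hm⟩ := exists_natCast_eq_of_pow_eq (p := p) (sub_eq_zero.mp h0)
    exact hnot m hm.symm
  have h2 : θ ^ p + θ - (τ : K) = 0 :=
    (mul_eq_zero.mp (by linear_combination hfr - hroot :
      (θ ^ p - θ) * (θ ^ p + θ - (τ : K)) = 0)).resolve_left hne
  linear_combination h2

variable [PerfectRing K p] [Module (ZMod p) K]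

/-- Semilinear functions which are independent over the prime field are independent. -/
theorem linearIndependent_of_semilinear (F : Y → Y) {C : K} (hC : C ≠ 0) :
    ∀ {n : ℕ} (Λ : Fin n → Y → K), (∀ i y, Λ i (F y) = C * Λ i y ^ p) →
      LinearIndependent (ZMod p) Λ → LinearIndependent K Λ := by
  intro n
  induction n with
  | zero => exact fun Λ _ _ => linearIndependent_empty_type
  | succ n ih =>
    intro Λ hΛ hind
    rw [linearIndependent_finSucc] at hind ⊢
    have ih' := ih (Fin.tail Λ) (fun i => hΛ i.succ) hind.1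
    refine ⟨ih', fun hmem => hind.2 ?_⟩
    obtain ⟨β, hβ⟩ := (Submodule.mem_span_range_iff_exists_fun K).1 hmem
    have hγ : ∑ i, ((frobeniusEquiv K p).symm (β i) - β i) • Fin.tail Λ i = 0 := by
      funext y
      have h1 := congrFun hβ (F y)
      simp only [Finset.sum_apply, Pi.smul_apply, smul_eq_mul, Fin.tail, hΛ] at h1
      have h3 : (∑ i, (frobeniusEquiv K p).symm (β i) * Λ i.succ y) ^ p = Λ 0 y ^ p := by
        rw [sum_pow_char]
        refine mul_left_cancel₀ hC (Eq.trans ?_ h1)
        rw [Finset.mul_sum]
        refine Finset.sum_congr rfl fun i _ => ?_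
        rw [mul_pow, frobeniusEquiv_symm_pow_p]
        ring
      have h4 := frobenius_inj K p h3
      have h2 := congrFun hβ y
      simp only [Finset.sum_apply, Pi.smul_apply, smul_eq_mul, Fin.tail] at h2
      simp only [Finset.sum_apply, Pi.smul_apply, smul_eq_mul, Fin.tail, sub_mul,
        Finset.sum_sub_distrib, Pi.zero_apply]
      rw [h4, h2, sub_self]
    have hfix : ∀ i, ∃ m : ℕ, (m : K) = β i := fun i => by
      have h0 := Fintype.linearIndependent_iff.1 ih' _ hγ i
      rw [sub_eq_zero] at h0
      refine exists_natCast_eq_of_pow_eq (p := p) ?_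
      conv_lhs => rw [← h0]
      exact frobeniusEquiv_symm_pow_p K p (β i)
    choose m hm using hfix
    refine (Submodule.mem_span_range_iff_exists_fun (ZMod p)).2 ⟨fun i => (m i : ZMod p), ?_⟩
    rw [← hβ]
    refine Finset.sum_congr rfl fun i _ => ?_
    rw [← hm i, Nat.cast_smul_eq_nsmul, Nat.cast_smul_eq_nsmul]

/-- A group of semilinear functions inside a space of dimension `d` has at most `p ^ d`
elements. -/
theorem finite_card_le_of_semilinear (F : Y → Y) {C : K} (hC : C ≠ 0) (S : AddSubgroup (Y → K))
    (hS : ∀ Λ ∈ S, ∀ y, Λ (F y) = C * Λ y ^ p) (W : Submodule K (Y → K)) [FiniteDimensional K W]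
    (hSW : ∀ Λ ∈ S, Λ ∈ W) : Finite S ∧ Nat.card S ≤ p ^ Module.finrank K W := by
  let S' : Submodule (ZMod p) (Y → K) := AddSubgroup.toZModSubmodule p S
  have hmem : ∀ Λ, Λ ∈ S' ↔ Λ ∈ S := fun Λ => Iff.rfl
  have hrank : Module.rank (ZMod p) S' ≤ (Module.finrank K W : ℕ) := by
    refine rank_le fun s hs => ?_
    classical
    let e := s.equivFin
    have h1 : LinearIndependent (ZMod p) fun i : Fin s.card => ((e.symm i : S') : Y → K) :=
      (hs.map' S'.subtype S'.ker_subtype).comp _ e.symm.injective
    have h2 := linearIndependent_of_semilinear F hC _ (fun i => hS _ ((e.symm i : S')).2) h1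
    have h3 : LinearIndependent K fun i : Fin s.card =>
        (⟨((e.symm i : S') : Y → K), hSW _ ((e.symm i : S')).2⟩ : W) :=
      LinearIndependent.of_comp W.subtype h2
    simpa using h3.fintype_card_le_finrank
  have : Module.Finite (ZMod p) S' :=
    Module.rank_lt_aleph0_iff.mp (hrank.trans_lt (Cardinal.natCast_lt_aleph0))
  have : Finite S' := Module.finite_of_finite (ZMod p)
  refine ⟨this, ?_⟩
  show Nat.card S' ≤ _
  rw [Module.natCard_eq_pow_finrank (K := ZMod p) (V := S'), Nat.card_zmod]
  exact Nat.pow_le_pow_right hpf.out.pos (Module.finrank_le_of_rank_le hrank)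

end Semilinear

end Fermat.Agent.TW.Flat
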