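import Mathlib.RingTheory.IntegralDomain
import Fermat.Agent.TW.Flat.Count
import Fermat.Agent.TW.Flat.Small

/-!
# First order distances of connected points

For a subgroup of connected points, `dVal` is the normalised first order part of the functions.
Inertia scales it by the tame character of the maximal distance.  When inertia acts through a
quadratic polynomial without roots in the prime field, the distance is `v(p) ^ (1/(p²-1))`.
Used to read the action of inertia on a model.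
-/

noncomputable section

namespace Fermat.Agent.TW.Flat

open Fermat.Agent
open scoped Pointwise

local notation "Qbar" => AlgebraicClosure ℚ
local notation "GQ" => (AlgebraicClosure ℚ ≃ₐ[ℚ] AlgebraicClosure ℚ)

variable {A : ValuationSubring Qbar} {p : ℕ} [hpf : Fact p.Prime]

local notation "v" => A.valuation
local notation "κ" => IsLocalRing.ResidueField A

/-- The norm over the powers of `g0` gives a power of `v p`. -/
theorem exists_val_zpow (hA : A.LiesOverPrime p) {g0 : GQ} (hg0 : g0 ∈ A.inertiaSubgroupIn ℚ)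
    {z : Qbar} (hz : z ≠ 0) {N : ℕ} (hN : (g0 ^ N) z = z)
    (hgen : ∀ σ ∈ A.inertiaSubgroupIn ℚ, ∃ i : ℕ, ∀ m : ℕ,
      σ ((g0 ^ m) z) = (g0 ^ i) ((g0 ^ m) z)) : ∃ j : ℤ, v z ^ N = v (p : Qbar) ^ j := by
  set y := ∏ i ∈ Finset.range N, (g0 ^ i) z with hy
  have hy0 : y ≠ 0 := Finset.prod_ne_zero_iff.mpr fun i _ =>
    (map_ne_zero_iff _ (g0 ^ i).injective).mpr hz
  have hg : g0 y = y := by
    rw [hy, map_prod]
    have h1 := Finset.prod_range_succ' (fun i => (g0 ^ i) z) N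
    have h2 := Finset.prod_range_succ (fun i => (g0 ^ i) z) N
    simp only [hN, pow_zero, AlgEquiv.one_apply] at h1 h2
    refine (Eq.trans (Finset.prod_congr rfl fun i _ => ?_)
        (mul_right_cancel₀ hz (h1.symm.trans h2)))
    rw [pow_succ', AlgEquiv.mul_apply]
  have hgi : ∀ i : ℕ, (g0 ^ i) y = y := fun i => by
    induction i with
    | zero => simp
    | succ i ih => rw [pow_succ', AlgEquiv.mul_apply, ih, hg]
  have hfix : ∀ σ ∈ A.inertiaSubgroupIn ℚ, σ y = y := fun σ hσ => by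
    obtain ⟨i, hi⟩ := hgen σ hσ
    rw [← hgi i]
    conv_lhs => rw [hgi i]
    simp only [hy, map_prod]
    exact Finset.prod_congr rfl fun m _ => hi m
  obtain ⟨j, hj⟩ := exists_val_eq_of_inertia hpf.out hA hfix hy0
  refine ⟨j, ?_⟩
  rw [← hj, hy, map_prod, Finset.prod_congr rfl fun i _ => val_apply
    (pow_mem (inertia_le_decomposition hg0) i) z, Finset.prod_const, Finset.card_range]

theorem red_zetaP (hA : A.LiesOverPrime p) : red A (zetaP p) = 1 := by
  have hζ : zetaP p ∈ A := by rw [← muP_one]; exact muP_mem 1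
  rw [← red_one (A := A), red_eq_iff hζ A.one_mem, ← muP_one]
  refine lt_of_not_ge fun hge => ?_
  have h2 := val_muP_sub_one_pow (A := A) (p := p) one_ne_zero
  have h3 := one_le_pow₀ hge (n := p - 1)
  rw [h2] at h3
  exact h3.not_gt (val_p_lt_one hpf.out hA)

theorem red_muP_sub_one_div (hA : A.LiesOverPrime p) (a : ZMod p) :
    red A ((muP p a - 1) / (zetaP p - 1)) = (a.val : κ) := by
  have hζ : zetaP p ∈ A := by rw [← muP_one]; exact muP_mem 1
  rw [muP_eq_pow, ← geom_sum_eq (zetaP_spec.ne_one hpf.out.one_lt),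
    red_sum _ fun i _ => pow_mem hζ i]
  simp [red_pow hζ, red_zetaP (p := p) hA]

/-- The tame character of `ζ - 1` is the cyclotomic character. -/
theorem tame_zetaP_sub_one (hA : A.LiesOverPrime p) (σ : GQ) :
    tame A σ (zetaP p - 1) = (((cycQ p).ω σ : ZMod p).val : κ) := by
  have hζ0 : zetaP p - 1 ≠ 0 := sub_ne_zero.mpr (zetaP_spec.ne_one hpf.out.one_lt)
  have hζ : zetaP p ∈ A := by rw [← muP_one]; exact muP_mem 1
  have hσζ : σ (zetaP p) = zetaP p ^ ((cycQ p).ω σ : ZMod p).val := by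
    conv_lhs => rw [← muP_one]
    rw [apply_muP, mul_one, muP_eq_pow]
  set n := ((cycQ p).ω σ : ZMod p).val
  have h1 : σ (zetaP p - 1) / (zetaP p - 1) = ∑ i ∈ Finset.range n, zetaP p ^ i := by
    rw [map_sub, map_one, hσζ, geom_sum_eq (zetaP_spec.ne_one hpf.out.one_lt)]
  rw [tame, h1, red_sum _ fun i _ => pow_mem hζ i]
  have hr := red_zetaP (p := p) hA
  simp [red_pow hζ, hr]

theorem exists_gen {K : Type*} [Field K] {G : Type*} [Group G] (θ : G →* Kˣ)
    (hfin : (Set.range θ).Finite) : ∃ g0, ∀ σ, ∃ i : ℕ, θ σ = θ g0 ^ i := by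
  have : Finite θ.range := hfin.to_subtype
  obtain ⟨⟨u, hu⟩, hgen⟩ := IsCyclic.exists_monoid_generator (α := θ.range)
  obtain ⟨g0, rfl⟩ := hu
  refine ⟨g0, fun σ => ?_⟩
  obtain ⟨i, hi⟩ := Submonoid.mem_powers_iff _ _ |>.mp (hgen ⟨θ σ, ⟨σ, rfl⟩⟩)
  exact ⟨i, by simpa using (congrArg Subtype.val hi).symm⟩

namespace FnModel

variable {Γ : Subgroup GQ} {V : Type*} [AddCommGroup V] {act : GQ → V → V} (P : FnModel A Γ act)

/-- The first order part at scale `z`. -/
def dVal (A : ValuationSubring Qbar) (z : Qbar) (f : V → Qbar) (x : V) :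
    IsLocalRing.ResidueField A := red A ((f x - f 0) / z)

variable {P}

theorem div_mem_of_le {z w : Qbar} (h : v w ≤ v z) : w / z ∈ A := by
  rw [mem_iff_val_le_one, map_div₀]
  exact div_le_one_of_le₀ h zero_le

theorem dVal_eq_zero_iff {z : Qbar} (hz : z ≠ 0) {f : V → Qbar} {x : V}
    (h : v (f x - f 0) ≤ v z) : dVal A z f x = (0 : κ) ↔ v (f x - f 0) < v z := by
  rw [dVal, red_eq_zero_iff (div_mem_of_le h), map_div₀,
    div_lt_one₀ ((Valuation.pos_iff _).mpr hz)]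

theorem dVal_add {z : Qbar} (hz : z ≠ 0) (hz1 : v z < 1) {x y : V}
    (hx : ∀ f ∈ P.Λ, v (f x - f 0) ≤ v z) (hy : ∀ f ∈ P.Λ, v (f y - f 0) ≤ v z)
    {f : V → Qbar} (hf : f ∈ P.Λ) :
    (dVal A z f (x + y) : κ) = dVal A z f x + dVal A z f y := by
  have h2 := P.val_add_sub_le hx hy hf
  have hlt : v (f (x + y) - f x - f y + f 0) < v z :=
    h2.trans_lt (mul_lt_of_lt_one_left ((Valuation.pos_iff _).mpr hz) hz1)
  have hmx := div_mem_of_le (hx f hf)
  have hmy := div_mem_of_le (hy f hf)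
  have hmr := div_mem_of_le hlt.le
  have h0 : red A ((f (x + y) - f x - f y + f 0) / z) = 0 := red_eq_zero_of_lt (by
    rw [map_div₀, div_lt_one₀ ((Valuation.pos_iff _).mpr hz)]; exact hlt)
  rw [dVal, dVal, dVal, show (f (x + y) - f 0) / z =
    (f x - f 0) / z + (f y - f 0) / z + (f (x + y) - f x - f y + f 0) / z by ring,
    red_add (add_mem hmx hmy) hmr, red_add hmx hmy, h0, add_zero]

theorem dVal_nsmul {z : Qbar} (hz : z ≠ 0) (hz1 : v z < 1) {U : AddSubgroup V}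
    (hU : ∀ u ∈ U, ∀ f ∈ P.Λ, v (f u - f 0) ≤ v z) {x : V} (hx : x ∈ U) {f : V → Qbar}
    (hf : f ∈ P.Λ) : ∀ n : ℕ, dVal A z f (n • x) = (n : κ) * dVal A z f x
  | 0 => by simp [dVal, red_eq_zero_of_lt]
  | n + 1 => by
    rw [succ_nsmul, dVal_add hz hz1 (hU _ (nsmul_mem hx n)) (hU _ hx) hf,
      dVal_nsmul hz hz1 hU hx hf n]
    push_cast
    ring

theorem dVal_act {z : Qbar} (hz : z ≠ 0) {σ : GQ} (hσ : σ ∈ A.inertiaSubgroupIn ℚ) (hσΓ : σ ∈ Γ)
    (h0 : act σ 0 = 0) {x : V} {f : V → Qbar} (hf : f ∈ P.Λ) (hx : v (f x - f 0) ≤ v z) :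
    (dVal A z f (act σ x) : κ) = tame A σ z * dVal A z f x := by
  have e : f (act σ x) - f 0 = σ (f x - f 0) := by
    conv_lhs => arg 2; rw [← h0]
    rw [P.equiv f hf σ hσΓ, P.equiv f hf σ hσΓ, map_sub]
  have hw := div_mem_of_le hx
  rw [dVal, dVal, e, show σ (f x - f 0) / z = σ ((f x - f 0) / z) * (σ z / z) by
    rw [map_div₀, div_mul_div_cancel₀ ((map_ne_zero_iff _ σ.injective).mpr hz)],
    red_mul (apply_mem (inertia_le_decomposition hσ) hw)
      (div_mem_of_decomposition (inertia_le_decomposition hσ) z),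
    red_inertia hσ hw, mul_comm]
  rfl

theorem exists_scale [Finite V] (hP : P.Sep) {U : AddSubgroup V} (hU : U ≠ ⊥)
    (hconn : U ≤ P.conn) : ∃ x₀ ∈ U, ∃ f₀ ∈ P.Λ, f₀ x₀ - f₀ 0 ≠ 0 ∧ v (f₀ x₀ - f₀ 0) < 1 ∧
      (∀ u ∈ U, ∀ f ∈ P.Λ, v (f u - f 0) ≤ v (f₀ x₀ - f₀ 0)) := by
  classical
  have : Fintype V := Fintype.ofFinite V
  obtain ⟨x, hx, hx0⟩ := (AddSubgroup.bot_or_exists_ne_zero U).resolve_left hU
  obtain ⟨x₀, hx₀, f₀, hf₀, hmax⟩ :=
    P.exists_max (Finset.univ.filter (· ∈ U)) x (Finset.mem_filter.mpr ⟨Finset.mem_univ _, hx⟩)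
  refine ⟨x₀, (Finset.mem_filter.mp hx₀).2, f₀, hf₀, fun h0 => hx0 (hP x 0 fun f hf => ?_),
    P.mem_conn.mp (hconn (Finset.mem_filter.mp hx₀).2) f₀ hf₀,
    fun u hu f hf => hmax u (Finset.mem_filter.mpr ⟨Finset.mem_univ _, hu⟩) f hf⟩
  have h := hmax x (Finset.mem_filter.mpr ⟨Finset.mem_univ _, hx⟩) f hf
  rw [h0, map_zero] at h
  exact sub_eq_zero.mp ((Valuation.zero_iff _).mp (le_antisymm h zero_le))

theorem val_p_le_scale (hP : P.Sep) {x : V} (hx : x ≠ 0) (hpx : p • x = 0) {γ : A.ValueGroup}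
    (h : ∀ f ∈ P.Λ, v (f x - f 0) ≤ γ) : v (p : Qbar) ≤ γ ^ (p - 1) := by
  by_contra hlt
  exact hx (hP x 0 (P.apply_eq_of_small hpf.out (fun f _ => by rw [hpx]) fun f hf =>
    (pow_le_pow_left' (h f hf) _).trans_lt (not_le.mp hlt)))

theorem exists_coeff_of_mSpan {r : ℕ} {b : Fin r → V → Qbar}
    (hspan : P.Λ = Submodule.span (oRing A Γ) (Set.range b)) {g : V → Qbar} (hg : g ∈ P.mSpan) :
    ∃ β : Fin r → Qbar, (∀ i, v (β i) < 1) ∧ g = ∑ i, β i • b i := by
  induction hg using AddSubgroup.closure_induction with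
  | mem x hx =>
    obtain ⟨a, ha, f, hf, rfl⟩ := hx
    rw [hspan, Submodule.mem_span_range_iff_exists_fun] at hf
    obtain ⟨c, rfl⟩ := hf
    refine ⟨fun i => a * (c i : Qbar), fun i => ?_, funext fun y => ?_⟩
    · rw [map_mul]
      exact (mul_le_of_le_one_right' (mem_iff_val_le_one.mp (mem_oRing.mp (c i).2).1)).trans_lt ha
    · simp only [Pi.smul_apply, smul_eq_mul, Finset.sum_apply, Finset.mul_sum,
        mul_assoc]
      exact Finset.sum_congr rfl fun i _ => rfl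
  | zero => exact ⟨0, fun i => by simp, by simp⟩
  | add x y _ _ hx hy =>
    obtain ⟨β, hβ, rfl⟩ := hx
    obtain ⟨β', hβ', rfl⟩ := hy
    exact ⟨β + β', fun i => (A.valuation.map_add _ _).trans_lt (max_lt (hβ i) (hβ' i)), by
      simp [add_smul, Finset.sum_add_distrib]⟩
  | neg x _ hx =>
    obtain ⟨β, hβ, rfl⟩ := hx
    exact ⟨-β, fun i => by simpa using hβ i, by simp [Finset.sum_neg_distrib]⟩

end FnModel

end Fermat.Agent.TW.Flat
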