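import Fermat.Agent.TW.Flat.IrrAnti

/-!
# The irreducible case of the local bound for models

The classes of deformations with a model form at most a line, detected by the leading
coefficients of the anticommuting component at level `p² + 1`.
This gives the local bound at `p` for flat deformations in this case.
-/

noncomputable section

namespace Fermat.Agent.TW.Flat

open Fermat.Agent Fermat.Agent.PT Matrix
open scoped Pointwise

local notation "Qbar" => AlgebraicClosure ℚ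
local notation "GQ" => (AlgebraicClosure ℚ ≃ₐ[ℚ] AlgebraicClosure ℚ)

variable {A : ValuationSubring Qbar} {p : ℕ} [hpf : Fact p.Prime]
variable {k : Type} [Field k] [CharP k p] {rb : GQ →* M2 k}

local notation "κ" => IsLocalRing.ResidueField A

namespace IrrShape

variable (S : IrrShape p A rb) {x₀ : Fin 2 → k}

theorem antiF_add (a b : GQ → sl2 k) :
    S.antiF x₀ (a + b) = S.antiF x₀ a + S.antiF x₀ b := funext fun g => by
  simp only [antiF, Pi.add_apply, Submodule.coe_add, map_add, add_mulVec]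

/-- The cocycles containing all deformations with a model. -/
def Z (x₀ : Fin 2 → k) : Submodule k (GQ → sl2 k) where
  carrier := {c | c ∈ Z1 lvQ (adRep rb) ∧ (∀ h ∈ S.lvl.Γ0, S.coeffJ (c h : M2 k) = 0) ∧
    S.lvl.AllLev (compFam p (S.antiF x₀ c)) (p * p + 1)}
  zero_mem' := ⟨zero_mem _, fun h _ => map_zero S.coeffJ, allLev_compFam_congr
    (allLev_compFam_zero (p * p + 1)) fun g _ => by simp [antiF]⟩
  add_mem' := fun {a b} ha hb => ⟨add_mem ha.1 hb.1,
    fun h hh => by simp [ha.2.1 h hh, hb.2.1 h hh],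
    allLev_compFam_congr (allLev_compFam_add (Nat.succ_ne_zero (p * p)) ha.2.2 hb.2.2)
      fun g _ => (congrFun (S.antiF_add a b) g).symm⟩
  smul_mem' := fun t a ha => ⟨Submodule.smul_mem _ t ha.1, fun h hh => by simp [ha.2.1 h hh],
    allLev_compFam_congr (allLev_compFam_map ha.2.2 (DistribSMul.toAddMonoidHom _ t)) fun g _ => by
      simp [antiF, Matrix.smul_mulVec]⟩

variable (hdet : DetCyc p rb) (hrb : ∃ U ∈ lvQ, ∀ s ∈ U, rb s = 1)

theorem eq_zero_of_antiPart_coeffJ {X : sl2 k} (hy : S.antiPart (X : M2 k) = 0)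
    (ha : S.coeffJ (X : M2 k) = 0) : X = 0 := by
  rw [S.antiPart_apply, ha, zero_smul, sub_zero] at hy
  exact Subtype.ext hy

include hdet in
theorem antiPart_eq_zero_of_antiF (hx₀ : ∀ w : Fin 2 → k, ∃ α β : k, w = α • x₀ + β • (S.J *ᵥ x₀))
    {X : sl2 k} (h : S.antiPart (X : M2 k) *ᵥ x₀ = 0) : S.antiPart (X : M2 k) = 0 :=
  ext_of_mulVec_single fun i => by
    obtain ⟨α, β, hw⟩ := hx₀ (Pi.single i 1)
    rw [zero_mulVec, mulVec_of_anti S (S.antiPart_anti hdet (trace_coe X)) hw, h, mulVec_zero]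

include hdet hrb in
/-- A cocycle which vanishes on the level is a coboundary on the decomposition group. -/
theorem classMap_eq_zero_of_level {Φ : GQ} (hΦ : A.IsFrobeniusAt Φ p) {c : GQ → sl2 k}
    (hc : c ∈ Z1 lvQ (adRep rb)) (h0 : ∀ h ∈ S.lvl.Γ0, c h = 0) : classMap A rb c = 0 := by
  have hp := hpf.out
  have hd := S.discK_ne_zero
  have hg0 := S.lvl.g0_mem
  have hΦD := (Gal.isFrobeniusAt_iff.1 hΦ).1
  set X : sl2 k := c S.lvl.g0
  set Y := S.antiPart (X : M2 k)
  have hYM : Y * S.Mg = S.Mbar * Y := S.Mg_anti hdet X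
  have hJY : S.J * Y = -(Y * S.J) := S.antiPart_anti hdet (trace_coe X)
  -- the coboundary killing the anticommuting part at the generator
  set H0 : M2 k := -(S.discK⁻¹ • (Y * S.Mg * S.J))
  have hH0 : trace H0 = 0 := by
    have e1 : trace (Y * S.Mg * S.J) = trace (S.J * Y * S.Mg) := by
      rw [trace_mul_comm, ← mul_assoc]
    have e2 : trace (S.J * Y * S.Mg) = -trace (Y * S.Mg * S.J) := by
      rw [hJY, neg_mul, trace_neg, mul_assoc Y, S.J_comm_Mg, ← mul_assoc]
    rw [← e1] at e2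
    have e3 : trace (Y * S.Mg * S.J) = 0 :=
      (mul_eq_zero.mp (by
          linear_combination e2 : (2 : k) * trace (Y * S.Mg * S.J) = 0)).resolve_left
        (two_ne_zero_of_charP (p := p) S.lvl.p_ne_two)
    rw [trace_neg, trace_smul, e3, smul_zero, neg_zero]
  set H : sl2 k := ⟨H0, by rw [mem_sl2]; rw [trace_fin_two] at hH0; exact hH0⟩
  have hHJ : H0 * S.J = -(Y * S.Mg) := by
    rw [neg_mul, smul_mul_assoc, mul_assoc _ S.J S.J, S.J_sq, mul_smul_comm, mul_one, smul_smul,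
      inv_mul_cancel₀ hd, one_smul]
  have hJH : S.J * H0 = Y * S.Mg := by
    rw [mul_neg, mul_smul_comm, ← mul_assoc, ← mul_assoc, hJY, neg_mul, neg_mul, mul_assoc Y,
      S.J_comm_Mg, ← mul_assoc, mul_assoc _ S.J S.J, S.J_sq, mul_smul_comm, mul_one, smul_neg,
      smul_smul, inv_mul_cancel₀ hd, one_smul, neg_neg]
  have hMH : S.Mg * H0 - H0 * S.Mg = Y * S.Mg := by
    have e : S.J * H0 - H0 * S.J = (2 : k) • (S.Mg * H0 - H0 * S.Mg) := by
      rw [J, two_smul, sub_mul, mul_sub, two_mul, add_mul, mul_add,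
        (Nat.cast_commute S.τ H0).eq]
      abel
    rw [hJH, hHJ, sub_neg_eq_add, ← two_smul k] at e
    exact (smul_right_injective (M2 k)
      (two_ne_zero_of_charP (k := k) (p := p) S.lvl.p_ne_two) e).symm
  set c' := c - d0 (adRep rb) H
  have hc' : c' ∈ Z1 lvQ (adRep rb) := sub_mem hc (d0_mem_Z1 hrb H)
  have hΓc' : ∀ h ∈ S.lvl.Γ0, c' h = 0 := fun h hh => by
    simp [c', h0 h hh, d0_apply, adRep_eq_one rb (S.rb_Γ0 hh)]
  have hgen : (c' S.lvl.g0 : M2 k) = S.coeffJ (X : M2 k) • S.J := by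
    have e := coe_d0_mul (rb := rb) S.lvl.g0 H
    rw [show rb S.lvl.g0 = S.Mg from rfl, show (H : M2 k) = H0 from rfl, hMH] at e
    have e2 := congrArg (· * rb S.lvl.g0⁻¹) e
    simp only [mul_assoc, show S.Mg = rb S.lvl.g0 from rfl, mul_inv_rb, mul_one] at e2
    show (c S.lvl.g0 : M2 k) - (d0 (adRep rb) H S.lvl.g0 : M2 k) = _
    rw [e2]
    show (X : M2 k) - S.antiPart (X : M2 k) = _
    rw [S.antiPart_apply, sub_sub_cancel]
  have hag : S.coeffJ (c' S.lvl.g0 : M2 k) = 0 := by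
    have hi : ∀ i : ℕ, S.coeffJ (c' (S.lvl.g0 ^ i) : M2 k) = i • S.coeffJ (c' S.lvl.g0 : M2 k) := by
      intro i
      induction i with
      | zero => simp [Z1_apply_one hc']
      | succ i ih =>
        have hmem := pow_mem hg0 i
        rw [pow_succ, (mem_Z1.1 hc').2, Submodule.coe_add, map_add, coe_adRep, ih, succ_nsmul,
          S.coeffJ_conj (inv_mul_rb _) _ (s := 1) (by rw [one_smul, S.J_comm_inertia hmem])
            (one_mul 1),
          one_mul, add_comm]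
    have e := hi S.lvl.M
    rw [hΓc' _ S.lvl.g0_pow_mem, Submodule.coe_zero, map_zero, ← Nat.cast_smul_eq_nsmul k] at e
    refine (smul_eq_zero.mp e.symm).resolve_left ?_
    rw [CharP.cast_eq_zero_iff k p]
    exact S.lvl.p_not_dvd_M
  have hg0' : c' S.lvl.g0 = 0 := by
    rw [hgen, map_smul, S.coeffJ_J, smul_eq_mul, mul_one] at hag
    refine Subtype.ext ?_
    rw [hgen, hag, zero_smul]
    rfl
  have hI : ∀ τ ∈ A.inertiaSubgroupIn ℚ, c' τ = 0 := by
    intro τ hτ
    obtain ⟨i, h, hh, rfl⟩ := S.lvl.exists_inertia_eq hτ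
    have hpow : ∀ i : ℕ, c' (S.lvl.g0 ^ i) = 0 := fun i => by
      induction i with
      | zero => rw [pow_zero]; exact Z1_apply_one hc'
      | succ i ih => rw [pow_succ, (mem_Z1.1 hc').2, hg0', map_zero, zero_add, ih]
    rw [(mem_Z1.1 hc').2, hΓc' h hh, map_zero, zero_add, hpow]
  -- on the decomposition group the values are multiples of `J`
  have hyD : ∀ σ ∈ A.decompositionSubgroup ℚ, S.antiPart (c' σ : M2 k) = 0 := by
    intro σ hσ
    refine S.eq_coeffJ_smul_of_comm hdet (trace_coe _) ?_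
    have hconj : σ⁻¹ * S.lvl.g0 * σ ∈ A.inertiaSubgroupIn ℚ := by
      simpa using conj_mem_inertia (inv_mem hσ) hg0
    have e1 : c' (S.lvl.g0 * σ) = c' σ := by
      rw [show S.lvl.g0 * σ = σ * (σ⁻¹ * S.lvl.g0 * σ) by group, (mem_Z1.1 hc').2, hI _ hconj,
        map_zero, zero_add]
    have e2 := coe_cocycle_mul hc' S.lvl.g0 σ
    rw [e1, hg0', Submodule.coe_zero, zero_mul, zero_add] at e2
    have e3 : Commute (c' σ : M2 k) S.Mg := e2
    exact (((Commute.ofNat_left 2 (c' σ : M2 k)).mul_left e3.symm).sub_left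
      (Nat.cast_commute S.τ _)).eq
  -- kill the value at Frobenius
  set a := S.coeffJ (c' Φ : M2 k)
  have hJmem : (-(a / 2)) • S.J ∈ sl2 k := Submodule.smul_mem _ _ (by
    have := S.trace_J hdet
    rw [trace_fin_two] at this
    rwa [mem_sl2])
  set H1 : sl2 k := ⟨(-(a / 2)) • S.J, hJmem⟩
  set c'' := c' - d0 (adRep rb) H1
  have hc'' : c'' ∈ Z1 lvQ (adRep rb) := sub_mem hc' (d0_mem_Z1 hrb H1)
  have hd0 : ∀ (g : GQ) (s : k), rb g * S.J = s • (S.J * rb g) →
      (d0 (adRep rb) H1 g : M2 k) = ((s - 1) * -(a / 2)) • S.J := fun g s hs => by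
    rw [d0_apply, Submodule.coe_sub, coe_adRep]
    show rb g * ((-(a / 2)) • S.J) * rb g⁻¹ - (-(a / 2)) • S.J = _
    rw [mul_smul_comm, hs, smul_smul, smul_mul_assoc, mul_assoc, mul_inv_rb, mul_one, ← sub_smul]
    congr 1
    ring
  have hI'' : ∀ τ ∈ A.inertiaSubgroupIn ℚ, c'' τ = 0 := fun τ hτ => by
    refine Subtype.ext ?_
    show ((c' τ : M2 k) - (d0 (adRep rb) H1 τ : M2 k)) = 0
    rw [hI τ hτ, hd0 τ 1 (by rw [one_smul, S.J_comm_inertia hτ]), sub_self, zero_mul, zero_smul,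
      Submodule.coe_zero, sub_zero]
  have hΦ'' : c'' Φ = 0 := by
    refine Subtype.ext ?_
    show ((c' Φ : M2 k) - (d0 (adRep rb) H1 Φ : M2 k)) = 0
    have e := hyD Φ hΦD
    rw [S.antiPart_apply, sub_eq_zero] at e
    rw [hd0 Φ (-1) (by rw [neg_one_smul, S.rb_frob_J hΦ]), e, ← sub_smul]
    have h2 := two_ne_zero_of_charP (k := k) (p := p) S.lvl.p_ne_two
    rw [show a - (-1 - 1) * -(a / 2) = 0 by field_simp; ring, zero_smul]
  have hzero : classMap A rb c'' = 0 := classMap_eq_zero 0 fun σ hσ => by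
    rw [eq_zero_of_inertia_frobenius hc'' S.lvl.hA hΦ hI'' hΦ'' hσ, map_zero, sub_zero]
  simpa [c'', c', classMap_d0] using hzero

include hdet in
/-- The twist by a Frobenius element. -/
theorem antiF_frob {c : GQ → sl2 k} (hc : c ∈ Z1 lvQ (adRep rb)) {Φ : GQ}
    (hΦ : A.IsFrobeniusAt Φ p) {α β : k}
    (hαβ : rb Φ *ᵥ x₀ = α • x₀ + β • (S.J *ᵥ x₀)) (L : (Fin 2 → k) →+ ZMod p) (g : GQ)
    (hg : g ∈ S.lvl.Γ0) :
    TameLvl.twist Φ (compFam p (S.antiF x₀ c) L) g = compFam p (S.antiF x₀ c)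
      (precompHom p (omegaK p k Φ • (rb Φ⁻¹ * (α • (1 : M2 k) - β • S.J))) L) g := by
  rw [TameLvl.twist, compFam_apply, compFam_apply, precompHom_apply, omega_mul_vec (k := k)]
  congr 1
  show omegaK p k Φ • _ = _
  simp only [antiF]
  rw [S.cocycle_conj hc (Gal.isFrobeniusAt_iff.1 hΦ).1 hg,
    S.antiPart_conj (inv_mul_rb _) (mul_inv_rb _) _ (S.inv_comm_frob hΦ) (by ring),
    Matrix.smul_mulVec, ← mulVec_mulVec, ← mulVec_mulVec,
    mulVec_of_anti S (S.antiPart_anti hdet (trace_coe _)) hαβ, ← mulVec_mulVec _ (rb Φ⁻¹)]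

include hdet hrb in
/-- The classes of `Z` form at most a line. -/
theorem finrank_Z [Finite k] (hx₀ : ∀ w : Fin 2 → k, ∃ α β : k, w = α • x₀ + β • (S.J *ᵥ x₀)) :
    FiniteDimensional k ((S.Z x₀).map (classMap A rb)) ∧
      Module.finrank k ((S.Z x₀).map (classMap A rb)) ≤ 1 := by
  have hp := hpf.out
  have hp3 := S.three_le
  have : CharP κ p := Gal.residueField_charP hp S.lvl.hA
  have : IsAlgClosed κ := Gal.residueField_isAlgClosed
  obtain ⟨Φ, hΦ⟩ := Gal.exists_isFrobeniusAt (A := A) hp S.lvl.hA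
  have hΦD := (Gal.isFrobeniusAt_iff.1 hΦ).1
  have h9 : 3 * p ≤ p * p := Nat.mul_le_mul_right p hp3
  have hJ : ¬ p ∣ p * p + 1 := fun h => hp.ne_one (Nat.dvd_one.mp
    ((Nat.dvd_add_right (dvd_mul_right p p)).mp h))
  have hJT : p * p + 1 < p * S.lvl.T := by rw [S.pT_eq]; omega
  obtain ⟨α, β, hαβ⟩ := hx₀ (rb Φ *ᵥ x₀)
  set F : ((Fin 2 → k) →+ ZMod p) → ((Fin 2 → k) →+ ZMod p) :=
    fun L => precompHom p (omegaK p k Φ • (rb Φ⁻¹ * (α • (1 : M2 k) - β • S.J))) L
  set C : κ := tame A Φ S.lvl.π ^ (p * p + 1)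
  have hC : C ≠ 0 := pow_ne_zero _ (tame_ne_zero hΦD S.lvl.π_ne_zero)
  have hθJ : S.θ ^ (p * p + 1) = S.θ ^ 2 := by
    have h : S.θ ^ (p ^ 2 - 1) = 1 := by
      have h1 : tame A (S.lvl.g0 ^ S.lvl.M) S.lvl.π = 1 := by
        rw [tame, S.lvl.π_fixed _ S.lvl.g0_pow_mem, div_self S.lvl.π_ne_zero, red_one]
      rw [tame_pow_left S.lvl.g0_mem S.lvl.π_ne_zero, S.lvl_M] at h1
      exact h1
    have e : p * p + 1 = 2 + (p ^ 2 - 1) := by
      have : 1 ≤ p ^ 2 := Nat.one_le_pow _ _ hp.pos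
      have := sq p
      omega
    rw [e, pow_add, h, mul_one]
  let E : Submodule κ (((Fin 2 → k) →+ ZMod p) → κ) :=
    { carrier := {Λ | Λ ∈ addFun κ _ ∧ ∀ L, Λ (precompHom p S.Nop L) = S.θ ^ 2 * Λ L}
      zero_mem' := ⟨zero_mem _, fun L => (mul_zero _).symm⟩
      add_mem' := fun {a b} ha hb => ⟨add_mem ha.1 hb.1, fun L => by
        simp [ha.2 L, hb.2 L, mul_add]⟩
      smul_mem' := fun t a ha => ⟨Submodule.smul_mem _ t ha.1, fun L => by
        simp [ha.2 L]; ring⟩ }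
  let S' : AddSubgroup (((Fin 2 → k) →+ ZMod p) → κ) :=
    { carrier := {Λ | Λ ∈ E ∧ ∀ L, Λ (F L) = C * Λ L ^ p}
      zero_mem' := ⟨zero_mem _, fun L => by simp [zero_pow hp.ne_zero]⟩
      add_mem' := fun {a b} ha hb => ⟨add_mem ha.1 hb.1, fun L => by
        simp [ha.2 L, hb.2 L, add_pow_char, mul_add]⟩
      neg_mem' := fun {a} ha => ⟨neg_mem ha.1, fun L => by
        simp [ha.2 L, (hp.odd_of_ne_two S.lvl.p_ne_two).neg_pow]⟩ }
  let Ψ : S.Z x₀ →+ (((Fin 2 → k) →+ ZMod p) → κ) := AddMonoidHom.mk'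
    (fun c => leadFam S.lvl (S.antiF x₀ c.1) (p * p + 1)) fun a b => by
      show leadFam S.lvl (S.antiF x₀ (a.1 + b.1)) _ = _
      rw [S.antiF_add]
      exact leadFam_add hJ hJT a.2.2.2 b.2.2.2
  have hΨ : ∀ c, Ψ c ∈ S' := by
    intro c
    obtain ⟨hc, -, hlev⟩ := c.2
    refine ⟨⟨leadFam_mem_addFun hJ hJT hlev, fun L => ?_⟩, fun L => ?_⟩
    · show S.lvl.leadAt (compFam p (S.antiF x₀ c.1) _) _ = _
      rw [S.lvl.leadAt_twist_inertia S.lvl.g0_mem hJ hJT (hlev L) (S.antiF_twist hdet hc L)]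
      show _ * S.θ ^ (p * p + 1) = _
      rw [hθJ, mul_comm]
      rfl
    · show S.lvl.leadAt (compFam p (S.antiF x₀ c.1) _) _ = _
      rw [S.lvl.leadAt_twist_frobenius hΦ hJ hJT (hlev L) (S.antiF_frob hdet hc hΦ hαβ L),
        mul_comm]
      rfl
  have : Fintype k := Fintype.ofFinite k
  obtain ⟨m, -, hm⟩ := FiniteField.card k p
  have hcard : Nat.card k = p ^ (m : ℕ) := by rw [Nat.card_eq_fintype_card]; exact hm
  have hY : Nat.card ((Fin 2 → k) →+ ZMod p) ≤ p ^ (2 * (m : ℕ)) := by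
    rw [card_addMonoidHom_eq (p_smul_eq_zero (k := k)), Nat.card_fun, hcard, Nat.card_fin,
      ← pow_mul, mul_comm]
  have : Finite ((Fin 2 → k) →+ ZMod p) := Finite.of_injective _ DFunLike.coe_injective
  obtain ⟨hfinA, hdimA⟩ := finrank_addFun_le (K := κ) (Y := (Fin 2 → k) →+ ZMod p)
    (fun L => AddMonoidHom.ext fun x => by simp) hY
  have hθ2 : (S.θ ^ 2) ^ p ≠ S.θ ^ 2 := fun h => by
    rw [← pow_mul] at h
    have hd := Nat.le_of_dvd (by omega) (S.dvd_of_θ_pow_eq (by omega) h.symm)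
    have := sq p
    omega
  have hE := two_mul_finrank_eigen_le (p := p) (fun L => precompHom p S.Nop L) hθ2 E
    (fun Λ h => h.1) fun Λ h => h.2
  have : FiniteDimensional κ E := Submodule.finiteDimensional_of_le
    (show E ≤ addFun κ ((Fin 2 → k) →+ ZMod p) from fun Λ h => h.1)
  let _ : Module (ZMod p) κ := (ZMod.algebra κ p).toModule
  obtain ⟨hSfin, hScard⟩ := finite_card_le_of_semilinear F hC S' (fun Λ h => h.2) E
    fun Λ h => h.1
  have hm' : Module.finrank κ E ≤ (m : ℕ) := by omega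
  have hker : ∀ c : S.Z x₀, Ψ c = 0 → classMap A rb (c : GQ → sl2 k) = 0 := by
    intro c hc0
    obtain ⟨hc, ha, hlev⟩ := c.2
    refine S.classMap_eq_zero_of_level hdet hrb hΦ hc fun g hg => ?_
    exact S.eq_zero_of_antiPart_coeffJ
      (S.antiPart_eq_zero_of_antiF hdet hx₀ (S.antiF_eq_zero hdet hc hlev hc0 g hg)) (ha g hg)
  obtain ⟨hfin, hdim⟩ := finrank_map_le_of_invariant (classMap A rb) (S.Z x₀) Ψ
    (S := (S' : Set _)) (Set.toFinite _) (n := 1)
    (by
      rw [pow_one, ← Nat.card_coe_set_eq]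
      exact hScard.trans ((Nat.pow_le_pow_right hp.pos hm').trans hcard.ge))
    hΨ hker ⊥
    (fun w hw => by rw [Submodule.mem_bot] at hw; rw [hw]; exact map_zero _)
    fun w hw _ => by simpa using hw
  rw [finrank_bot, add_zero] at hdim
  exact ⟨hfin, hdim⟩

include S hdet hrb in
/-- The local bound in the irreducible case. -/
theorem exists_modelClasses [Finite k] :
    ∃ L : Submodule k ((A.decompositionSubgroup ℚ → sl2 k) ⧸
        B1 (resRep (adRep rb) (A.decompositionSubgroup ℚ))),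
      FiniteDimensional k L ∧
      Module.finrank k L ≤ Module.finrank k (Representation.invariants
        (resRep (adRep rb) (A.decompositionSubgroup ℚ))) + 1 ∧
      ∀ c ∈ Z1 lvQ (adRep rb),
        HasModel A (A.decompositionSubgroup ℚ) (vAct rb fun g => (c g : M2 k)) →
          c ∈ condAt (adRep rb) L := by
  obtain ⟨x₀, hx₀⟩ := S.exists_cyclic_vector hdet
  obtain ⟨hfin, hdim⟩ := S.finrank_Z hdet hrb hx₀
  refine ⟨(S.Z x₀).map (classMap A rb), hfin, hdim.trans (Nat.le_add_left 1 _), fun c hc hM => ?_⟩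
  show classMap A rb c ∈ (S.Z x₀).map (classMap A rb)
  exact Submodule.mem_map_of_mem
    ⟨hc, S.eta_eq_zero hc hdet hM, S.antiF_allLev hdet hc hM⟩

end IrrShape

end Fermat.Agent.TW.Flat
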