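import Fermat.Agent.TW.Flat.Cocycle
import Fermat.Agent.TW.Flat.Irreducible

/-!
# Algebra of the irreducible residual shape

The traceless generator `J` of the commutant of tame inertia splits trace zero matrices into the
line through `J` and the matrices anticommuting with `J`; the tame character `θ` has order
`p² - 1`.  Used in the irreducible case of the local bound.
-/

noncomputable section

namespace Fermat.Agent.TW.Flat

open Fermat.Agent Fermat.Agent.PT Matrix
open scoped Pointwise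

local notation "Qbar" => AlgebraicClosure ℚ
local notation "GQ" => (AlgebraicClosure ℚ ≃ₐ[ℚ] AlgebraicClosure ℚ)

variable {A : ValuationSubring Qbar} {p : ℕ} [hpf : Fact p.Prime]
variable {k : Type} [Field k] [CharP k p] {rb : GQ →* M2 k}

local notation "κ" => IsLocalRing.ResidueField A

namespace IrrShape

variable (S : IrrShape p A rb)

/-- The matrix of the chosen tame generator. -/
def Mg : M2 k := rb S.lvl.g0

/-- The cyclotomic character of the tame generator, which is the determinant of `Mg`, as a natural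
number. -/
def normG : ℕ := ((cycQ p).ω S.lvl.g0 : ZMod p).val

/-- The discriminant of the quadratic equation of `Mg`. -/
def disc : ZMod p := (S.τ : ZMod p) ^ 2 - 4 * ((cycQ p).ω S.lvl.g0 : ZMod p)

/-- The discriminant in the coefficient field. -/
def discK : k := ZMod.castHom (dvd_refl p) k S.disc

theorem normG_cast : ((S.normG : ℕ) : ZMod p) = ((cycQ p).ω S.lvl.g0 : ZMod p) :=
  ZMod.natCast_zmod_val _

theorem normG_castK (R : Type) [Ring R] [CharP R p] :
    ((S.normG : ℕ) : R) = ZMod.castHom (dvd_refl p) R ((cycQ p).ω S.lvl.g0 : ZMod p) := by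
  rw [← S.normG_cast, map_natCast]

theorem omegaK_g0 : omegaK p k S.lvl.g0 = (S.normG : k) := (S.normG_castK k).symm

theorem discK_eq : S.discK = (S.τ : k) ^ 2 - 4 * (S.normG : k) := by
  rw [discK, disc, map_sub, map_pow, map_mul, map_natCast, map_ofNat, S.normG_castK k]

theorem discK_ne_zero : S.discK ≠ 0 := by
  intro h
  have h0 : S.disc = 0 := (ZMod.castHom (dvd_refl p) k).injective (h.trans (map_zero _).symm)
  have h2 : (2 : ZMod p) ≠ 0 := two_ne_zero_of_charP (k := ZMod p) (p := p) S.lvl.p_ne_two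
  refine S.no_root ((S.τ : ZMod p) / 2) ?_
  rw [disc] at h0
  field_simp
  linear_combination -h0

theorem quad_eq : S.Mg * S.Mg + (S.normG : M2 k) = (S.τ : M2 k) * S.Mg := S.quad

/-- The traceless element of the commutant. -/
def J : M2 k := 2 * S.Mg - (S.τ : M2 k)

theorem J_sq : S.J * S.J = S.discK • (1 : M2 k) := by
  have e : S.discK • (1 : M2 k) = (S.τ : M2 k) * (S.τ : M2 k) - 4 * (S.normG : M2 k) := by
    rw [S.discK_eq, ← Algebra.algebraMap_eq_smul_one, map_sub, map_pow, map_mul, map_natCast,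
      map_natCast, map_ofNat, sq]
  have hcomm : S.Mg * (S.τ : M2 k) = (S.τ : M2 k) * S.Mg :=
    ((Nat.cast_commute S.τ S.Mg).eq).symm
  have h : S.J * S.J = 4 * (S.Mg * S.Mg) - 4 * ((S.τ : M2 k) * S.Mg) +
      (S.τ : M2 k) * (S.τ : M2 k) := by
    simp only [J, sub_mul, mul_sub, two_mul, add_mul, mul_add, hcomm]
    rw [show (4 : M2 k) = 1 + 1 + 1 + 1 by norm_num]
    simp only [add_mul, one_mul]
    abel
  rw [h, e, ← S.quad_eq, mul_add]
  abel

theorem J_ne_zero : S.J ≠ 0 := fun h => by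
  have e := S.J_sq
  rw [h, zero_mul] at e
  have := congrFun (congrFun e 0) 0
  exact S.discK_ne_zero (by simpa using this.symm)

theorem J_comm_Mg : S.J * S.Mg = S.Mg * S.J := by
  exact (((Commute.ofNat_left 2 S.Mg).mul_left (Commute.refl S.Mg)).sub_left
    (Nat.cast_commute S.τ S.Mg)).eq

theorem J_comm_inertia {σ : GQ} (hσ : σ ∈ A.inertiaSubgroupIn ℚ) :
    S.J * rb σ = rb σ * S.J := by
  obtain ⟨i, hi⟩ := S.gen_rb σ hσ
  rw [hi]
  exact (Commute.pow_right (show Commute S.J S.Mg from S.J_comm_Mg) i).eq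

theorem trace_Mg (hdet : DetCyc p rb) : trace S.Mg = (S.τ : k) := by
  have h1 := sq_eq_trace S.Mg
  have hd : det S.Mg = (S.normG : k) := by rw [Mg, det_eq_omegaK hdet, S.omegaK_g0]
  rw [hd, Nat.cast_smul_eq_nsmul, nsmul_one, S.quad_eq, ← nsmul_eq_mul,
    ← Nat.cast_smul_eq_nsmul k] at h1
  have hne : S.Mg ≠ 0 := fun h0 => by
    have : rb (S.lvl.g0⁻¹ * S.lvl.g0) = 0 := by rw [map_mul, ← Mg, h0, mul_zero]
    rw [inv_mul_cancel, map_one] at this
    exact one_ne_zero this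
  exact (smul_left_injective k hne h1).symm

theorem trace_J (hdet : DetCyc p rb) : trace S.J = 0 := by
  have h1 : trace (S.τ : M2 k) = 2 * (S.τ : k) := by
    rw [← map_natCast (algebraMap k (M2 k)), Algebra.algebraMap_eq_smul_one, trace_smul, trace_one,
      Fintype.card_fin, smul_eq_mul]
    push_cast
    ring
  rw [J, trace_sub, two_mul, trace_add, S.trace_Mg hdet, h1]
  ring

theorem rb_frob_J {Φ : GQ} (hΦ : A.IsFrobeniusAt Φ p) : rb Φ * S.J = -(S.J * rb Φ) := by
  have h : rb (Φ * S.lvl.g0 * Φ⁻¹) * rb Φ = ((S.τ : M2 k) - S.Mg) * rb Φ := by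
    rw [S.frob Φ hΦ]; rfl
  rw [← map_mul, inv_mul_cancel_right, map_mul] at h
  rw [J, mul_sub, sub_mul, two_mul, mul_add, add_mul, ← Mg] at *
  rw [h, (Nat.cast_commute S.τ (rb Φ)).eq]
  abel

theorem add_mul_traceless {X Y : M2 k} (hX : trace X = 0) (hY : trace Y = 0) :
    X * Y + Y * X = trace (X * Y) • (1 : M2 k) := by
  rw [trace_fin_two] at hX hY
  have h1 : X 1 1 = -X 0 0 := by linear_combination hX
  have h2 : Y 1 1 = -Y 0 0 := by linear_combination hY
  ext i j
  fin_cases i <;> fin_cases j <;>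
    simp [mul_apply, Fin.sum_univ_two, trace_fin_two, h1, h2] <;> ring

/-- The coefficient of `J` in a traceless matrix. -/
def coeffJ : M2 k →ₗ[k] k :=
  (2 * S.discK)⁻¹ • (traceLinearMap (Fin 2) k k).comp (LinearMap.mulLeft k S.J)

theorem coeffJ_apply (X : M2 k) : S.coeffJ X = (2 * S.discK)⁻¹ * trace (S.J * X) := rfl

/-- The part anticommuting with `J`. -/
def antiPart : M2 k →ₗ[k] M2 k := LinearMap.id - S.coeffJ.smulRight S.J

theorem antiPart_apply (X : M2 k) : S.antiPart X = X - S.coeffJ X • S.J := rfl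

theorem two_discK_ne_zero : (2 : k) * S.discK ≠ 0 :=
  mul_ne_zero (two_ne_zero_of_charP (p := p) S.lvl.p_ne_two) S.discK_ne_zero

theorem coeffJ_J : S.coeffJ S.J = 1 := by
  rw [S.coeffJ_apply, S.J_sq, trace_smul, trace_one, Fintype.card_fin, smul_eq_mul, Nat.cast_ofNat,
    mul_comm S.discK, inv_mul_cancel₀ S.two_discK_ne_zero]

theorem antiPart_anti (hdet : DetCyc p rb) {X : M2 k} (hX : trace X = 0) :
    S.J * S.antiPart X = -(S.antiPart X * S.J) := by
  rw [eq_neg_iff_add_eq_zero, S.antiPart_apply, mul_sub, sub_mul, mul_smul_comm, smul_mul_assoc,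
    sub_add_sub_comm, add_mul_traceless (S.trace_J hdet) hX, ← add_smul, S.J_sq, smul_smul,
    ← sub_smul, S.coeffJ_apply]
  convert zero_smul k (1 : M2 k) using 2
  field_simp [S.discK_ne_zero, two_ne_zero_of_charP (k := k) (p := p) S.lvl.p_ne_two]
  ring

theorem eq_coeffJ_smul_of_comm (hdet : DetCyc p rb) {X : M2 k} (hX : trace X = 0)
    (h : S.J * X = X * S.J) : S.antiPart X = 0 := by
  have h1 := S.antiPart_anti hdet hX
  have h2 : S.J * S.antiPart X = S.antiPart X * S.J := by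
    simp only [S.antiPart_apply, mul_sub, sub_mul, mul_smul_comm, smul_mul_assoc, h]
  rw [h2] at h1
  have h3 : (2 : k) • (S.antiPart X * S.J) = 0 := by
    rw [two_smul]
    exact add_eq_zero_iff_eq_neg.mpr h1
  have h4 := (smul_eq_zero.mp h3).resolve_left
    (two_ne_zero_of_charP (p := p) S.lvl.p_ne_two)
  have h5 := congrArg (· * S.J) h4
  simp only [mul_assoc, S.J_sq, zero_mul, mul_smul_comm, mul_one] at h5
  exact (smul_eq_zero.mp h5).resolve_left S.discK_ne_zero

theorem coeffJ_conj {R R' : M2 k} (h' : R' * R = 1) (X : M2 k) {s : k}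
    (hJ : R * S.J = s • (S.J * R)) (hs : s * s = 1) :
    S.coeffJ (R * X * R') = s * S.coeffJ X := by
  have e : S.J * R = s • (R * S.J) := by rw [hJ, smul_smul, hs, one_smul]
  rw [S.coeffJ_apply, S.coeffJ_apply, ← mul_assoc, ← mul_assoc, e, smul_mul_assoc, smul_mul_assoc,
    trace_smul, trace_mul_cycle, ← mul_assoc R', h', one_mul, smul_eq_mul]
  ring

theorem antiPart_conj {R R' : M2 k} (h : R * R' = 1) (h' : R' * R = 1) (X : M2 k) {s : k}
    (hJ : R * S.J = s • (S.J * R)) (hs : s * s = 1) :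
    S.antiPart (R * X * R') = R * S.antiPart X * R' := by
  rw [S.antiPart_apply, S.antiPart_apply, S.coeffJ_conj h' X hJ hs, mul_sub, sub_mul, mul_smul_comm,
    smul_mul_assoc, hJ, smul_mul_assoc, mul_assoc S.J R R', h, mul_one, smul_smul, mul_comm s]

/-- Some vector and its image under `J` form a basis. -/
theorem exists_cyclic_vector (hdet : DetCyc p rb) :
    ∃ x : Fin 2 → k, ∀ w : Fin 2 → k, ∃ α β : k, w = α • x + β • (S.J *ᵥ x) := by
  have hJ := S.trace_J hdet
  rw [trace_fin_two] at hJ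
  have h11 : S.J 1 1 = -S.J 0 0 := by linear_combination hJ
  by_cases h10 : S.J 1 0 = 0
  · by_cases h01 : S.J 0 1 = 0
    · have hj : S.J 0 0 ≠ 0 := fun h0 => S.J_ne_zero (by
        ext i j; fin_cases i <;> fin_cases j <;> simp [h0, h01, h10, h11])
      refine ⟨![1, 1], fun w => ⟨(w 0 + w 1) / 2, (w 0 - w 1) / (2 * S.J 0 0), ?_⟩⟩
      have h2 := two_ne_zero_of_charP (k := k) (p := p) S.lvl.p_ne_two
      ext i
      fin_cases i <;> simp [h01, h10, h11] <;>
        field_simp [h2, hj] <;> ring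
    · refine ⟨![0, 1], fun w => ⟨w 1 - w 0 / S.J 0 1 * S.J 1 1, w 0 / S.J 0 1, ?_⟩⟩
      ext i
      fin_cases i <;> simp [h01]
  · refine ⟨![1, 0], fun w => ⟨w 0 - w 1 / S.J 1 0 * S.J 0 0, w 1 / S.J 1 0, ?_⟩⟩
    ext i
    fin_cases i <;> simp [h10]

theorem mulVec_of_anti {Y : M2 k} (hY : S.J * Y = -(Y * S.J)) {x w : Fin 2 → k} {α β : k}
    (hw : w = α • x + β • (S.J *ᵥ x)) :
    Y *ᵥ w = (α • (1 : M2 k) - β • S.J) *ᵥ (Y *ᵥ x) := by
  have e : Y * S.J = -(S.J * Y) := by rw [hY, neg_neg]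
  rw [hw, mulVec_add, mulVec_smul, mulVec_smul, mulVec_mulVec, e, sub_mulVec, Matrix.smul_mulVec,
    one_mulVec, Matrix.smul_mulVec, mulVec_mulVec, neg_mulVec, smul_neg, sub_eq_add_neg]

/-- The tame character on the generator. -/
def θ : IsLocalRing.ResidueField A := tame A S.lvl.g0 S.lvl.π

theorem θ_ne_zero : S.θ ≠ 0 :=
  tame_ne_zero (inertia_le_decomposition S.lvl.g0_mem) S.lvl.π_ne_zero

theorem θ_pow_p : S.θ ^ p = (S.τ : κ) - S.θ ∧ S.θ ^ p ≠ S.θ := by
  have : CharP κ p := Gal.residueField_charP hpf.out S.lvl.hA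
  have hroot : S.θ ^ 2 - (S.τ : κ) * S.θ + (S.normG : κ) = 0 := S.root
  refine ⟨pow_eq_sub_of_root hroot S.not_nat, fun h0 => ?_⟩
  obtain ⟨m, hm⟩ := exists_natCast_eq_of_pow_eq (p := p) h0
  exact S.not_nat m hm.symm

theorem θ_pow_succ : S.θ ^ (p + 1) = (S.normG : κ) := by
  have hroot : S.θ ^ 2 - (S.τ : κ) * S.θ + (S.normG : κ) = 0 := S.root
  rw [pow_succ, S.θ_pow_p.1]
  linear_combination -hroot

theorem lvl_M : S.lvl.M = p ^ 2 - 1 := by
  rw [S.lvl.M_eq, S.T_eq, mul_comm, ← Nat.sq_sub_sq, one_pow]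

theorem dvd_of_θ_pow_eq {a b : ℕ} (hab : a ≤ b) (h : S.θ ^ a = S.θ ^ b) :
    p ^ 2 - 1 ∣ b - a := by
  rw [← S.lvl_M]
  refine S.lvl.dvd_of_tame_pow_eq_one (mul_left_cancel₀ (pow_ne_zero a S.θ_ne_zero) ?_)
  rw [mul_one]
  show S.θ ^ a * S.θ ^ (b - a) = S.θ ^ a
  rw [← pow_add, Nat.add_sub_cancel' hab, h]

theorem pT_eq : p * S.lvl.T = p * p + p := by rw [S.T_eq, mul_add, mul_one]

omit hpf in
theorem dvd_cases {a M : ℕ} (h : M ∣ a) (hlt : a < 2 * M) : a = 0 ∨ a = M := by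
  obtain ⟨c, rfl⟩ := h
  rcases c with _ | _ | c
  · exact Or.inl (mul_zero _)
  · exact Or.inr (mul_one _)
  · exfalso
    rw [mul_comm 2 M] at hlt
    exact absurd (Nat.lt_of_mul_lt_mul_left hlt) (by omega)

include S in
theorem three_le : 3 ≤ p := by
  have h1 := hpf.out.two_le
  have h2 := S.lvl.p_ne_two
  omega

/-- Levels at which the character of level `p + 1` occurs. -/
theorem eta_level {i : ℕ} (hi : 1 ≤ i) (hiT : i < p * S.lvl.T)
    (h : S.θ ^ i = S.θ ^ (p + 1)) : i = p + 1 := by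
  have hp3 := S.three_le
  have hsq : p ^ 2 = p * p := sq p
  have h9 : 3 * p ≤ p * p := Nat.mul_le_mul_right p hp3
  rw [S.pT_eq] at hiT
  rcases le_total i (p + 1) with hle | hle
  · rcases dvd_cases (S.dvd_of_θ_pow_eq hle h) (by omega) with h0 | h0 <;> omega
  · rcases dvd_cases (S.dvd_of_θ_pow_eq hle h.symm) (by omega) with h0 | h0 <;> omega

/-- Levels at which the characters of the anticommuting part occur. -/
theorem anti_level {i : ℕ} (hi : 1 ≤ i) (hiT : i < p * S.lvl.T) (hdvd : ¬ p ∣ i)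
    (h : S.θ ^ i = S.θ ^ 2 ∨ S.θ ^ i = S.θ ^ (2 * p)) : i = 2 ∨ i = p * p + 1 := by
  have hp3 := S.three_le
  have hsq : p ^ 2 = p * p := sq p
  have h9 : 3 * p ≤ p * p := Nat.mul_le_mul_right p hp3
  rw [S.pT_eq] at hiT
  rcases h with h | h
  · rcases le_total i 2 with hle | hle
    · rcases dvd_cases (S.dvd_of_θ_pow_eq hle h) (by omega) with h0 | h0 <;> omega
    · rcases dvd_cases (S.dvd_of_θ_pow_eq hle h.symm) (by omega) with h0 | h0 <;> omega
  · exfalso
    rcases le_total i (2 * p) with hle | hle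
    · rcases dvd_cases (S.dvd_of_θ_pow_eq hle h) (by omega) with h0 | h0
      · exact hdvd ⟨2, by omega⟩
      · omega
    · rcases dvd_cases (S.dvd_of_θ_pow_eq hle h.symm) (by omega) with h0 | h0
      · exact hdvd ⟨2, by omega⟩
      · omega

theorem rb_Γ0 {h : GQ} (hh : h ∈ S.lvl.Γ0) : rb h = 1 := ((S.mem_Γ0 h).mp hh).2

theorem cocycle_hom {c : GQ → sl2 k} (hc : c ∈ Z1 lvQ (adRep rb)) {g : GQ} (hg : g ∈ S.lvl.Γ0)
    (h : GQ) : c (g * h) = c g + c h := by
  rw [(mem_Z1.1 hc).2, adRep_eq_one rb (S.rb_Γ0 hg), Module.End.one_apply, add_comm]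

theorem cocycle_conj {c : GQ → sl2 k} (hc : c ∈ Z1 lvQ (adRep rb)) {σ h : GQ}
    (hσ : σ ∈ A.decompositionSubgroup ℚ) (hh : h ∈ S.lvl.Γ0) :
    (c (σ⁻¹ * h * σ) : M2 k) = rb σ⁻¹ * (c h : M2 k) * rb σ := by
  have hh' : σ⁻¹ * h * σ ∈ S.lvl.Γ0 := by simpa using S.lvl.conj_mem _ (inv_mem hσ) h hh
  have e1 := coe_cocycle_mul hc σ (σ⁻¹ * h * σ)
  rw [show σ * (σ⁻¹ * h * σ) = h * σ by group, S.cocycle_hom hc hh, Submodule.coe_add,
    add_mul, add_comm] at e1
  have e2 := congrArg (rb σ⁻¹ * ·) (add_left_cancel e1)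
  simp only [← mul_assoc, ← map_mul, inv_mul_cancel, map_one, one_mul] at e2
  exact e2.symm

end IrrShape

end Fermat.Agent.TW.Flat
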