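import Fermat.Agent.TW.Flat.IrrEta

/-!
# The component anticommuting with `J`

Its leading coefficients can occur at levels `2` and `p² + 1` only; level `2` is excluded by a
root of unity on the model, so the coefficients at level `p² + 1` detect it.
Used in the irreducible case of the local bound.
-/

noncomputable section

namespace Fermat.Agent.TW.Flat

open Fermat.Agent Fermat.Agent.PT Matrix
open scoped Pointwise

local notation "Qbar" => AlgebraicClosure ℚ
local notation "GQ" => (AlgebraicClosure ℚ ≃ₐ[ℚ] AlgebraicClosure ℚ)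

variable {A : ValuationSubring Qbar} {p : ℕ} [hpf : Fact p.Prime]
variable {k : Type} [Field k] [CharP k p] {rb : GQ →* M2 k}

local notation "κ" => IsLocalRing.ResidueField A

/-- Precomposition of functionals with a matrix. -/
def precompHom (p : ℕ) (X : M2 k) : ((Fin 2 → k) →+ ZMod p) →+ ((Fin 2 → k) →+ ZMod p) :=
  AddMonoidHom.mk' (fun L => L.comp (Matrix.mulVecLin X).toAddMonoidHom) fun _ _ => rfl

omit [CharP k p] in
theorem precompHom_apply (X : M2 k) (L : (Fin 2 → k) →+ ZMod p) (w : Fin 2 → k) :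
    precompHom p X L w = L (X *ᵥ w) := rfl

theorem omega_mul_vec {M : Type*} [AddCommGroup M] [Module k M] (L : M →+ ZMod p) (a : ZMod p)
    (x : M) : a * L x = L (ZMod.castHom (dvd_refl p) k a • x) := by
  conv_rhs => rw [← ZMod.natCast_zmod_val a, map_natCast, Nat.cast_smul_eq_nsmul, map_nsmul,
    nsmul_eq_mul, ZMod.natCast_zmod_val]

namespace IrrShape

variable (S : IrrShape p A rb)

/-- The conjugate of the generator matrix. -/
def Mbar : M2 k := (S.τ : M2 k) - S.Mg

theorem Mg_mul_Mbar : S.Mg * S.Mbar = (S.normG : M2 k) := by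
  rw [Mbar, mul_sub, (Nat.cast_commute S.τ S.Mg).eq.symm, ← S.quad_eq, add_sub_cancel_left]

theorem Mbar_eq_smul : S.Mbar = (S.τ : k) • (1 : M2 k) - S.Mg := by
  rw [Mbar, Nat.cast_smul_eq_nsmul, nsmul_one]

theorem Mbar_quad : S.Mbar * S.Mbar = (S.τ : k) • S.Mbar - (S.normG : k) • (1 : M2 k) := by
  have h := S.Mg_mul_Mbar
  rw [← nsmul_one S.normG, ← Nat.cast_smul_eq_nsmul k] at h
  calc S.Mbar * S.Mbar = ((S.τ : k) • (1 : M2 k) - S.Mg) * S.Mbar := by rw [← S.Mbar_eq_smul]
    _ = _ := by rw [sub_mul, smul_mul_assoc, one_mul, h]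

/-- The operator of tame inertia on the anticommuting part. -/
def Nop : M2 k := S.Mbar * S.Mbar

/-- The trace of `Nop`, as a natural number. -/
def traceN : ℕ := ((S.τ : ZMod p) ^ 2 - 2 * ((cycQ p).ω S.lvl.g0 : ZMod p)).val

theorem traceN_cast (R : Type) [CommRing R] [CharP R p] :
    (S.traceN : R) = (S.τ : R) ^ 2 - 2 * (S.normG : R) := by
  have h := congrArg (ZMod.castHom (dvd_refl p) R) (ZMod.natCast_zmod_val
    ((S.τ : ZMod p) ^ 2 - 2 * ((cycQ p).ω S.lvl.g0 : ZMod p)))
  rw [map_natCast, map_sub, map_pow, map_mul, map_natCast, map_ofNat, ← S.normG_castK R] at h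
  exact h

theorem Nop_quad : S.Nop * S.Nop + ((S.normG * S.normG : ℕ) : k) • (1 : M2 k) =
    (S.traceN : k) • S.Nop := by
  rw [Nop, S.Mbar_quad, S.traceN_cast k, Nat.cast_mul]
  simp only [sub_mul, mul_sub, smul_mul_assoc, mul_smul_comm, smul_smul, one_mul, mul_one,
    S.Mbar_quad, smul_sub]
  module

theorem traceN_kappa : (S.traceN : κ) = S.θ ^ 2 + S.θ ^ (2 * p) ∧
    ((S.normG * S.normG : ℕ) : κ) = S.θ ^ 2 * S.θ ^ (2 * p) := by
  have : CharP κ p := Gal.residueField_charP hpf.out S.lvl.hA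
  have h1 := S.θ_pow_p.1
  have h2 := S.θ_pow_succ
  rw [pow_succ, h1] at h2
  rw [mul_comm 2 p, pow_mul S.θ p 2, h1]
  refine ⟨?_, ?_⟩
  · rw [S.traceN_cast κ]
    linear_combination 2 * h2
  · push_cast
    linear_combination -((S.normG : κ) + ((S.τ : κ) - S.θ) * S.θ) * h2

/-- The twisting operator on the anticommuting component has no fixed vector. -/
theorem Nop_sub_one_injective {w : Fin 2 → k} (hw : S.Nop *ᵥ w = w) : w = 0 := by
  have hp := hpf.out
  have hp3 := S.three_le
  have : CharP κ p := Gal.residueField_charP hp S.lvl.hA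
  have e := congrArg (fun X : M2 k => X *ᵥ w) S.Nop_quad
  simp only [add_mulVec, ← mulVec_mulVec, Matrix.smul_mulVec, one_mulVec, hw] at e
  have h1 : ((1 : k) + ((S.normG * S.normG : ℕ) : k) - (S.traceN : k)) • w = 0 := by
    rw [sub_smul, add_smul, one_smul, e, sub_self]
  refine (smul_eq_zero.mp h1).resolve_left fun h0 => ?_
  have h2 : (((1 + S.normG * S.normG : ℕ) : k)) = ((S.traceN : ℕ) : k) := by
    push_cast
    push_cast at h0
    linear_combination h0
  have h3 := (CharP.natCast_eq_natCast κ p).mpr ((CharP.natCast_eq_natCast k p).mp h2)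
  rw [Nat.cast_add, Nat.cast_one, S.traceN_kappa.2, S.traceN_kappa.1] at h3
  have h4 : (1 - S.θ ^ 2) * (1 - S.θ ^ (2 * p)) = 0 := by linear_combination h3
  have h9 : 3 * p ≤ p * p := Nat.mul_le_mul_right p hp3
  have hsq : p ^ 2 = p * p := sq p
  rcases mul_eq_zero.mp h4 with h5 | h5
  · have := Nat.le_of_dvd (by norm_num) (S.dvd_of_θ_pow_eq (Nat.zero_le 2)
      (by rw [pow_zero]; exact sub_eq_zero.mp h5))
    omega
  · have := Nat.le_of_dvd (by omega) (S.dvd_of_θ_pow_eq (Nat.zero_le (2 * p))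
      (by rw [pow_zero]; exact sub_eq_zero.mp h5))
    omega

theorem Nop_sub_one_surjective [Finite k] :
    Function.Surjective fun L : (Fin 2 → k) →+ ZMod p => precompHom p S.Nop L - L := by
  have : Finite ((Fin 2 → k) →+ ZMod p) := Finite.of_injective _ DFunLike.coe_injective
  refine Finite.injective_iff_surjective.mp fun L L' h => AddMonoidHom.ext fun w => ?_
  have hinj : Function.Injective fun u : Fin 2 → k => S.Nop *ᵥ u - u := fun u u' huu => by
    refine sub_eq_zero.mp (S.Nop_sub_one_injective ?_)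
    rw [mulVec_sub]
    exact sub_eq_sub_iff_sub_eq_sub.mp huu
  obtain ⟨u, rfl⟩ := Finite.injective_iff_surjective.mp hinj w
  have e := DFunLike.congr_fun h u
  simp only [AddMonoidHom.sub_apply, precompHom_apply] at e
  rw [map_sub, map_sub]
  exact e

/-- The values of the anticommuting part on a cyclic vector. -/
def antiF (x₀ : Fin 2 → k) (c : GQ → sl2 k) : GQ → (Fin 2 → k) :=
  fun g => S.antiPart (c g : M2 k) *ᵥ x₀

variable {x₀ : Fin 2 → k} {c : GQ → sl2 k} (hdet : DetCyc p rb)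

theorem trace_coe (X : sl2 k) : trace (X : M2 k) = 0 := by
  rw [trace_fin_two]
  exact mem_sl2.mp X.2

include hdet in
theorem Mg_anti (X : sl2 k) : S.antiPart (X : M2 k) * S.Mg = S.Mbar * S.antiPart (X : M2 k) := by
  have hJ := S.antiPart_anti hdet (trace_coe X)
  set Y := S.antiPart (X : M2 k)
  rw [J, sub_mul, mul_sub, two_mul, mul_add, add_mul, neg_sub,
    (Nat.cast_commute S.τ Y).eq.symm] at hJ
  have h2 : (2 : k) • (Y * S.Mg - S.Mbar * Y) = 0 := by
    rw [two_smul, Mbar, sub_mul]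
    linear_combination (norm := abel) hJ
  exact sub_eq_zero.mp ((smul_eq_zero.mp h2).resolve_left
    (two_ne_zero_of_charP (p := p) S.lvl.p_ne_two))

include hdet in
theorem antiF_twist (hc : c ∈ Z1 lvQ (adRep rb)) (L : (Fin 2 → k) →+ ZMod p) (g : GQ)
    (hg : g ∈ S.lvl.Γ0) :
    TameLvl.twist S.lvl.g0 (compFam p (S.antiF x₀ c) L) g =
      compFam p (S.antiF x₀ c) (precompHom p S.Nop L) g := by
  have hg0 := S.lvl.g0_mem
  rw [TameLvl.twist, compFam_apply, compFam_apply, precompHom_apply, omega_mul_vec (k := k)]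
  congr 1
  have hinv : (S.normG : k) • rb S.lvl.g0⁻¹ = S.Mbar := by
    calc (S.normG : k) • rb S.lvl.g0⁻¹ = rb S.lvl.g0⁻¹ * (S.normG : M2 k) := by
          rw [Nat.cast_smul_eq_nsmul, ← (Nat.cast_commute S.normG _).eq, nsmul_eq_mul]
      _ = S.Mbar := by rw [← S.Mg_mul_Mbar, ← mul_assoc, Mg, inv_mul_rb, one_mul]
  show omegaK p k S.lvl.g0 • _ = _
  rw [S.omegaK_g0]
  simp only [antiF]
  rw [S.cocycle_conj hc (inertia_le_decomposition hg0) hg,
    S.antiPart_conj (inv_mul_rb _) (mul_inv_rb _) _ (S.inv_comm_inertia hg0) (one_mul 1),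
    ← Matrix.smul_mulVec, ← smul_mul_assoc, ← smul_mul_assoc, hinv, mulVec_mulVec, Nop]
  congr 1
  rw [mul_assoc, show rb S.lvl.g0 = S.Mg from rfl, S.Mg_anti hdet, mul_assoc]

theorem antiF_hom (hc : c ∈ Z1 lvQ (adRep rb)) (g : GQ) (hg : g ∈ S.lvl.Γ0) (h : GQ) :
    S.antiF x₀ c (g * h) = S.antiF x₀ c g + S.antiF x₀ c h := by
  simp only [antiF]
  rw [S.cocycle_hom hc hg, Submodule.coe_add, map_add, add_mulVec]

include hdet in
/-- The possible levels of the anticommuting part. -/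
theorem antiF_lead_level (hc : c ∈ Z1 lvQ (adRep rb)) {i : ℕ} (hi : 1 ≤ i)
    (hiT : i < p * S.lvl.T) (hdvd : ¬ p ∣ i)
    (hlev : S.lvl.AllLev (compFam p (S.antiF x₀ c)) i) :
    (∀ L, S.lvl.leadAt (compFam p (S.antiF x₀ c) L) i = 0) ∨ i = 2 ∨ i = p * p + 1 := by
  have : CharP κ p := Gal.residueField_charP hpf.out S.lvl.hA
  by_contra hcon
  push Not at hcon
  obtain ⟨⟨L, hL⟩, h2, h3⟩ := hcon
  have e : ∀ L, S.lvl.leadAt (compFam p (S.antiF x₀ c) (precompHom p S.Nop L)) i =
      S.lvl.leadAt (compFam p (S.antiF x₀ c) L) i * S.θ ^ i := fun L =>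
    S.lvl.leadAt_twist_inertia S.lvl.g0_mem hdvd hiT (hlev L) (S.antiF_twist hdet hc L)
  have hrel : precompHom p S.Nop (precompHom p S.Nop L) + (S.normG * S.normG) • L =
      S.traceN • precompHom p S.Nop L := AddMonoidHom.ext fun w => by
    simp only [AddMonoidHom.add_apply, AddMonoidHom.nsmul_apply, precompHom_apply]
    rw [← map_nsmul, ← map_nsmul, ← map_add, mulVec_mulVec,
      ← Nat.cast_smul_eq_nsmul k, ← Nat.cast_smul_eq_nsmul k S.traceN, ← Matrix.smul_mulVec,
      ← S.Nop_quad, add_mulVec, Matrix.smul_mulVec, one_mulVec]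
  have h := congrArg (TameLvl.leadHom hdvd hiT hlev) hrel
  rw [map_add, map_nsmul, map_nsmul] at h
  simp only [TameLvl.leadHom_apply hdvd hiT hlev, nsmul_eq_mul, e] at h
  have hq : (S.θ ^ i - S.θ ^ 2) * (S.θ ^ i - S.θ ^ (2 * p)) = 0 := by
    refine (mul_eq_zero.mp ?_).resolve_left hL
    rw [S.traceN_kappa.2, S.traceN_kappa.1] at h
    linear_combination h
  rcases S.anti_level hi hiT hdvd
    ((mul_eq_zero.mp hq).imp sub_eq_zero.mp sub_eq_zero.mp) with h4 | h4
  · exact h2 h4
  · exact h3 h4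

include hdet in
/-- Models exclude level `2`. -/
theorem antiF_allLev [Finite k] (hc : c ∈ Z1 lvQ (adRep rb))
    (hM : HasModel A (A.decompositionSubgroup ℚ) (vAct rb fun g => (c g : M2 k))) :
    S.lvl.AllLev (compFam p (S.antiF x₀ c)) (p * p + 1) := by
  have hp := hpf.out
  have hp3 := S.three_le
  have hroot : ∀ L, ∃ r, S.lvl.IsRoot (compFam p (S.antiF x₀ c) L) r := fun L =>
    S.lvl.exists_isRoot_comp (S.antiF x₀ c) L (fun g hg h _ => S.antiF_hom hc g hg h)
      (S.const_comp hc fun X => S.antiPart X *ᵥ x₀)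
  have h1 := TameLvl.allLev_one_of_twist (D := S.lvl) hroot
    (inertia_le_decomposition S.lvl.g0_mem) (precompHom p S.Nop) (S.antiF_twist hdet hc)
    S.Nop_sub_one_surjective
  have h9 : 3 * p ≤ p * p := Nat.mul_le_mul_right p hp3
  refine h1.climb one_ne_zero (by omega) (by rw [S.pT_eq]; omega) fun i hi1 hi2 hdvd hlev L => ?_
  have hiT : i < p * S.lvl.T := by rw [S.pT_eq]; omega
  rcases S.antiF_lead_level hdet hc hi1 hiT hdvd hlev with h | rfl | h
  · exact h L
  swap
  · omega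
  by_contra hne
  obtain ⟨r, hr⟩ := hroot L
  obtain ⟨g1, g1mem, g11⟩ := TameLvl.exists_eq_one_of_root hr fun hall =>
    hne (TameLvl.leadAt_eq_zero_of_forall hdvd hiT hall)
  set g0 := S.lvl.g0
  have hg0 := S.lvl.g0_mem
  set act := vAct rb fun g => S.antiPart (c g : M2 k) with hact
  obtain ⟨P, hP⟩ : HasModel A (A.inertiaSubgroupIn ℚ) act := S.hasModel_anti hdet hM
  have heig : ∀ (q : (Fin 2 → k) × (Fin 2 → k)) (m : ℕ),
      act g0 q = m • q → q = 0 := by
    intro q m hq
    have hM0 : ∀ u : Fin 2 → k, S.Mg *ᵥ u = m • u → u = 0 := fun u hu => by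
      have e := congrArg (fun X : M2 k => X *ᵥ u) S.quad_eq
      simp only [add_mulVec, ← mulVec_mulVec, natCast_mulVec, hu, mulVec_smul, smul_smul] at e
      rw [← Nat.cast_smul_eq_nsmul k, ← Nat.cast_smul_eq_nsmul k, ← Nat.cast_smul_eq_nsmul k,
        ← add_smul, ← sub_eq_zero, ← sub_smul] at e
      refine (smul_eq_zero.mp e).resolve_left fun h0 => S.no_root (m : ZMod p) ?_
      refine (ZMod.castHom (dvd_refl p) k).injective ?_
      rw [map_zero, map_add, map_sub, map_mul, map_pow, map_natCast, map_natCast, ← S.normG_castK k]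
      push_cast at h0
      linear_combination h0
    obtain ⟨hq1, hq2⟩ := Prod.ext_iff.mp hq
    have hu : q.1 = 0 := hM0 q.1 hq1
    refine Prod.ext hu (hM0 q.2 ?_)
    simp only [act, vAct, hu, mulVec_zero, add_zero] at hq2
    exact hq2
  have hinj : Function.Injective (act g0) := fun q q' e => sub_eq_zero.mp (heig (q - q') 0 (by
    have h0 := eq_sub_of_add_eq (vAct_add rb (fun g => S.antiPart (c g : M2 k)) g0 (q - q') q').symm
    rw [sub_add_cancel] at h0
    show act g0 (q - q') = 0 • (q - q')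
    rw [zero_smul]
    exact h0.trans (sub_eq_zero.mpr e)))
  have hinj' : Function.Injective fun q => act g0 q - S.normG • q := fun q q' e =>
    sub_eq_zero.mp (heig (q - q') S.normG (by
      have h0 := eq_sub_of_add_eq (vAct_add rb (fun g => S.antiPart (c g : M2 k)) g0
        (q - q') q').symm
      rw [sub_add_cancel] at h0
      show act g0 (q - q') = _
      rw [smul_sub]
      exact h0.trans (sub_eq_sub_iff_sub_eq_sub.mp e)))
  let ℓ : (Fin 2 → k) × (Fin 2 → k) →+ ZMod p := L.comp (AddMonoidHom.snd _ _)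
  have hχ := P.chiFun_sub_one_mem hP hg0 hg0 (vAct_add rb _ g0)
    ⟨hinj, Finite.injective_iff_surjective.mp hinj⟩ (Finite.injective_iff_surjective.mp hinj') ℓ
  refine S.lvl.false_of_chi (P := P) hP S.lvl.le_inertia (fun h _ => vAct_add rb _ h)
    (U := (inSnd k).range) ?_ ℓ hχ (x := (x₀, 0)) (y := inSnd k (S.antiF x₀ c g1))
    ⟨_, rfl⟩ g11 (fun h hh => ?_) g1mem g11
    ((S.lvl.hasLead_leadAt (hlev L)).hasBreak hne hdvd hiT) ?_
  · rintro h hh _ ⟨w, rfl⟩
    show vAct rb _ h _ = _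
    rw [← inSnd_wAct, wAct, S.rb_Γ0 hh, one_mulVec]
  · have e : act h (x₀, 0) - (x₀, 0) = inSnd k (S.antiF x₀ c h) := by
      simp [act, vAct, S.rb_Γ0 hh, inSnd_apply, antiF]
    refine ⟨⟨_, e.symm⟩, ?_⟩
    rw [e]
    rfl
  · rw [Nat.mul_sub, mul_one]
    omega

include hdet in
theorem antiF_eq_zero (hc : c ∈ Z1 lvQ (adRep rb))
    (hlev : S.lvl.AllLev (compFam p (S.antiF x₀ c)) (p * p + 1))
    (h0 : leadFam S.lvl (S.antiF x₀ c) (p * p + 1) = 0) :
    ∀ g ∈ S.lvl.Γ0, S.antiF x₀ c g = 0 := by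
  have hp3 := S.three_le
  have h9 : 3 * p ≤ p * p := Nat.mul_le_mul_right p hp3
  refine eq_zero_of_leadFam (p_smul_eq_zero (k := k)) (Nat.succ_ne_zero (p * p))
    (by rw [S.pT_eq]; omega) hlev fun i hi1 hi2 hdvd hlev' => ?_
  rcases S.antiF_lead_level hdet hc (by omega) hi2 hdvd hlev' with h | h | h
  · exact funext h
  · omega
  · rw [h]; exact h0

end IrrShape

end Fermat.Agent.TW.Flat
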