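import Fermat.Agent.TW.Flat.IrrAlg

/-!
# The component along `J` of a deformation with a model vanishes on the level

Its leading coefficient can only occur at level `p + 1`, which spans a prime field line, and the
resulting displacement is smaller than the scale of the residual module.
Used in the irreducible case of the local bound.
-/

noncomputable section

namespace Fermat.Agent.TW.Flat

open Fermat.Agent Fermat.Agent.PT Matrix
open scoped Pointwise

local notation "Qbar" => AlgebraicClosure ℚ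
local notation "GQ" => (AlgebraicClosure ℚ ≃ₐ[ℚ] AlgebraicClosure ℚ)

variable {A : ValuationSubring Qbar} {p : ℕ} [hpf : Fact p.Prime]

local notation "κ" => IsLocalRing.ResidueField A

namespace TameLvl

variable {D : TameLvl A p}

theorem HasLead.nsmul {φ : GQ → ZMod p} {j : ℕ} (hj : j ≠ 0) {a : κ} (h : D.HasLead φ j a) :
    ∀ {n : ℕ}, 1 ≤ n → D.HasLead (n • φ) j ((n : κ) * a) := by
  intro n hn
  induction n, hn using Nat.le_induction with
  | base => simpa using h
  | succ n _ ih =>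
    rw [succ_nsmul, Nat.cast_add, Nat.cast_one, add_mul, one_mul]
    exact ih.add hj h

theorem leadAt_eq_zero_of_forall {φ : GQ → ZMod p} {j : ℕ} (hj : ¬ p ∣ j) (hjT : j < p * D.T)
    (h : ∀ g ∈ D.Γ0, φ g = 0) : D.leadAt φ j = 0 :=
  D.leadAt_eq hj hjT ⟨1, ⟨one_ne_zero, fun g hg => by rw [map_one, h g hg, muP_zero, one_mul]⟩,
    by rw [one_pow, sub_self, map_zero]; exact zero_le,
    by rw [one_pow, sub_self, TameLvl.coeff, zero_div, red_zero]⟩

theorem exists_eq_one_of_root {φ : GQ → ZMod p} {r : Qbar} (hr : D.IsRoot φ r)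
    (h : ¬ ∀ g ∈ D.Γ0, φ g = 0) : ∃ g ∈ D.Γ0, φ g = 1 := by
  push Not at h
  obtain ⟨g, hg, hne⟩ := h
  refine ⟨g ^ ((φ g)⁻¹).val, pow_mem hg _, ?_⟩
  rw [hr.map_pow hg, ZMod.natCast_val, ZMod.cast_id, inv_mul_cancel₀ hne]

end TameLvl

variable {k : Type} [Field k] [CharP k p] {rb : GQ →* M2 k}

theorem comm_of_inverse {R R' J : M2 k} (h : R * R' = 1) (h' : R' * R = 1) {s : k}
    (hJ : R * J = s • (J * R)) (hs : s * s = 1) : R' * J = s • (J * R') := by
  have e : J * R = s • (R * J) := by rw [hJ, smul_smul, hs, one_smul]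
  calc R' * J = R' * (J * R) * R' := by rw [mul_assoc, mul_assoc, h, mul_one]
    _ = s • (J * R') := by rw [e, mul_smul_comm, smul_mul_assoc, ← mul_assoc R', h', one_mul]

namespace IrrShape

variable (S : IrrShape p A rb)

theorem inv_comm_inertia {σ : GQ} (hσ : σ ∈ A.inertiaSubgroupIn ℚ) :
    rb σ⁻¹ * S.J = (1 : k) • (S.J * rb σ⁻¹) :=
  comm_of_inverse (mul_inv_rb σ) (inv_mul_rb σ)
    (by rw [one_smul, S.J_comm_inertia hσ]) (one_mul 1)

theorem inv_comm_frob {Φ : GQ} (hΦ : A.IsFrobeniusAt Φ p) :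
    rb Φ⁻¹ * S.J = (-1 : k) • (S.J * rb Φ⁻¹) :=
  comm_of_inverse (mul_inv_rb Φ) (inv_mul_rb Φ)
    (by rw [neg_one_smul, S.rb_frob_J hΦ]) (by ring)

/-- The component along `J` of a deformation with a model has a model. -/
theorem hasModel_eta [Finite k] (hdet : DetCyc p rb) {Γ : Subgroup GQ}
    (hΓ : Γ ≤ A.inertiaSubgroupIn ℚ)
    {c : GQ → sl2 k} (h : HasModel A Γ (vAct rb fun g => (c g : M2 k))) :
    HasModel A Γ (vAct rb fun g => S.coeffJ (c g : M2 k) • S.J) := by
  have hd := S.discK_ne_zero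
  set J' := S.discK⁻¹ • S.J
  have h1 : S.J * J' = 1 := by rw [mul_smul_comm, S.J_sq, smul_smul, inv_mul_cancel₀ hd, one_smul]
  have h2 : J' * S.J = 1 := by rw [smul_mul_assoc, S.J_sq, smul_smul, inv_mul_cancel₀ hd, one_smul]
  have hc' := h.conj (c' := fun g => S.J * (c g : M2 k) * J') h1 h2
    (fun σ hσ => S.J_comm_inertia (hΓ hσ))
    fun σ _ => by rw [mul_assoc _ J' S.J, h2, mul_one]
  refine ((h.add hc').smul (inv_ne_zero
    (two_ne_zero_of_charP (k := k) (p := p) S.lvl.p_ne_two))).vAct_congr fun g _ => ?_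
  set X := (c g : M2 k)
  have hX : trace X = 0 := by
    rw [trace_fin_two]
    exact mem_sl2.mp (c g).2
  have e : S.J * X * S.J = trace (S.J * X) • S.J - S.discK • X := by
    rw [eq_sub_iff_add_eq, ← mul_one (S.discK • X), smul_mul_assoc, ← mul_smul_comm, ← S.J_sq,
      ← mul_assoc, ← add_mul, IrrShape.add_mul_traceless (S.trace_J hdet) hX, smul_mul_assoc,
      one_mul]
  rw [mul_smul_comm, e, smul_sub, smul_smul, smul_smul, inv_mul_cancel₀ hd, one_smul,
    add_sub_cancel, smul_smul, S.coeffJ_apply, mul_inv, mul_assoc]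

theorem hasModel_anti [Finite k] (hdet : DetCyc p rb) {c : GQ → sl2 k}
    (h : HasModel A (A.decompositionSubgroup ℚ) (vAct rb fun g => (c g : M2 k))) :
    HasModel A (A.inertiaSubgroupIn ℚ) (vAct rb fun g => S.antiPart (c g : M2 k)) := by
  have h' := h.mono (Γ' := A.inertiaSubgroupIn ℚ) fun σ hσ => inertia_le_decomposition hσ
  refine (h'.add ((S.hasModel_eta hdet le_rfl h').smul
    (neg_ne_zero.mpr (one_ne_zero (α := k))))).vAct_congr fun g _ => ?_
  rw [S.antiPart_apply, neg_one_smul, sub_eq_add_neg]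

theorem coeffJ_conj_inertia {c : GQ → sl2 k} (hc : c ∈ Z1 lvQ (adRep rb)) {σ h : GQ}
    (hσ : σ ∈ A.inertiaSubgroupIn ℚ) (hh : h ∈ S.lvl.Γ0) :
    S.coeffJ (c (σ⁻¹ * h * σ) : M2 k) = S.coeffJ (c h : M2 k) := by
  rw [S.cocycle_conj hc (inertia_le_decomposition hσ) hh,
    S.coeffJ_conj (mul_inv_rb σ) _ (S.inv_comm_inertia hσ) (one_mul 1), one_mul]

theorem coeffJ_conj_frob {c : GQ → sl2 k} (hc : c ∈ Z1 lvQ (adRep rb)) {Φ h : GQ}
    (hΦ : A.IsFrobeniusAt Φ p) (hh : h ∈ S.lvl.Γ0) :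
    S.coeffJ (c (Φ⁻¹ * h * Φ) : M2 k) = -S.coeffJ (c h : M2 k) := by
  rw [S.cocycle_conj hc (Gal.isFrobeniusAt_iff.1 hΦ).1 hh,
    S.coeffJ_conj (mul_inv_rb Φ) _ (S.inv_comm_frob hΦ) (by ring), neg_one_mul]

variable {c : GQ → sl2 k} (hc : c ∈ Z1 lvQ (adRep rb))
include hc

theorem const_comp {M : Type*} (T : M2 k → M) :
    ∃ U ∈ lvQ, ∀ g ∈ S.lvl.Γ0, ∀ s ∈ S.lvl.Γ0, s ∈ U → T (c (g * s) : M2 k) = T (c g : M2 k) := by
  obtain ⟨⟨U, hU, hconst⟩, -⟩ := mem_Z1.1 hc
  exact ⟨U, hU, fun g _ s _ hs => by rw [hconst g s hs]⟩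

/-- The homomorphisms of the `J` component. -/
theorem eta_hom (g : GQ) (hg : g ∈ S.lvl.Γ0) (h : GQ) :
    S.coeffJ (c (g * h) : M2 k) = S.coeffJ (c g : M2 k) + S.coeffJ (c h : M2 k) := by
  rw [S.cocycle_hom hc hg, Submodule.coe_add, map_add]

/-- The component along `J` has level at least `p + 1`. -/
theorem eta_allLev : S.lvl.AllLev (compFam p fun g => S.coeffJ (c g : M2 k)) (p + 1) := by
  have hp := hpf.out
  have hp3 := S.three_le
  have : CharP κ p := Gal.residueField_charP hp S.lvl.hA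
  have htw : ∀ L : k →+ ZMod p, ∀ g ∈ S.lvl.Γ0,
      TameLvl.twist S.lvl.g0 (compFam p (fun g => S.coeffJ (c g : M2 k)) L) g =
        compFam p (fun g => S.coeffJ (c g : M2 k)) (nsmulAddMonoidHom S.normG L) g :=
      fun L g hg => by
    rw [TameLvl.twist, compFam_apply, compFam_apply, S.coeffJ_conj_inertia hc S.lvl.g0_mem hg,
      nsmulAddMonoidHom_apply, AddMonoidHom.nsmul_apply, nsmul_eq_mul, S.normG_cast]
  have hne : ((cycQ p).ω S.lvl.g0 : ZMod p) - 1 ≠ 0 := by
    intro h0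
    have h1 : (S.normG : κ) = 1 := by
      rw [S.normG_castK κ, sub_eq_zero.mp h0, map_one]
    have h2 : S.θ ^ 0 = S.θ ^ (p + 1) := by rw [pow_zero, S.θ_pow_succ, h1]
    have h3 := Nat.le_of_dvd (by omega) (S.dvd_of_θ_pow_eq (Nat.zero_le _) h2)
    have h9 : 3 * p ≤ p * p := Nat.mul_le_mul_right p hp3
    rw [sq] at h3
    omega
  have h1 := TameLvl.allLev_one_of_twist (D := S.lvl)
    (fun L => S.lvl.exists_isRoot_comp (fun g => S.coeffJ (c g : M2 k)) L
      (fun g hg h _ => S.eta_hom hc g hg h) (S.const_comp hc S.coeffJ))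
    (inertia_le_decomposition S.lvl.g0_mem) (nsmulAddMonoidHom S.normG) htw fun L =>
      ⟨((((cycQ p).ω S.lvl.g0 : ZMod p) - 1)⁻¹).val • L, AddMonoidHom.ext fun x => by
        simp only [nsmulAddMonoidHom_apply, AddMonoidHom.sub_apply, AddMonoidHom.nsmul_apply,
          nsmul_eq_mul, S.normG_cast, ZMod.natCast_zmod_val]
        field_simp⟩
  refine h1.climb one_ne_zero (by omega) (by rw [S.pT_eq]; nlinarith)
    fun i hi1 hi2 hdvd hlev L => ?_
  have hiT : i < p * S.lvl.T := by rw [S.pT_eq]; nlinarith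
  have e := S.lvl.leadAt_twist_inertia S.lvl.g0_mem hdvd hiT (hlev L) (htw L)
  rw [← TameLvl.leadHom_apply hdvd hiT hlev, nsmulAddMonoidHom_apply, map_nsmul,
    TameLvl.leadHom_apply hdvd hiT hlev, nsmul_eq_mul] at e
  by_contra h0
  have h2 : S.θ ^ i = S.θ ^ (p + 1) := by
    rw [S.θ_pow_succ]
    exact (mul_right_cancel₀ h0 (e.trans (mul_comm _ _))).symm
  have := S.eta_level (by omega) hiT h2
  omega

/-- A member of the family with vanishing coefficient at level `p + 1` vanishes. -/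
theorem eta_trivial {L : k →+ ZMod p}
    (h0 : S.lvl.leadAt (compFam p (fun g => S.coeffJ (c g : M2 k)) L) (p + 1) = 0) :
    ∀ g ∈ S.lvl.Γ0, L (S.coeffJ (c g : M2 k)) = 0 := by
  have hp := hpf.out
  have hp3 := S.three_le
  have : CharP κ p := Gal.residueField_charP hp S.lvl.hA
  refine TameLvl.HasLev.trivial_of_leads (φ := compFam p (fun g => S.coeffJ (c g : M2 k)) L)
    (Nat.succ_ne_zero p) (by rw [S.pT_eq]; nlinarith) (S.eta_allLev hc L)
    fun j hj hjT hdvd a ha => ?_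
  by_contra hne
  have hn1 : 1 ≤ S.normG := Nat.one_le_iff_ne_zero.mpr fun h => by
    have := S.normG_cast
    rw [h, Nat.cast_zero] at this
    exact Units.ne_zero _ this.symm
  have h1 := (ha.twist_inertia S.lvl.g0_mem).congr
    (ψ := S.normG • compFam p (fun g => S.coeffJ (c g : M2 k)) L) fun g hg => by
      rw [TameLvl.twist, compFam_apply, S.coeffJ_conj_inertia hc S.lvl.g0_mem hg, Pi.smul_apply,
        compFam_apply, nsmul_eq_mul, S.normG_cast]
  have h2 := h1.unique hdvd hjT (ha.nsmul (by omega) hn1)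
  have h3 : S.θ ^ j = S.θ ^ (p + 1) := by
    rw [S.θ_pow_succ]
    exact mul_left_cancel₀ hne (h2.trans (mul_comm _ _))
  have hjeq := S.eta_level (by omega) hjT h3
  subst hjeq
  exact hne ((S.lvl.leadAt_eq hdvd hjT ha).symm.trans h0)

/-- The `J` component of a deformation with a model vanishes on the level. -/
theorem eta_eq_zero [Finite k] (hdet : DetCyc p rb)
    (hM : HasModel A (A.decompositionSubgroup ℚ) (vAct rb fun g => (c g : M2 k))) :
    ∀ h ∈ S.lvl.Γ0, S.coeffJ (c h : M2 k) = 0 := by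
  have hp := hpf.out
  have hp3 := S.three_le
  have : CharP κ p := Gal.residueField_charP hp S.lvl.hA
  have hdvd : ¬ p ∣ p + 1 := fun h => hp.ne_one (Nat.dvd_one.mp
    ((Nat.dvd_add_right dvd_rfl).mp h))
  have hjT : p + 1 < p * S.lvl.T := by rw [S.pT_eq]; nlinarith
  set F : GQ → k := fun g => S.coeffJ (c g : M2 k)
  have hlev := S.eta_allLev hc
  by_contra hex
  push Not at hex
  obtain ⟨hne, hneΓ, hne0⟩ := hex
  have : Module (ZMod p) k := AddCommGroup.zmodModule (p_smul_eq_zero (k := k))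
  obtain ⟨L₀, hL₀⟩ := Module.Projective.exists_dual_ne_zero (ZMod p) hne0
  set L₁ : k →+ ZMod p := L₀.toAddMonoidHom
  set v₁ := S.lvl.leadAt (compFam p F L₁) (p + 1) with hv₁
  have hv₁0 : v₁ ≠ 0 := fun h0 => hL₀ (S.eta_trivial hc h0 hne hneΓ)
  obtain ⟨r, hr⟩ := S.lvl.exists_isRoot_comp F L₁ (fun g hg h _ => S.eta_hom hc g hg h)
    (S.const_comp hc S.coeffJ)
  obtain ⟨h1, h1mem, h11⟩ := TameLvl.exists_eq_one_of_root hr fun hall => hL₀ (hall hne hneΓ)
  -- every coefficient is a prime field multiple of the first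
  obtain ⟨Φ, hΦ⟩ := Gal.exists_isFrobeniusAt (A := A) hp S.lvl.hA
  set m := (-((cycQ p).ω Φ : ZMod p)).val
  have hroot : ∀ L : k →+ ZMod p, (m : κ) * S.lvl.leadAt (compFam p F L) (p + 1) =
      S.lvl.leadAt (compFam p F L) (p + 1) ^ p * tame A Φ S.lvl.π ^ (p + 1) := fun L => by
    have e := S.lvl.leadAt_twist_frobenius hΦ hdvd hjT (hlev L) (ψ := compFam p F (m • L))
      fun g hg => by
        rw [TameLvl.twist, compFam_apply, compFam_apply, AddMonoidHom.nsmul_apply, nsmul_eq_mul,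
          ZMod.natCast_zmod_val]
        simp only [F, S.coeffJ_conj_frob hc hΦ hg, map_neg]
        ring
    rw [← TameLvl.leadHom_apply hdvd hjT hlev, map_nsmul, TameLvl.leadHom_apply hdvd hjT hlev,
      nsmul_eq_mul] at e
    exact e
  have hline : ∀ L : k →+ ZMod p, ∀ g ∈ S.lvl.Γ0, L (F g) = L₁ (F g) * L (F h1) := by
    intro L
    set w := S.lvl.leadAt (compFam p F L) (p + 1)
    have hw : (w / v₁) ^ p = w / v₁ := by
      rcases eq_or_ne w 0 with h0 | h0
      · rw [h0, zero_div, zero_pow hp.ne_zero]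
      have ew := hroot L
      have ev := hroot L₁
      rw [div_pow, div_eq_div_iff (pow_ne_zero _ hv₁0) hv₁0]
      refine mul_right_cancel₀ (pow_ne_zero (p + 1)
        (tame_ne_zero (Gal.isFrobeniusAt_iff.1 hΦ).1 S.lvl.π_ne_zero) :
          tame A Φ S.lvl.π ^ (p + 1) ≠ 0) ?_
      linear_combination -v₁ * ew + w * ev
    obtain ⟨t, ht⟩ := exists_natCast_eq_of_pow_eq (p := p) hw
    have hlead : S.lvl.leadAt (compFam p F (L - t • L₁)) (p + 1) = 0 := by
      rw [← TameLvl.leadHom_apply hdvd hjT hlev, map_sub, map_nsmul,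
        TameLvl.leadHom_apply hdvd hjT hlev, TameLvl.leadHom_apply hdvd hjT hlev, nsmul_eq_mul,
        ht, div_mul_cancel₀ _ hv₁0, sub_self]
    have hz := S.eta_trivial hc hlead
    intro g hg
    have e1 := hz g hg
    have e2 := hz h1 h1mem
    simp only [AddMonoidHom.sub_apply, AddMonoidHom.nsmul_apply, nsmul_eq_mul] at e1 e2
    have h11' : L₁ (F h1) = 1 := h11
    show L (S.coeffJ (c g : M2 k)) = L₁ (S.coeffJ (c g : M2 k)) * L (S.coeffJ (c h1 : M2 k))
    linear_combination e1 - L₁ (S.coeffJ (c g : M2 k)) * e2 -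
      L₁ (S.coeffJ (c g : M2 k)) * (t : ZMod p) * h11'
  have hval : ∀ g ∈ S.lvl.Γ0, F g = (L₁ (F g)).val • F h1 := by
    intro g hg
    by_contra hne'
    obtain ⟨L, hL⟩ := Module.Projective.exists_dual_ne_zero (ZMod p) (sub_ne_zero.mpr hne')
    refine hL ?_
    show L.toAddMonoidHom (F g - (L₁ (F g)).val • F h1) = 0
    rw [map_sub, map_nsmul, hline L.toAddMonoidHom g hg, nsmul_eq_mul, ZMod.natCast_zmod_val,
      sub_self]
  -- the displacement contradicts the scale
  obtain ⟨x₀, hx₀⟩ := S.exists_cyclic_vector hdet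
  set y : Fin 2 → k := F h1 • (S.J *ᵥ x₀) with hy
  have hy0 : y ≠ 0 := by
    refine smul_ne_zero (fun h0 => ?_) fun h0 => S.J_ne_zero ?_
    · have h11' : L₁ (F h1) = 1 := h11
      rw [h0, map_zero] at h11'
      exact zero_ne_one h11'
    · refine ext_of_mulVec_single fun i => ?_
      obtain ⟨α, β, hw⟩ := hx₀ (Pi.single i 1)
      rw [hw, zero_mulVec, mulVec_add, mulVec_smul, mulVec_smul, h0]
      simp
  obtain ⟨P, hP⟩ := S.hasModel_eta hdet le_rfl
    (hM.mono fun σ hσ => inertia_le_decomposition hσ)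
  have hb := (S.lvl.hasLead_leadAt (hlev L₁)).hasBreak hv₁0 hdvd hjT
  set Q := P.restrict (inSnd k) fun σ _ u => inSnd_wAct (fun g => S.coeffJ (c g : M2 k) • S.J) σ u
  obtain ⟨f, hf, hge⟩ := S.scale _ le_rfl Q
    (P.sep_restrict hP _ _ fun a b e => congrArg Prod.snd e) y hy0
  obtain ⟨f', hf', rfl⟩ := hf
  have hle := hb.val_sub_le P S.lvl.le_inertia (x := (x₀, 0)) (y := inSnd k y)
    (fun f _ h hh => congrArg f ?_) h1mem h11 hf'
  · have hle' : S.lvl.Q ^ p ≤ S.lvl.Q ^ (p * S.lvl.T - (p + 1) + 1) := hge.trans hle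
    have h9 := S.lvl.pow_le_iff.mp hle'
    rw [S.pT_eq] at h9
    have : 3 * p ≤ p * p := Nat.mul_le_mul_right p hp3
    omega
  rw [show compFam p F L₁ h = L₁ (F h) from rfl, ← map_nsmul]
  simp only [vAct, S.rb_Γ0 hh, one_mulVec, inSnd_apply, Prod.mk_add_mk, add_zero, zero_add,
    Matrix.smul_mulVec, mulVec_zero, hy]
  refine Prod.ext rfl ?_
  show F h • (S.J *ᵥ x₀) = (L₁ (F h)).val • (F h1 • (S.J *ᵥ x₀))
  rw [← smul_assoc, ← hval h hh]

end IrrShape

end Fermat.Agent.TW.Flat
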