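import Mathlib.Data.Nat.Choose.Dvd
import Mathlib.Data.Nat.Choose.Sum
import Mathlib.RingTheory.Polynomial.IntegralNormalization
import Fermat.Agent.TW.Flat.Tame

/-!
# Leading terms of Kummer classes over a tame level

A homomorphism of the level to `ZMod p` is given by a `p`-th root `r`.  Its level is the best
approximation of `r ^ p` by `1`; the leading coefficient at a level prime to `p` is additive, and
behaves under the decomposition group through the character of the level.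
Used to measure deformations with a model.
-/

noncomputable section

namespace Fermat.Agent.TW.Flat

open Fermat.Agent
open scoped Pointwise

local notation "Qbar" => AlgebraicClosure ℚ
local notation "GQ" => (AlgebraicClosure ℚ ≃ₐ[ℚ] AlgebraicClosure ℚ)

variable {A : ValuationSubring Qbar} {p : ℕ} [hpf : Fact p.Prime]

local notation "v" => A.valuation

theorem val_binom_rest {w : Qbar} (hw : w ∈ A) :
    v ((1 + w) ^ p - 1 - (p : Qbar) * w - w ^ p) ≤ v (p : Qbar) * v w ^ 2 := by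
  have hp := hpf.out
  obtain ⟨q, hq⟩ : ∃ q, p = q + 2 := ⟨p - 2, by have := hp.two_le; omega⟩
  set F : ℕ → Qbar := fun k => w ^ k * (p.choose k : Qbar)
  have hsum : (1 + w) ^ p = ∑ k ∈ Finset.range (p + 1), F k := by
    rw [add_comm 1 w, add_pow]
    exact Finset.sum_congr rfl fun k _ => by simp [F]
  have hF : (1 + w) ^ p - 1 - (p : Qbar) * w - w ^ p = ∑ k ∈ Finset.range q, F (k + 2) := by
    have hp1 : F 1 = (p : Qbar) * w := by simp [F, mul_comm]
    have hpp : F p = w ^ p := by simp [F]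
    rw [← hp1, ← hpp, hsum, Finset.sum_range_succ, hq, Finset.sum_range_succ' F (q + 1),
      Finset.sum_range_succ' (fun k => F (k + 1)) q]
    have h0 : F 0 = 1 := by simp [F]
    simp only [h0, zero_add, show ∀ k, k + 1 + 1 = k + 2 from fun _ => rfl]
    ring
  rw [hF]
  refine A.valuation.map_sum_le fun k hk => ?_
  rw [Finset.mem_range] at hk
  obtain ⟨c, hc⟩ := Nat.Prime.dvd_choose_self hp (k := k + 2) (by omega) (by omega)
  simp only [F, hc, Nat.cast_mul, map_mul, map_pow]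
  calc v w ^ (k + 2) * (v (p : Qbar) * v (c : Qbar))
      ≤ v w ^ 2 * (v (p : Qbar) * 1) :=
        mul_le_mul' (pow_le_pow_right_of_le_one' (mem_iff_val_le_one.mp hw) (by omega))
          (mul_le_mul' le_rfl (mem_iff_val_le_one.mp (natCast_mem A c)))
    _ = _ := by rw [mul_one, mul_comm]

namespace TameLvl

variable (D : TameLvl A p)

/-- `r` is a `p`-th root defining `φ` on the level. -/
def IsRoot (φ : GQ → ZMod p) (r : Qbar) : Prop :=
  r ≠ 0 ∧ ∀ h ∈ D.Γ0, h r = muP p (φ h) * r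

theorem exists_isRoot {φ : GQ → ZMod p} {U : Subgroup GQ} (hU : U ∈ lvQ)
    (hconst : ∀ g ∈ D.Γ0, ∀ s ∈ D.Γ0, s ∈ U → φ (g * s) = φ g)
    (hmul : ∀ g ∈ D.Γ0, ∀ h ∈ D.Γ0, φ (g * h) = φ g + φ h) : ∃ r, D.IsRoot φ r := by
  obtain ⟨r, hr, hfr⟩ := PT.Cyc.exists_kum (C := cycQ p) (H := D.Γ0) (f := fun h => φ (h : GQ))
    (PT.mem_Z1.2 ⟨⟨U.comap D.Γ0.subtype, PT.Lv.comap_mem_comap _ hU,
      fun g s hs => hconst _ g.2 _ s.2 hs⟩, fun g h => by
        show φ ((g : GQ) * h) = _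
        rw [hmul _ g.2 _ h.2]
        simp [PT.Cyc.rep_apply, D.omega_eq_one _ g.2, add_comm]⟩)
  refine ⟨(r : Qbar), r.ne_zero, fun h hh => ?_⟩
  have h1 := congrArg Units.val (PT.Cyc.mu_kum (C := cycQ p) hr ⟨h, hh⟩)
  rw [← hfr] at h1
  simp only [AlgEquiv.smul_units_def, Units.val_div_eq_div_val, Units.coe_map,
    MonoidHom.coe_coe] at h1
  rw [muP, h1]
  exact (div_mul_cancel₀ _ r.ne_zero).symm

variable {D}

theorem IsRoot.pow_fixed {φ : GQ → ZMod p} {r : Qbar} (hr : D.IsRoot φ r) :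
    ∀ h ∈ D.Γ0, h (r ^ p) = r ^ p := fun h hh => by
  rw [map_pow, hr.2 h hh, mul_pow, muP_pow, one_mul]

theorem IsRoot.mul {φ ψ : GQ → ZMod p} {r s : Qbar} (hr : D.IsRoot φ r) (hs : D.IsRoot ψ s) :
    D.IsRoot (φ + ψ) (r * s) :=
  ⟨mul_ne_zero hr.1 hs.1, fun h hh => by
    rw [map_mul, hr.2 h hh, hs.2 h hh, Pi.add_apply, muP_add]; ring⟩

theorem isRoot_zero {r : Qbar} (hr0 : r ≠ 0) (hfix : ∀ h ∈ D.Γ0, h r = r) :
    D.IsRoot 0 r := ⟨hr0, fun h hh => by rw [hfix h hh, Pi.zero_apply, muP_zero, one_mul]⟩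

theorem IsRoot.mul_fixed {φ : GQ → ZMod p} {r z : Qbar} (hr : D.IsRoot φ r) (hz0 : z ≠ 0)
    (hz : ∀ h ∈ D.Γ0, h z = z) : D.IsRoot φ (r * z) := by
  simpa using hr.mul (isRoot_zero hz0 hz)

theorem IsRoot.fixed_div {φ : GQ → ZMod p} {r r' : Qbar} (hr : D.IsRoot φ r)
    (hr' : D.IsRoot φ r') : ∀ h ∈ D.Γ0, h (r / r') = r / r' := fun h hh => by
  rw [map_div₀, hr.2 h hh, hr'.2 h hh, mul_div_mul_left _ _ (muP_ne_zero _)]

variable (D)

/-- The homomorphism obtained by conjugation, twisted by the cyclotomic character. -/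
def twist (σ : GQ) (φ : GQ → ZMod p) : GQ → ZMod p :=
  fun h => ((cycQ p).ω σ : ZMod p) * φ (σ⁻¹ * h * σ)

theorem IsRoot.twist {φ : GQ → ZMod p} {r : Qbar} {σ : GQ}
    (hσ : σ ∈ A.decompositionSubgroup ℚ) (hr : D.IsRoot φ r) :
    D.IsRoot (TameLvl.twist σ φ) (σ r) :=
  ⟨(map_ne_zero_iff _ σ.injective).mpr hr.1, fun h hh => by
    have hm : σ⁻¹ * h * σ ∈ D.Γ0 := by simpa using D.conj_mem _ (inv_mem hσ) h hh
    have e := congrArg σ (hr.2 _ hm)
    rw [map_mul, apply_muP] at e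
    simp only [AlgEquiv.mul_apply] at e
    have hs : ∀ y : Qbar, σ (σ⁻¹ y) = y := fun y => σ.apply_symm_apply y
    rw [hs] at e
    exact e⟩

variable {D}

/-- The `p`-th power at the critical level. -/
theorem val_pow_sub_one_le {z : Qbar} (h : v (z - 1) ≤ D.Q ^ (p * D.T)) :
    v (z ^ p - 1) ≤ D.Q ^ (p * D.T * p) ∧ (v (z - 1) < D.Q ^ (p * D.T) →
      v (z ^ p - 1) < D.Q ^ (p * D.T * p)) := by
  have hprod : z ^ p - 1 = ∏ a : ZMod p, (muP p a * z - 1) := (prod_muP_mul_sub_one z).symm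
  have hbd : ∀ a : ZMod p, v (muP p a * z - 1) ≤ D.Q ^ (p * D.T) := fun a => by
    rw [show muP p a * z - 1 = muP p a * (z - 1) + (muP p a - 1) by ring]
    refine (A.valuation.map_add _ _).trans (max_le ?_ (D.val_muP_sub_one_le a))
    rwa [map_mul, val_muP, one_mul]
  refine ⟨?_, fun hlt => ?_⟩
  · rw [hprod, map_prod, pow_mul]
    calc ∏ a : ZMod p, v (muP p a * z - 1) ≤ ∏ _a : ZMod p, D.Q ^ (p * D.T) :=
          Finset.prod_le_prod' fun a _ => hbd a
      _ = _ := by rw [Finset.prod_const, Finset.card_univ, ZMod.card]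
  · rw [hprod, map_prod, pow_mul, ← Finset.mul_prod_erase _ _ (Finset.mem_univ (0 : ZMod p)),
      muP_zero, one_mul]
    calc v (z - 1) * ∏ a ∈ Finset.univ.erase (0 : ZMod p), v (muP p a * z - 1)
        ≤ v (z - 1) * ∏ _a ∈ Finset.univ.erase (0 : ZMod p), D.Q ^ (p * D.T) :=
          mul_le_mul' le_rfl (Finset.prod_le_prod' fun a _ => hbd a)
      _ < D.Q ^ (p * D.T) * ∏ _a ∈ Finset.univ.erase (0 : ZMod p), D.Q ^ (p * D.T) :=
          mul_lt_mul_of_pos_right hlt (Finset.prod_pos fun _ _ => pow_pos D.Q_pos _)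
      _ = (D.Q ^ (p * D.T)) ^ p := by
          rw [Finset.mul_prod_erase _ (fun _ => D.Q ^ (p * D.T)) (Finset.mem_univ (0 : ZMod p)),
            Finset.prod_const, Finset.card_univ, ZMod.card]
where
  /-- The factorisation of `z ^ p - 1`. -/
  prod_muP_mul_sub_one (z : Qbar) : ∏ a : ZMod p, (muP p a * z - 1) = z ^ p - 1 := by
    have hp := hpf.out
    have h := X_pow_sub_C_eq_prod (R := Qbar) (zetaP_spec (p := p)) hp.pos (α := z) (a := z ^ p) rfl
    have h1 := congrArg (Polynomial.eval (1 : Qbar)) h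
    simp only [Polynomial.eval_sub, Polynomial.eval_pow, Polynomial.eval_X, Polynomial.eval_C,
      one_pow, Polynomial.eval_prod] at h1
    have hodd : Odd p := hp.odd_of_ne_two D.p_ne_two
    have h2 : ∏ i ∈ Finset.range p, (zetaP p ^ i * z - 1) = z ^ p - 1 := by
      calc ∏ i ∈ Finset.range p, (zetaP p ^ i * z - 1)
          = ∏ i ∈ Finset.range p, (-1 : Qbar) * (1 - zetaP p ^ i * z) :=
            Finset.prod_congr rfl fun i _ => by ring
        _ = _ := by
            rw [Finset.prod_mul_distrib, Finset.prod_const, Finset.card_range, ← h1,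
              hodd.neg_one_pow]
            ring
    rw [← h2]
    refine Finset.prod_nbij (fun a : ZMod p => a.val) (fun a _ => Finset.mem_range.mpr a.val_lt)
      (fun a _ b _ hab => ZMod.val_injective p hab)
      (fun i hi => ⟨(i : ZMod p), Finset.mem_coe.mpr (Finset.mem_univ _),
        ZMod.val_natCast_of_lt (Finset.mem_range.mp hi)⟩) fun a _ => by rw [muP_eq_pow]

theorem val_muP_mul_sub_one {z : Qbar} (h : D.Q ^ (p * D.T) < v (z - 1)) (a : ZMod p) :
    v (muP p a * z - 1) = v (z - 1) := by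
  rw [show muP p a * z - 1 = muP p a * (z - 1) + (muP p a - 1) by ring]
  have h1 : v (muP p a * (z - 1)) = v (z - 1) := by rw [map_mul, val_muP, one_mul]
  rw [A.valuation.map_add_eq_of_lt_left, h1]
  rw [h1]
  exact (D.val_muP_sub_one_le a).trans_lt h

theorem val_pow_sub_one_eq {z : Qbar} (h : D.Q ^ (p * D.T) < v (z - 1)) :
    v (z ^ p - 1) = v (z - 1) ^ p := by
  rw [← val_pow_sub_one_le.prod_muP_mul_sub_one (D := D) z, map_prod,
    Finset.prod_congr rfl fun a _ => val_muP_mul_sub_one h a, Finset.prod_const, Finset.card_univ,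
    ZMod.card]

variable (D)

/-- `φ` has a root whose `p`-th power is congruent to `1` at level `j`. -/
def HasLev (φ : GQ → ZMod p) (j : ℕ) : Prop :=
  ∃ r, D.IsRoot φ r ∧ v (r ^ p - 1) ≤ D.Q ^ (p * j)

/-- `φ` has leading coefficient `a` at level `j`. -/
def HasLead (φ : GQ → ZMod p) (j : ℕ) (a : IsLocalRing.ResidueField A) : Prop :=
  ∃ r, D.IsRoot φ r ∧ v (r ^ p - 1) ≤ D.Q ^ (p * j) ∧ D.coeff j (r ^ p - 1) = a

/-- `φ` has a root whose `p`-th power has valuation exponent `n` modulo `p`. -/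
def HasVal (φ : GQ → ZMod p) (n : ZMod p) : Prop :=
  ∃ (r : Qbar) (m : ℤ), D.IsRoot φ r ∧ v r = D.Q ^ m ∧ (m : ZMod p) = n

variable {D}

theorem HasLev.exists_lead {φ : GQ → ZMod p} {j : ℕ} (h : D.HasLev φ j) :
    ∃ a, D.HasLead φ j a :=
  let ⟨r, hr, hle⟩ := h; ⟨_, r, hr, hle, rfl⟩

theorem HasLead.hasLev {φ : GQ → ZMod p} {j : ℕ} {a : IsLocalRing.ResidueField A}
    (h : D.HasLead φ j a) : D.HasLev φ j :=
  let ⟨r, hr, hle, _⟩ := h; ⟨r, hr, hle⟩

theorem HasLead.congr {φ ψ : GQ → ZMod p} {j : ℕ} {a : IsLocalRing.ResidueField A}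
    (e : ∀ h ∈ D.Γ0, φ h = ψ h) (h : D.HasLead φ j a) : D.HasLead ψ j a :=
  let ⟨r, ⟨hr0, hr⟩, hle, ha⟩ := h
  ⟨r, ⟨hr0, fun g hg => by rw [← e g hg]; exact hr g hg⟩, hle, ha⟩

theorem HasVal.congr {φ ψ : GQ → ZMod p} {n : ZMod p}
    (e : ∀ h ∈ D.Γ0, φ h = ψ h) (h : D.HasVal φ n) : D.HasVal ψ n :=
  let ⟨r, m, ⟨hr0, hr⟩, hm, hn⟩ := h
  ⟨r, m, ⟨hr0, fun g hg => by rw [← e g hg]; exact hr g hg⟩, hm, hn⟩

theorem exists_hasVal {φ : GQ → ZMod p} {r : Qbar} (hr : D.IsRoot φ r) : ∃ n, D.HasVal φ n := by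
  obtain ⟨m, hm⟩ := D.exists_val_eq hr.pow_fixed (pow_ne_zero _ hr.1)
  refine ⟨(m : ZMod p), r, m, hr, (pow_left_inj₀ zero_le zero_le hpf.out.ne_zero).mp ?_, rfl⟩
  rw [← map_pow, hm, ← zpow_natCast, ← zpow_mul, mul_comm]

theorem HasVal.unique {φ : GQ → ZMod p} {n n' : ZMod p} (h : D.HasVal φ n) (h' : D.HasVal φ n') :
    n = n' := by
  obtain ⟨r, m, hr, hm, rfl⟩ := h
  obtain ⟨r', m', hr', hm', rfl⟩ := h'
  obtain ⟨k, hk⟩ := D.exists_val_eq (hr.fixed_div hr') (div_ne_zero hr.1 hr'.1)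
  rw [map_div₀, hm, hm', ← zpow_sub₀ D.Q_pos.ne', D.zpow_inj] at hk
  rw [sub_eq_iff_eq_add.mp hk]
  push_cast
  rw [ZMod.natCast_self, zero_mul, zero_add]

theorem HasVal.add {φ ψ : GQ → ZMod p} {n n' : ZMod p} (h : D.HasVal φ n) (h' : D.HasVal ψ n') :
    D.HasVal (φ + ψ) (n + n') := by
  obtain ⟨r, m, hr, hm, rfl⟩ := h
  obtain ⟨r', m', hr', hm', rfl⟩ := h'
  exact ⟨r * r', m + m', hr.mul hr', by rw [map_mul, hm, hm', zpow_add₀ D.Q_pos.ne'],
    by push_cast; rfl⟩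

theorem HasVal.twist {φ : GQ → ZMod p} {n : ZMod p} {σ : GQ}
    (hσ : σ ∈ A.decompositionSubgroup ℚ) (h : D.HasVal φ n) :
    D.HasVal (TameLvl.twist σ φ) n := by
  obtain ⟨r, m, hr, hm, hn⟩ := h
  exact ⟨σ r, m, hr.twist D hσ, by rw [val_apply hσ, hm], hn⟩

/-- The leading coefficient below the top level is well defined. -/
theorem HasLead.unique {φ : GQ → ZMod p} {j : ℕ} (hj : ¬ p ∣ j) (hjT : j < p * D.T)
    {a a' : IsLocalRing.ResidueField A} (h : D.HasLead φ j a) (h' : D.HasLead φ j a') :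
    a = a' := by
  obtain ⟨r, hr, hle, rfl⟩ := h
  obtain ⟨r', hr', hle', rfl⟩ := h'
  have hj0 : j ≠ 0 := fun h => hj (h ▸ dvd_zero p)
  have hlt1 : D.Q ^ (p * j) < 1 :=
    pow_lt_one₀ zero_le D.Q_lt_one (Nat.mul_ne_zero hpf.out.ne_zero hj0)
  have hu' : v (r' ^ p) = 1 := by
    have h1 := A.valuation.map_one_add_of_lt (hle'.trans_lt hlt1)
    rwa [add_sub_cancel] at h1
  set z := r / r'
  have hz : ∀ h ∈ D.Γ0, h z = z := hr.fixed_div hr'
  have hzp : z ^ p - 1 = (r ^ p - r' ^ p) / r' ^ p := by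
    rw [div_pow, sub_div, div_self (pow_ne_zero _ hr'.1)]
  have hle'' : v (z ^ p - 1) ≤ D.Q ^ (p * j) := by
    rw [hzp, map_div₀, hu', div_one]
    rw [show r ^ p - r' ^ p = (r ^ p - 1) - (r' ^ p - 1) by ring]
    exact (A.valuation.map_sub _ _).trans (max_le hle hle')
  have hlt : v (z ^ p - 1) < D.Q ^ (p * j) := by
    rcases le_or_gt (v (z - 1)) (D.Q ^ (p * D.T)) with h | h
    · refine (val_pow_sub_one_le h).1.trans_lt (D.pow_lt_iff.mpr ?_)
      calc p * j < p * (p * D.T) := (mul_lt_mul_iff_right₀ hpf.out.pos).mpr hjT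
        _ = p * D.T * p := by ring
    refine lt_of_le_of_ne hle'' fun he => ?_
    rw [val_pow_sub_one_eq h] at he
    have hz1 : z - 1 ≠ 0 := fun h0 => by
      rw [h0, map_zero] at h
      exact not_lt_zero h
    obtain ⟨k, hk⟩ :=
        D.exists_val_eq (x := z - 1) (fun h hh => by rw [map_sub, map_one, hz h hh]) hz1
    rw [hk, ← zpow_natCast, ← zpow_natCast, ← zpow_mul, D.zpow_inj] at he
    have : (p : ℤ) * k = j := mul_left_cancel₀ (Nat.cast_ne_zero.mpr hpf.out.ne_zero)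
      (by push_cast at he; linear_combination he)
    exact hj (Int.natCast_dvd_natCast.mp ⟨k, this.symm⟩)
  have hd : v (r ^ p - r' ^ p) < D.Q ^ (p * j) := by
    rw [hzp, map_div₀, hu', div_one] at hlt
    exact hlt
  have hadd := D.coeff_add (x := r ^ p - r' ^ p) (y := r' ^ p - 1) hd.le hle'
  rw [sub_add_sub_cancel, (D.coeff_eq_zero_iff hd.le).mpr hd, zero_add] at hadd
  exact hadd

theorem HasLead.add {φ ψ : GQ → ZMod p} {j : ℕ} (hj : j ≠ 0) {a b : IsLocalRing.ResidueField A}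
    (h : D.HasLead φ j a) (h' : D.HasLead ψ j b) : D.HasLead (φ + ψ) j (a + b) := by
  obtain ⟨r, hr, hle, rfl⟩ := h
  obtain ⟨r', hr', hle', rfl⟩ := h'
  set x := r ^ p - 1
  set y := r' ^ p - 1
  have e : (r * r') ^ p - 1 = x + y + x * y := by
    simp only [x, y, mul_pow]; ring
  have hxy : v (x * y) < D.Q ^ (p * j) := by
    rw [map_mul]
    refine (mul_le_mul' hle hle').trans_lt ?_
    rw [← pow_add]
    refine D.pow_lt_iff.mpr ?_
    have : 0 < p * j := Nat.mul_pos hpf.out.pos (Nat.pos_of_ne_zero hj)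
    omega
  have hxy2 : v (x + y) ≤ D.Q ^ (p * j) := (A.valuation.map_add _ _).trans (max_le hle hle')
  refine ⟨r * r', hr.mul hr', ?_, ?_⟩
  · rw [e]
    exact (A.valuation.map_add _ _).trans (max_le hxy2 hxy.le)
  · rw [e, D.coeff_add hxy2 hxy.le, (D.coeff_eq_zero_iff hxy.le).mpr hxy, add_zero,
      D.coeff_add hle hle']

theorem coeff_apply {σ : GQ} (hσ : σ ∈ A.decompositionSubgroup ℚ) {x : Qbar} {j : ℕ}
    (hx : v x ≤ D.Q ^ (p * j)) :
    D.coeff j (σ x) = red A (σ (x / D.π ^ j)) * tame A σ D.π ^ j := by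
  rw [← tame_pow_right hσ, tame, ← red_mul (apply_mem hσ (D.div_pi_pow_mem hx))
    (div_mem_of_decomposition hσ _), coeff, map_div₀,
    div_mul_div_cancel₀ ((map_ne_zero_iff _ σ.injective).mpr (pow_ne_zero _ D.π_ne_zero))]

theorem HasLead.twist_inertia {φ : GQ → ZMod p} {j : ℕ} {a : IsLocalRing.ResidueField A} {σ : GQ}
    (hσ : σ ∈ A.inertiaSubgroupIn ℚ) (h : D.HasLead φ j a) :
    D.HasLead (TameLvl.twist σ φ) j (a * tame A σ D.π ^ j) := by
  obtain ⟨r, hr, hle, rfl⟩ := h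
  have hσD := inertia_le_decomposition hσ
  have e : σ r ^ p - 1 = σ (r ^ p - 1) := by simp
  refine ⟨σ r, hr.twist D hσD, by rwa [e, val_apply hσD], ?_⟩
  rw [e, coeff_apply hσD hle, red_inertia hσ (D.div_pi_pow_mem hle)]
  rfl

theorem HasLead.twist_frobenius {φ : GQ → ZMod p} {j : ℕ} {a : IsLocalRing.ResidueField A}
    {Φ : GQ} (hΦ : A.IsFrobeniusAt Φ p) (h : D.HasLead φ j a) :
    D.HasLead (TameLvl.twist Φ φ) j (a ^ p * tame A Φ D.π ^ j) := by
  obtain ⟨r, hr, hle, rfl⟩ := h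
  have hΦD := (Gal.isFrobeniusAt_iff.mp hΦ).1
  have e : Φ r ^ p - 1 = Φ (r ^ p - 1) := by simp
  refine ⟨Φ r, hr.twist D hΦD, by rwa [e, val_apply hΦD], ?_⟩
  rw [e, coeff_apply hΦD hle, red_frobenius hΦ (D.div_pi_pow_mem hle)]
  rfl

theorem HasLev.succ_of_coeff {φ : GQ → ZMod p} {j : ℕ} (h : D.HasLead φ j 0) :
    D.HasLev φ (j + 1) := by
  obtain ⟨r, hr, hle, h0⟩ := h
  exact ⟨r, hr, D.val_le_succ (fun g hg => by rw [map_sub, map_one, hr.pow_fixed g hg])
    ((D.coeff_eq_zero_iff hle).mp h0)⟩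

/-- Units are congruent to `1` after a change of root. -/
theorem HasVal.hasLev_one {φ : GQ → ZMod p} (h : D.HasVal φ 0) : D.HasLev φ 1 := by
  obtain ⟨r, m, hr, hm, hn⟩ := h
  obtain ⟨k, rfl⟩ := (ZMod.intCast_zmod_eq_zero_iff_dvd m p).mp hn
  set r' := r * (D.π ^ k)⁻¹
  have hπk : ∀ g ∈ D.Γ0, g (D.π ^ k)⁻¹ = (D.π ^ k)⁻¹ := fun g hg => by
    rw [map_inv₀, map_zpow₀, D.π_fixed g hg]
  have hr' : D.IsRoot φ r' := hr.mul_fixed (inv_ne_zero (zpow_ne_zero _ D.π_ne_zero)) hπk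
  have hv' : v r' = 1 := by
    rw [map_mul, map_inv₀, map_zpow₀, D.val_pi, hm, ← zpow_natCast D.Q p, ← zpow_mul,
      mul_inv_cancel₀ (zpow_ne_zero _ D.Q_pos.ne')]
  have hmem : r' ∈ A := mem_iff_val_le_one.mpr hv'.le
  obtain ⟨c, hc, hcfix, hcr⟩ := exists_lift_fixed hpf.out D.hA (red A r')
  have hc1 : v c = 1 := by
    refine le_antisymm (mem_iff_val_le_one.mp hc) (not_lt.mp fun hlt => ?_)
    rw [← red_eq_zero_iff hc, hcr, red_eq_zero_iff hmem, hv'] at hlt
    exact lt_irrefl _ hlt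
  have hc0 : c ≠ 0 := fun h => by simp [h] at hc1
  refine ⟨r' * c⁻¹, hr'.mul_fixed (inv_ne_zero hc0)
    fun g hg => by rw [map_inv₀, hcfix g (D.le_inertia hg)], ?_⟩
  have hmem' : r' * c⁻¹ ∈ A := mem_iff_val_le_one.mpr (by rw [map_mul, map_inv₀, hc1, hv']; simp)
  have h1 : red A (r' * c⁻¹) = 1 := by
    have hne : red A c ≠ 0 := by rw [Ne, red_eq_zero_iff hc, hc1]; exact lt_irrefl _
    refine mul_right_cancel₀ hne ?_
    rw [← red_mul hmem' hc, inv_mul_cancel_right₀ hc0, one_mul, hcr]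
  rw [mul_one]
  have hlt : v ((r' * c⁻¹) ^ p - 1) < D.Q ^ (p * 0) := by
    rw [Nat.mul_zero, pow_zero, ← red_eq_iff (pow_mem hmem' p) A.one_mem, red_pow hmem', h1,
      one_pow, red_one]
  simpa using D.val_le_succ (fun g hg => by
    rw [map_sub, map_one, (hr'.mul_fixed (inv_ne_zero hc0)
      fun g hg => by rw [map_inv₀, hcfix g (D.le_inertia hg)]).pow_fixed g hg]) hlt

theorem exists_root_red {c a : IsLocalRing.ResidueField A} :
    ∃ x : IsLocalRing.ResidueField A, x ^ p + c * x = a := by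
  have := Gal.residueField_isAlgClosed (A := A)
  have hp := hpf.out
  have hdeg : (Polynomial.X ^ p + (Polynomial.C c * Polynomial.X - Polynomial.C a)).degree =
      (p : WithBot ℕ) := by
    rw [Polynomial.degree_add_eq_left_of_degree_lt, Polynomial.degree_X_pow]
    rw [Polynomial.degree_X_pow]
    refine (Polynomial.degree_sub_le _ _).trans_lt (max_lt ?_ ?_)
    · exact (Polynomial.degree_C_mul_X_le c).trans_lt (by exact_mod_cast hp.one_lt)
    · exact Polynomial.degree_C_le.trans_lt (by exact_mod_cast hp.pos)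
  obtain ⟨x, hx⟩ := IsAlgClosed.exists_root
    (Polynomial.X ^ p + (Polynomial.C c * Polynomial.X - Polynomial.C a))
    (by rw [hdeg]; exact_mod_cast hp.ne_zero)
  refine ⟨x, ?_⟩
  simp only [Polynomial.IsRoot, Polynomial.eval_add, Polynomial.eval_sub, Polynomial.eval_pow,
    Polynomial.eval_X, Polynomial.eval_mul, Polynomial.eval_C] at hx
  linear_combination hx

/-- A level divisible by `p` below the top can be raised. -/
theorem HasLev.succ_of_dvd {φ : GQ → ZMod p} {j : ℕ} (hj0 : j ≠ 0) (hdvd : p ∣ j)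
    (hjT : j < p * D.T) (h : D.HasLev φ j) : D.HasLev φ (j + 1) := by
  obtain ⟨r, hr, hle⟩ := h
  obtain ⟨i, rfl⟩ := hdvd
  have hp := hpf.out
  have hi : 0 < i := Nat.pos_of_ne_zero fun h => hj0 (by rw [h, mul_zero])
  have hiT : i < D.T := Nat.lt_of_mul_lt_mul_left hjT
  obtain ⟨x, hx⟩ := exists_root_red (p := p) (c := (0 : IsLocalRing.ResidueField A))
    (a := D.coeff (p * i) (r ^ p - 1))
  rw [zero_mul, add_zero] at hx
  obtain ⟨c, hc, hcfix, hcr⟩ := exists_lift_fixed hp D.hA x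
  set w := c * D.π ^ i
  have hw : v w ≤ D.Q ^ (p * i) := by
    rw [map_mul, map_pow, D.val_pi, ← pow_mul]
    exact mul_le_of_le_one_left' (mem_iff_val_le_one.mp hc)
  have hw1 : v w < 1 := hw.trans_lt (pow_lt_one₀ zero_le D.Q_lt_one
    (Nat.mul_ne_zero hp.ne_zero hi.ne'))
  have hwA : w ∈ A := mem_iff_val_le_one.mpr hw1.le
  have hz0 : (1 + w) ≠ 0 := fun h => by
    have := A.valuation.map_one_add_of_lt hw1
    rw [h, map_zero] at this
    exact zero_ne_one this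
  have hvz : v (1 + w) = 1 := A.valuation.map_one_add_of_lt hw1
  have hzfix : ∀ g ∈ D.Γ0, g (1 + w)⁻¹ = (1 + w)⁻¹ := fun g hg => by
    rw [map_inv₀, map_add, map_one, map_mul, map_pow, D.π_fixed g hg, hcfix g (D.le_inertia hg)]
  have hr' := hr.mul_fixed (inv_ne_zero hz0) hzfix
  refine ⟨_, hr', D.val_le_succ (fun g hg => by rw [map_sub, map_one, hr'.pow_fixed g hg]) ?_⟩
  rw [show (r * (1 + w)⁻¹) ^ p - 1 = ((r ^ p - 1) - ((1 + w) ^ p - 1)) * ((1 + w) ^ p)⁻¹ by
    rw [mul_pow, inv_pow]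
    field_simp
    ring, map_mul, map_inv₀, map_pow, hvz, one_pow, inv_one, mul_one]
  have hpw : v ((p : Qbar) * w) < D.Q ^ (p * (p * i)) := by
    rw [map_mul, ← D.Q_pow_eq]
    refine (mul_le_mul' le_rfl hw).trans_lt ?_
    rw [← pow_add]
    refine D.pow_lt_iff.mpr ?_
    have h3 : p * i < D.M + i := by
      have : (p - 1) * i < D.M := D.M_eq ▸ (mul_lt_mul_iff_right₀
        (by have := hp.two_le; omega)).mpr hiT
      rw [Nat.sub_one_mul] at this
      omega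
    calc p * (p * i) < p * (D.M + i) := (mul_lt_mul_iff_right₀ hp.pos).mpr h3
      _ = p * D.M + p * i := by ring
  have hrest : v ((1 + w) ^ p - 1 - (p : Qbar) * w - w ^ p) < D.Q ^ (p * (p * i)) :=
    (val_binom_rest hwA).trans_lt (lt_of_le_of_lt (by
      rw [map_mul, pow_two]
      exact mul_le_mul' le_rfl (mul_le_of_le_one_left' (mem_iff_val_le_one.mp hwA))) hpw)
  have hwp : v (w ^ p) ≤ D.Q ^ (p * (p * i)) := by
    rw [map_pow, show p * (p * i) = p * i * p by ring, pow_mul]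
    exact pow_le_pow_left' hw p
  have hcw : D.coeff (p * i) (w ^ p) = D.coeff (p * i) (r ^ p - 1) := by
    rw [show w ^ p = c ^ p * D.π ^ (p * i) by simp only [w, mul_pow, ← pow_mul, mul_comm i p],
      D.coeff_mul_pi, red_pow hc, hcr, hx]
  have hd : v (r ^ p - 1 - w ^ p) < D.Q ^ (p * (p * i)) := by
    have hle2 : v (r ^ p - 1 - w ^ p) ≤ D.Q ^ (p * (p * i)) :=
      (A.valuation.map_sub _ _).trans (max_le hle hwp)
    rw [← D.coeff_eq_zero_iff hle2]
    have := D.coeff_add hle2 hwp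
    rw [sub_add_cancel, hcw] at this
    simpa using this
  rw [show r ^ p - 1 - ((1 + w) ^ p - 1) =
    (r ^ p - 1 - w ^ p) - (p : Qbar) * w - ((1 + w) ^ p - 1 - (p : Qbar) * w - w ^ p) by ring]
  exact (A.valuation.map_sub _ _).trans_lt (max_lt ((A.valuation.map_sub _ _).trans_lt
    (max_lt hd hpw)) hrest)

/-- At the top level the homomorphism is trivial. -/
theorem HasLev.eq_zero_of_top {φ : GQ → ZMod p} (h : D.HasLev φ (p * D.T)) :
    ∀ g ∈ D.Γ0, φ g = 0 := by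
  obtain ⟨r, hr, hle⟩ := h
  have hp := hpf.out
  set X := zetaP p - 1 with hX
  have hvX : v X = D.Q ^ (p * D.T) := by
    rw [hX, ← muP_one]; exact D.val_muP_sub_one one_ne_zero
  have hX0 : X ≠ 0 := sub_ne_zero.mpr (zetaP_spec.ne_one hp.one_lt)
  have hXfix : ∀ g ∈ D.Γ0, g X = X := fun g hg => by
    rw [hX, map_sub, map_one, ← muP_one, D.apply_muP_of_mem hg]
  have hXp : v (X ^ p) = D.Q ^ (p * (p * D.T)) := by
    rw [map_pow, hvX, ← pow_mul]; ring_nf
  have hQX : v ((p : Qbar) * X) = D.Q ^ (p * (p * D.T)) := by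
    rw [map_mul, ← D.Q_pow_eq, hvX, ← pow_add]
    congr 1
    rw [D.M_eq, ← mul_add, ← add_one_mul, Nat.sub_add_cancel hp.one_le]
  have hdiv : ∀ {y : Qbar}, v y ≤ D.Q ^ (p * (p * D.T)) → y / X ^ p ∈ A := fun hy => by
    rw [mem_iff_val_le_one, map_div₀, hXp]
    exact div_le_one_of_le₀ hy zero_le
  obtain ⟨x, hx⟩ := exists_root_red (p := p) (c := red A ((p : Qbar) * X / X ^ p))
    (a := red A ((r ^ p - 1) / X ^ p))
  obtain ⟨c, hc, hcfix, hcr⟩ := exists_lift_fixed hp D.hA x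
  set w := c * X
  have hw : v w ≤ D.Q ^ (p * D.T) := by
    rw [map_mul, hvX]; exact mul_le_of_le_one_left' (mem_iff_val_le_one.mp hc)
  have hw1 : v w < 1 := hw.trans_lt (pow_lt_one₀ zero_le D.Q_lt_one
    (Nat.mul_ne_zero hp.ne_zero D.T_pos.ne'))
  have hwA : w ∈ A := mem_iff_val_le_one.mpr hw1.le
  have hvz : v (1 + w) = 1 := A.valuation.map_one_add_of_lt hw1
  have hz0 : (1 + w) ≠ 0 := fun h => by rw [h, map_zero] at hvz; exact zero_ne_one hvz
  have hzfix : ∀ g ∈ D.Γ0, g (1 + w)⁻¹ = (1 + w)⁻¹ := fun g hg => by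
    rw [map_inv₀, map_add, map_one, map_mul, hXfix g hg, hcfix g (D.le_inertia hg)]
  have hr' := hr.mul_fixed (inv_ne_zero hz0) hzfix
  set r' := r * (1 + w)⁻¹
  have hrest : v ((1 + w) ^ p - 1 - (p : Qbar) * w - w ^ p) < D.Q ^ (p * (p * D.T)) := by
    refine (val_binom_rest hwA).trans_lt (lt_of_le_of_lt (mul_le_mul' le_rfl
      (pow_le_pow_left' hw 2)) ?_)
    rw [← hQX, map_mul, hvX]
    refine mul_lt_mul_of_pos_left ?_ (val_p_pos hp D.hA)
    rw [← pow_mul]
    refine D.pow_lt_iff.mpr ?_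
    have := Nat.mul_pos hp.pos D.T_pos
    omega
  have hlin : v ((p : Qbar) * w) ≤ D.Q ^ (p * (p * D.T)) := by
    rw [show (p : Qbar) * w = c * ((p : Qbar) * X) by ring, map_mul, hQX]
    exact mul_le_of_le_one_left' (mem_iff_val_le_one.mp hc)
  have hwp : v (w ^ p) ≤ D.Q ^ (p * (p * D.T)) := by
    rw [mul_pow, map_mul, hXp]
    exact mul_le_of_le_one_left' (mem_iff_val_le_one.mp (pow_mem hc p))
  have hs : v (w ^ p + (p : Qbar) * w) ≤ D.Q ^ (p * (p * D.T)) :=
    (A.valuation.map_add _ _).trans (max_le hwp hlin)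
  have hd : v (r ^ p - 1 - (w ^ p + (p : Qbar) * w)) < D.Q ^ (p * (p * D.T)) := by
    rw [← hXp, ← div_lt_one₀ (by rw [hXp]; exact pow_pos D.Q_pos _), ← map_div₀,
      ← red_eq_zero_iff (hdiv ((A.valuation.map_sub _ _).trans (max_le hle hs))), sub_div,
      red_sub (hdiv hle) (hdiv hs), add_div, red_add (hdiv hwp) (hdiv hlin)]
    rw [show w ^ p / X ^ p = c ^ p by simp only [w, mul_pow]; field_simp,
      show (p : Qbar) * w / X ^ p = c * ((p : Qbar) * X / X ^ p) by simp only [w]; ring,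
      red_pow hc, red_mul hc (hdiv hQX.le), hcr, ← hx]
    ring
  have hlt : v (r' ^ p - 1) < D.Q ^ (p * (p * D.T)) := by
    rw [show r' ^ p - 1 = ((r ^ p - 1) - ((1 + w) ^ p - 1)) * ((1 + w) ^ p)⁻¹ by
      simp only [r']
      rw [mul_pow, inv_pow]
      field_simp
      ring, map_mul, map_inv₀, map_pow, hvz, one_pow, inv_one, mul_one,
      show r ^ p - 1 - ((1 + w) ^ p - 1) = (r ^ p - 1 - (w ^ p + (p : Qbar) * w)) -
        ((1 + w) ^ p - 1 - (p : Qbar) * w - w ^ p) by ring]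
    exact (A.valuation.map_sub _ _).trans_lt (max_lt hd hrest)
  -- some conjugate root is closer to `1` than a root of unity
  obtain ⟨a, ha⟩ : ∃ a : ZMod p, v (muP p a * r' - 1) < D.Q ^ (p * D.T) := by
    by_contra! hcon
    rw [← val_pow_sub_one_le.prod_muP_mul_sub_one (D := D), map_prod] at hlt
    refine hlt.not_ge ?_
    calc D.Q ^ (p * (p * D.T)) = ∏ _a : ZMod p, D.Q ^ (p * D.T) := by
          rw [Finset.prod_const, Finset.card_univ, ZMod.card, ← pow_mul]; ring_nf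
      _ ≤ _ := Finset.prod_le_prod' fun a _ => hcon a
  intro g hg
  by_contra hne
  set s := muP p a * r'
  have hsv : v s = 1 := by
    have h1 := A.valuation.map_one_add_of_lt (x := s - 1) (ha.trans (pow_lt_one₀ zero_le D.Q_lt_one
      (Nat.mul_ne_zero hp.ne_zero D.T_pos.ne')))
    rwa [add_sub_cancel] at h1
  have hgs : g s - s = (muP p (φ g) - 1) * s := by
    simp only [s, map_mul, D.apply_muP_of_mem hg, hr'.2 g hg]; ring
  have h3 : v (g s - s) < D.Q ^ (p * D.T) := by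
    rw [show g s - s = g (s - 1) - (s - 1) by simp]
    refine (A.valuation.map_sub _ _).trans_lt (max_lt ?_ ha)
    rwa [val_apply (inertia_le_decomposition (D.le_inertia hg))]
  rw [hgs, map_mul, hsv, mul_one, D.val_muP_sub_one hne] at h3
  exact lt_irrefl _ h3

/-- Successive levels: from level `j₀` to the top. -/
theorem HasLev.trivial_of_leads {φ : GQ → ZMod p} {j₀ : ℕ} (h0 : j₀ ≠ 0) (hj₀ : j₀ ≤ p * D.T)
    (h : D.HasLev φ j₀)
    (hlead : ∀ j, j₀ ≤ j → j < p * D.T → ¬ p ∣ j → ∀ a, D.HasLead φ j a → a = 0) :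
    ∀ g ∈ D.Γ0, φ g = 0 := by
  refine HasLev.eq_zero_of_top ?_
  suffices ∀ j, j₀ ≤ j → j ≤ p * D.T → D.HasLev φ j from this _ hj₀ le_rfl
  intro j hj
  induction j, hj using Nat.le_induction with
  | base => exact fun _ => h
  | succ j hj ih =>
    intro hjT
    have hl := ih (by omega)
    by_cases hdvd : p ∣ j
    · exact hl.succ_of_dvd (by omega) hdvd (by omega)
    · obtain ⟨a, ha⟩ := hl.exists_lead
      obtain rfl := hlead j hj (by omega) hdvd a ha
      exact HasLev.succ_of_coeff ha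

end TameLvl

end Fermat.Agent.TW.Flat

end
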