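import Mathlib.LinearAlgebra.Dual.Lemmas
import Fermat.Agent.TW.Flat.Deriv

/-!
# The distance of a connected group on which inertia acts irreducibly over the prime field

If a generator of tame inertia satisfies `T² - τ T + ω` with no root in the prime field, the
maximal distance `z` of connected points satisfies `v z ^ (p² - 1) = v p`.
Used to find the shape of an irreducible residual representation with a model.
-/

noncomputable section

namespace Fermat.Agent.TW.Flat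

open Fermat.Agent
open scoped Pointwise

local notation "Qbar" => AlgebraicClosure ℚ
local notation "GQ" => (AlgebraicClosure ℚ ≃ₐ[ℚ] AlgebraicClosure ℚ)

variable {A : ValuationSubring Qbar} {p : ℕ} [hpf : Fact p.Prime]

local notation "v" => A.valuation
local notation "κ" => IsLocalRing.ResidueField A

theorem exists_hom_ne_zero {V : Type*} [AddCommGroup V] (hpV : ∀ x : V, p • x = 0) {x : V}
    (hx : x ≠ 0) : ∃ ℓ : V →+ ZMod p, ℓ x ≠ 0 := by
  let : Module (ZMod p) V := AddCommGroup.zmodModule hpV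
  obtain ⟨b⟩ : Nonempty (Σ ι : Type _, Module.Basis ι (ZMod p) V) :=
    ⟨⟨_, Module.Basis.ofVectorSpace (ZMod p) V⟩⟩
  obtain ⟨i, hi⟩ := Finsupp.ne_iff.mp (fun h0 => hx ((LinearEquiv.map_eq_zero_iff b.2.repr).mp h0))
  exact ⟨(Finsupp.applyAddHom i).comp b.2.repr.toAddEquiv.toAddMonoidHom, hi⟩

/-- The hypotheses on the inertia action: a generator `g0` modulo the kernel satisfying
`T² - τ T + ω` with no root in the prime field. -/
structure QuadAct (A : ValuationSubring Qbar) (p : ℕ) [Fact p.Prime] {V : Type*} [AddCommGroup V]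
    (act : GQ → V → V) (g0 : GQ) (τ : ℕ) : Prop where
  mem : g0 ∈ A.inertiaSubgroupIn ℚ
  add : ∀ σ ∈ A.inertiaSubgroupIn ℚ, ∀ x y, act σ (x + y) = act σ x + act σ y
  torsion : ∀ x : V, p • x = 0
  quad : ∀ x, act g0 (act g0 x) + ((cycQ p).ω g0 : ZMod p).val • x = τ • act g0 x
  no_root : ∀ m : ZMod p, m ^ 2 - (τ : ZMod p) * m + ((cycQ p).ω g0 : ZMod p) ≠ 0
  pow_eq : ∀ x, act (g0 ^ (p ^ 2 - 1)) x = x
  gen : ∀ σ ∈ A.inertiaSubgroupIn ℚ,
    ∃ i : ℕ, (∀ x, act σ x = act (g0 ^ i) x) ∧ (cycQ p).ω σ = (cycQ p).ω g0 ^ i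

/-- The exponent `p ^ 2 - 1` kills the cyclotomic character. -/
theorem omega_pow_sq_sub_one (σ : GQ) : (cycQ p).ω σ ^ (p ^ 2 - 1) = 1 := by
  rw [show p ^ 2 - 1 = (p - 1) * (p + 1) by
    rw [show (1 : ℕ) = 1 ^ 2 from rfl, Nat.sq_sub_sq, mul_comm]; rfl, pow_mul,
    ZMod.units_pow_card_sub_one_eq_one, one_pow]

variable {Γ : Subgroup GQ} {V : Type*} [AddCommGroup V] {act : GQ → V → V} {P : FnModel A Γ act}

theorem QuadAct.rigid {g0 : GQ} {τ : ℕ} (h : QuadAct A p act g0 τ)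
    (hI : A.inertiaSubgroupIn ℚ ≤ Γ) {σ : GQ} (hσ : σ ∈ A.inertiaSubgroupIn ℚ) :
    ∃ i : ℕ, ((cycQ p).ω σ = (cycQ p).ω g0 ^ i) ∧ ∀ (m : ℕ), ∀ f ∈ P.Λ, ∀ x,
      σ ((g0 ^ m) (f x)) = (g0 ^ i) ((g0 ^ m) (f x)) := by
  obtain ⟨i, hi, hω⟩ := h.gen σ hσ
  refine ⟨i, hω, fun m f hf x => ?_⟩
  rw [← P.equiv f hf _ (hI (pow_mem h.mem m)), ← P.equiv f hf σ (hI hσ), hi,
    P.equiv f hf _ (hI (pow_mem h.mem i))]

/-- The maximal distance has no valuation `v p ^ (p / (p ^ 2 - 1))`: a character non-zero on the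
subgroup would put the tame character into the prime field. -/
theorem QuadAct.val_pow_ne_p_pow [Finite V] {g0 : GQ} {τ : ℕ} (h : QuadAct A p act g0 τ)
    (hA : A.LiesOverPrime p) (hP : P.Sep) (hI : A.inertiaSubgroupIn ℚ ≤ Γ) {U : AddSubgroup V}
    {x₀ : V} (hx₀ : x₀ ∈ U) {f₀ : V → Qbar} (hz : f₀ x₀ - f₀ 0 ≠ 0)
    (hUT : ∀ u ∈ U, act g0 u ∈ U)
    (hmax : ∀ u ∈ U, ∀ f ∈ P.Λ, v (f u - f 0) ≤ v (f₀ x₀ - f₀ 0))
    (hnot : ∀ m : ℕ, tame A g0 (f₀ x₀ - f₀ 0) ≠ (m : κ))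
    (heig : ∀ (x : V) (m : ZMod p), (letI := AddCommGroup.zmodModule h.torsion; act g0 x = m • x) →
      x = 0)
    (hMpos : 0 < p ^ 2 - 1) : v (f₀ x₀ - f₀ 0) ^ (p ^ 2 - 1) ≠ v (p : Qbar) ^ p := by
  intro hj
  have hp := hpf.out
  have : CharP κ p := Gal.residueField_charP hp hA
  set z := f₀ x₀ - f₀ 0 with hzdef
  set θ : κ := tame A g0 z with hθ
  set M := p ^ 2 - 1 with hM
  let : Module (ZMod p) V := AddCommGroup.zmodModule h.torsion
  have hnat : ∀ (c : ℕ) (x : V), c • x = (c : ZMod p) • x := fun c x =>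
    (Nat.cast_smul_eq_nsmul (ZMod p) c x).symm
  have hT0 : act g0 0 = 0 := by
    have := h.add g0 h.mem 0 0
    rw [add_zero] at this
    exact left_eq_add.mp this
  have hsub : ∀ x y, act g0 (x - y) = act g0 x - act g0 y := fun x y =>
    eq_sub_of_add_eq (by rw [← h.add g0 h.mem, sub_add_cancel])
  have hdact : ∀ u ∈ U, ∀ f ∈ P.Λ,
      FnModel.dVal A z f (act g0 u) = θ * FnModel.dVal A z f u := fun u hu f hf =>
    FnModel.dVal_act hz h.mem (hI h.mem) hT0 hf (hmax u hu f hf)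
  have hvp0 := val_p_pos (A := A) hp hA
  have hvp1 := val_p_lt_one (A := A) hp hA
  have hM1 : M = (p - 1) * (p + 1) := by
    rw [hM, show (1 : ℕ) = 1 ^ 2 from rfl, Nat.sq_sub_sq, mul_comm]; rfl
  have hζ0 : zetaP p - 1 ≠ 0 := sub_ne_zero.mpr (zetaP_spec.ne_one hp.one_lt)
  have hζv : v (zetaP p - 1) ^ (p - 1) = v (p : Qbar) := by
    rw [← muP_one]; exact val_muP_sub_one_pow one_ne_zero
  have hx0ne : x₀ ≠ 0 := fun h0 => hz (by rw [hzdef, h0, sub_self])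
  -- a character which is nonzero on the subgroup
  obtain ⟨ℓ, hL⟩ := exists_hom_ne_zero (p := p) h.torsion hx0ne
  have hinj : Function.Injective (act g0) := fun x y e =>
    sub_eq_zero.mp (heig (x - y) 0 (by rw [hsub, e, sub_self, zero_smul]))
  have hχ := P.chiFun_sub_one_mem hP (hI h.mem) h.mem (h.add g0 h.mem)
    ⟨hinj, Finite.injective_iff_surjective.mp hinj⟩
    (Finite.injective_iff_surjective.mp fun x y e => by
      refine sub_eq_zero.mp (heig (x - y) ((cycQ p).ω g0 : ZMod p) ?_)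
      simp only [hnat, ZMod.natCast_zmod_val] at e
      rw [hsub, smul_sub]
      linear_combination (norm := abel_nf) e) ℓ
  obtain ⟨r, b, hb, hspan, hli⟩ := P.exists_basis
  obtain ⟨β, hβ1, hβ⟩ := FnModel.exists_coeff_of_mSpan hspan hχ
  have hβfix : ∀ g : GQ, (cycQ p).ω g = 1 → (∀ i x, g (b i x) = b i x) → ∀ i, g (β i) = β i := by
    intro g hω hgb
    have hzero : ∑ i, (g (β i) - β i) • b i = 0 := by
      funext x
      have e := congrFun hβ x
      simp only [Pi.sub_apply, Pi.one_apply, Finset.sum_apply, Pi.smul_apply, smul_eq_mul] at e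
      have e2 := congrArg g e
      rw [map_sub, map_one, map_sum, FnModel.chiFun_apply, ← AlgEquiv.smul_def] at e2
      have hfixχ : g (((cycQ p).mu (ℓ x) : Qbarˣ) : Qbar) = ((cycQ p).mu (ℓ x) : Qbarˣ) := by
        have := apply_muP (p := p) g (ℓ x)
        rw [hω, Units.val_one, one_mul] at this
        exact this
      rw [AlgEquiv.smul_def, hfixχ, ← FnModel.chiFun_apply, e] at e2
      simp only [Finset.sum_apply, Pi.smul_apply, smul_eq_mul, sub_mul, Finset.sum_sub_distrib,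
        Pi.zero_apply]
      rw [sub_eq_zero]
      refine Eq.trans ?_ e2.symm
      exact Finset.sum_congr rfl fun i _ => by rw [map_mul, hgb]
    exact fun i => sub_eq_zero.mp (Fintype.linearIndependent_iff.mp hli _ hzero i)
  have hβgen : ∀ i, ∀ σ ∈ A.inertiaSubgroupIn ℚ, ∃ i' : ℕ, ∀ m : ℕ,
      σ ((g0 ^ m) (β i)) = (g0 ^ i') ((g0 ^ m) (β i)) := fun i σ hσ => by
    obtain ⟨i', hω, hi'⟩ := h.rigid (P := P) hI hσ
    refine ⟨i', fun m => ?_⟩
    have e := hβfix (((g0 ^ i') * g0 ^ m)⁻¹ * (σ * g0 ^ m)) (by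
      rw [map_mul, map_inv, map_mul, map_mul, map_pow, map_pow, hω, inv_mul_cancel])
      (fun l x => by
        rw [AlgEquiv.mul_apply, AlgEquiv.mul_apply, hi' m (b l) (hb l),
          ← AlgEquiv.mul_apply (g0 ^ i') (g0 ^ m), AlgEquiv.aut_inv,
          AlgEquiv.symm_apply_apply]) i
    rw [AlgEquiv.mul_apply, AlgEquiv.aut_inv, AlgEquiv.symm_apply_eq] at e
    simpa [AlgEquiv.mul_apply] using e
  have hβM : ∀ i, v (β i) ^ M ≤ v (p : Qbar) := fun i => by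
    rcases eq_or_ne (β i) 0 with h0 | h0
    · simp [h0, zero_pow hMpos.ne']
    obtain ⟨l, hl⟩ := exists_val_zpow hA h.mem h0 (hβfix _ (by rw [map_pow, omega_pow_sq_sub_one])
      (fun l x => by rw [← P.equiv _ (hb l) _ (hI (pow_mem h.mem M)), h.pow_eq]) i) (hβgen i)
    have h1 : v (β i) ^ M < 1 := pow_lt_one₀ zero_le (hβ1 i) hMpos.ne'
    rw [hl] at h1 ⊢
    rw [← zpow_zero (v (p : Qbar))] at h1
    conv_rhs => rw [← zpow_one (v (p : Qbar))]
    refine (zpow_le_zpow_iff_right_of_lt_one₀ hvp0 hvp1).mpr ?_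
    by_contra hl1
    exact h1.not_ge ((zpow_le_zpow_iff_right_of_lt_one₀ hvp0 hvp1).mpr (by omega))
  have hbig : ∀ i, β i * z / (zetaP p - 1) ∈ A := fun i => by
    rw [mem_iff_val_le_one, map_div₀, map_mul]
    refine div_le_one_of_le₀ ((pow_le_pow_iff_left₀ zero_le zero_le hMpos.ne').mp ?_) zero_le
    rw [mul_pow, hj]
    conv_rhs => rw [hM1, pow_mul, hζv, pow_succ']
    exact mul_le_mul' (hβM i) le_rfl
  have hlin : ∀ u ∈ U, (((ℓ u).val : ℕ) : κ) =
      ∑ i, red A (β i * z / (zetaP p - 1)) * FnModel.dVal A z (b i) u := by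
    intro u hu
    have e := congrFun hβ u
    have e0 := congrFun hβ 0
    simp only [Pi.sub_apply, Pi.one_apply, Finset.sum_apply, Pi.smul_apply, smul_eq_mul,
      FnModel.chiFun_apply, map_zero, (cycQ p).mu_zero, Units.val_one, sub_self] at e e0
    have e2 : muP p (ℓ u) - 1 = ∑ i, β i * (b i u - b i 0) := by
      simp only [mul_sub, Finset.sum_sub_distrib, ← e0, sub_zero]
      exact e
    have hmem : ∀ i, (b i u - b i 0) / z ∈ A := fun i =>
      FnModel.div_mem_of_le (hmax u hu _ (hb i))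
    rw [← red_muP_sub_one_div hA, e2, Finset.sum_div,
      Finset.sum_congr rfl fun i _ => show β i * (b i u - b i 0) / (zetaP p - 1) =
        β i * z / (zetaP p - 1) * ((b i u - b i 0) / z) by field_simp,
      red_sum _ fun i _ => mul_mem (hbig i) (hmem i)]
    exact Finset.sum_congr rfl fun i _ => red_mul (hbig i) (hmem i)
  have heq : ((ℓ (act g0 x₀)).val : κ) = θ * ((ℓ x₀).val : κ) := by
    rw [hlin _ (hUT _ hx₀), hlin _ hx₀, Finset.mul_sum]
    exact Finset.sum_congr rfl fun i _ => by rw [hdact _ hx₀ _ (hb i)]; ring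
  have hl0 : ((ℓ x₀).val : κ) ≠ 0 := by
    rw [Ne, CharP.cast_eq_zero_iff κ p]
    intro hdvd
    exact hL ((ZMod.val_eq_zero _).mp (Nat.eq_zero_of_dvd_of_lt hdvd (ZMod.val_lt _)))
  refine hnot ((ℓ (act g0 x₀) * (ℓ x₀)⁻¹ : ZMod p)).val (mul_right_cancel₀ hl0 ?_)
  rw [← heq]
  have h1 : ((ℓ (act g0 x₀)).val : ZMod p) =
      (((ℓ (act g0 x₀) * (ℓ x₀)⁻¹ : ZMod p)).val : ZMod p) * ((ℓ x₀).val : ZMod p) := by
    rw [ZMod.natCast_zmod_val, ZMod.natCast_zmod_val, ZMod.natCast_zmod_val, mul_assoc,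
      inv_mul_cancel₀ (show ℓ x₀ ≠ 0 from hL), mul_one]
  have h2 := congrArg (ZMod.castHom (dvd_refl p) κ) h1
  simpa using h2

/-- The generator has no eigenvalue in the prime field. -/
theorem QuadAct.eq_zero_of_act_eq_smul {g0 : GQ} {τ : ℕ} (h : QuadAct A p act g0 τ) (x : V)
    (m : ZMod p) (hm : letI := AddCommGroup.zmodModule h.torsion; act g0 x = m • x) : x = 0 := by
  let : Module (ZMod p) V := AddCommGroup.zmodModule h.torsion
  set n := ((cycQ p).ω g0 : ZMod p).val with hn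
  have hnat : ∀ (c : ℕ) (x : V), c • x = (c : ZMod p) • x := fun c x =>
    (Nat.cast_smul_eq_nsmul (ZMod p) c x).symm
  have hnn : (n : ZMod p) = ((cycQ p).ω g0 : ZMod p) := ZMod.natCast_zmod_val _
  have h1 := h.quad x
  rw [hm, show m • x = m.val • x by rw [hnat, ZMod.natCast_zmod_val]] at h1
  have h2 : act g0 (m.val • x) = m.val • act g0 x :=
    map_nsmul (AddMonoidHom.mk' (act g0) (h.add g0 h.mem)) _ _
  rw [h2, hm, hnat, hnat, hnat, ← hn, hnat, ZMod.natCast_zmod_val, hnn, smul_smul, smul_smul,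
    ← add_smul, ← sub_eq_zero, ← sub_smul] at h1
  obtain ⟨c, hc, hcx⟩ : ∃ c : ZMod p, c ≠ 0 ∧ c • x = 0 :=
    ⟨_, fun h0 => h.no_root m (by linear_combination h0), h1⟩
  rw [← inv_smul_smul₀ hc x, hcx, smul_zero]

/-- The tame character of the maximal distance is a root of the quadratic equation outside the
prime field. -/
theorem QuadAct.tame_root [Finite V] {g0 : GQ} {τ : ℕ} (h : QuadAct A p act g0 τ)
    (hA : A.LiesOverPrime p) (hI : A.inertiaSubgroupIn ℚ ≤ Γ)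
    {U : AddSubgroup V} (hUT : ∀ u ∈ U, act g0 u ∈ U) {x₀ : V} (hx₀ : x₀ ∈ U) {f₀ : V → Qbar}
    (hf₀ : f₀ ∈ P.Λ) (hz : f₀ x₀ - f₀ 0 ≠ 0) (hz1 : v (f₀ x₀ - f₀ 0) < 1)
    (hmax : ∀ u ∈ U, ∀ f ∈ P.Λ, v (f u - f 0) ≤ v (f₀ x₀ - f₀ 0)) :
    tame A g0 (f₀ x₀ - f₀ 0) ^ 2 - (τ : κ) * tame A g0 (f₀ x₀ - f₀ 0) +
        (((cycQ p).ω g0 : ZMod p).val : κ) = 0 ∧
      ∀ m : ℕ, tame A g0 (f₀ x₀ - f₀ 0) ≠ (m : κ) := by
  have : CharP κ p := Gal.residueField_charP hpf.out hA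
  set z := f₀ x₀ - f₀ 0 with hzdef
  set θ : κ := tame A g0 z with hθ
  set n := ((cycQ p).ω g0 : ZMod p).val with hn
  let : Module (ZMod p) V := AddCommGroup.zmodModule h.torsion
  have hnat : ∀ (c : ℕ) (x : V), c • x = (c : ZMod p) • x := fun c x =>
    (Nat.cast_smul_eq_nsmul (ZMod p) c x).symm
  have hT0 : act g0 0 = 0 := by
    have := h.add g0 h.mem 0 0
    rw [add_zero] at this
    exact left_eq_add.mp this
  have hsub : ∀ x y, act g0 (x - y) = act g0 x - act g0 y := fun x y =>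
    eq_sub_of_add_eq (by rw [← h.add g0 h.mem, sub_add_cancel])
  have heig := h.eq_zero_of_act_eq_smul
  have hd0 : (FnModel.dVal A z f₀ x₀ : κ) ≠ 0 := fun h0 =>
    lt_irrefl _ ((FnModel.dVal_eq_zero_iff hz le_rfl).mp h0)
  have hdact : ∀ u ∈ U, ∀ f ∈ P.Λ,
      FnModel.dVal A z f (act g0 u) = θ * FnModel.dVal A z f u := fun u hu f hf =>
    FnModel.dVal_act hz h.mem (hI h.mem) hT0 hf (hmax u hu f hf)
  have hdn : ∀ u ∈ U, ∀ f ∈ P.Λ, ∀ c : ℕ,
      FnModel.dVal A z f (c • u) = (c : κ) * FnModel.dVal A z f u := fun u hu f hf =>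
    FnModel.dVal_nsmul hz hz1 hmax hu hf
  have hroot : θ ^ 2 - (τ : κ) * θ + (n : κ) = 0 := by
    have e := congrArg (FnModel.dVal A z f₀) (h.quad x₀)
    rw [FnModel.dVal_add hz hz1 (hmax _ (hUT _ (hUT _ hx₀))) (hmax _ (nsmul_mem hx₀ _)) hf₀,
      hdn _ (hUT _ hx₀) _ hf₀, hdn _ hx₀ _ hf₀, hdact _ (hUT _ hx₀) _ hf₀,
      hdact _ hx₀ _ hf₀] at e
    refine (mul_eq_zero.mp ?_).resolve_right hd0
    linear_combination e
  have hnot : ∀ m : ℕ, θ ≠ (m : κ) := by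
    intro m hm
    set c := ((-(m : ZMod p))).val
    let T : U → U := fun u => ⟨act g0 u + c • (u : V), add_mem (hUT _ u.2) (nsmul_mem u.2 _)⟩
    have hTinj : Function.Injective T := fun u w huw => by
      have e : act g0 u + c • (u : V) = act g0 w + c • (w : V) := congrArg Subtype.val huw
      refine Subtype.ext (sub_eq_zero.mp (heig ((u : V) - w) (m : ZMod p) ?_))
      rw [hnat, hnat, ZMod.natCast_zmod_val, neg_smul, neg_smul] at e
      rw [hsub, smul_sub]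
      linear_combination (norm := abel_nf) e
    obtain ⟨⟨u, hu⟩, hTu⟩ := Finite.injective_iff_surjective.mp hTinj ⟨x₀, hx₀⟩
    have e : act g0 u + c • u = x₀ := congrArg Subtype.val hTu
    apply hd0
    rw [← e, FnModel.dVal_add hz hz1 (hmax _ (hUT _ hu)) (hmax _ (nsmul_mem hu _)) hf₀,
      hdn _ hu _ hf₀, hdact _ hu _ hf₀, hm, ← add_mul]
    have hc : ((c : ℕ) : κ) = -(m : κ) := by
      have h1 : ((c : ℕ) : ZMod p) = -(m : ZMod p) := ZMod.natCast_zmod_val _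
      have h2 := congrArg (ZMod.castHom (dvd_refl p) κ) h1
      simpa using h2
    rw [hc, add_neg_cancel, zero_mul]
  exact ⟨hroot, hnot⟩

/-- A quotient of the `(p + 1)`-st power of the maximal distance has trivial tame character. -/
theorem QuadAct.tame_scaled_eq_one {g0 : GQ} {τ : ℕ} (h : QuadAct A p act g0 τ)
    (hA : A.LiesOverPrime p) (hI : A.inertiaSubgroupIn ℚ ≤ Γ) {x₀ : V} {f₀ : V → Qbar}
    (hf₀ : f₀ ∈ P.Λ) (hz : f₀ x₀ - f₀ 0 ≠ 0)
    (hθp : tame A g0 (f₀ x₀ - f₀ 0) ^ (p + 1) = (((cycQ p).ω g0 : ZMod p).val : κ))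
    {w : Qbar} (hzw : (f₀ x₀ - f₀ 0) ^ (p + 1) = w * (zetaP p - 1)) :
    ∀ σ ∈ A.inertiaSubgroupIn ℚ, tame A σ w = 1 := by
  have : CharP κ p := Gal.residueField_charP hpf.out hA
  have hζ0 : zetaP p - 1 ≠ 0 := sub_ne_zero.mpr (zetaP_spec.ne_one hpf.out.one_lt)
  set z := f₀ x₀ - f₀ 0 with hzdef
  set θ : κ := tame A g0 z with hθ
  set n := ((cycQ p).ω g0 : ZMod p).val with hn
  have hnn : (n : ZMod p) = ((cycQ p).ω g0 : ZMod p) := ZMod.natCast_zmod_val _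
  intro σ hσ
  obtain ⟨i, hωσ, hi⟩ := h.rigid (P := P) hI hσ
  have hσz : σ z = (g0 ^ i) z := by
    have := hi 0 f₀ hf₀
    simp only [pow_zero, AlgEquiv.one_apply] at this
    rw [hzdef, map_sub, map_sub, this, this]
  have hσt : tame A σ z = θ ^ i := by
    rw [hθ, ← tame_pow_left h.mem hz, tame, tame, hσz]
  have hσn : (((cycQ p).ω σ : ZMod p).val : κ) = (n : κ) ^ i := by
    have h1 : ((((cycQ p).ω σ : ZMod p).val : ℕ) : ZMod p) = ((n : ℕ) : ZMod p) ^ i := by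
      rw [ZMod.natCast_zmod_val, hnn, hωσ, Units.val_pow_eq_pow_val]
    have h2 := congrArg (ZMod.castHom (dvd_refl p) κ) h1
    simpa using h2
  have hσD := inertia_le_decomposition hσ
  have e := tame_mul_right hσD w (zetaP p - 1) (A := A)
  rw [← hzw, tame_pow_right hσD, hσt, tame_zetaP_sub_one hA, hσn, ← pow_mul, mul_comm i,
    pow_mul, hθp] at e
  have hne : (n : κ) ^ i ≠ 0 := by
    rw [← hσn, ← tame_zetaP_sub_one hA σ]
    exact tame_ne_zero hσD hζ0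
  exact (mul_eq_right₀ hne).mp e.symm

/-- The maximal distance `z` of a non-zero connected stable subgroup has `v z ^ (p² - 1) = v p`,
and its tame character is a root of the quadratic equation outside the prime field. -/
theorem QuadAct.scale_pow_eq [Finite V] {g0 : GQ} {τ : ℕ} (h : QuadAct A p act g0 τ)
    (hA : A.LiesOverPrime p) (hp2 : p ≠ 2) (hP : P.Sep) (hI : A.inertiaSubgroupIn ℚ ≤ Γ)
    {U : AddSubgroup V} (hU : U ≠ ⊥) (hconn : U ≤ P.conn) (hUT : ∀ u ∈ U, act g0 u ∈ U) :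
    ∃ x₀ ∈ U, ∃ f₀ ∈ P.Λ, v (f₀ x₀ - f₀ 0) ^ (p ^ 2 - 1) = v (p : Qbar) ∧
      (∀ u ∈ U, ∀ f ∈ P.Λ, v (f u - f 0) ≤ v (f₀ x₀ - f₀ 0)) ∧
      tame A g0 (f₀ x₀ - f₀ 0) ^ 2 - (τ : κ) * tame A g0 (f₀ x₀ - f₀ 0) +
        (((cycQ p).ω g0 : ZMod p).val : κ) = 0 ∧
      ∀ m : ℕ, tame A g0 (f₀ x₀ - f₀ 0) ≠ (m : κ) := by
  have hp := hpf.out
  have hp3 : 3 ≤ p := by
    have := hp.two_le
    omega
  have : CharP κ p := Gal.residueField_charP hp hA
  obtain ⟨x₀, hx₀, f₀, hf₀, hz, hz1, hmax⟩ := FnModel.exists_scale hP hU hconn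
  refine ⟨x₀, hx₀, f₀, hf₀, ?_⟩
  set z := f₀ x₀ - f₀ 0 with hzdef
  set θ : κ := tame A g0 z with hθ
  set n := ((cycQ p).ω g0 : ZMod p).val with hn
  set M := p ^ 2 - 1 with hM
  let : Module (ZMod p) V := AddCommGroup.zmodModule h.torsion
  have heig := h.eq_zero_of_act_eq_smul
  obtain ⟨hroot, hnot⟩ := h.tame_root hA hI hUT hx₀ hf₀ hz hz1 hmax
  -- the norm of the other root
  have hθp : θ ^ (p + 1) = (n : κ) := by
    rw [pow_succ, pow_eq_sub_of_root hroot hnot]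
    linear_combination -hroot
  -- the exponent
  have hzM : (g0 ^ M) z = z := by
    rw [hzdef, map_sub, ← P.equiv f₀ hf₀ _ (hI (pow_mem h.mem M)),
      ← P.equiv f₀ hf₀ _ (hI (pow_mem h.mem M)), h.pow_eq, h.pow_eq]
  have hgen : ∀ σ ∈ A.inertiaSubgroupIn ℚ, ∃ i : ℕ, ∀ m : ℕ,
      σ ((g0 ^ m) z) = (g0 ^ i) ((g0 ^ m) z) := fun σ hσ => by
    obtain ⟨i, -, hi⟩ := h.rigid (P := P) hI hσ
    exact ⟨i, fun m => by rw [hzdef, map_sub, map_sub, map_sub, hi m f₀ hf₀, hi m f₀ hf₀]⟩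
  obtain ⟨j, hj⟩ := exists_val_zpow hA h.mem hz hzM hgen
  have hvp0 := val_p_pos (A := A) hp hA
  have hvp1 := val_p_lt_one (A := A) hp hA
  have hM1 : M = (p - 1) * (p + 1) := by
    rw [hM, show (1 : ℕ) = 1 ^ 2 from rfl, Nat.sq_sub_sq, mul_comm]; rfl
  have hMpos : 0 < M := by
    rw [hM1]; exact Nat.mul_pos (by omega) (by omega)
  have hj1 : 1 ≤ j := by
    by_contra hlt
    have h1 : v z ^ M < 1 := pow_lt_one₀ zero_le hz1 hMpos.ne'
    rw [hj, ← zpow_zero (v (p : Qbar))] at h1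
    exact h1.not_ge ((zpow_le_zpow_iff_right_of_lt_one₀ hvp0 hvp1).mpr (by omega))
  have hx0ne : x₀ ≠ 0 := fun h0 => hz (by rw [hzdef, h0, sub_self])
  have hjp : j ≤ (p : ℤ) + 1 := by
    have h1 := pow_le_pow_left' (FnModel.val_p_le_scale hP hx0ne (h.torsion x₀)
      (hmax x₀ hx₀)) (p + 1)
    rw [← pow_mul, ← hM1, hj, ← zpow_natCast] at h1
    have h2 := (zpow_le_zpow_iff_right_of_lt_one₀ hvp0 hvp1).mp h1
    push_cast at h2
    exact h2
  have hζ0 : zetaP p - 1 ≠ 0 := sub_ne_zero.mpr (zetaP_spec.ne_one hp.one_lt)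
  have hζv : v (zetaP p - 1) ^ (p - 1) = v (p : Qbar) := by
    rw [← muP_one]; exact val_muP_sub_one_pow one_ne_zero
  set w := z ^ (p + 1) / (zetaP p - 1) with hw
  have hzw : z ^ (p + 1) = w * (zetaP p - 1) := (div_mul_cancel₀ _ hζ0).symm
  have htame := h.tame_scaled_eq_one hA hI hf₀ hz hθp hzw
  have hvw : v w ^ (p - 1) = v (p : Qbar) ^ (j - 1) := by
    rw [hw, map_div₀, map_pow, div_pow, hζv, ← pow_mul, mul_comm, ← hM1, hj,
      zpow_sub_one₀ hvp0.ne', div_eq_mul_inv]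
  obtain ⟨i, hi⟩ := exists_val_eq_of_tame_eq_one hp hA
    (fun hdvd => by have := Nat.le_of_dvd (by omega) hdvd; omega) hvw htame
  rw [hi, ← zpow_natCast, ← zpow_mul] at hvw
  have hij : i * ((p - 1 : ℕ) : ℤ) = j - 1 :=
    le_antisymm ((zpow_le_zpow_iff_right_of_lt_one₀ hvp0 hvp1).mp hvw.ge)
      ((zpow_le_zpow_iff_right_of_lt_one₀ hvp0 hvp1).mp hvw.le)
  rw [Nat.cast_sub hp.one_le, Nat.cast_one] at hij
  have hi0 : i = 0 ∨ i = 1 := by
    have hp' : (3 : ℤ) ≤ p := by exact_mod_cast hp3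
    rcases lt_trichotomy i 0 with hi | hi | hi
    · nlinarith
    · exact Or.inl hi
    · refine Or.inr (le_antisymm ?_ hi)
      nlinarith
  rcases hi0 with rfl | rfl
  · exact ⟨by rw [hj, show j = 1 by linarith, zpow_one], hmax, hroot, hnot⟩
  exact (h.val_pow_ne_p_pow hA hP hI hx₀ hz hUT hmax hnot heig hMpos
    (by rw [hj, show j = (p : ℤ) by linarith, zpow_natCast])).elim

end Fermat.Agent.TW.Flat
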