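import Fermat.Agent.TW.AdLevel
import Fermat.Agent.TW.Flat.Scale
import Fermat.Agent.TW.InertiaOmega

/-!
# The residual representation at `p` when it has an integral model

Either there is a frame in which it is upper triangular with inertia acting by the cyclotomic
character and the trivial character, or it is irreducible and inertia acts through a tame
character of level two, whose scale is `v(p) ^ (1/(p²-1))`.
These are the two shapes used in the local bound.
-/

noncomputable section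

namespace Fermat.Agent.TW.Flat

open Fermat.Agent Matrix
open scoped Pointwise

local notation "Qbar" => AlgebraicClosure ℚ
local notation "GQ" => (AlgebraicClosure ℚ ≃ₐ[ℚ] AlgebraicClosure ℚ)

variable {A : ValuationSubring Qbar} {p : ℕ} [hpf : Fact p.Prime]
variable {k : Type} [Field k] [CharP k p]

local notation "v" => A.valuation
local notation "κ" => IsLocalRing.ResidueField A

theorem det_eq_omegaK {rb : GQ →* M2 k} (hdet : DetCyc p rb) (g : GQ) :
    det (rb g) = omegaK p k g := by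
  rw [hdet g ((cycQ p).ω g : ZMod p).val fun μ hμ => ?_]
  · rw [omegaK, ← map_natCast (ZMod.castHom (dvd_refl p) k), ZMod.natCast_zmod_val]
  · obtain ⟨i, -, rfl⟩ := (zetaP_spec (p := p)).eq_pow_of_pow_eq_one hμ
    rw [map_pow, ← muP_one, apply_muP, mul_one, muP_one, muP_eq_pow, ← pow_mul, ← pow_mul,
      mul_comm]

/-- The vector action of a matrix representation. -/
def wAct (rb : GQ →* M2 k) (σ : GQ) (x : Fin 2 → k) : Fin 2 → k := rb σ *ᵥ x

theorem wAct_mul (rb : GQ →* M2 k) (σ τ : GQ) (x : Fin 2 → k) :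
    wAct rb (σ * τ) x = wAct rb σ (wAct rb τ x) := by
  rw [wAct, wAct, wAct, mulVec_mulVec, map_mul]

theorem wAct_zero (rb : GQ →* M2 k) (σ : GQ) : wAct rb σ 0 = 0 := mulVec_zero _

theorem wAct_add (rb : GQ →* M2 k) (σ : GQ) (x y : Fin 2 → k) :
    wAct rb σ (x + y) = wAct rb σ x + wAct rb σ y := mulVec_add _ _ _

theorem wAct_smul (rb : GQ →* M2 k) (σ : GQ) (a : k) (x : Fin 2 → k) :
    wAct rb σ (a • x) = a • wAct rb σ x := mulVec_smul _ _ _

omit hpf in
theorem p_smul_eq_zero {V : Type*} [AddCommGroup V] [Module k V] (x : V) : p • x = 0 := by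
  rw [← Nat.cast_smul_eq_nsmul k, CharP.cast_eq_zero, zero_smul]

/-- A representation conjugated by a matrix. -/
def conjHom (rb : GQ →* M2 k) (P P' : M2 k) (h : P * P' = 1) (h' : P' * P = 1) : GQ →* M2 k where
  toFun σ := P' * rb σ * P
  map_one' := by simp [h']
  map_mul' σ τ := by
    calc P' * rb (σ * τ) * P = P' * rb σ * 1 * rb τ * P := by simp [mul_assoc]
      _ = _ := by rw [← h]; simp only [mul_assoc]

/-- Upper triangular with inertia acting by the cyclotomic and the trivial character. -/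
structure OrdShape (p : ℕ) [Fact p.Prime] [CharP k p] (A : ValuationSubring Qbar)
    (rb : GQ →* M2 k) : Prop where
  upper : ∀ σ ∈ A.decompositionSubgroup ℚ, rb σ 1 0 = 0
  i00 : ∀ σ ∈ A.inertiaSubgroupIn ℚ, rb σ 0 0 = omegaK p k σ
  i11 : ∀ σ ∈ A.inertiaSubgroupIn ℚ, rb σ 1 1 = 1

/-- The irreducible residual shape. -/
structure IrrShape (p : ℕ) [Fact p.Prime] [CharP k p] (A : ValuationSubring Qbar)
    (rb : GQ →* M2 k) where
  /-- The tame level cut out by the representation on inertia, with `T = p + 1`. -/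
  lvl : TameLvl A p
  T_eq : lvl.T = p + 1
  mem_Γ0 : ∀ σ, σ ∈ lvl.Γ0 ↔ σ ∈ A.inertiaSubgroupIn ℚ ∧ rb σ = 1
  /-- A natural number lifting the trace of the image of the generator `g0`. -/
  τ : ℕ
  quad : rb lvl.g0 * rb lvl.g0 + (((cycQ p).ω lvl.g0 : ZMod p).val : M2 k) =
    (τ : M2 k) * rb lvl.g0
  no_root : ∀ m : ZMod p, m ^ 2 - (τ : ZMod p) * m + ((cycQ p).ω lvl.g0 : ZMod p) ≠ 0
  gen_rb : ∀ σ ∈ A.inertiaSubgroupIn ℚ, ∃ i : ℕ, rb σ = rb lvl.g0 ^ i
  frob : ∀ Φ : GQ, A.IsFrobeniusAt Φ p → rb (Φ * lvl.g0 * Φ⁻¹) = (τ : M2 k) - rb lvl.g0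
  irred : ∀ U : Submodule k (Fin 2 → k),
    (∀ σ ∈ A.decompositionSubgroup ℚ, ∀ x ∈ U, wAct rb σ x ∈ U) → U = ⊥ ∨ U = ⊤
  root : tame A lvl.g0 lvl.π ^ 2 - (τ : IsLocalRing.ResidueField A) * tame A lvl.g0 lvl.π +
    (((cycQ p).ω lvl.g0 : ZMod p).val : IsLocalRing.ResidueField A) = 0
  not_nat : ∀ m : ℕ, tame A lvl.g0 lvl.π ≠ (m : IsLocalRing.ResidueField A)
  scale : ∀ (Γ : Subgroup GQ), A.inertiaSubgroupIn ℚ ≤ Γ →
    ∀ P : FnModel A Γ (wAct rb), P.Sep →
    ∀ y : Fin 2 → k, y ≠ 0 → ∃ f ∈ P.Λ, lvl.Q ^ p ≤ A.valuation (f y - f 0)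

variable {rb : GQ →* M2 k}

/-- The largest `k`-subspace inside the connected points. -/
def core (P : FnModel A (A.decompositionSubgroup ℚ) (wAct rb)) : Submodule k (Fin 2 → k) where
  carrier := {x | ∀ a : k, a • x ∈ P.conn}
  zero_mem' a := by rw [smul_zero]; exact P.conn.zero_mem
  add_mem' hx hy a := by rw [smul_add]; exact P.conn.add_mem (hx a) (hy a)
  smul_mem' c x hx a := by rw [smul_smul]; exact hx (a * c)

variable {P : FnModel A (A.decompositionSubgroup ℚ) (wAct rb)}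

theorem val_act_sub {σ : GQ} (hσ : σ ∈ A.decompositionSubgroup ℚ) {x : Fin 2 → k}
    {f : (Fin 2 → k) → Qbar} (hf : f ∈ P.Λ) :
    v (f (wAct rb σ x) - f 0) = v (f x - f 0) := by
  conv_lhs => arg 2; arg 2; rw [← wAct_zero rb σ]
  rw [P.equiv f hf σ hσ, P.equiv f hf σ hσ, ← map_sub, val_apply hσ]

theorem core_stable {σ : GQ} (hσ : σ ∈ A.decompositionSubgroup ℚ) {x : Fin 2 → k}
    (hx : x ∈ core P) : wAct rb σ x ∈ core P := fun a => by
  rw [← wAct_smul, P.mem_conn]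
  intro f hf
  rw [val_act_sub hσ hf]
  exact P.mem_conn.mp (hx a) f hf

theorem sub_mem_core {σ : GQ} (hσ : σ ∈ A.inertiaSubgroupIn ℚ) (x : Fin 2 → k) :
    wAct rb σ x - x ∈ core P := fun a => by
  rw [smul_sub, ← wAct_smul]
  exact P.act_sub_mem_conn (inertia_le_decomposition hσ) hσ _

theorem dVal_pow_act {z : Qbar} (hz : z ≠ 0) {U : Submodule k (Fin 2 → k)}
    (hU : ∀ σ ∈ A.decompositionSubgroup ℚ, ∀ x ∈ U, wAct rb σ x ∈ U)
    (hmax : ∀ x ∈ U, ∀ f ∈ P.Λ, v (f x - f 0) ≤ v z) {σ : GQ} (hσ : σ ∈ A.inertiaSubgroupIn ℚ)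
    {x : Fin 2 → k} (hx : x ∈ U) {f : (Fin 2 → k) → Qbar} (hf : f ∈ P.Λ) : ∀ n : ℕ,
    FnModel.dVal A z f (wAct rb (σ ^ n) x) = tame A σ z ^ n * FnModel.dVal A z f x
  | 0 => by simp [wAct]
  | n + 1 => by
    have hm := hU _ (pow_mem (inertia_le_decomposition hσ) n) x hx
    rw [pow_succ' σ, wAct_mul, FnModel.dVal_act hz hσ (inertia_le_decomposition hσ)
      (wAct_zero rb σ) hf (hmax _ hm f hf), dVal_pow_act hz hU hmax hσ hx hf n, pow_succ']
    ring

/-- Equal first order parts of all multiples force equality inside a minimal stable subspace. -/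
theorem eq_of_dVal_eq {z : Qbar} (hz : z ≠ 0) (hz1 : v z < 1) {U : Submodule k (Fin 2 → k)}
    (hU : ∀ σ ∈ A.decompositionSubgroup ℚ, ∀ x ∈ U, wAct rb σ x ∈ U)
    (hmin : ∀ C ≤ U, (∀ σ ∈ A.decompositionSubgroup ℚ, ∀ x ∈ C, wAct rb σ x ∈ C) →
      C = ⊥ ∨ C = U)
    (hmax : ∀ x ∈ U, ∀ f ∈ P.Λ, v (f x - f 0) ≤ v z)
    (hex : ∃ x ∈ U, ∃ f ∈ P.Λ, FnModel.dVal A z f x ≠ 0)
    {x y : Fin 2 → k} (hx : x ∈ U) (hy : y ∈ U)
    (h : ∀ a : k, ∀ f ∈ P.Λ, FnModel.dVal A z f (a • x) = FnModel.dVal A z f (a • y)) :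
    x = y := by
  let C : Submodule k (Fin 2 → k) :=
    { carrier := {w | w ∈ U ∧ ∀ a : k, ∀ f ∈ P.Λ, FnModel.dVal A z f (a • w) = 0}
      zero_mem' := ⟨U.zero_mem, fun a f _ => by
        rw [smul_zero, FnModel.dVal, sub_self, zero_div, red_zero]⟩
      add_mem' := fun {u w} hu hw => ⟨U.add_mem hu.1 hw.1, fun a f hf => by
        rw [smul_add, FnModel.dVal_add hz hz1 (hmax _ (U.smul_mem a hu.1))
          (hmax _ (U.smul_mem a hw.1)) hf, hu.2 a f hf, hw.2 a f hf, add_zero]⟩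
      smul_mem' := fun c w hw => ⟨U.smul_mem c hw.1, fun a f hf => by
        rw [smul_smul]; exact hw.2 _ f hf⟩ }
  have hCU : C ≤ U := fun w hw => hw.1
  have hCst : ∀ σ ∈ A.decompositionSubgroup ℚ, ∀ w ∈ C, wAct rb σ w ∈ C := fun σ hσ w hw =>
    ⟨hU σ hσ w hw.1, fun a f hf => by
      rw [← wAct_smul, FnModel.dVal_eq_zero_iff hz (hmax _ (hU σ hσ _ (U.smul_mem a hw.1)) f hf),
        val_act_sub hσ hf, ← FnModel.dVal_eq_zero_iff hz (hmax _ (U.smul_mem a hw.1) f hf)]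
      exact hw.2 a f hf⟩
  have hbot : C = ⊥ := (hmin C hCU hCst).resolve_right fun hC => by
    obtain ⟨x', hx', f, hf, hne⟩ := hex
    rw [← hC] at hx'
    exact hne (by simpa using hx'.2 1 f hf)
  have hmem : x - y ∈ C := ⟨U.sub_mem hx hy, fun a f hf => by
    have e := FnModel.dVal_add hz hz1 (hmax _ (U.smul_mem a (U.sub_mem hx hy)))
      (hmax _ (U.smul_mem a hy)) hf
    rw [← smul_add, sub_add_cancel, h a f hf] at e
    exact left_eq_add.mp (e.trans (add_comm _ _))⟩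
  rw [hbot, Submodule.mem_bot] at hmem
  exact sub_eq_zero.mp hmem

/-- A frame from a vector spanning a stable line. -/
theorem exists_frame {e : Fin 2 → k} (he : e ≠ 0) :
    ∃ P P' : M2 k, P * P' = 1 ∧ P' * P = 1 ∧ P *ᵥ ![1, 0] = e := by
  by_cases h0 : e 0 = 0
  · have h1 : e 1 ≠ 0 := fun h1 => he (funext fun i => by fin_cases i <;> assumption)
    refine ⟨!![0, 1; e 1, 0], !![0, (e 1)⁻¹; 1, 0], ?_, ?_, ?_⟩
    · ext i j; fin_cases i <;> fin_cases j <;> simp [h1]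
    · ext i j; fin_cases i <;> fin_cases j <;> simp [h1]
    · ext i; fin_cases i <;> simp [h0, mulVec, dotProduct, Fin.sum_univ_two]
  · refine ⟨!![e 0, 0; e 1, 1], !![(e 0)⁻¹, 0; -(e 1) * (e 0)⁻¹, 1], ?_, ?_, ?_⟩
    · ext i j; fin_cases i <;> fin_cases j <;> simp [h0]
    · ext i j; fin_cases i <;> fin_cases j <;> simp [h0]
    · ext i; fin_cases i <;> simp [mulVec, dotProduct, Fin.sum_univ_two]

theorem exists_line_eq {U : Submodule k (Fin 2 → k)} (hb : U ≠ ⊥) (ht : U ≠ ⊤) :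
    ∃ e, e ≠ 0 ∧ U = k ∙ e := by
  obtain ⟨e, he, he0⟩ := (Submodule.ne_bot_iff U).mp hb
  refine ⟨e, he0, (Submodule.eq_of_le_of_finrank_le
    ((Submodule.span_singleton_le_iff_mem e U).mpr he) ?_).symm⟩
  rw [finrank_span_singleton he0]
  have := Submodule.finrank_lt ht
  rw [Module.finrank_fin_fun] at this
  omega

variable [Finite k] (hA : A.LiesOverPrime p) (hp2 : p ≠ 2) (hdet : DetCyc p rb)
  (hP : P.Sep)

include hA hP in
/-- A connected stable line carries the cyclotomic character on inertia. -/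
theorem line_omega {e : Fin 2 → k} (he : e ≠ 0) {ψ : GQ → k}
    (hψ : ∀ σ ∈ A.decompositionSubgroup ℚ, wAct rb σ e = ψ σ • e) (hconn : e ∈ core P) {σ : GQ}
    (hσ : σ ∈ A.inertiaSubgroupIn ℚ) : ψ σ = omegaK p k σ := by
  have hp := hpf.out
  have : CharP κ p := Gal.residueField_charP hp hA
  set U : Submodule k (Fin 2 → k) := k ∙ e with hUdef
  have heU : e ∈ U := Submodule.mem_span_singleton_self e
  have hU : ∀ τ ∈ A.decompositionSubgroup ℚ, ∀ x ∈ U, wAct rb τ x ∈ U := fun τ hτ x hx => by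
    obtain ⟨a, rfl⟩ := Submodule.mem_span_singleton.mp hx
    rw [wAct_smul, hψ τ hτ]
    exact U.smul_mem a (U.smul_mem _ heU)
  have hmin : ∀ C ≤ U, (∀ τ ∈ A.decompositionSubgroup ℚ, ∀ x ∈ C, wAct rb τ x ∈ C) →
      C = ⊥ ∨ C = U := fun C hC _ => (nonzero_span_atom e he).le_iff.1 hC
  have hUc : U.toAddSubgroup ≤ P.conn := fun x hx => by
    obtain ⟨a, rfl⟩ := Submodule.mem_span_singleton.mp hx
    exact hconn a
  have hUne : U.toAddSubgroup ≠ ⊥ := fun h0 => he (by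
    have : e ∈ U.toAddSubgroup := heU
    rwa [h0, AddSubgroup.mem_bot] at this)
  obtain ⟨x₀, hx₀, f₀, hf₀, hz, hz1, hmax⟩ := FnModel.exists_scale hP hUne hUc
  set z := f₀ x₀ - f₀ 0 with hzdef
  have hd0 : FnModel.dVal A z f₀ x₀ ≠ (0 : κ) := fun h0 =>
    lt_irrefl _ ((FnModel.dVal_eq_zero_iff hz le_rfl).mp h0)
  have heq := fun {x y : Fin 2 → k} => eq_of_dVal_eq (P := P) (x := x) (y := y) hz hz1 hU hmin
    hmax ⟨x₀, hx₀, f₀, hf₀, hd0⟩
  have hψmul : ∀ s ∈ A.decompositionSubgroup ℚ, ∀ t ∈ A.decompositionSubgroup ℚ,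
      ψ (s * t) = ψ s * ψ t := fun s hs t ht => by
    refine smul_left_injective k he ?_
    simp only
    rw [← hψ _ (mul_mem hs ht), wAct_mul, hψ t ht, wAct_smul, hψ s hs, smul_smul, mul_comm]
  have hψone : ψ 1 = 1 := by
    refine smul_left_injective k he ?_
    simp only
    rw [← hψ 1 (one_mem _), one_smul]
    simp [wAct]
  have hψpow : ∀ s ∈ A.decompositionSubgroup ℚ, ∀ n : ℕ, ψ (s ^ n) = ψ s ^ n := fun s hs n => by
    induction n with
    | zero => simp [hψone]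
    | succ n ih => rw [pow_succ, pow_succ, hψmul _ (pow_mem hs n) _ hs, ih]
  have hact : ∀ (s : GQ) (n : ℕ), s ∈ A.inertiaSubgroupIn ℚ → ∀ a : k, ∀ f ∈ P.Λ,
      FnModel.dVal A z f (a • ψ s ^ n • e) = tame A s z ^ n * FnModel.dVal A z f (a • e) := by
    intro s n hs a f hf
    rw [← dVal_pow_act hz hU hmax hs (U.smul_mem a heU) hf n, wAct_smul,
      hψ _ (pow_mem (inertia_le_decomposition hs) n), hψpow _ (inertia_le_decomposition hs)]
  obtain ⟨Φ, hΦ⟩ := Gal.exists_isFrobeniusAt (A := A) hp hA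
  have hΦD := (Gal.isFrobeniusAt_iff.1 hΦ).1
  have hψp : ∀ s ∈ A.inertiaSubgroupIn ℚ, ψ s ^ p = ψ s := fun s hs => by
    have hsD := inertia_le_decomposition hs
    have hc : ψ (Φ * s * Φ⁻¹) = ψ s := by
      rw [hψmul _ (mul_mem hΦD hsD) _ (inv_mem hΦD), hψmul _ hΦD _ hsD, mul_comm (ψ Φ),
        mul_assoc, ← hψmul _ hΦD _ (inv_mem hΦD), mul_inv_cancel, hψone, mul_one]
    refine smul_left_injective k he (heq (U.smul_mem _ heU) (U.smul_mem _ heU) fun a f hf => ?_)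
    rw [hact s p hs a f hf, ← tame_conj_frobenius hΦ hs hz, ← pow_one (tame A _ z),
      ← hact _ 1 (conj_mem_inertia hΦD hs) a f hf, pow_one, hc]
  obtain ⟨c₀, hc₀⟩ := Submodule.mem_span_singleton.mp hx₀
  have hθ : ∀ s ∈ A.inertiaSubgroupIn ℚ, ∀ m : ℕ, (m : k) = ψ s → tame A s z = (m : κ) := by
    intro s hs m hm
    have h1 := hact s 1 hs c₀ f₀ hf₀
    rw [pow_one, pow_one, hc₀, smul_comm, hc₀, ← hm, Nat.cast_smul_eq_nsmul,
      FnModel.dVal_nsmul hz hz1 hmax hx₀ hf₀] at h1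
    exact (mul_right_cancel₀ hd0 h1).symm
  -- a generator
  let θu : A.inertiaSubgroupIn ℚ →* kˣ :=
    { toFun := fun s => Units.mk0 (ψ s) fun h0 => he (by
        have h1 : ψ ((s : GQ)⁻¹ * s) = 1 := by rw [inv_mul_cancel, hψone]
        rw [hψmul _ (inv_mem (inertia_le_decomposition s.2)) _ (inertia_le_decomposition s.2),
          h0, mul_zero] at h1
        exact absurd h1 zero_ne_one)
      map_one' := Units.ext (by simp [hψone])
      map_mul' := fun s t => Units.ext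
        (hψmul _ (inertia_le_decomposition s.2) _ (inertia_le_decomposition t.2)) }
  obtain ⟨⟨g0, hg0⟩, hgen⟩ := exists_gen θu (Set.toFinite _)
  have hzfix : ∀ s ∈ A.inertiaSubgroupIn ℚ, ∀ t ∈ A.inertiaSubgroupIn ℚ, ψ s = ψ t →
      ∀ m : ℕ, s ((g0 ^ m) z) = t ((g0 ^ m) z) := by
    intro s hs t ht hst m
    have hm := inertia_le_decomposition (pow_mem hg0 m)
    have hval : ∀ u ∈ A.decompositionSubgroup ℚ, u z = f₀ (ψ u • x₀) - f₀ 0 := fun u hu => by
      rw [hzdef, map_sub, ← P.equiv f₀ hf₀ u hu, ← P.equiv f₀ hf₀ u hu, wAct_zero, ← hc₀,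
        wAct_smul, hψ u hu, smul_comm]
    rw [← AlgEquiv.mul_apply, ← AlgEquiv.mul_apply,
        hval _ (mul_mem (inertia_le_decomposition hs) hm),
      hval _ (mul_mem (inertia_le_decomposition ht) hm), hψmul _ (inertia_le_decomposition hs) _ hm,
      hψmul _ (inertia_le_decomposition ht) _ hm, hst]
  have hnat : ∀ s ∈ A.inertiaSubgroupIn ℚ, ∃ m : ℕ, (m : k) = ψ s := fun s hs =>
    exists_natCast_eq_of_pow_eq (p := p) (hψp s hs)
  have hψpm1 : ∀ s ∈ A.inertiaSubgroupIn ℚ, ψ s ^ (p - 1) = 1 := fun s hs => by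
    have hne : ψ s ≠ 0 := (θu ⟨s, hs⟩).ne_zero
    refine mul_left_cancel₀ hne ?_
    rw [mul_one, ← pow_succ', Nat.sub_add_cancel hp.one_le, hψp s hs]
  have hzN : (g0 ^ (p - 1)) z = z := by
    have := hzfix _ (pow_mem hg0 (p - 1)) 1 (one_mem _)
      (by rw [hψpow _ (inertia_le_decomposition hg0), hψpm1 g0 hg0, hψone]) 0
    simpa using this
  obtain ⟨j, hj⟩ := exists_val_zpow hA hg0 hz hzN fun s hs => by
    obtain ⟨i, hi⟩ := hgen ⟨s, hs⟩
    have hi' : ψ s = ψ (g0 ^ i) := by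
      rw [hψpow _ (inertia_le_decomposition hg0)]
      exact congrArg Units.val hi
    exact ⟨i, fun m => hzfix s hs _ (pow_mem hg0 i) hi' m⟩
  have hvp0 := val_p_pos (A := A) hp hA
  have hvp1 := val_p_lt_one (A := A) hp hA
  have hx0ne : x₀ ≠ 0 := fun h0 => hz (by rw [hzdef, h0, sub_self])
  have hj1 : j = 1 := by
    have h1 : v z ^ (p - 1) < 1 :=
      pow_lt_one₀ zero_le hz1 (by have := hp.two_le; omega)
    have h2 := FnModel.val_p_le_scale hP hx0ne (p_smul_eq_zero (k := k) x₀) (hmax x₀ hx₀)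
    rw [hj, ← zpow_zero (v (p : Qbar))] at h1
    rw [hj] at h2
    conv_lhs at h2 => rw [← zpow_one (v (p : Qbar))]
    have h3 := (zpow_le_zpow_iff_right_of_lt_one₀ hvp0 hvp1).mp h2
    by_contra hne
    exact h1.not_ge ((zpow_le_zpow_iff_right_of_lt_one₀ hvp0 hvp1).mpr (by omega))
  have hvz : v z = v (zetaP p - 1) := by
    refine (pow_left_inj₀ zero_le zero_le (n := p - 1) (by have := hp.two_le; omega)).mp ?_
    rw [hj, hj1, zpow_one, ← muP_one, val_muP_sub_one_pow one_ne_zero]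
  obtain ⟨m, hm⟩ := hnat σ hσ
  have h1 := hθ σ hσ m hm
  rw [tame_congr hσ hz hvz, tame_zetaP_sub_one hA] at h1
  have h2 : (((cycQ p).ω σ : ZMod p).val : ZMod p) = (m : ZMod p) :=
    (ZMod.natCast_eq_natCast_iff _ _ _).mpr ((CharP.natCast_eq_natCast κ p).mp h1)
  rw [← hm, omegaK, ← ZMod.natCast_zmod_val ((cycQ p).ω σ : ZMod p), h2, map_natCast]

include hA hp2 hdet hP in
/-- If there is a stable line then some frame is upper triangular with inertia acting by the
cyclotomic and the trivial character. -/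
theorem ord_of_line {U : Submodule k (Fin 2 → k)} (hb : U ≠ ⊥) (ht : U ≠ ⊤)
    (hU : ∀ σ ∈ A.decompositionSubgroup ℚ, ∀ x ∈ U, wAct rb σ x ∈ U) :
    ∃ (Q Q' : M2 k) (h : Q * Q' = 1) (h' : Q' * Q = 1), OrdShape p A (conjHom rb Q Q' h h') := by
  -- a line containing the image of inertia minus one
  obtain ⟨L, hLb, hLt, hL, himg⟩ : ∃ L : Submodule k (Fin 2 → k), L ≠ ⊥ ∧ L ≠ ⊤ ∧
      (∀ σ ∈ A.decompositionSubgroup ℚ, ∀ x ∈ L, wAct rb σ x ∈ L) ∧
      ∀ σ ∈ A.inertiaSubgroupIn ℚ, ∀ x, wAct rb σ x - x ∈ L := by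
    classical
    rcases eq_or_ne (core P) ⊤ with hc | hc
    · exfalso
      obtain ⟨e, he, rfl⟩ := exists_line_eq hb ht
      have heU : e ∈ k ∙ e := Submodule.mem_span_singleton_self e
      choose ψ hψ using fun σ : A.decompositionSubgroup ℚ =>
        Submodule.mem_span_singleton.mp (hU σ σ.2 e heU)
      let ψ' : GQ → k := fun σ => if h : σ ∈ A.decompositionSubgroup ℚ then ψ ⟨σ, h⟩ else 0
      have hψ' : ∀ σ ∈ A.decompositionSubgroup ℚ, wAct rb σ e = ψ' σ • e := fun σ hσ => by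
        simp only [ψ', dif_pos hσ]
        exact (hψ ⟨σ, hσ⟩).symm
      have hω := fun σ hσ => line_omega (P := P) hA hP he hψ' (hc ▸ Submodule.mem_top)
        (σ := σ) hσ
      obtain ⟨Q, Q', hQ, hQ', hQe⟩ := exists_frame he
      have hfix : ∀ σ ∈ A.inertiaSubgroupIn ℚ,
          wAct rb σ (Q *ᵥ ![0, 1]) - Q *ᵥ ![0, 1] ∈ (k ∙ e).toAddSubgroup := by
        intro σ hσ
        set R := conjHom rb Q Q' hQ hQ' σ with hR
        have e1 : Q * R = rb σ * Q := by
          rw [hR]; simp [conjHom, ← mul_assoc, hQ]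
        have hcol : R *ᵥ ![1, 0] = omegaK p k σ • ![1, 0] := by
          have h1 : Q *ᵥ (R *ᵥ ![1, 0]) = Q *ᵥ (omegaK p k σ • ![1, 0]) := by
            rw [mulVec_mulVec, e1, ← mulVec_mulVec, hQe, mulVec_smul, hQe, ← hω σ hσ]
            exact hψ' σ (inertia_le_decomposition hσ)
          have h2 := congrArg (Q' *ᵥ ·) h1
          simpa only [mulVec_mulVec, mulVec_smul, ← mul_assoc, hQ', one_mul, one_mulVec] using h2
        have h00 : R 0 0 = omegaK p k σ := by
          have := congrFun hcol 0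
          simpa [mulVec, dotProduct, Fin.sum_univ_two] using this
        have h10 : R 1 0 = 0 := by
          have := congrFun hcol 1
          simpa [mulVec, dotProduct, Fin.sum_univ_two] using this
        have hdetR : det R = omegaK p k σ := by
          rw [hR]
          simp only [conjHom, MonoidHom.coe_mk, OneHom.coe_mk, det_mul]
          rw [mul_comm (det Q'), mul_assoc, ← det_mul, hQ', det_one, mul_one,
            det_eq_omegaK hdet]
        have hωne : omegaK p k σ ≠ 0 := by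
          rw [omegaK, map_ne_zero]; exact Units.ne_zero _
        have h11 : R 1 1 = 1 := by
          rw [det_fin_two, h00, h10, mul_zero, sub_zero] at hdetR
          exact (mul_eq_left₀ hωne).mp hdetR
        show wAct rb σ (Q *ᵥ ![0, 1]) - Q *ᵥ ![0, 1] ∈ k ∙ e
        refine Submodule.mem_span_singleton.mpr ⟨R 0 1, ?_⟩
        rw [wAct, mulVec_mulVec, ← e1, ← mulVec_mulVec, ← mulVec_sub, ← hQe, ← mulVec_smul]
        congr 1
        ext i
        fin_cases i <;> simp [h11]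
      have hmem := P.mem_of_fixed_mod hpf.out hp2 hA hP
        (fun σ hσ => inertia_le_decomposition hσ) (N := (k ∙ e).toAddSubgroup)
        (fun σ hσ x hx => hU σ hσ x hx) (fun σ _ => wAct_add rb σ)
        (x := Q *ᵥ ![0, 1]) (by
          have h1 : Q *ᵥ ![0, 1] ∈ core P := hc ▸ Submodule.mem_top
          simpa using h1 1)
        (by rw [p_smul_eq_zero (k := k)]; exact AddSubgroup.zero_mem _) hfix
      obtain ⟨c, hc'⟩ := Submodule.mem_span_singleton.mp hmem
      rw [← hQe, ← mulVec_smul] at hc'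
      have h2 := congrFun (congrArg (Q' *ᵥ ·) hc') 1
      simp only [mulVec_mulVec, hQ', one_mulVec] at h2
      simp at h2
    · refine ⟨core P, fun hb' => ?_, hc, fun σ hσ x hx => core_stable hσ hx,
        fun σ hσ x => sub_mem_core hσ x⟩
      obtain ⟨σ, hσ, hσω⟩ := exists_inertia_omega (A := A) hA hp2 (-1)
      have h1 : rb σ = 1 := ext_of_mulVec_single fun i => by
        have h := sub_mem_core (P := P) hσ (Pi.single i 1)
        rw [hb', Submodule.mem_bot, sub_eq_zero] at h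
        rw [one_mulVec]
        exact h
      have h2 := det_eq_omegaK hdet σ
      rw [h1, det_one, omegaK, hσω, Units.val_neg, Units.val_one, map_neg, map_one] at h2
      exact two_ne_zero_of_charP (k := k) (p := p) hp2 (by linear_combination h2)
  obtain ⟨e, he, rfl⟩ := exists_line_eq hLb hLt
  obtain ⟨Q, Q', hQ, hQ', hQe⟩ := exists_frame he
  refine ⟨Q, Q', hQ, hQ', ?_⟩
  have hinv : ∀ x, Q *ᵥ (Q' *ᵥ x) = x := fun x => by rw [mulVec_mulVec, hQ, one_mulVec]
  have hsnd : ∀ x ∈ k ∙ e, (Q' *ᵥ x) 1 = 0 := fun x hx => by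
    obtain ⟨c, rfl⟩ := Submodule.mem_span_singleton.mp hx
    rw [← hQe, ← mulVec_smul, mulVec_mulVec, hQ', one_mulVec]
    simp
  have hcolv : ∀ (σ : GQ) (w : Fin 2 → k),
      conjHom rb Q Q' hQ hQ' σ *ᵥ w = Q' *ᵥ wAct rb σ (Q *ᵥ w) := fun σ w => by
    rw [wAct, mulVec_mulVec, mulVec_mulVec]
    simp only [conjHom, MonoidHom.coe_mk, OneHom.coe_mk, mul_assoc]
  have hupper : ∀ σ ∈ A.decompositionSubgroup ℚ, conjHom rb Q Q' hQ hQ' σ 1 0 = 0 := by
    intro σ hσ
    have h1 := hsnd _ (hL σ hσ e (Submodule.mem_span_singleton_self e))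
    rw [← hQe, ← hcolv] at h1
    simpa [mulVec, dotProduct, Fin.sum_univ_two] using h1
  have h11 : ∀ σ ∈ A.inertiaSubgroupIn ℚ, conjHom rb Q Q' hQ hQ' σ 1 1 = 1 := by
    intro σ hσ
    have h1 := hsnd _ (himg σ hσ (Q *ᵥ ![0, 1]))
    rw [mulVec_sub, ← hcolv, mulVec_mulVec, hQ', one_mulVec] at h1
    simpa [mulVec, dotProduct, Fin.sum_univ_two, sub_eq_zero] using h1
  refine ⟨hupper, fun σ hσ => ?_, h11⟩
  have hd : det (conjHom rb Q Q' hQ hQ' σ) = omegaK p k σ := by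
    simp only [conjHom, MonoidHom.coe_mk, OneHom.coe_mk, det_mul]
    rw [mul_comm (det Q'), mul_assoc, ← det_mul, hQ', det_one, mul_one, det_eq_omegaK hdet]
  rw [det_fin_two, hupper σ (inertia_le_decomposition hσ), h11 σ hσ] at hd
  simpa using hd

end Fermat.Agent.TW.Flat
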